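/-
S28, package P (formal half, helper8): the formal modular unit `w = Δ(Q^p) / Δ(Q)`.

* `m28pf_delta R = Q * ∏ (1 - Q^n)^24 : LaurentSeries R` (formal discriminant);
* `m28pf_w R p = Q^(p-1) * η24(Q^p) * η24(Q)⁻¹ : LaurentSeries R`;
* `m28pf_w_mul_delta : w * Δ(Q) = Δ(Q^p)`;
* coefficients: `w` has order `p - 1` with leading coefficient `1`;
* compatibility with `coeffMap`.
-/
import Mathlib
import Fermat.Prelude.Def_ModularCurve_X0ModL

namespace Fermat.Agent.M28

open ModularCurve

set_option linter.unusedSectionVars false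

section

variable (R : Type*) [CommRing R]

/-- `∏ (1 - Q^n)^24` over `R`. -/
noncomputable def m28pf_eta (R : Type*) [CommRing R] : PowerSeries R :=
  dedekindEtaUnit.map (Int.castRingHom R)

/-- the inverse of `∏ (1 - Q^n)^24` over `R`. -/
noncomputable def m28pf_etaInv (R : Type*) [CommRing R] : PowerSeries R :=
  dedekindEtaUnitInv.map (Int.castRingHom R)

theorem m28pf_eta_mul_inv : m28pf_eta R * m28pf_etaInv R = 1 := by
  rw [m28pf_eta, m28pf_etaInv, ← map_mul, dedekindEtaUnit_mul_inv, map_one]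

theorem m28pf_constantCoeff_eta : PowerSeries.constantCoeff (m28pf_eta R) = 1 := by
  rw [m28pf_eta, ← PowerSeries.coeff_zero_eq_constantCoeff_apply, PowerSeries.coeff_map,
    PowerSeries.coeff_zero_eq_constantCoeff_apply, constantCoeff_dedekindEtaUnit]
  simp

theorem m28pf_constantCoeff_etaInv : PowerSeries.constantCoeff (m28pf_etaInv R) = 1 := by
  rw [m28pf_etaInv, ← PowerSeries.coeff_zero_eq_constantCoeff_apply, PowerSeries.coeff_map,
    PowerSeries.coeff_zero_eq_constantCoeff_apply, constantCoeff_dedekindEtaUnitInv]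
  simp

/-- the formal discriminant `Q * ∏ (1 - Q^n)^24`. -/
noncomputable def m28pf_delta : LaurentSeries R :=
  HahnSeries.single (1 : ℤ) (1 : R) * HahnSeries.ofPowerSeries ℤ R (m28pf_eta R)

/-- the inverse of the formal discriminant. -/
noncomputable def m28pf_deltaInv : LaurentSeries R :=
  HahnSeries.single (-1 : ℤ) (1 : R) * HahnSeries.ofPowerSeries ℤ R (m28pf_etaInv R)

theorem m28pf_single_mul_single (a b : ℤ) :
    (HahnSeries.single a (1 : R) : LaurentSeries R) * HahnSeries.single b 1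
      = HahnSeries.single (a + b) 1 := by
  rw [HahnSeries.single_mul_single, mul_one]

theorem m28pf_delta_mul_inv : m28pf_delta R * m28pf_deltaInv R = 1 := by
  rw [m28pf_delta, m28pf_deltaInv, mul_mul_mul_comm, m28pf_single_mul_single, ← map_mul,
    m28pf_eta_mul_inv, (HahnSeries.ofPowerSeries ℤ R).map_one, mul_one]
  rfl

theorem m28pf_isUnit_delta : IsUnit (m28pf_delta R) :=
  IsUnit.of_mul_eq_one _ (m28pf_delta_mul_inv R)

variable (p : ℕ) [NeZero p]

/-- the numerator power series `η24(Q^p) * η24(Q)⁻¹` of `w`. -/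
noncomputable def m28pf_wNum : PowerSeries R :=
  PowerSeries.expand p (NeZero.ne p) (m28pf_eta R) * m28pf_etaInv R

theorem m28pf_constantCoeff_wNum : PowerSeries.constantCoeff (m28pf_wNum R p) = 1 := by
  rw [m28pf_wNum, map_mul, m28pf_constantCoeff_etaInv, mul_one,
    ← PowerSeries.coeff_zero_eq_constantCoeff_apply]
  have h := PowerSeries.coeff_expand_mul p (NeZero.ne p) (m28pf_eta R) 0
  rw [mul_zero] at h
  rw [h, PowerSeries.coeff_zero_eq_constantCoeff_apply, m28pf_constantCoeff_eta]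

/-- the formal modular unit `w = Δ(Q^p) / Δ(Q)`. -/
noncomputable def m28pf_w : LaurentSeries R :=
  HahnSeries.single ((p : ℤ) - 1) (1 : R) * HahnSeries.ofPowerSeries ℤ R (m28pf_wNum R p)

theorem m28pf_qExpand_ofPowerSeries (d : ℕ) [NeZero d] (u : PowerSeries R) :
    qExpand R d (HahnSeries.ofPowerSeries ℤ R u) =
      HahnSeries.ofPowerSeries ℤ R (PowerSeries.expand d (NeZero.ne d) u) := by
  ext k
  by_cases hk : (d : ℤ) ∣ k
  · obtain ⟨m, rfl⟩ := hk
    rw [qExpand_coeff_mul]
    rcases lt_or_ge m 0 with hm | hm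
    · rw [ofPowerSeries_coeff_of_neg _ hm, ofPowerSeries_coeff_of_neg]
      have hd : (0 : ℤ) < d := by exact_mod_cast NeZero.pos d
      exact mul_neg_of_pos_of_neg hd hm
    · lift m to ℕ using hm
      rw [HahnSeries.ofPowerSeries_apply_coeff, show ((d : ℤ) * (m : ℤ)) = ((d * m : ℕ) : ℤ) by
        push_cast; ring, HahnSeries.ofPowerSeries_apply_coeff, PowerSeries.coeff_expand_mul]
  · rw [qExpand_coeff_of_not_dvd _ _ hk]
    rcases lt_or_ge k 0 with hk0 | hk0
    · rw [ofPowerSeries_coeff_of_neg _ hk0]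
    · lift k to ℕ using hk0
      rw [HahnSeries.ofPowerSeries_apply_coeff, PowerSeries.coeff_expand_of_not_dvd]
      intro h
      exact hk (by exact_mod_cast h)

/-- `Δ(Q^p) = Q^p * η24(Q^p)`. -/
theorem m28pf_qExpand_delta :
    qExpand R p (m28pf_delta R) = HahnSeries.single (p : ℤ) (1 : R) *
      HahnSeries.ofPowerSeries ℤ R (PowerSeries.expand p (NeZero.ne p) (m28pf_eta R)) := by
  rw [m28pf_delta, map_mul, qExpand_single, mul_one, m28pf_qExpand_ofPowerSeries]

/-- **`w * Δ(Q) = Δ(Q^p)`**. -/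
theorem m28pf_w_mul_delta : m28pf_w R p * m28pf_delta R = qExpand R p (m28pf_delta R) := by
  rw [m28pf_qExpand_delta, m28pf_w, m28pf_delta, mul_mul_mul_comm, m28pf_single_mul_single,
    sub_add_cancel, ← map_mul, m28pf_wNum, mul_assoc]
  congr 2
  rw [mul_comm (m28pf_etaInv R), m28pf_eta_mul_inv, mul_one]

/-- `w = Δ(Q^p) * Δ(Q)⁻¹`. -/
theorem m28pf_w_eq : m28pf_w R p = qExpand R p (m28pf_delta R) * m28pf_deltaInv R := by
  rw [← m28pf_w_mul_delta, mul_assoc, m28pf_delta_mul_inv, mul_one]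

/-- a series `y` with `y * Δ(Q) = Δ(Q^p)` is `w`. -/
theorem m28pf_eq_w_of_mul_delta {y : LaurentSeries R}
    (h : y * m28pf_delta R = qExpand R p (m28pf_delta R)) : y = m28pf_w R p := by
  rw [m28pf_w_eq, ← h, mul_assoc, m28pf_delta_mul_inv, mul_one]

theorem m28pf_coeff_w (n : ℤ) :
    (m28pf_w R p).coeff n
      = (HahnSeries.ofPowerSeries ℤ R (m28pf_wNum R p)).coeff (n - ((p : ℤ) - 1)) := by
  rw [m28pf_w, HahnSeries.coeff_single_mul, one_mul]

theorem m28pf_coeff_w_of_lt {n : ℤ} (hn : n < (p : ℤ) - 1) : (m28pf_w R p).coeff n = 0 := by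
  rw [m28pf_coeff_w]
  exact ofPowerSeries_coeff_of_neg _ (by omega)

theorem m28pf_coeff_w_self : (m28pf_w R p).coeff ((p : ℤ) - 1) = 1 := by
  rw [m28pf_coeff_w, sub_self, show (0 : ℤ) = ((0 : ℕ) : ℤ) from rfl,
    HahnSeries.ofPowerSeries_apply_coeff, PowerSeries.coeff_zero_eq_constantCoeff_apply,
    m28pf_constantCoeff_wNum]

theorem m28pf_w_ne_zero [Nontrivial R] : m28pf_w R p ≠ 0 := fun h => by
  have := m28pf_coeff_w_self R p
  rw [h, HahnSeries.coeff_zero] at this
  exact zero_ne_one this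

theorem m28pf_order_w [Nontrivial R] : (m28pf_w R p).order = (p : ℤ) - 1 := by
  refine le_antisymm ?_ ?_
  · exact HahnSeries.order_le_of_coeff_ne_zero (by
      rw [m28pf_coeff_w_self]; exact one_ne_zero)
  · by_contra hlt
    rw [not_le] at hlt
    exact (m28pf_w_ne_zero R p)
      (HahnSeries.coeff_order_eq_zero.mp (m28pf_coeff_w_of_lt R p hlt))

end

section map

variable {R S : Type*} [CommRing R] [CommRing S]

theorem m28pf_coeffMap_ofPowerSeries (f : R →+* S) (u : PowerSeries R) :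
    coeffMap f (HahnSeries.ofPowerSeries ℤ R u) = HahnSeries.ofPowerSeries ℤ S (u.map f) :=
  ModularCurve.coeffMap_ofPowerSeries f u

theorem m28pf_map_eta (f : R →+* S) : (m28pf_eta R).map f = m28pf_eta S := by
  rw [m28pf_eta, m28pf_eta]
  ext n
  simp

theorem m28pf_map_etaInv (f : R →+* S) : (m28pf_etaInv R).map f = m28pf_etaInv S := by
  rw [m28pf_etaInv, m28pf_etaInv]
  ext n
  simp

theorem m28pf_coeffMap_delta (f : R →+* S) : coeffMap f (m28pf_delta R) = m28pf_delta S := by
  rw [m28pf_delta, map_mul, coeffMap_single, map_one, m28pf_coeffMap_ofPowerSeries,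
    m28pf_map_eta, m28pf_delta]

theorem m28pf_coeffMap_deltaInv (f : R →+* S) :
    coeffMap f (m28pf_deltaInv R) = m28pf_deltaInv S := by
  rw [m28pf_deltaInv, map_mul, coeffMap_single, map_one, m28pf_coeffMap_ofPowerSeries,
    m28pf_map_etaInv, m28pf_deltaInv]

theorem m28pf_coeffMap_w (f : R →+* S) (p : ℕ) [NeZero p] :
    coeffMap f (m28pf_w R p) = m28pf_w S p := by
  rw [m28pf_w_eq, m28pf_w_eq, map_mul, coeffMap_qExpand, m28pf_coeffMap_delta,
    m28pf_coeffMap_deltaInv]

end map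

end Fermat.Agent.M28
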