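/-
S28, package P (analytic half, helper8): `q_p`-expansions of `τ ↦ F ((a τ + b) / d)`, `a d = p`.

For `F` holomorphic, `1`-periodic and bounded at `i∞` (`F ∈ qr_ring`), with `q`-expansion `f`:
* `m28pa_laurent_level`  : the `q_p`-expansion of `F` is `f(s^p)`;
* `m28pa_laurent_mulN`   : the `q_p`-expansion of `τ ↦ F (p τ)` is `f(s^(p^2))`;
* `m28pa_laurent_aff`    : the `q_p`-expansion of `τ ↦ F ((τ + b) / p)` is `f(ζ^b s)`.
-/
import Mathlib
import Fermat.Agent.S24.AnaTwist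
import Fermat.Agent.S24.AnaJd
import Fermat.Agent.S24.BridgeQ
import Fermat.Agent.M28.PfW

set_option autoImplicit false
set_option linter.unusedSectionVars false

noncomputable section

namespace Fermat.Agent.M28

open UpperHalfPlane hiding I
open Filter Function Topology ModularForm Complex ModularCurve
open scoped Manifold MatrixGroups ModularForm Real
open Fermat.Agent.S23 Fermat.Agent.S24

local notation "𝕢" => Function.Periodic.qParam

/-- composition with `τ ↦ (a τ + b) / d` is holomorphic. -/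
theorem m28pa_mdiff_aff {F : ℍ → ℂ} (hF : MDiff F) (a b d : ℤ) (ha : 0 < a) (hd : 0 < d) :
    MDiff (fun τ => F (pe_aff a b d ha hd τ)) := by
  rw [UpperHalfPlane.mdifferentiable_iff]
  have h1 : DifferentiableOn ℂ (F ∘ ofComplex) {z | 0 < z.im} :=
    UpperHalfPlane.mdifferentiable_iff.mp hF
  have h2 : DifferentiableOn ℂ (fun z : ℂ => ((a : ℂ) * z + b) / d) {z | 0 < z.im} := by
    fun_prop
  have hmaps : Set.MapsTo (fun z : ℂ => ((a : ℂ) * z + b) / d) {z | 0 < z.im}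
      {z | 0 < z.im} := by
    intro z hz
    exact pe_aff_im_pos a b d ha hd ⟨z, hz⟩
  have h3 := h1.comp h2 hmaps
  refine h3.congr ?_
  intro z hz
  simp only [Set.mem_ofPred_eq] at hz
  have hz' : 0 < (((a : ℂ) * z + b) / d).im := hmaps hz
  simp only [Function.comp_apply]
  congr 1
  apply UpperHalfPlane.ext
  rw [pe_aff_coe, ofComplex_apply_of_im_pos hz, ofComplex_apply_of_im_pos hz']

/-- invariance under integer translations, from invariance under `τ ↦ τ + 1`. -/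
theorem m28pa_vadd_int {F : ℍ → ℂ} (hF : ∀ τ : ℍ, F ((1 : ℝ) +ᵥ τ) = F τ) (k : ℤ) (τ : ℍ) :
    F ((k : ℝ) +ᵥ τ) = F τ := by
  rcases Int.eq_nat_or_neg k with ⟨n, rfl | rfl⟩
  · have := br_vadd_nat hF n τ
    simpa using this
  · have h1 := br_vadd_nat hF n (((-(n : ℤ) : ℤ) : ℝ) +ᵥ τ)
    have h2 : ((n : ℕ) : ℝ) +ᵥ ((((-(n : ℤ) : ℤ) : ℝ)) +ᵥ τ) = τ := by
      apply UpperHalfPlane.ext
      simp
    rw [h2] at h1
    exact h1.symm

variable (p : ℕ) [NeZero p]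

theorem m28pa_p_pos : (0 : ℤ) < (p : ℤ) := by exact_mod_cast NeZero.pos p

/-- `τ ↦ (τ + b) / p`. -/
def m28pa_div (b : ℤ) (τ : ℍ) : ℍ := pe_aff 1 b p one_pos (m28pa_p_pos p) τ

theorem m28pa_div_coe (b : ℤ) (τ : ℍ) : ((m28pa_div p b τ : ℍ) : ℂ) = ((τ : ℂ) + b) / p := by
  simp [m28pa_div]

theorem m28pa_div_vadd (b : ℤ) (τ : ℍ) :
    m28pa_div p b τ = m28pa_div p 0 ((b : ℝ) +ᵥ τ) := by
  apply UpperHalfPlane.ext
  rw [m28pa_div_coe, m28pa_div_coe, UpperHalfPlane.coe_vadd]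
  push_cast
  ring

theorem m28pa_div_vadd_p (b : ℤ) (τ : ℍ) :
    m28pa_div p b ((p : ℝ) +ᵥ τ) = (1 : ℝ) +ᵥ m28pa_div p b τ := by
  apply UpperHalfPlane.ext
  rw [m28pa_div_coe, UpperHalfPlane.coe_vadd, UpperHalfPlane.coe_vadd, m28pa_div_coe]
  have hp : (p : ℂ) ≠ 0 := by exact_mod_cast NeZero.ne p
  push_cast
  field_simp
  ring

theorem m28pa_tendsto_div (b : ℤ) : Tendsto (m28pa_div p b) atImInfty atImInfty :=
  pe_tendsto_aff 1 b p one_pos (m28pa_p_pos p)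

theorem m28pa_qParam_div (τ : ℍ) : 𝕢 1 (m28pa_div p 0 τ : ℂ) = 𝕢 (p : ℝ) (τ : ℂ) := by
  rw [m28pa_div_coe, Function.Periodic.qParam, Function.Periodic.qParam]
  congr 1
  push_cast
  ring

/-- `τ ↦ F ((τ + b) / p)` is holomorphic, `p`-periodic and bounded at `i∞`. -/
theorem m28pa_nice_div {F : ℍ → ℂ} (hF : F ∈ qr_ring) (b : ℤ) :
    ana_IsNice p (fun τ => F (m28pa_div p b τ)) := by
  refine ⟨m28pa_mdiff_aff hF.1 1 b p one_pos (m28pa_p_pos p), fun τ => ?_, ?_⟩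
  · simp only
    rw [m28pa_div_vadd_p, hF.2.1]
  · exact hF.2.2.comp_tendsto (m28pa_tendsto_div p b)

/-- an element of `qr_ring` is `p`-periodic. -/
theorem m28pa_nice_level {F : ℍ → ℂ} (hF : F ∈ qr_ring) : ana_IsNice p F :=
  ⟨hF.1, fun τ => br_vadd_nat hF.2.1 p τ, hF.2.2⟩

/-- the `q_p`-expansion of a `1`-periodic function: `q = s^p`. -/
theorem m28pa_laurent_level {F : ℍ → ℂ} (hF : F ∈ qr_ring) :
    ana_laurent p F = qExpand ℂ p (HahnSeries.ofPowerSeries ℤ ℂ (qExpansion 1 F)) := by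
  rw [ana_laurent_of_nice (m28pa_nice_level p hF), br_qExpansion_level p (NeZero.pos p) hF,
    m28pf_qExpand_ofPowerSeries]

/-- the `q_p`-expansion of `τ ↦ F (p τ)`: `q(p τ) = s^(p^2)`. -/
theorem m28pa_laurent_mulN {F : ℍ → ℂ} (hF : F ∈ qr_ring) :
    ana_laurent p (fun τ => F (pe_mulN p (NeZero.pos p) τ))
      = qExpand ℂ p (qExpand ℂ p (HahnSeries.ofPowerSeries ℤ ℂ (qExpansion 1 F))) := by
  rw [m28pa_laurent_level p (br_comp_mulN_mem hF p (NeZero.pos p)),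
    br_qExpansion_comp_mulN hF p (NeZero.pos p), m28pf_qExpand_ofPowerSeries ℂ p (qExpansion 1 F)]

/-- the expansion of `τ ↦ F (τ / p)` in `q_p` is the `q`-expansion of `F`. -/
theorem m28pa_qExpansion_div {F : ℍ → ℂ} (hF : F ∈ qr_ring) :
    qExpansion (p : ℝ) (fun τ => F (m28pa_div p 0 τ)) = qExpansion 1 F := by
  have key : ∀ z : ℍ, HasSum (fun m : ℕ => (qExpansion 1 F).coeff m • 𝕢 (p : ℝ) z ^ m)
      (F (m28pa_div p 0 z)) := by
    intro z
    have h1 := qr_hasSum hF (m28pa_div p 0 z)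
    rwa [m28pa_qParam_div] at h1
  ext n
  exact (br_qExpansion_coeff_unique' (Nat.cast_pos.mpr (NeZero.pos p))
    (m28pa_nice_div p hF 0).analyticAt key n).symm

/-- the `q_p`-expansion of `τ ↦ F ((τ + b) / p)` is the twist by `ζ_p ^ b` of the
`q`-expansion of `F`. -/
theorem m28pa_laurent_div {F : ℍ → ℂ} (hF : F ∈ qr_ring) (b : ℤ) :
    ana_laurent p (fun τ => F (m28pa_div p b τ))
      = cf_twist (atw_zeta p ^ b) (HahnSeries.ofPowerSeries ℤ ℂ (qExpansion 1 F)) := by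
  have h1 : (fun τ => F (m28pa_div p b τ))
      = fun τ : ℍ => (fun τ' => F (m28pa_div p 0 τ')) ((b : ℝ) +ᵥ τ) := by
    funext τ
    rw [m28pa_div_vadd]
  rw [h1, atw_laurent_vadd (m28pa_nice_div p hF 0).isMer b,
    ana_laurent_of_nice (m28pa_nice_div p hF 0), m28pa_qExpansion_div p hF]

/-- `(p τ + b) / 1` is a translate of `p τ`. -/
theorem m28pa_aff_one (b : ℤ) (τ : ℍ) :
    pe_aff p b 1 (m28pa_p_pos p) one_pos τ = (b : ℝ) +ᵥ pe_mulN p (NeZero.pos p) τ := by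
  apply UpperHalfPlane.ext
  rw [pe_aff_coe, UpperHalfPlane.coe_vadd, pe_mulN_coe]
  push_cast
  ring

end Fermat.Agent.M28

end
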