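/-
S28, package K (helper8): the residue field `k = Zbar / m` of the ring of algebraic integers
`Zbar = integralClosure ℤ ℂ` at a maximal ideal `m` containing the prime `ℓ`.

* `m28k_Zbar`        : the ring of algebraic integers (a `Subalgebra ℤ ℂ`);
* `m28k_m ℓ`         : a chosen maximal ideal of `Zbar` containing `ℓ`;
* `m28k_k ℓ`         : the residue field, a field of characteristic `ℓ`, algebraically closed;
* `m28k_red ℓ`       : the reduction map `Zbar →+* k`, surjective with kernel `m`.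
-/
import Mathlib

namespace Fermat.Agent.M28

open Polynomial

/-- The ring of algebraic integers inside `ℂ`. -/
abbrev m28k_Zbar : Subalgebra ℤ ℂ := integralClosure ℤ ℂ

theorem m28k_mem_Zbar_iff {z : ℂ} : z ∈ m28k_Zbar ↔ IsIntegral ℤ z := Iff.rfl

/-- An element of `ℂ` integral over `Zbar` is in `Zbar`. -/
theorem m28k_mem_of_isIntegral {z : ℂ} (hz : IsIntegral m28k_Zbar z) : z ∈ m28k_Zbar :=
  isIntegral_trans (R := ℤ) (A := m28k_Zbar) z hz

/-- A root in `ℂ` of a monic polynomial over `Zbar` is in `Zbar`. -/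
theorem m28k_root_mem {P : Polynomial m28k_Zbar} (hP : P.Monic) {z : ℂ}
    (hz : (P.map (algebraMap m28k_Zbar ℂ)).eval z = 0) : z ∈ m28k_Zbar := by
  refine m28k_mem_of_isIntegral ⟨P, hP, ?_⟩
  rwa [← Polynomial.eval_map]

/-- A prime number is not a unit in the ring of algebraic integers. -/
theorem m28k_not_isUnit (ℓ : ℕ) [hℓ : Fact ℓ.Prime] : ¬ IsUnit ((ℓ : ℕ) : m28k_Zbar) := by
  intro h
  obtain ⟨x, hx⟩ := h.exists_right_inv
  have hxC : ((ℓ : ℕ) : ℂ) * (x : ℂ) = 1 := by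
    have := congrArg (fun y : m28k_Zbar => (y : ℂ)) hx
    simpa using this
  have hℓ0 : ((ℓ : ℕ) : ℂ) ≠ 0 := by exact_mod_cast hℓ.out.ne_zero
  have hxval : (x : ℂ) = algebraMap ℚ ℂ ((ℓ : ℚ)⁻¹) := by
    rw [map_inv₀, map_natCast]
    field_simp
    rw [mul_comm]; exact hxC
  have hint : IsIntegral ℤ ((ℓ : ℚ)⁻¹) := by
    have hx' : IsIntegral ℤ (x : ℂ) := x.2
    rw [hxval] at hx'
    exact (isIntegral_algebraMap_iff (algebraMap ℚ ℂ).injective).mp hx'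
  obtain ⟨n, hn⟩ := IsIntegrallyClosed.isIntegral_iff.mp hint
  have hn' : (n : ℚ) * ℓ = 1 := by
    have : (algebraMap ℤ ℚ n) = (ℓ : ℚ)⁻¹ := hn
    rw [eq_intCast] at this
    rw [this]
    have : (ℓ : ℚ) ≠ 0 := by exact_mod_cast hℓ.out.ne_zero
    field_simp
  have hn'' : n * (ℓ : ℤ) = 1 := by exact_mod_cast hn'
  have := Int.isUnit_iff.mp (IsUnit.of_mul_eq_one _ (by rw [mul_comm]; exact hn'') : IsUnit (ℓ : ℤ))
  rcases this with h1 | h1
  · have : ℓ = 1 := by exact_mod_cast h1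
    exact hℓ.out.one_lt.ne' this
  · have : (0 : ℤ) ≤ (ℓ : ℤ) := Int.natCast_nonneg _
    omega

theorem m28k_exists_maximal (ℓ : ℕ) [Fact ℓ.Prime] :
    ∃ m : Ideal m28k_Zbar, m.IsMaximal ∧ ((ℓ : ℕ) : m28k_Zbar) ∈ m := by
  have hne : Ideal.span {((ℓ : ℕ) : m28k_Zbar)} ≠ ⊤ := by
    rw [Ne, Ideal.span_singleton_eq_top]
    exact m28k_not_isUnit ℓ
  obtain ⟨m, hm, hle⟩ := Ideal.exists_le_maximal _ hne
  exact ⟨m, hm, hle (Ideal.subset_span rfl)⟩

/-- A chosen maximal ideal of the ring of algebraic integers containing `ℓ`. -/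
noncomputable def m28k_m (ℓ : ℕ) [Fact ℓ.Prime] : Ideal m28k_Zbar :=
  (m28k_exists_maximal ℓ).choose

instance m28k_m_isMaximal (ℓ : ℕ) [Fact ℓ.Prime] : (m28k_m ℓ).IsMaximal :=
  (m28k_exists_maximal ℓ).choose_spec.1

theorem m28k_natCast_mem (ℓ : ℕ) [Fact ℓ.Prime] : ((ℓ : ℕ) : m28k_Zbar) ∈ m28k_m ℓ :=
  (m28k_exists_maximal ℓ).choose_spec.2

/-- The residue field of the algebraic integers at the chosen maximal ideal over `ℓ`. -/
def m28k_k (ℓ : ℕ) [Fact ℓ.Prime] : Type := m28k_Zbar ⧸ m28k_m ℓ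

noncomputable instance m28k_k_field (ℓ : ℕ) [Fact ℓ.Prime] : Field (m28k_k ℓ) :=
  Ideal.Quotient.field (m28k_m ℓ)

/-- The reduction map from the algebraic integers to the residue field. -/
noncomputable def m28k_red (ℓ : ℕ) [Fact ℓ.Prime] : m28k_Zbar →+* m28k_k ℓ :=
  Ideal.Quotient.mk (m28k_m ℓ)

theorem m28k_red_surjective (ℓ : ℕ) [Fact ℓ.Prime] : Function.Surjective (m28k_red ℓ) :=
  Ideal.Quotient.mk_surjective

theorem m28k_red_eq_zero_iff (ℓ : ℕ) [Fact ℓ.Prime] (x : m28k_Zbar) :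
    m28k_red ℓ x = 0 ↔ x ∈ m28k_m ℓ :=
  Ideal.Quotient.eq_zero_iff_mem

theorem m28k_ker_red (ℓ : ℕ) [Fact ℓ.Prime] : RingHom.ker (m28k_red ℓ) = m28k_m ℓ :=
  Ideal.mk_ker

theorem m28k_natCast_eq_zero (ℓ : ℕ) [Fact ℓ.Prime] : ((ℓ : ℕ) : m28k_k ℓ) = 0 := by
  rw [← map_natCast (m28k_red ℓ), m28k_red_eq_zero_iff]
  exact m28k_natCast_mem ℓ

instance m28k_k_charP (ℓ : ℕ) [hℓ : Fact ℓ.Prime] : CharP (m28k_k ℓ) ℓ := by
  obtain ⟨c, hc⟩ := CharP.exists (m28k_k ℓ)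
  have hdvd : c ∣ ℓ := (CharP.cast_eq_zero_iff (m28k_k ℓ) c ℓ).mp (m28k_natCast_eq_zero ℓ)
  rcases (Nat.dvd_prime hℓ.out).mp hdvd with h1 | h1
  · exact absurd h1 (CharP.char_ne_one (m28k_k ℓ) c)
  · rwa [h1] at hc

/-- The residue field is algebraically closed. -/
instance m28k_k_isAlgClosed (ℓ : ℕ) [Fact ℓ.Prime] : IsAlgClosed (m28k_k ℓ) := by
  refine IsAlgClosed.of_exists_root _ fun p hp hirr => ?_
  obtain ⟨P, hPmap, hPdeg, hPmonic⟩ :=
    Polynomial.lifts_and_degree_eq_and_monic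
      ((Polynomial.mem_lifts p).mpr (Polynomial.map_surjective _ (m28k_red_surjective ℓ) p)) hp
  have hdeg : (P.map (algebraMap m28k_Zbar ℂ)).degree ≠ 0 := by
    rw [Polynomial.degree_map_eq_of_injective (FaithfulSMul.algebraMap_injective m28k_Zbar ℂ),
      hPdeg]
    exact (Polynomial.degree_pos_of_irreducible hirr).ne'
  obtain ⟨z, hz⟩ := IsAlgClosed.exists_root _ hdeg
  have hzmem : z ∈ m28k_Zbar := m28k_root_mem hPmonic hz
  refine ⟨m28k_red ℓ ⟨z, hzmem⟩, ?_⟩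
  have hz' : P.eval (⟨z, hzmem⟩ : m28k_Zbar) = 0 := by
    apply FaithfulSMul.algebraMap_injective m28k_Zbar ℂ
    rw [map_zero, ← Polynomial.eval₂_hom, ← Polynomial.eval_map]
    exact hz
  rw [← hPmap, Polynomial.eval_map, Polynomial.eval₂_hom, hz', map_zero]

end Fermat.Agent.M28
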