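/-
S28, package P (formal half, helper8): the `q`-expansion principle for a subring.

For a ring homomorphism `f : R →+* S`, `m28pf_int f` is the subring of Laurent series over `S`
which are coefficientwise images of Laurent series over `R`.  If `P : S[X]` and
`P(J(Q^d)) ∈ m28pf_int f`, then all the coefficients of `P` lie in the range of `f`
(`m28pf_qprinciple`): the coefficient of `Q^(-d n)` in `P(J(Q^d))` is the leading coefficient.
-/
import Mathlib
import Fermat.Prelude.Def_ModularCurve_X0ModL

namespace Fermat.Agent.M28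

open ModularCurve Polynomial

section

variable {R S : Type*} [CommRing R] [CommRing S]

/-- Laurent series over `S` that come from Laurent series over `R`. -/
noncomputable def m28pf_int (f : R →+* S) : Subring (LaurentSeries S) := (coeffMap f).range

theorem m28pf_mem_int_iff {f : R →+* S} {x : LaurentSeries S} :
    x ∈ m28pf_int f ↔ ∃ y : LaurentSeries R, coeffMap f y = x := Iff.rfl

theorem m28pf_coeffMap_mem (f : R →+* S) (y : LaurentSeries R) : coeffMap f y ∈ m28pf_int f :=
  ⟨y, rfl⟩

theorem m28pf_coeff_mem {f : R →+* S} {x : LaurentSeries S} (hx : x ∈ m28pf_int f) (n : ℤ) :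
    x.coeff n ∈ f.range := by
  obtain ⟨y, rfl⟩ := hx
  exact ⟨y.coeff n, rfl⟩

theorem m28pf_C_mem (f : R →+* S) (r : R) :
    (HahnSeries.C (f r) : LaurentSeries S) ∈ m28pf_int f := by
  refine ⟨HahnSeries.C r, ?_⟩
  rw [HahnSeries.C_apply, HahnSeries.C_apply]
  exact coeffMap_single f 0 r

theorem m28pf_C_mem' (f : R →+* S) {s : S} (hs : s ∈ f.range) :
    (HahnSeries.C s : LaurentSeries S) ∈ m28pf_int f := by
  obtain ⟨r, rfl⟩ := hs
  exact m28pf_C_mem f r

theorem m28pf_single_mem (f : R →+* S) (n : ℤ) (r : R) :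
    (HahnSeries.single n (f r) : LaurentSeries S) ∈ m28pf_int f :=
  ⟨HahnSeries.single n r, coeffMap_single f n r⟩

theorem m28pf_jq_mem (f : R →+* S) : jqModC S ∈ m28pf_int f :=
  ⟨jqModC R, coeffMap_jqModC f⟩

theorem m28pf_qExpand_mem (f : R →+* S) (d : ℕ) [NeZero d] {x : LaurentSeries S}
    (hx : x ∈ m28pf_int f) : qExpand S d x ∈ m28pf_int f := by
  obtain ⟨y, rfl⟩ := hx
  exact ⟨qExpand R d y, coeffMap_qExpand f d y⟩

theorem m28pf_jd_mem (f : R →+* S) (d : ℕ) [NeZero d] :
    qExpand S d (jqModC S) ∈ m28pf_int f :=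
  m28pf_qExpand_mem f d (m28pf_jq_mem f)

/-- evaluation of a polynomial with coefficients in the range, at a series in `m28pf_int`. -/
theorem m28pf_eval₂_mem (f : R →+* S) {x : LaurentSeries S} (hx : x ∈ m28pf_int f)
    {P : S[X]} (hP : ∀ i, P.coeff i ∈ f.range) :
    P.eval₂ HahnSeries.C x ∈ m28pf_int f := by
  rw [Polynomial.eval₂_eq_sum_range]
  exact Subring.sum_mem _ fun i _ =>
    Subring.mul_mem _ (m28pf_C_mem' f (hP i)) (Subring.pow_mem _ hx i)

end

section leading

variable (S : Type*) [CommRing S]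

/-- the coefficient of `Q^(-d n)` in `J(Q^d)^i`, `i ≤ n`. -/
theorem m28pf_coeff_jd_pow (d : ℕ) [NeZero d] (i n : ℕ) (hin : i ≤ n) :
    ((qExpand S d (jqModC S)) ^ i).coeff (-((d * n : ℕ) : ℤ)) = if i = n then 1 else 0 := by
  rw [← map_pow, show (-((d * n : ℕ) : ℤ)) = (d : ℤ) * (-(n : ℤ)) by push_cast; ring,
    qExpand_coeff_mul]
  split_ifs with h
  · subst h
    exact coeff_jqModC_pow_self S i
  · exact coeff_jqModC_pow_of_lt S (by
      have : i < n := lt_of_le_of_ne hin h
      omega)

/-- the coefficient of `Q^(-d n)` in `P(J(Q^d))`, for `natDegree P ≤ n`, is `P.coeff n`. -/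
theorem m28pf_coeff_eval₂_jd (d : ℕ) [NeZero d] (P : S[X]) (n : ℕ) (hn : P.natDegree ≤ n) :
    (P.eval₂ HahnSeries.C (qExpand S d (jqModC S))).coeff (-((d * n : ℕ) : ℤ)) = P.coeff n := by
  rw [Polynomial.eval₂_eq_sum_range' _ (Nat.lt_succ_of_le hn), HahnSeries.coeff_sum,
    Finset.sum_eq_single n]
  · rw [HahnSeries.C_apply, HahnSeries.coeff_single_zero_mul,
      m28pf_coeff_jd_pow S d n n le_rfl, if_pos rfl, mul_one]
  · intro i hi hne
    have hle : i ≤ n := Nat.lt_succ_iff.mp (Finset.mem_range.mp hi)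
    rw [HahnSeries.C_apply, HahnSeries.coeff_single_zero_mul,
      m28pf_coeff_jd_pow S d i n hle, if_neg hne, mul_zero]
  · intro h
    exact absurd (Finset.mem_range.mpr (Nat.lt_succ_self _)) h

/-- `J(Q^d)` is transcendental over the constants. -/
theorem m28pf_eval₂_jd_injective (d : ℕ) [NeZero d] (P : S[X])
    (h : P.eval₂ HahnSeries.C (qExpand S d (jqModC S)) = 0) : P = 0 := by
  by_contra hP
  have h1 := m28pf_coeff_eval₂_jd S d P P.natDegree le_rfl
  rw [h, HahnSeries.coeff_zero] at h1
  exact hP (Polynomial.leadingCoeff_eq_zero.mp h1.symm)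

end leading

section principle

variable {R S : Type*} [CommRing R] [CommRing S]

theorem m28pf_qprinciple_aux (f : R →+* S) (d : ℕ) [NeZero d] :
    ∀ (n : ℕ) (P : S[X]), P.natDegree ≤ n →
      P.eval₂ HahnSeries.C (qExpand S d (jqModC S)) ∈ m28pf_int f → ∀ i, P.coeff i ∈ f.range := by
  intro n
  induction n with
  | zero =>
    intro P hP h i
    have h0 := m28pf_coeff_eval₂_jd S d P 0 hP
    rcases Nat.eq_zero_or_pos i with rfl | hi
    · rw [← h0]
      exact m28pf_coeff_mem h _
    · rw [Polynomial.coeff_eq_zero_of_natDegree_lt (lt_of_le_of_lt hP hi)]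
      exact f.range.zero_mem
  | succ n ih =>
    intro P hP h i
    have hlc : P.coeff (n + 1) ∈ f.range := by
      rw [← m28pf_coeff_eval₂_jd S d P (n + 1) hP]
      exact m28pf_coeff_mem h _
    set P' : S[X] := P - Polynomial.C (P.coeff (n + 1)) * Polynomial.X ^ (n + 1) with hP'
    have hdeg : P'.natDegree ≤ n := by
      rw [Polynomial.natDegree_le_iff_coeff_eq_zero]
      intro m hm
      rw [hP', Polynomial.coeff_sub, Polynomial.coeff_C_mul, Polynomial.coeff_X_pow]
      rcases (Nat.succ_le_of_lt hm).lt_or_eq with h1 | h1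
      · rw [if_neg (by omega), mul_zero, sub_zero]
        exact Polynomial.coeff_eq_zero_of_natDegree_lt (lt_of_le_of_lt hP h1)
      · rw [if_pos h1.symm, mul_one, ← h1, sub_self]
    have hev : P'.eval₂ HahnSeries.C (qExpand S d (jqModC S)) ∈ m28pf_int f := by
      rw [hP', Polynomial.eval₂_sub, Polynomial.eval₂_mul, Polynomial.eval₂_C,
        Polynomial.eval₂_pow, Polynomial.eval₂_X]
      exact Subring.sub_mem _ h
        (Subring.mul_mem _ (m28pf_C_mem' f hlc) (Subring.pow_mem _ (m28pf_jd_mem f d) _))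
    have h2 := ih P' hdeg hev i
    have h3 : P.coeff i = P'.coeff i + if i = n + 1 then P.coeff (n + 1) else 0 := by
      rw [hP', Polynomial.coeff_sub, Polynomial.coeff_C_mul, Polynomial.coeff_X_pow]
      split_ifs <;> ring
    rw [h3]
    refine f.range.add_mem h2 ?_
    split_ifs
    · exact hlc
    · exact f.range.zero_mem

/-- **the `q`-expansion principle for a subring**: a polynomial `P` over `S` such that
`P(J(Q^d))` has coefficients in the range of `f : R →+* S` has coefficients in the range of `f`. -/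
theorem m28pf_qprinciple (f : R →+* S) (d : ℕ) [NeZero d] (P : S[X])
    (h : P.eval₂ HahnSeries.C (qExpand S d (jqModC S)) ∈ m28pf_int f) (i : ℕ) :
    P.coeff i ∈ f.range :=
  m28pf_qprinciple_aux f d P.natDegree P le_rfl h i

/-- the same, with a lift of the polynomial. -/
theorem m28pf_qprinciple_lift (f : R →+* S) (d : ℕ) [NeZero d] (P : S[X])
    (h : P.eval₂ HahnSeries.C (qExpand S d (jqModC S)) ∈ m28pf_int f) :
    ∃ P₀ : R[X], P₀.map f = P ∧ P₀.natDegree = P.natDegree := by
  have h1 : P ∈ Polynomial.lifts f :=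
    (Polynomial.lifts_iff_coeff_lifts P).mpr fun i => m28pf_qprinciple f d P h i
  exact Polynomial.exists_natDegree_eq_of_mem_lifts h1

end principle

end Fermat.Agent.M28
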