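/-
S28, package P (formal half, helper8): symmetric polynomials of a finite family of conjugates.

For families `X Y : ι → B` in a commutative ring `B`:
* `m28pf_Phi X = ∏ c, (T - X c)`;
* `m28pf_A X Y = ∑ c, Y c * ∏ c' ≠ c, (T - X c')` (Lagrange interpolation numerator);
they are compatible with ring homomorphisms, invariant under simultaneous permutation of the
index, `m28pf_Phi X` vanishes at every `X c`, and
`m28pf_A X Y (X c) = Y c * (m28pf_Phi X)' (X c)`.
-/
import Mathlib

namespace Fermat.Agent.M28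

open Polynomial

section

variable {B B' : Type*} [CommRing B] [CommRing B'] {ι : Type*} [Fintype ι] [DecidableEq ι]

/-- `∏ c, (T - X c)`. -/
noncomputable def m28pf_Phi (X : ι → B) : B[X] := Lagrange.nodal Finset.univ X

/-- `∑ c, Y c * ∏ c' ≠ c, (T - X c')`. -/
noncomputable def m28pf_A (X Y : ι → B) : B[X] :=
  ∑ c, Polynomial.C (Y c) * Lagrange.nodal (Finset.univ.erase c) X

theorem m28pf_nodal_map (φ : B →+* B') (s : Finset ι) (X : ι → B) :
    (Lagrange.nodal s X).map φ = Lagrange.nodal s (fun c => φ (X c)) := by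
  rw [Lagrange.nodal_eq, Lagrange.nodal_eq, Polynomial.map_prod]
  refine Finset.prod_congr rfl fun c _ => ?_
  rw [Polynomial.map_sub, Polynomial.map_X, Polynomial.map_C]

theorem m28pf_Phi_map (φ : B →+* B') (X : ι → B) :
    (m28pf_Phi X).map φ = m28pf_Phi (fun c => φ (X c)) :=
  m28pf_nodal_map φ _ X

theorem m28pf_A_map (φ : B →+* B') (X Y : ι → B) :
    (m28pf_A X Y).map φ = m28pf_A (fun c => φ (X c)) (fun c => φ (Y c)) := by
  unfold m28pf_A
  rw [Polynomial.map_sum]
  refine Finset.sum_congr rfl fun c _ => ?_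
  rw [Polynomial.map_mul, Polynomial.map_C, m28pf_nodal_map]

theorem m28pf_Phi_perm (σ : Equiv.Perm ι) (X : ι → B) :
    m28pf_Phi (fun c => X (σ c)) = m28pf_Phi X := by
  unfold m28pf_Phi
  rw [Lagrange.nodal_eq, Lagrange.nodal_eq]
  exact Fintype.prod_equiv σ _ _ (fun c => rfl)

theorem m28pf_nodal_erase_perm (σ : Equiv.Perm ι) (X : ι → B) (c : ι) :
    Lagrange.nodal (Finset.univ.erase c) (fun c' => X (σ c'))
      = Lagrange.nodal (Finset.univ.erase (σ c)) X := by
  rw [Lagrange.nodal_eq, Lagrange.nodal_eq]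
  refine Finset.prod_bij (fun c' _ => σ c') ?_ ?_ ?_ ?_
  · intro a ha
    rw [Finset.mem_erase] at ha ⊢
    exact ⟨fun h => ha.1 (σ.injective h), Finset.mem_univ _⟩
  · intro a _ b _ h
    exact σ.injective h
  · intro b hb
    rw [Finset.mem_erase] at hb
    refine ⟨σ.symm b, ?_, by simp⟩
    rw [Finset.mem_erase]
    refine ⟨fun h => hb.1 ?_, Finset.mem_univ _⟩
    rw [← h]
    simp
  · intro a _
    rfl

theorem m28pf_A_perm (σ : Equiv.Perm ι) (X Y : ι → B) :
    m28pf_A (fun c => X (σ c)) (fun c => Y (σ c)) = m28pf_A X Y := by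
  unfold m28pf_A
  refine Fintype.sum_equiv σ _ _ (fun c => ?_)
  rw [m28pf_nodal_erase_perm]

theorem m28pf_Phi_monic (X : ι → B) : (m28pf_Phi X).Monic := Lagrange.nodal_monic

theorem m28pf_Phi_natDegree [Nontrivial B] (X : ι → B) :
    (m28pf_Phi X).natDegree = Fintype.card ι := by
  unfold m28pf_Phi
  rw [Lagrange.natDegree_nodal, Finset.card_univ]

theorem m28pf_Phi_eval (X : ι → B) (c : ι) : (m28pf_Phi X).eval (X c) = 0 :=
  Lagrange.eval_nodal_at_node (Finset.mem_univ c)

theorem m28pf_Phi_derivative_eval (X : ι → B) (c : ι) :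
    (derivative (m28pf_Phi X)).eval (X c) = (Lagrange.nodal (Finset.univ.erase c) X).eval (X c) :=
  Lagrange.eval_nodal_derivative_eval_node_eq (Finset.mem_univ c)

theorem m28pf_A_eval (X Y : ι → B) (c : ι) :
    (m28pf_A X Y).eval (X c) = Y c * (derivative (m28pf_Phi X)).eval (X c) := by
  unfold m28pf_A
  rw [Polynomial.eval_finsetSum, m28pf_Phi_derivative_eval,
    Finset.sum_eq_single c]
  · rw [Polynomial.eval_mul, Polynomial.eval_C]
  · intro b _ hb
    rw [Polynomial.eval_mul, Polynomial.eval_C,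
      Lagrange.eval_nodal_at_node (Finset.mem_erase.mpr ⟨Ne.symm hb, Finset.mem_univ c⟩),
      mul_zero]
  · intro h
    exact absurd (Finset.mem_univ c) h

/-- the coefficients of `m28pf_Phi X` are fixed by a ring endomorphism permuting the `X c`. -/
theorem m28pf_Phi_coeff_fixed (φ : B →+* B) (σ : Equiv.Perm ι) (X : ι → B)
    (hX : ∀ c, φ (X c) = X (σ c)) (i : ℕ) :
    φ ((m28pf_Phi X).coeff i) = (m28pf_Phi X).coeff i := by
  rw [← Polynomial.coeff_map, m28pf_Phi_map]
  simp only [hX]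
  rw [m28pf_Phi_perm]

theorem m28pf_A_coeff_fixed (φ : B →+* B) (σ : Equiv.Perm ι) (X Y : ι → B)
    (hX : ∀ c, φ (X c) = X (σ c)) (hY : ∀ c, φ (Y c) = Y (σ c)) (i : ℕ) :
    φ ((m28pf_A X Y).coeff i) = (m28pf_A X Y).coeff i := by
  rw [← Polynomial.coeff_map, m28pf_A_map]
  simp only [hX, hY]
  rw [m28pf_A_perm]

/-- the coefficients of `m28pf_Phi X` lie in any subring containing the `X c`. -/
theorem m28pf_Phi_coeff_mem (T : Subring B) (X : ι → B) (hX : ∀ c, X c ∈ T) (i : ℕ) :
    (m28pf_Phi X).coeff i ∈ T := by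
  have h : m28pf_Phi X = (m28pf_Phi (fun c => (⟨X c, hX c⟩ : T))).map T.subtype := by
    rw [m28pf_Phi_map]
    rfl
  rw [h, Polynomial.coeff_map]
  exact Subtype.property _

theorem m28pf_A_coeff_mem (T : Subring B) (X Y : ι → B) (hX : ∀ c, X c ∈ T)
    (hY : ∀ c, Y c ∈ T) (i : ℕ) :
    (m28pf_A X Y).coeff i ∈ T := by
  have h : m28pf_A X Y
      = (m28pf_A (fun c => (⟨X c, hX c⟩ : T)) (fun c => (⟨Y c, hY c⟩ : T))).map T.subtype := by
    rw [m28pf_A_map]
    rfl
  rw [h, Polynomial.coeff_map]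
  exact Subtype.property _

theorem m28pf_A_natDegree_le [Nontrivial B] (X Y : ι → B) :
    (m28pf_A X Y).natDegree ≤ Fintype.card ι - 1 := by
  unfold m28pf_A
  refine Polynomial.natDegree_sum_le_of_forall_le _ _ fun c _ => ?_
  refine (Polynomial.natDegree_C_mul_le _ _).trans ?_
  rw [Lagrange.natDegree_nodal, Finset.card_erase_of_mem (Finset.mem_univ c), Finset.card_univ]

end

end Fermat.Agent.M28
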