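/-
S28, package P (formal half, helper8): from the analytic input to the integral modular equations.

`m28pf_main`: given a ring `B` of modular functions of level `p` with an expansion homomorphism
`E : B →+* LaurentSeries ℂ` (in the variable `s = q^(1/p)`), two families of conjugates
`X Y : ι → B` (of `x = j(pτ)` and of `φ = p^12 Δ(pτ)/Δ(τ)`) permuted by a family of ring
endomorphisms whose common invariants are polynomials in `j`, and whose expansions have
algebraic integer coefficients, there are polynomials `Φ U A` in two variables over the ring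
of algebraic integers with
  `Φ(J(Q^p), J(Q)) = 0`, `Φ(J(Q), J(Q^p)) = 0`, `U(p^12 w, J(Q)) = 0`,
  `A(J(Q^p), J(Q)) = p^12 w * Φ_X(J(Q^p), J(Q))`,
as identities of Laurent series over the algebraic integers (`w = Δ(Q^p)/Δ(Q)`).
-/
import Mathlib
import Fermat.Prelude.Def_ModularCurve_X0ModL
import Fermat.Agent.M28.KField
import Fermat.Agent.M28.PfQprin
import Fermat.Agent.M28.PfSym
import Fermat.Agent.M28.PfW

namespace Fermat.Agent.M28

open ModularCurve Polynomial

set_option linter.unusedSectionVars false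

section ev2

variable {R R' : Type*} [CommRing R] [CommRing R']

/-- evaluation of a polynomial in two variables over `R` at a pair of Laurent series:
the inner variable goes to `y`, the outer variable to `x`. -/
noncomputable def m28pf_ev2 (y x : LaurentSeries R) :
    Polynomial (Polynomial R) →+* LaurentSeries R :=
  Polynomial.eval₂RingHom (Polynomial.eval₂RingHom HahnSeries.C y) x

theorem m28pf_ev2_apply (y x : LaurentSeries R) (Φ : Polynomial (Polynomial R)) :
    m28pf_ev2 y x Φ = Φ.eval₂ (Polynomial.eval₂RingHom HahnSeries.C y) x := rfl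

/-- naturality of the inner evaluation. -/
theorem m28pf_comp_eval₂RingHom {L L' : Type*} [CommRing L] [CommRing L'] (g : L →+* L')
    (h : R →+* L) (y : L) :
    g.comp (Polynomial.eval₂RingHom h y) = Polynomial.eval₂RingHom (g.comp h) (g y) := by
  apply Polynomial.ringHom_ext
  · intro a
    simp
  · simp

/-- naturality of the evaluation in two variables. -/
theorem m28pf_map_eval₂_eval₂ {L L' : Type*} [CommRing L] [CommRing L'] (g : L →+* L')
    (h : R →+* L) (y x : L) (Φ : Polynomial (Polynomial R)) :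
    g (Φ.eval₂ (Polynomial.eval₂RingHom h y) x)
      = Φ.eval₂ (Polynomial.eval₂RingHom (g.comp h) (g y)) (g x) := by
  rw [Polynomial.hom_eval₂, m28pf_comp_eval₂RingHom]

theorem m28pf_coeffMap_comp_C (f : R →+* R') :
    (coeffMap f).comp (HahnSeries.C : R →+* LaurentSeries R)
      = (HahnSeries.C : R' →+* LaurentSeries R').comp f := by
  ext r : 1
  simp only [RingHom.comp_apply, HahnSeries.C_apply]
  exact coeffMap_single f 0 r

theorem m28pf_coeffMap_C (f : R →+* R') (r : R) :
    coeffMap f (HahnSeries.C r) = HahnSeries.C (f r) :=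
  congrArg (fun φ : R →+* LaurentSeries R' => φ r) (m28pf_coeffMap_comp_C f)

theorem m28pf_qExpand_comp_C (d : ℕ) [NeZero d] :
    (qExpand R d).comp (HahnSeries.C : R →+* LaurentSeries R) = HahnSeries.C := by
  ext r : 1
  simp only [RingHom.comp_apply]
  exact qExpand_C d r

/-- `coeffMap` of a two-variable evaluation. -/
theorem m28pf_coeffMap_ev2 (f : R →+* R') (y x : LaurentSeries R)
    (Φ : Polynomial (Polynomial R)) :
    coeffMap f (m28pf_ev2 y x Φ)
      = Φ.eval₂ (Polynomial.eval₂RingHom ((HahnSeries.C : R' →+* LaurentSeries R').comp f)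
          (coeffMap f y)) (coeffMap f x) := by
  rw [m28pf_ev2_apply, m28pf_map_eval₂_eval₂, m28pf_coeffMap_comp_C]

/-- `coeffMap` of a two-variable evaluation, with the mapped polynomial. -/
theorem m28pf_coeffMap_ev2' (f : R →+* R') (y x : LaurentSeries R)
    (Φ : Polynomial (Polynomial R)) :
    coeffMap f (m28pf_ev2 y x Φ)
      = m28pf_ev2 (coeffMap f y) (coeffMap f x) (Φ.map (Polynomial.mapRingHom f)) := by
  rw [m28pf_coeffMap_ev2, m28pf_ev2_apply, Polynomial.eval₂_map]
  congr 1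
  apply Polynomial.ringHom_ext
  · intro a
    simp
  · simp

/-- `qExpand` of a two-variable evaluation. -/
theorem m28pf_qExpand_ev2 (d : ℕ) [NeZero d] (y x : LaurentSeries R)
    (Φ : Polynomial (Polynomial R)) :
    qExpand R d (m28pf_ev2 y x Φ) = m28pf_ev2 (qExpand R d y) (qExpand R d x) Φ := by
  rw [m28pf_ev2_apply, m28pf_map_eval₂_eval₂, m28pf_qExpand_comp_C, m28pf_ev2_apply]

theorem m28pf_coeffMap_injective {f : R →+* R'} (hf : Function.Injective f) :
    Function.Injective (coeffMap f) := by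
  intro x y h
  ext n
  apply hf
  have := congrArg (fun z : LaurentSeries R' => z.coeff n) h
  simpa using this

end ev2

section main

variable (p : ℕ) [NeZero p]

/-- the inclusion of the algebraic integers in `ℂ`. -/
noncomputable def m28pf_incl : m28k_Zbar →+* ℂ := algebraMap m28k_Zbar ℂ

theorem m28pf_incl_injective : Function.Injective m28pf_incl :=
  FaithfulSMul.algebraMap_injective m28k_Zbar ℂ

theorem m28pf_incl_natCast_pow (n : ℕ) : m28pf_incl ((p : m28k_Zbar) ^ n) = (p : ℂ) ^ n := by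
  rw [map_pow, map_natCast]

variable {B : Type*} [CommRing B] {ι : Type*} [Fintype ι] [DecidableEq ι]
  (E : B →+* LaurentSeries ℂ) (cst : ℂ →+* B) (jB : B)

/-- the comparison map `Zbar[j] → B`. -/
noncomputable def m28pf_theta : Polynomial m28k_Zbar →+* B :=
  Polynomial.eval₂RingHom (cst.comp m28pf_incl) jB

theorem m28pf_E_comp_theta (hcst : ∀ z, E (cst z) = HahnSeries.C z) :
    E.comp (m28pf_theta cst jB)
      = Polynomial.eval₂RingHom
          ((HahnSeries.C : ℂ →+* LaurentSeries ℂ).comp m28pf_incl) (E jB) := by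
  unfold m28pf_theta
  rw [m28pf_comp_eval₂RingHom]
  congr 1
  ext r : 1
  simp only [RingHom.comp_apply]
  exact hcst _

/-- an element of `B` fixed by all the `act g`, whose expansion has algebraic integer
coefficients, is in the range of the comparison map. -/
theorem m28pf_mem_range_theta (hcst : ∀ z, E (cst z) = HahnSeries.C z)
    (hjB : E jB = qExpand ℂ p (jqModC ℂ))
    {G : Type*} (act : G → B →+* B)
    (hinv : ∀ b : B, (∀ g, act g b = b) → ∃ P : Polynomial ℂ, b = P.eval₂ cst jB)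
    (b : B) (hb : ∀ g, act g b = b) (hEb : E b ∈ m28pf_int m28pf_incl) :
    b ∈ (m28pf_theta cst jB).range := by
  obtain ⟨P, hP⟩ := hinv b hb
  have h1 : E b = P.eval₂ HahnSeries.C (qExpand ℂ p (jqModC ℂ)) := by
    rw [hP, Polynomial.hom_eval₂, hjB]
    congr 1
    ext r : 1
    simp only [RingHom.comp_apply]
    exact hcst _
  rw [h1] at hEb
  obtain ⟨P₀, hP₀, -⟩ := m28pf_qprinciple_lift m28pf_incl p P hEb
  refine ⟨P₀, ?_⟩
  rw [hP, ← hP₀, Polynomial.eval₂_map]
  rfl

theorem m28pf_exists_lift_of_coeff {F : Polynomial B}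
    (hF : ∀ i, F.coeff i ∈ (m28pf_theta cst jB).range) :
    ∃ F₀ : Polynomial (Polynomial m28k_Zbar), F₀.map (m28pf_theta cst jB) = F ∧
      F₀.natDegree = F.natDegree :=
  Polynomial.exists_natDegree_eq_of_mem_lifts ((Polynomial.lifts_iff_coeff_lifts F).mpr hF)

theorem m28pf_exists_monic_lift_of_coeff {F : Polynomial B} (hmonic : F.Monic)
    (hF : ∀ i, F.coeff i ∈ (m28pf_theta cst jB).range) :
    ∃ F₀ : Polynomial (Polynomial m28k_Zbar), F₀.map (m28pf_theta cst jB) = F ∧
      F₀.natDegree = F.natDegree ∧ F₀.Monic := by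
  have h := Polynomial.lifts_and_natDegree_eq_and_monic
    ((Polynomial.lifts_iff_coeff_lifts F).mpr hF) hmonic
  exact h

/-- transport of an evaluation identity from `B` to Laurent series over `ℂ`. -/
theorem m28pf_E_eval (hcst : ∀ z, E (cst z) = HahnSeries.C z)
    (F₀ : Polynomial (Polynomial m28k_Zbar)) (x : B) :
    E ((F₀.map (m28pf_theta cst jB)).eval x)
      = F₀.eval₂ (Polynomial.eval₂RingHom
          ((HahnSeries.C : ℂ →+* LaurentSeries ℂ).comp m28pf_incl) (E jB)) (E x) := by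
  rw [Polynomial.eval_map, Polynomial.hom_eval₂, m28pf_E_comp_theta E cst jB hcst]

/-- transport, first form: the outer point has expansion `qExpand p (coeffMap xz)`. -/
theorem m28pf_transport₁ (hcst : ∀ z, E (cst z) = HahnSeries.C z)
    (hjB : E jB = qExpand ℂ p (jqModC ℂ))
    (F₀ : Polynomial (Polynomial m28k_Zbar)) (x : B) (xz : LaurentSeries m28k_Zbar)
    (hx : E x = qExpand ℂ p (coeffMap m28pf_incl xz)) :
    qExpand ℂ p (coeffMap m28pf_incl (m28pf_ev2 (jqModC m28k_Zbar) xz F₀))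
      = E ((F₀.map (m28pf_theta cst jB)).eval x) := by
  rw [m28pf_E_eval E cst jB hcst, hx, hjB, ← coeffMap_qExpand, m28pf_qExpand_ev2,
    m28pf_coeffMap_ev2, coeffMap_qExpand, coeffMap_qExpand, coeffMap_jqModC]

/-- transport, second form: the inner variable is `J(Q^p)`, no `qExpand`. -/
theorem m28pf_transport₂ (hcst : ∀ z, E (cst z) = HahnSeries.C z)
    (hjB : E jB = qExpand ℂ p (jqModC ℂ))
    (F₀ : Polynomial (Polynomial m28k_Zbar)) (x : B) (xz : LaurentSeries m28k_Zbar)
    (hx : E x = coeffMap m28pf_incl xz) :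
    coeffMap m28pf_incl (m28pf_ev2 (qExpand m28k_Zbar p (jqModC m28k_Zbar)) xz F₀)
      = E ((F₀.map (m28pf_theta cst jB)).eval x) := by
  rw [m28pf_E_eval E cst jB hcst, hx, hjB, m28pf_coeffMap_ev2, coeffMap_qExpand,
    coeffMap_jqModC]

/-- **the formal half of package P**. -/
theorem m28pf_main (hcard : Fintype.card ι = p + 1)
    (hcst : ∀ z, E (cst z) = HahnSeries.C z)
    (hjB : E jB = qExpand ℂ p (jqModC ℂ))
    (X Y : ι → B)
    (hX : ∀ c, E (X c) ∈ m28pf_int m28pf_incl)
    (hY : ∀ c, E (Y c) ∈ m28pf_int m28pf_incl)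
    {G : Type*} (act : G → B →+* B) (σ : G → Equiv.Perm ι)
    (hactX : ∀ g c, act g (X c) = X (σ g c)) (hactY : ∀ g c, act g (Y c) = Y (σ g c))
    (hinv : ∀ b : B, (∀ g, act g b = b) → ∃ P : Polynomial ℂ, b = P.eval₂ cst jB)
    (c0 c1 : ι)
    (hX0 : E (X c0) = qExpand ℂ p (qExpand ℂ p (jqModC ℂ)))
    (hY0 : E (Y c0) = qExpand ℂ p (HahnSeries.C ((p : ℂ) ^ 12) * m28pf_w ℂ p))
    (hX1 : E (X c1) = jqModC ℂ) :
    ∃ Φ U A : Polynomial (Polynomial m28k_Zbar),
      Φ.Monic ∧ Φ.natDegree = p + 1 ∧ U.Monic ∧ U.natDegree = p + 1 ∧ A.natDegree ≤ p ∧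
      m28pf_ev2 (jqModC m28k_Zbar) (qExpand m28k_Zbar p (jqModC m28k_Zbar)) Φ = 0 ∧
      m28pf_ev2 (qExpand m28k_Zbar p (jqModC m28k_Zbar)) (jqModC m28k_Zbar) Φ = 0 ∧
      m28pf_ev2 (jqModC m28k_Zbar)
        (HahnSeries.C ((p : m28k_Zbar) ^ 12) * m28pf_w m28k_Zbar p) U = 0 ∧
      m28pf_ev2 (jqModC m28k_Zbar) (qExpand m28k_Zbar p (jqModC m28k_Zbar)) A
        = HahnSeries.C ((p : m28k_Zbar) ^ 12) * m28pf_w m28k_Zbar p *
          m28pf_ev2 (jqModC m28k_Zbar) (qExpand m28k_Zbar p (jqModC m28k_Zbar))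
            (Polynomial.derivative Φ) := by
  classical
  have : Nontrivial B := RingHom.domain_nontrivial E
  -- coefficients are in the range of `θ`
  have hT : ∀ (F : Polynomial B), (∀ g i, act g (F.coeff i) = F.coeff i) →
      (∀ i, E (F.coeff i) ∈ m28pf_int m28pf_incl) →
      ∀ i, F.coeff i ∈ (m28pf_theta cst jB).range := fun F h1 h2 i =>
    m28pf_mem_range_theta p E cst jB hcst hjB act hinv _ (fun g => h1 g i) (h2 i)
  have hEX : ∀ i, E ((m28pf_Phi X).coeff i) ∈ m28pf_int m28pf_incl := by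
    intro i
    rw [← Polynomial.coeff_map, m28pf_Phi_map]
    exact m28pf_Phi_coeff_mem _ _ hX i
  have hEY : ∀ i, E ((m28pf_Phi Y).coeff i) ∈ m28pf_int m28pf_incl := by
    intro i
    rw [← Polynomial.coeff_map, m28pf_Phi_map]
    exact m28pf_Phi_coeff_mem _ _ hY i
  have hEA : ∀ i, E ((m28pf_A X Y).coeff i) ∈ m28pf_int m28pf_incl := by
    intro i
    rw [← Polynomial.coeff_map, m28pf_A_map]
    exact m28pf_A_coeff_mem _ _ _ hX hY i
  obtain ⟨Φ, hΦmap, hΦdeg, hΦmonic⟩ := m28pf_exists_monic_lift_of_coeff cst jB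
    (m28pf_Phi_monic X)
    (hT _ (fun g i => m28pf_Phi_coeff_fixed (act g) (σ g) X (hactX g) i) hEX)
  obtain ⟨U, hUmap, hUdeg, hUmonic⟩ := m28pf_exists_monic_lift_of_coeff cst jB
    (m28pf_Phi_monic Y)
    (hT _ (fun g i => m28pf_Phi_coeff_fixed (act g) (σ g) Y (hactY g) i) hEY)
  obtain ⟨A, hAmap, hAdeg⟩ := m28pf_exists_lift_of_coeff cst jB
    (hT _ (fun g i => m28pf_A_coeff_fixed (act g) (σ g) X Y (hactX g) (hactY g) i) hEA)
  have hinj : Function.Injective (coeffMap m28pf_incl) :=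
    m28pf_coeffMap_injective m28pf_incl_injective
  have hqinj : Function.Injective (qExpand ℂ p) := qExpand_injective p
  have hJ : coeffMap m28pf_incl (jqModC m28k_Zbar) = jqModC ℂ := coeffMap_jqModC _
  have hC : coeffMap m28pf_incl (HahnSeries.C ((p : m28k_Zbar) ^ 12))
      = HahnSeries.C ((p : ℂ) ^ 12) := by
    rw [m28pf_coeffMap_C, m28pf_incl_natCast_pow]
  have hw : coeffMap m28pf_incl (m28pf_w m28k_Zbar p) = m28pf_w ℂ p := m28pf_coeffMap_w _ p
  -- the expansions of the three special elements, in the form needed for the transport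
  have hX0' : E (X c0)
      = qExpand ℂ p (coeffMap m28pf_incl (qExpand m28k_Zbar p (jqModC m28k_Zbar))) := by
    rw [hX0, coeffMap_qExpand, hJ]
  have hY0' : E (Y c0) = qExpand ℂ p (coeffMap m28pf_incl
      (HahnSeries.C ((p : m28k_Zbar) ^ 12) * m28pf_w m28k_Zbar p)) := by
    rw [hY0, map_mul (coeffMap m28pf_incl), hC, hw]
  have hX1' : E (X c1) = coeffMap m28pf_incl (jqModC m28k_Zbar) := by
    rw [hX1, hJ]
  refine ⟨Φ, U, A, hΦmonic, ?_, hUmonic, ?_, ?_, ?_, ?_, ?_, ?_⟩
  · rw [hΦdeg, m28pf_Phi_natDegree, hcard]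
  · rw [hUdeg, m28pf_Phi_natDegree, hcard]
  · rw [hAdeg]
    refine (m28pf_A_natDegree_le X Y).trans ?_
    rw [hcard]
    simp
  · -- `Φ(J(Q^p), J(Q)) = 0`
    apply hinj
    apply hqinj
    rw [m28pf_transport₁ p E cst jB hcst hjB Φ (X c0) _ hX0', hΦmap, m28pf_Phi_eval, map_zero,
      map_zero, map_zero]
  · -- `Φ(J(Q), J(Q^p)) = 0`
    apply hinj
    rw [m28pf_transport₂ p E cst jB hcst hjB Φ (X c1) _ hX1', hΦmap, m28pf_Phi_eval, map_zero,
      map_zero]
  · -- `U(p^12 w, J(Q)) = 0`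
    apply hinj
    apply hqinj
    rw [m28pf_transport₁ p E cst jB hcst hjB U (Y c0) _ hY0', hUmap, m28pf_Phi_eval, map_zero,
      map_zero, map_zero]
  · -- `A(J(Q^p), J(Q)) = p^12 w Φ_X(J(Q^p), J(Q))`
    apply hinj
    apply hqinj
    rw [map_mul (coeffMap m28pf_incl), map_mul (qExpand ℂ p),
      m28pf_transport₁ p E cst jB hcst hjB A (X c0) _ hX0',
      m28pf_transport₁ p E cst jB hcst hjB (Polynomial.derivative Φ) (X c0) _ hX0', ← hY0',
      hAmap, ← Polynomial.derivative_map, hΦmap, m28pf_A_eval, map_mul]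

end main

end Fermat.Agent.M28
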