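/-
S28, package P (analytic half, helper8): Laurent series with algebraic integer coefficients
are stable under the twist `s ↦ ξ s` by a root of unity `ξ`.
-/
import Mathlib
import Fermat.Agent.S24.CuspFormal
import Fermat.Agent.M28.PfMain

set_option autoImplicit false

noncomputable section

namespace Fermat.Agent.M28

open ModularCurve Fermat.Agent.S24

/-- integer powers of a root of unity are algebraic integers. -/
theorem m28pa_zpow_mem (p : ℕ) [NeZero p] (ξ : ℂˣ) (hξ : ξ ^ p = 1) (n : ℤ) :
    ((ξ ^ n : ℂˣ) : ℂ) ∈ m28k_Zbar := by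
  refine ⟨Polynomial.X ^ p - Polynomial.C 1,
    Polynomial.monic_X_pow_sub_C 1 (NeZero.ne p), ?_⟩
  rw [Polynomial.eval₂_sub, Polynomial.eval₂_pow, Polynomial.eval₂_X, Polynomial.eval₂_C,
    map_one, ← Units.val_pow_eq_pow_val, ← zpow_natCast, ← zpow_mul, mul_comm, zpow_mul,
    zpow_natCast, hξ, one_zpow, Units.val_one, sub_self]

/-- coefficientwise multiplication of a Laurent series by a family of scalars. -/
def m28pa_scale {R : Type*} [CommRing R] (u : ℤ → R) (y : LaurentSeries R) : LaurentSeries R where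
  coeff n := u n * y.coeff n
  isPWO_support' := y.isPWO_support.mono fun n hn => by
    intro h
    apply hn
    simp only [HahnSeries.mem_support, ne_eq, not_not] at h ⊢
    rw [h, mul_zero]

theorem m28pa_scale_coeff {R : Type*} [CommRing R] (u : ℤ → R) (y : LaurentSeries R) (n : ℤ) :
    (m28pa_scale u y).coeff n = u n * y.coeff n := rfl

/-- the twist by a root of unity preserves integrality of the coefficients. -/
theorem m28pa_twist_mem (p : ℕ) [NeZero p] (ξ : ℂˣ) (hξ : ξ ^ p = 1) {x : LaurentSeries ℂ}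
    (hx : x ∈ m28pf_int m28pf_incl) : cf_twist ξ x ∈ m28pf_int m28pf_incl := by
  obtain ⟨y, rfl⟩ := hx
  refine ⟨m28pa_scale (fun n => ⟨((ξ ^ n : ℂˣ) : ℂ), m28pa_zpow_mem p ξ hξ n⟩) y, ?_⟩
  ext n
  rw [coeffMap_coeff, m28pa_scale_coeff, map_mul, cf_twist_coeff, coeffMap_coeff]
  rfl

end Fermat.Agent.M28

end
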