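/-
S28, package P (analytic half, helper8): the conjugates of `x = j(p τ)` under `SL(2,ℤ)`.

* `m28pa_conj p f q` : the conjugate `f ∘ (out q)⁻¹` of a modular function `f` of level `p`,
  for a coset `q ∈ SL(2,ℤ) ⧸ Γ₀(p)`; equivariance `m28pa_conj_act`.
* `m28pa_x p` : `τ ↦ J (p τ)`; `m28pa_X p q` its conjugates.
* `m28pa_X_cases` : each conjugate is `J (p τ)` or `J ((τ + b) / p)`.
* `m28pa_E_X_mem` : the `q_p`-expansions of the conjugates have algebraic integer coefficients.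
* `m28pa_E_X_one`, `m28pa_E_X_S` : the expansions of `J (p τ)` and `J (τ / p)`.
-/
import Mathlib
import Fermat.Agent.S24.AnaEv
import Fermat.Agent.S24.SymCore
import Fermat.Agent.S24.Dist
import Fermat.Agent.S24.MGCard
import Fermat.Agent.M28.PaAff
import Fermat.Agent.M28.PaInt

set_option autoImplicit false
set_option linter.unusedSectionVars false

noncomputable section

namespace Fermat.Agent.M28

open UpperHalfPlane hiding I
open Filter Function Topology ModularForm Complex ModularCurve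
open scoped Manifold MatrixGroups ModularForm Real CongruenceSubgroup
open CongruenceSubgroup
open Fermat.Agent.S23 Fermat.Agent.S24

local notation "𝕢" => Function.Periodic.qParam

variable (p : ℕ) [NeZero p]

/-! ### conjugates indexed by cosets -/

/-- the conjugate of `f` attached to the coset `q`. -/
def m28pa_conj (f : ana_ring p) (q : s24Q p) : ana_ring p :=
  ana_comp p (Quotient.out q : SL(2, ℤ))⁻¹ f

theorem m28pa_conj_coe (f : ana_ring p) (q : s24Q p) :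
    ((m28pa_conj p f q : ana_ring p) : ℍ → ℂ) = sym_conj p (f : ℍ → ℂ) q := rfl

theorem m28pa_conj_mk {f : ana_ring p}
    (hf : ∀ γ ∈ Gamma0 p, ∀ τ : ℍ, (f : ℍ → ℂ) (γ • τ) = (f : ℍ → ℂ) τ) (g : SL(2, ℤ)) :
    m28pa_conj p f ((g : SL(2, ℤ)) : s24Q p) = ana_comp p g⁻¹ f := by
  apply Subtype.ext
  funext τ
  rw [m28pa_conj_coe, sym_conj_mk hf]
  rfl

/-- equivariance of the conjugates. -/
theorem m28pa_conj_act {f : ana_ring p}
    (hf : ∀ γ ∈ Gamma0 p, ∀ τ : ℍ, (f : ℍ → ℂ) (γ • τ) = (f : ℍ → ℂ) τ) (g : SL(2, ℤ))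
    (q : s24Q p) :
    ana_comp p g⁻¹ (m28pa_conj p f q) = m28pa_conj p f (g • q) := by
  apply Subtype.ext
  funext τ
  rw [ana_comp_apply, m28pa_conj_coe, m28pa_conj_coe, sym_conj_smul hf, inv_inv]

theorem m28pa_card (hp : p.Prime) : Fintype.card (s24Q p) = p + 1 := by
  rw [← Nat.card_eq_fintype_card, mg_card]
  have h := mgc_psi_prime_pow (p := p) (e := 1) hp one_pos
  simpa using h

/-! ### the basic objects -/

/-- `τ ↦ J (p τ)` as a modular function of level `p`. -/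
def m28pa_x : ana_ring p := ana_Jd p p dvd_rfl

theorem m28pa_x_apply (τ : ℍ) :
    (m28pa_x p : ℍ → ℂ) τ = ord_J (pe_mulN p (NeZero.pos p) τ) := rfl

theorem m28pa_x_inv (γ : SL(2, ℤ)) (hγ : γ ∈ Gamma0 p) (τ : ℍ) :
    (m28pa_x p : ℍ → ℂ) (γ • τ) = (m28pa_x p : ℍ → ℂ) τ :=
  ana_Jd_comp_Gamma0 p p dvd_rfl (NeZero.pos p) hγ τ

theorem m28pa_coeffEmb_jq : coeffEmb ℂ jq = jqModC ℂ := by
  rw [coeffEmb, ← jqModC_rat, coeffMap_jqModC]

theorem m28pa_E_J : ana_qexp p (ana_J p) = qExpand ℂ p (jqModC ℂ) := by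
  rw [ana_qexp_J, m28pa_coeffEmb_jq]

theorem m28pa_E_x : ana_qexp p (m28pa_x p) = qExpand ℂ p (qExpand ℂ p (jqModC ℂ)) := by
  rw [m28pa_x, ana_qexp_Jd', coeffEmb, coeffMap_qExpand, ← coeffEmb, m28pa_coeffEmb_jq]

/-- the conjugates of `x`. -/
def m28pa_X (q : s24Q p) : ana_ring p := m28pa_conj p (m28pa_x p) q

/-! ### Hermite: the two kinds of conjugates -/

/-- a positive integer `a` with `a * d = p`, `p` prime, is `1` or `p`. -/
theorem m28pa_prime_cases (hp : p.Prime) {a d : ℤ} (ha : 0 < a) (hd : 0 < d)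
    (had : a * d = p) : (a = 1 ∧ d = p) ∨ (a = p ∧ d = 1) := by
  lift a to ℕ using ha.le
  lift d to ℕ using hd.le
  have had' : a * d = p := by exact_mod_cast had
  have hdvd : a ∣ p := ⟨d, had'.symm⟩
  rcases (Nat.dvd_prime hp).mp hdvd with h1 | h1
  · left
    subst h1
    refine ⟨rfl, ?_⟩
    rw [one_mul] at had'
    exact_mod_cast had'
  · right
    subst h1
    refine ⟨rfl, ?_⟩
    have : d = 1 := by
      have hpos : 0 < a := by exact_mod_cast ha
      exact Nat.eq_of_mul_eq_mul_left hpos (by rw [had', mul_one])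
    exact_mod_cast this

/-- `J ((a τ + b) / d)` for `a d = p`: it is `J (p τ)` or `J ((τ + b) / p)`. -/
theorem m28pa_J_aff_cases (hp : p.Prime) (a b d : ℤ) (ha : 0 < a) (hd : 0 < d)
    (had : a * d = p) :
    (∀ τ, ord_J (pe_aff a b d ha hd τ) = ord_J (pe_mulN p (NeZero.pos p) τ)) ∨
    (∀ τ, ord_J (pe_aff a b d ha hd τ) = ord_J (m28pa_div p b τ)) := by
  rcases m28pa_prime_cases p hp ha hd had with ⟨h1, h2⟩ | ⟨h1, h2⟩
  · right
    subst h1 h2
    intro τ
    rfl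
  · left
    subst h1 h2
    intro τ
    rw [m28pa_aff_one, ajd_J_vadd_int]

/-- each conjugate of `x` is `J (p τ)` or `J ((τ + b) / p)`. -/
theorem m28pa_comp_x_cases (hp : p.Prime) (g : SL(2, ℤ)) :
    (∀ τ, (m28pa_x p : ℍ → ℂ) (g • τ) = ord_J (pe_mulN p (NeZero.pos p) τ)) ∨
    (∃ b : ℤ, ∀ τ, (m28pa_x p : ℍ → ℂ) (g • τ) = ord_J (m28pa_div p b τ)) := by
  obtain ⟨γ, a, b, d, ha, hd, had, -, h00, h01, h10, h11⟩ := pe_hermite p (NeZero.pos p) g
  have key : ∀ τ, (m28pa_x p : ℍ → ℂ) (g • τ) = ord_J (pe_aff a b d ha hd τ) := fun τ =>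
    dist_JN_smul_eq p (NeZero.pos p) g γ a b d ha hd h00 h01 h10 h11 τ
  rcases m28pa_J_aff_cases p hp a b d ha hd had with h | h
  · left
    intro τ
    rw [key, h]
  · right
    exact ⟨b, fun τ => by rw [key, h]⟩

/-! ### the expansion of `J ((τ + b) / p)` -/

theorem m28pa_ofPowerSeries_X :
    HahnSeries.ofPowerSeries ℤ ℂ (PowerSeries.X : PowerSeries ℂ) = HahnSeries.single (1 : ℤ) 1 :=
  HahnSeries.ofPowerSeries_X

theorem m28pa_jqModC_eq :
    jqModC ℂ = HahnSeries.single (-1 : ℤ) (1 : ℂ) *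
      HahnSeries.ofPowerSeries ℤ ℂ (jNum.map (Int.castRingHom ℂ)) := rfl

/-- the `q_p`-expansion of `J ((τ + b) / p)` is the twist of `j` by `ζ_p ^ b`. -/
theorem m28pa_laurent_J_div (b : ℤ) (hmer : ana_IsMer p (fun τ => ord_J (m28pa_div p b τ))) :
    ana_laurent p (fun τ => ord_J (m28pa_div p b τ))
      = cf_twist (atw_zeta p ^ b) (jqModC ℂ) := by
  have hq := m28pa_laurent_div p br_q_mem b
  have hqJ := m28pa_laurent_div p br_qJ_mem b
  rw [br_qExpansion_q, m28pa_ofPowerSeries_X] at hq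
  rw [br_qExpansion_qJ] at hqJ
  have hprod : (fun τ => br_qJ (m28pa_div p b τ))
      = (fun τ : ℍ => 𝕢 1 (m28pa_div p b τ : ℂ)) * (fun τ => ord_J (m28pa_div p b τ)) := by
    funext τ
    rfl
  rw [hprod, ana_laurent_mul (m28pa_nice_div p br_q_mem b).isMer hmer, hq] at hqJ
  have hinv : cf_twist (atw_zeta p ^ b) (HahnSeries.single (-1 : ℤ) (1 : ℂ)) *
      cf_twist (atw_zeta p ^ b) (HahnSeries.single (1 : ℤ) (1 : ℂ)) = 1 := by
    rw [← map_mul, HahnSeries.single_mul_single, mul_one, neg_add_cancel]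
    exact map_one _
  calc ana_laurent p (fun τ => ord_J (m28pa_div p b τ))
      = (cf_twist (atw_zeta p ^ b) (HahnSeries.single (-1 : ℤ) (1 : ℂ)) *
          cf_twist (atw_zeta p ^ b) (HahnSeries.single (1 : ℤ) (1 : ℂ))) *
          ana_laurent p (fun τ => ord_J (m28pa_div p b τ)) := by rw [hinv, one_mul]
    _ = cf_twist (atw_zeta p ^ b) (HahnSeries.single (-1 : ℤ) (1 : ℂ)) *
          (cf_twist (atw_zeta p ^ b) (HahnSeries.single (1 : ℤ) (1 : ℂ)) *
            ana_laurent p (fun τ => ord_J (m28pa_div p b τ))) := by ring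
    _ = cf_twist (atw_zeta p ^ b) (jqModC ℂ) := by
        rw [hqJ, ← map_mul, ← m28pa_jqModC_eq]

theorem m28pa_zeta_zpow_pow (b : ℤ) : (atw_zeta p ^ b) ^ p = 1 := by
  rw [← zpow_natCast, ← zpow_mul, mul_comm, zpow_mul, zpow_natCast,
    (atw_zeta_isPrimitiveRoot p).pow_eq_one, one_zpow]

/-! ### the expansions of the conjugates of `x` -/

/-- the expansion of a translate of `x`. -/
theorem m28pa_E_comp_x_mem (hp : p.Prime) (g : SL(2, ℤ)) :
    ana_qexp p (ana_comp p g (m28pa_x p)) ∈ m28pf_int m28pf_incl := by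
  rcases m28pa_comp_x_cases p hp g with h | ⟨b, h⟩
  · have h1 : ana_comp p g (m28pa_x p) = m28pa_x p := by
      apply Subtype.ext
      funext τ
      rw [ana_comp_apply, h]
      rfl
    rw [h1, m28pa_E_x]
    exact m28pf_qExpand_mem _ p (m28pf_jd_mem _ p)
  · have h1 : ((ana_comp p g (m28pa_x p) : ana_ring p) : ℍ → ℂ)
        = fun τ => ord_J (m28pa_div p b τ) := by
      funext τ
      rw [ana_comp_apply, h]
    have hmer : ana_IsMer p (fun τ => ord_J (m28pa_div p b τ)) := by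
      rw [← h1]
      exact ana_isMer_of_mem (ana_comp p g (m28pa_x p)).2
    rw [ana_qexp_apply, h1, m28pa_laurent_J_div p b hmer]
    exact m28pa_twist_mem p _ (m28pa_zeta_zpow_pow p b) (m28pf_jq_mem _)

theorem m28pa_E_X_mem (hp : p.Prime) (q : s24Q p) :
    ana_qexp p (m28pa_X p q) ∈ m28pf_int m28pf_incl :=
  m28pa_E_comp_x_mem p hp _

/-- the conjugate attached to the trivial coset is `x`. -/
theorem m28pa_X_one : m28pa_X p ((1 : SL(2, ℤ)) : s24Q p) = m28pa_x p := by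
  rw [m28pa_X, m28pa_conj_mk p (m28pa_x_inv p), inv_one, ana_comp_one]

theorem m28pa_E_X_one :
    ana_qexp p (m28pa_X p ((1 : SL(2, ℤ)) : s24Q p))
      = qExpand ℂ p (qExpand ℂ p (jqModC ℂ)) := by
  rw [m28pa_X_one, m28pa_E_x]

/-- `p (S τ) = S (τ / p)`. -/
theorem m28pa_mulN_S (τ : ℍ) :
    pe_mulN p (NeZero.pos p) (ModularGroup.S • τ) = ModularGroup.S • m28pa_div p 0 τ := by
  have hS : ∀ z : ℍ, ((ModularGroup.S • z : ℍ) : ℂ) = (-(z : ℂ))⁻¹ := by
    intro z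
    rw [UpperHalfPlane.modular_S_smul]
  apply UpperHalfPlane.ext
  rw [pe_mulN_coe, hS, hS, m28pa_div_coe]
  have hp : (p : ℂ) ≠ 0 := by exact_mod_cast NeZero.ne p
  have hτ : (τ : ℂ) ≠ 0 := UpperHalfPlane.ne_zero τ
  push_cast
  rw [add_zero]
  field_simp

/-- the conjugate attached to the coset of `S⁻¹` is `τ ↦ J (τ / p)`. -/
theorem m28pa_X_S_apply (τ : ℍ) :
    (m28pa_X p ((ModularGroup.S⁻¹ : SL(2, ℤ)) : s24Q p) : ℍ → ℂ) τ
      = ord_J (m28pa_div p 0 τ) := by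
  rw [m28pa_X, m28pa_conj_mk p (m28pa_x_inv p), inv_inv, ana_comp_apply, m28pa_x_apply,
    m28pa_mulN_S, ord_J_smul]

theorem m28pa_E_X_S :
    ana_qexp p (m28pa_X p ((ModularGroup.S⁻¹ : SL(2, ℤ)) : s24Q p)) = jqModC ℂ := by
  have h1 : ((m28pa_X p ((ModularGroup.S⁻¹ : SL(2, ℤ)) : s24Q p) : ana_ring p) : ℍ → ℂ)
      = fun τ => ord_J (m28pa_div p 0 τ) := by
    funext τ
    exact m28pa_X_S_apply p τ
  have hmer : ana_IsMer p (fun τ => ord_J (m28pa_div p 0 τ)) := by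
    rw [← h1]
    exact ana_isMer_of_mem (m28pa_X p _).2
  rw [ana_qexp_apply, h1, m28pa_laurent_J_div p 0 hmer, zpow_zero, cf_twist_one]

end Fermat.Agent.M28

end
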