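/-
S28, package P (analytic half, helper8): assembly.

* `m28pa_hinv` : an element of `ana_ring p` invariant under `SL(2,ℤ)` is a polynomial in `J`.
* `m28pa_primeData_of_phi` : the prime-level package over the algebraic integers, from the
  modular unit `φ = p^12 Δ(pτ)/Δ(τ)` as an element of `ana_ring p` with
  (1) `Γ₀(p)`-invariance, (2) its `q_p`-expansion, (3) integrality of the expansions of all
  its `SL(2,ℤ)`-translates.
-/
import Mathlib
import Fermat.Agent.S24.AnaMer
import Fermat.Agent.M28.PfData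
import Fermat.Agent.M28.PaX

set_option autoImplicit false
set_option linter.unusedSectionVars false

noncomputable section

namespace Fermat.Agent.M28

open UpperHalfPlane hiding I
open Filter Function Topology ModularForm Complex ModularCurve
open scoped Manifold MatrixGroups ModularForm Real CongruenceSubgroup
open CongruenceSubgroup
open Fermat.Agent.S23 Fermat.Agent.S24

variable (p : ℕ) [NeZero p]

/-- evaluation at a point, on `ana_ring p`. -/
def m28pa_evalAt (τ : ℍ) : ana_ring p →+* ℂ :=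
  (Pi.evalRingHom (fun _ : ℍ => ℂ) τ).comp (ana_ring p).subtype

theorem m28pa_evalAt_apply (τ : ℍ) (f : ana_ring p) : m28pa_evalAt p τ f = (f : ℍ → ℂ) τ := rfl

theorem m28pa_eval₂_apply (P : Polynomial ℂ) (τ : ℍ) :
    ((P.eval₂ (ana_const p) (ana_J p) : ana_ring p) : ℍ → ℂ) τ = P.eval (ord_J τ) := by
  rw [← m28pa_evalAt_apply, Polynomial.hom_eval₂]
  have h1 : (m28pa_evalAt p τ).comp (ana_const p) = RingHom.id ℂ := by
    ext z
    rfl
  rw [h1, Polynomial.eval₂_id]
  rfl

/-- **invariants are polynomials in `J`**. -/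
theorem m28pa_hinv (b : ana_ring p) (hb : ∀ g : SL(2, ℤ), ana_comp p g⁻¹ b = b) :
    ∃ P : Polynomial ℂ, b = P.eval₂ (ana_const p) (ana_J p) := by
  have hinv : ∀ (γ : SL(2, ℤ)) (τ : ℍ), (b : ℍ → ℂ) (γ • τ) = (b : ℍ → ℂ) τ := by
    intro γ τ
    have h := hb γ⁻¹
    rw [inv_inv] at h
    have h2 := congrFun (congrArg Subtype.val h) τ
    exact h2
  have hmer : (b : ℍ → ℂ) ∈ sym_mer :=
    sym_mem_mer_iff.mpr ⟨ana_mdiff b, amer_disc_pow_bounded p b.2⟩
  obtain ⟨P, hP⟩ := sym_exists_poly hmer hinv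
  refine ⟨P, Subtype.ext (funext fun τ => ?_)⟩
  rw [m28pa_eval₂_apply, hP]

/-- **[P] from the modular unit**: the prime-level package over the ring of algebraic
integers, given `φ = p^12 Δ(pτ)/Δ(τ)` as an element of `ana_ring p`. -/
theorem m28pa_primeData_of_phi (hp : p.Prime) (φ : ana_ring p)
    (hφinv : ∀ γ ∈ Gamma0 p, ∀ τ : ℍ, (φ : ℍ → ℂ) (γ • τ) = (φ : ℍ → ℂ) τ)
    (hφ0 : ana_qexp p φ = qExpand ℂ p (HahnSeries.C ((p : ℂ) ^ 12) * m28pf_w ℂ p))
    (hφmem : ∀ g : SL(2, ℤ), ana_qexp p (ana_comp p g φ) ∈ m28pf_int m28pf_incl) :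
    Nonempty (M28PrimeData m28Zbar p) := by
  classical
  refine m28pf_primeData_of p (B := ana_ring p) (ι := s24Q p) (ana_qexp p) (ana_const p)
    (ana_J p) (m28pa_card p hp) (ana_qexp_const p) (m28pa_E_J p) (m28pa_X p)
    (m28pa_conj p φ) (m28pa_E_X_mem p hp) (fun q => hφmem _)
    (G := SL(2, ℤ)) (fun g => ana_comp p g⁻¹) (fun g => MulAction.toPerm g)
    (fun g q => m28pa_conj_act p (m28pa_x_inv p) g q)
    (fun g q => m28pa_conj_act p hφinv g q)
    (m28pa_hinv p)
    ((1 : SL(2, ℤ)) : s24Q p) ((ModularGroup.S⁻¹ : SL(2, ℤ)) : s24Q p)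
    (m28pa_E_X_one p) ?_ (m28pa_E_X_S p)
  rw [m28pa_conj_mk p hφinv, inv_one, ana_comp_one]
  exact hφ0

end Fermat.Agent.M28

end
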