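/-
S28, package P (analytic half, helper3): the modular unit `φ(τ) = p^12 Δ(pτ)/Δ(τ)`.

* `m28pb_phiFun p` : the function `τ ↦ p^12 Δ(pτ)/Δ(τ)`;
* `m28pb_phi_smul` : `φ(g τ) = a^12 Δ((aτ+b)/d)/Δ(τ)` for the Hermite data of `g`;
* `m28pb_phi p : ana_ring p`;
* `m28pb_phi_inv` : invariance under `Γ₀(p)`;
* `m28pb_E_phi` : the `q_p`-expansion of `φ`;
* `m28pb_E_comp_mem` : the expansions of all translates have algebraic integer coefficients.
-/
import Mathlib
import Fermat.Agent.S24.AnaMer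
import Fermat.Agent.S24.Bridge
import Fermat.Agent.S24.BridgeQ
import Fermat.Agent.S24.PolyJ
import Fermat.Agent.M28.PaMain

set_option autoImplicit false
set_option linter.unusedSectionVars false

noncomputable section

namespace Fermat.Agent.M28

open UpperHalfPlane hiding I
open Filter Function Topology ModularForm Complex ModularCurve
open scoped Manifold MatrixGroups ModularForm Real CongruenceSubgroup
open CongruenceSubgroup
open Fermat.Agent.S23 Fermat.Agent.S24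

local notation "𝕢" => Function.Periodic.qParam
local notation "Δ" => ModularForm.discriminant

variable (p : ℕ) [NeZero p]

/-- the function `φ(τ) = p^12 Δ(pτ)/Δ(τ)`. -/
def m28pb_phiFun (τ : ℍ) : ℂ := (p : ℂ) ^ 12 * Δ (pe_mulN p (NeZero.pos p) τ) / Δ τ

/-- **Hermite formula**: `φ(g τ) = a^12 Δ((aτ+b)/d)/Δ(τ)`. -/
theorem m28pb_phi_smul (g γ : SL(2, ℤ)) (a b d : ℤ) (ha : 0 < a) (hd : 0 < d)
    (had : a * d = p)
    (h00 : (p : ℤ) * g 0 0 = γ 0 0 * a) (h01 : (p : ℤ) * g 0 1 = γ 0 0 * b + γ 0 1 * d)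
    (h10 : g 1 0 = γ 1 0 * a) (h11 : g 1 1 = γ 1 0 * b + γ 1 1 * d) (z : ℍ) :
    m28pb_phiFun p (g • z) = (a : ℂ) ^ 12 * Δ (pe_aff a b d ha hd z) / Δ z := by
  unfold m28pb_phiFun
  rw [pe_smul_eq p (NeZero.pos p) g γ a b d ha hd h00 h01 h10 h11 z, pe_discriminant_smul γ,
    pe_discriminant_smul g]
  have hd' : (d : ℂ) ≠ 0 := by exact_mod_cast hd.ne'
  have hden1 : ((g 1 0 : ℤ) : ℂ) * z + (g 1 1 : ℤ) ≠ 0 := by
    have := UpperHalfPlane.denom_ne_zero (g : GL (Fin 2) ℝ) z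
    simpa [UpperHalfPlane.denom] using this
  have e10 : ((g 1 0 : ℤ) : ℂ) = (γ 1 0 : ℤ) * a := by exact_mod_cast h10
  have e11 : ((g 1 1 : ℤ) : ℂ) = (γ 1 0 : ℤ) * b + (γ 1 1 : ℤ) * d := by exact_mod_cast h11
  have hrel : ((γ 1 0 : ℤ) : ℂ) * (pe_aff a b d ha hd z : ℍ) + (γ 1 1 : ℤ)
      = (((g 1 0 : ℤ) : ℂ) * z + (g 1 1 : ℤ)) / d := by
    rw [pe_aff_coe, e10, e11]
    field_simp
    ring
  rw [hrel]
  have hpad : (p : ℂ) = a * d := by exact_mod_cast had.symm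
  have hΔ := ord_disc_ne_zero z
  have h12 : (((g 1 0 : ℤ) : ℂ) * z + (g 1 1 : ℤ)) ^ (12 : ℕ) ≠ 0 := pow_ne_zero _ hden1
  rw [hpad, div_pow]
  field_simp

/-- `Δ ∘ ((aτ+b)/d)` is holomorphic, `p`-periodic and bounded at `i∞`, when `a d = p`. -/
theorem m28pb_nice_aff (a b d : ℤ) (ha : 0 < a) (hd : 0 < d) (had : a * d = p) :
    ana_IsNice p (fun τ => Δ (pe_aff a b d ha hd τ)) := by
  refine ⟨m28pa_mdiff_aff pj_disc_mem.1 a b d ha hd, fun τ => ?_, ?_⟩
  · simp only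
    rw [ajd_aff_vadd a b d ha hd p a (by rw [← had]; ring),
      m28pa_vadd_int pj_disc_mem.2.1]
  · exact pj_disc_mem.2.2.comp_tendsto (pe_tendsto_aff a b d ha hd)

/-- `Δ` as a `p`-periodic function. -/
theorem m28pb_nice_disc : ana_IsNice p (fun τ : ℍ => Δ τ) := m28pa_nice_level p pj_disc_mem

/-- quotients `G / Δ` of nice functions are meromorphic at `i∞` with pole order `≤ p`. -/
theorem m28pb_poleLE_div {G : ℍ → ℂ} (hG : ana_IsNice p G) :
    ana_PoleLE p p (fun τ => G τ / Δ τ) := by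
  unfold ana_PoleLE
  have h1 : (fun τ : ℍ => ana_q p τ ^ p * (G τ / Δ τ)) = br_V * G := by
    funext τ
    rw [Pi.mul_apply, amer_q_pow p (NeZero.pos p), br_V]
    ring
  rw [h1]
  exact br_V_mem.2.2.mul hG.2.2

theorem m28pb_mdiff_div {G : ℍ → ℂ} (hG : MDiff G) : MDiff (fun τ => G τ / Δ τ) := by
  have h : (fun τ => G τ / Δ τ) = G / (fun τ : ℍ => Δ τ) := by
    funext τ; rfl
  rw [h]
  exact hG.div ord_mdiff_disc ord_disc_ne_zero

theorem m28pb_isMer_div {G : ℍ → ℂ} (hG : ana_IsNice p G) :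
    ana_IsMer p (fun τ => G τ / Δ τ) :=
  ⟨m28pb_mdiff_div hG.1, fun τ => by
    have h := (m28pb_nice_disc p).2.1 τ
    simp only at h ⊢
    rw [hG.2.1, h], p, m28pb_poleLE_div p hG⟩

/-- the `q_p`-expansion of `Δ` is the formal discriminant in `s^p`. -/
theorem m28pb_laurent_disc :
    ana_laurent p (fun τ : ℍ => Δ τ) = qExpand ℂ p (m28pf_delta ℂ) := by
  have h := m28pa_laurent_level p pj_disc_mem
  rw [br_qExpansion_discriminant] at h
  rw [show (fun τ : ℍ => Δ τ) = (Δ : ℍ → ℂ) from rfl, h, m28pf_delta, map_mul,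
    HahnSeries.ofPowerSeries_X, m28pf_eta]

/-- the `q_p`-expansion of a quotient `G / Δ`. -/
theorem m28pb_laurent_div {G : ℍ → ℂ} (hG : ana_IsNice p G) :
    ana_laurent p (fun τ => G τ / Δ τ) = ana_laurent p G * qExpand ℂ p (m28pf_deltaInv ℂ) := by
  have hprod : (fun τ => G τ / Δ τ) * (fun τ : ℍ => Δ τ) = G := by
    funext τ
    rw [Pi.mul_apply, div_mul_cancel₀ _ (ord_disc_ne_zero τ)]
  have h1 := ana_laurent_mul (m28pb_isMer_div p hG) (m28pb_nice_disc p).isMer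
  rw [hprod, m28pb_laurent_disc] at h1
  rw [h1, mul_assoc, ← map_mul, m28pf_delta_mul_inv, map_one, mul_one]

/-! ### the modular unit as an element of `ana_ring p` -/

/-- a constant multiple of a nice function is nice. -/
theorem m28pb_nice_const_mul {G : ℍ → ℂ} (hG : ana_IsNice p G) (c : ℂ) :
    ana_IsNice p (fun τ => c * G τ) :=
  (ana_isNice_const p c).mul hG

theorem m28pb_laurent_const_mul {G : ℍ → ℂ} (hG : ana_IsNice p G) (c : ℂ) :
    ana_laurent p (fun τ => c * G τ) = HahnSeries.C c * ana_laurent p G := by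
  have h := ana_laurent_mul (ana_isNice_const p c).isMer hG.isMer
  rw [ana_laurent_const] at h
  exact h

/-- every translate of `φ` is of the form `(a^12 Δ∘aff) / Δ`. -/
theorem m28pb_exists_hermite (g : SL(2, ℤ)) :
    ∃ (a b d : ℤ) (ha : 0 < a) (hd : 0 < d), a * d = p ∧
      ∀ z, m28pb_phiFun p (g • z) = (a : ℂ) ^ 12 * Δ (pe_aff a b d ha hd z) / Δ z := by
  obtain ⟨γ, a, b, d, ha, hd, had, -, h00, h01, h10, h11⟩ := pe_hermite p (NeZero.pos p) g
  exact ⟨a, b, d, ha, hd, had, fun z => m28pb_phi_smul p g γ a b d ha hd had h00 h01 h10 h11 z⟩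

theorem m28pb_mdiff_phi : MDiff (m28pb_phiFun p) := by
  have h : m28pb_phiFun p
      = fun τ => (fun τ => (p : ℂ) ^ 12 * Δ (pe_mulN p (NeZero.pos p) τ)) τ / Δ τ := rfl
  rw [h]
  exact m28pb_mdiff_div
    ((m28pb_nice_const_mul p (m28pa_nice_level p (br_comp_mulN_mem pj_disc_mem p (NeZero.pos p)))
      _).1)

/-- `φ` is a modular function of level `p`. -/
theorem m28pb_phi_mem : m28pb_phiFun p ∈ ana_ring p := by
  refine ⟨m28pb_mdiff_phi p, fun g => ?_⟩
  obtain ⟨a, b, d, ha, hd, had, hfun⟩ := m28pb_exists_hermite p g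
  have hnice := m28pb_nice_const_mul p (m28pb_nice_aff p a b d ha hd had) ((a : ℂ) ^ 12)
  have hmer := m28pb_isMer_div p hnice
  have heq : (fun τ => m28pb_phiFun p (g • τ))
      = fun τ => (fun τ => (a : ℂ) ^ 12 * Δ (pe_aff a b d ha hd τ)) τ / Δ τ := by
    funext τ
    exact hfun τ
  refine ⟨fun τ => ?_, p, ?_⟩
  · have h1 := congrFun heq ((p : ℝ) +ᵥ τ)
    have h2 := congrFun heq τ
    have h3 := hmer.2.1 τ
    simp only at h1 h2 h3
    rw [h1, h2, h3]
  · rw [heq]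
    exact m28pb_poleLE_div p hnice

/-- the modular unit `φ = p^12 Δ(pτ)/Δ(τ)` as an element of `ana_ring p`. -/
def m28pb_phi : ana_ring p := ⟨m28pb_phiFun p, m28pb_phi_mem p⟩

theorem m28pb_phi_apply (τ : ℍ) : (m28pb_phi p : ℍ → ℂ) τ = m28pb_phiFun p τ := rfl

/-- **invariance under `Γ₀(p)`**. -/
theorem m28pb_phi_inv (γ : SL(2, ℤ)) (hγ : γ ∈ Gamma0 p) (τ : ℍ) :
    (m28pb_phi p : ℍ → ℂ) (γ • τ) = (m28pb_phi p : ℍ → ℂ) τ := by
  rw [m28pb_phi_apply, m28pb_phi_apply]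
  rw [Gamma0_mem, ZMod.intCast_zmod_eq_zero_iff_dvd] at hγ
  obtain ⟨c', hc'⟩ := hγ
  have hdet : γ 0 0 * γ 1 1 - γ 0 1 * γ 1 0 = 1 := by
    have := γ.det_coe
    rw [Matrix.det_fin_two] at this
    exact this
  have hdet' : Matrix.det !![γ 0 0, (p : ℤ) * γ 0 1; c', γ 1 1] = 1 := by
    rw [Matrix.det_fin_two_of]
    rw [hc'] at hdet
    linear_combination hdet
  have hppos : (0 : ℤ) < p := m28pa_p_pos p
  have := m28pb_phi_smul p γ ⟨!![γ 0 0, (p : ℤ) * γ 0 1; c', γ 1 1], hdet'⟩ p 0 1 hppos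
    one_pos (by simp) (by simp [mul_comm]) (by simp) (by simp [hc', mul_comm]) (by simp) τ
  rw [this]
  simp [m28pb_phiFun, pe_mulN]

/-! ### expansions -/

/-- **the `q_p`-expansion of `φ`**. -/
theorem m28pb_E_phi :
    ana_qexp p (m28pb_phi p) = qExpand ℂ p (HahnSeries.C ((p : ℂ) ^ 12) * m28pf_w ℂ p) := by
  have hN := m28pa_nice_level p (br_comp_mulN_mem pj_disc_mem p (NeZero.pos p))
  have hG := m28pb_nice_const_mul p hN ((p : ℂ) ^ 12)
  have h1 : ((m28pb_phi p : ana_ring p) : ℍ → ℂ)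
      = fun τ => (fun τ => (p : ℂ) ^ 12 * Δ (pe_mulN p (NeZero.pos p) τ)) τ / Δ τ := rfl
  rw [ana_qexp_apply, h1, m28pb_laurent_div p hG, m28pb_laurent_const_mul p hN,
    m28pa_laurent_mulN p pj_disc_mem, br_qExpansion_discriminant]
  have hδ : HahnSeries.ofPowerSeries ℤ ℂ
      (PowerSeries.X * ModularCurve.dedekindEtaUnit.map (Int.castRingHom ℂ)) = m28pf_delta ℂ := by
    rw [m28pf_delta, map_mul, HahnSeries.ofPowerSeries_X, m28pf_eta]
  rw [hδ, map_mul, m28pf_w_eq, map_mul, mul_assoc]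
  congr 1
  rw [HahnSeries.C_apply, qExpand_single, mul_zero]

/-- the expansions of all translates of `φ` have algebraic integer coefficients. -/
theorem m28pb_E_comp_mem (hp : p.Prime) (g : SL(2, ℤ)) :
    ana_qexp p (ana_comp p g (m28pb_phi p)) ∈ m28pf_int m28pf_incl := by
  obtain ⟨a, b, d, ha, hd, had, hfun⟩ := m28pb_exists_hermite p g
  have hδmem : m28pf_delta ℂ ∈ m28pf_int m28pf_incl :=
    ⟨m28pf_delta m28k_Zbar, m28pf_coeffMap_delta m28pf_incl⟩
  have hδImem : m28pf_deltaInv ℂ ∈ m28pf_int m28pf_incl :=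
    ⟨m28pf_deltaInv m28k_Zbar, m28pf_coeffMap_deltaInv m28pf_incl⟩
  have hδ : HahnSeries.ofPowerSeries ℤ ℂ
      (PowerSeries.X * ModularCurve.dedekindEtaUnit.map (Int.castRingHom ℂ)) = m28pf_delta ℂ := by
    rw [m28pf_delta, map_mul, HahnSeries.ofPowerSeries_X, m28pf_eta]
  rcases m28pa_prime_cases p hp ha hd had with ⟨h1, h2⟩ | ⟨h1, h2⟩
  · -- `(a, d) = (1, p)`: `φ ∘ g = Δ((τ+b)/p)/Δ(τ)`
    subst h1 h2
    have hnice := m28pa_nice_div p pj_disc_mem b
    have heq : ((ana_comp p g (m28pb_phi p) : ana_ring p) : ℍ → ℂ)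
        = fun τ => (fun τ => Δ (m28pa_div p b τ)) τ / Δ τ := by
      funext τ
      rw [ana_comp_apply, m28pb_phi_apply, hfun τ]
      simp only [Int.cast_one, one_pow, one_mul]
      rfl
    rw [ana_qexp_apply, heq, m28pb_laurent_div p hnice, m28pa_laurent_div p pj_disc_mem b,
      br_qExpansion_discriminant, hδ]
    exact Subring.mul_mem _ (m28pa_twist_mem p _ (m28pa_zeta_zpow_pow p b) hδmem)
      (m28pf_qExpand_mem _ p hδImem)
  · -- `(a, d) = (p, 1)`: `φ ∘ g = φ`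
    subst h1 h2
    have heq : ana_comp p g (m28pb_phi p) = m28pb_phi p := by
      apply Subtype.ext
      funext τ
      rw [ana_comp_apply, m28pb_phi_apply, hfun τ, m28pb_phi_apply, m28pa_aff_one,
        m28pa_vadd_int pj_disc_mem.2.1]
      simp [m28pb_phiFun]
    rw [heq, m28pb_E_phi]
    refine m28pf_qExpand_mem _ p (Subring.mul_mem _ ?_ ⟨m28pf_w m28k_Zbar p, m28pf_coeffMap_w _ p⟩)
    have h := m28pf_C_mem m28pf_incl ((p : m28k_Zbar) ^ 12)
    rwa [m28pf_incl_natCast_pow] at h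

end Fermat.Agent.M28

end
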