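import Mathlib
import Fermat.Prelude.Def_ModularCurve_IgusaScheme

/-!
# S28 (Igusa) — PKG-BM, part RES: the residue map `ℤ_(ℓ) → 𝔽_ℓ` (prefix `m28bm_`)

* `m28bm_res ℓ : ↥(GaloisRep.ratLocalizedAt ℓ) →+* ZMod ℓ` — the residue map;
* `m28bm_res_surjective`, `m28bm_res_ker : RingHom.ker (m28bm_res ℓ) = Ideal.span {(ℓ : ℤ_(ℓ))}`;
* `m28bm_ringHom_eq` — any ring hom out of `ℤ_(ℓ)` into a `ZMod ℓ`-algebra is
  `algebraMap ∘ m28bm_res`.
-/

set_option autoImplicit false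
set_option linter.deprecated false
set_option linter.unusedSectionVars false
set_option linter.unusedVariables false
set_option linter.style.haveILetI false

noncomputable section

namespace Fermat.Agent.M28

variable (ℓ : ℕ) [Fact ℓ.Prime]

theorem m28bm_den_ne_zero (x : ↥(GaloisRep.ratLocalizedAt ℓ)) :
    (((x : ℚ).den : ℕ) : ZMod ℓ) ≠ 0 := by
  have hx : (x : ℚ).den.Coprime ℓ := x.2
  intro h
  rw [ZMod.natCast_eq_zero_iff] at h
  have h1 : ℓ ∣ 1 := by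
    have := Nat.dvd_gcd h (dvd_refl ℓ)
    rwa [Nat.Coprime.gcd_eq_one hx] at this
  exact (Fact.out : ℓ.Prime).one_lt.ne' (Nat.dvd_one.mp h1)

/-- The residue map `ℤ_(ℓ) → 𝔽_ℓ`. -/
def m28bm_res : ↥(GaloisRep.ratLocalizedAt ℓ) →+* ZMod ℓ where
  toFun x := ((x : ℚ) : ZMod ℓ)
  map_one' := by simp
  map_mul' x y := by
    rw [Subring.coe_mul]
    exact Rat.cast_mul_of_ne_zero (m28bm_den_ne_zero ℓ x) (m28bm_den_ne_zero ℓ y)
  map_zero' := by simp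
  map_add' x y := by
    rw [Subring.coe_add]
    exact Rat.cast_add_of_ne_zero (m28bm_den_ne_zero ℓ x) (m28bm_den_ne_zero ℓ y)

theorem m28bm_res_apply (x : ↥(GaloisRep.ratLocalizedAt ℓ)) :
    m28bm_res ℓ x = ((x : ℚ) : ZMod ℓ) := rfl

/-- integers lie in `ℤ_(ℓ)`. -/
theorem m28bm_int_mem (n : ℤ) : (n : ℚ) ∈ GaloisRep.ratLocalizedAt ℓ := by
  show ((n : ℚ).den).Coprime ℓ
  simp

theorem m28bm_res_intCast (n : ℤ) : m28bm_res ℓ (n : ↥(GaloisRep.ratLocalizedAt ℓ)) = (n : ZMod ℓ) :=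
  map_intCast _ n

theorem m28bm_res_surjective : Function.Surjective (m28bm_res ℓ) := by
  intro c
  obtain ⟨n, rfl⟩ := ZMod.intCast_surjective c
  exact ⟨(n : ↥(GaloisRep.ratLocalizedAt ℓ)), m28bm_res_intCast ℓ n⟩

/-- the denominator of an element of `ℤ_(ℓ)` is a unit of `ℤ_(ℓ)`. -/
theorem m28bm_den_inv_mem (x : ↥(GaloisRep.ratLocalizedAt ℓ)) :
    (((x : ℚ).den : ℚ))⁻¹ ∈ GaloisRep.ratLocalizedAt ℓ := by
  show (((((x : ℚ).den : ℚ))⁻¹).den).Coprime ℓ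
  have hx : (x : ℚ).den.Coprime ℓ := x.2
  have h0 : (x : ℚ).den ≠ 0 := (x : ℚ).den_nz
  have h1 : (((x : ℚ).den : ℚ))⁻¹ = Rat.divInt 1 ((x : ℚ).den : ℤ) := by
    rw [Rat.divInt_eq_div]; simp
  have h2 : ((((x : ℚ).den : ℚ))⁻¹).den ∣ (x : ℚ).den := by
    rw [h1]
    have := Rat.den_dvd 1 ((x : ℚ).den : ℤ)
    exact_mod_cast this
  exact Nat.Coprime.coprime_dvd_left h2 hx

/-- every element of `ℤ_(ℓ)` is `num * den⁻¹` with `den⁻¹ ∈ ℤ_(ℓ)`. -/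
theorem m28bm_exists_num_den (x : ↥(GaloisRep.ratLocalizedAt ℓ)) :
    ∃ (n : ℤ) (d : ℕ) (u : ↥(GaloisRep.ratLocalizedAt ℓ)),
      (d : ↥(GaloisRep.ratLocalizedAt ℓ)) * u = 1 ∧ x = (n : ↥(GaloisRep.ratLocalizedAt ℓ)) * u ∧
      d.Coprime ℓ := by
  refine ⟨(x : ℚ).num, (x : ℚ).den, ⟨_, m28bm_den_inv_mem ℓ x⟩, ?_, ?_, x.2⟩
  · apply Subtype.ext
    push_cast
    exact mul_inv_cancel₀ (by exact_mod_cast (x : ℚ).den_nz)
  · apply Subtype.ext
    push_cast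
    rw [← div_eq_mul_inv]
    exact (Rat.num_div_den (x : ℚ)).symm

theorem m28bm_res_ker :
    RingHom.ker (m28bm_res ℓ) = Ideal.span {((ℓ : ℕ) : ↥(GaloisRep.ratLocalizedAt ℓ))} := by
  apply le_antisymm
  · intro x hx
    rw [RingHom.mem_ker] at hx
    obtain ⟨n, d, u, hdu, hxn, hd⟩ := m28bm_exists_num_den ℓ x
    have hu : m28bm_res ℓ u ≠ 0 := by
      intro h0
      have := congrArg (m28bm_res ℓ) hdu
      rw [map_mul, h0, mul_zero, map_one] at this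
      exact zero_ne_one this
    rw [hxn, map_mul, map_intCast] at hx
    have hn : (n : ZMod ℓ) = 0 := by
      rcases mul_eq_zero.mp hx with h | h
      · exact h
      · exact absurd h hu
    rw [ZMod.intCast_zmod_eq_zero_iff_dvd] at hn
    obtain ⟨m, rfl⟩ := hn
    rw [Ideal.mem_span_singleton]
    refine ⟨(m : ↥(GaloisRep.ratLocalizedAt ℓ)) * u, ?_⟩
    rw [hxn]
    push_cast
    ring
  · rw [Ideal.span_le, Set.singleton_subset_iff]
    show m28bm_res ℓ _ = 0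
    rw [map_natCast]
    exact ZMod.natCast_self ℓ

/-- Any ring hom from `ℤ_(ℓ)` to a `ZMod ℓ`-algebra factors through the residue map. -/
theorem m28bm_ringHom_eq {A : Type*} [CommRing A] [Algebra (ZMod ℓ) A]
    (φ : ↥(GaloisRep.ratLocalizedAt ℓ) →+* A) :
    φ = (algebraMap (ZMod ℓ) A).comp (m28bm_res ℓ) := by
  ext x
  obtain ⟨n, d, u, hdu, hxn, hd⟩ := m28bm_exists_num_den ℓ x
  set ψ := (algebraMap (ZMod ℓ) A).comp (m28bm_res ℓ) with hψ
  have h1 : φ (d : ↥(GaloisRep.ratLocalizedAt ℓ)) = ψ (d : ↥(GaloisRep.ratLocalizedAt ℓ)) := by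
    rw [map_natCast, map_natCast]
  have h2 : φ (n : ↥(GaloisRep.ratLocalizedAt ℓ)) = ψ (n : ↥(GaloisRep.ratLocalizedAt ℓ)) := by
    rw [map_intCast, map_intCast]
  have h3 : φ u = ψ u := by
    have e1 : φ (d : ↥(GaloisRep.ratLocalizedAt ℓ)) * φ u = 1 := by
      rw [← map_mul, hdu, map_one]
    have e2 : ψ (d : ↥(GaloisRep.ratLocalizedAt ℓ)) * ψ u = 1 := by
      rw [← map_mul, hdu, map_one]
    calc φ u = φ u * (ψ (d : ↥(GaloisRep.ratLocalizedAt ℓ)) * ψ u) := by rw [e2, mul_one]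
      _ = (φ (d : ↥(GaloisRep.ratLocalizedAt ℓ)) * φ u) * ψ u := by rw [h1]; ring
      _ = ψ u := by rw [e1, one_mul]
  rw [hxn, map_mul, map_mul, h2, h3]

end Fermat.Agent.M28
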