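import Mathlib

/-!
# S28 / PKG-BG, part 1: the Gauss valuation ring of `ℚ(j)` at `ℓ` (prefix `m28bg_`)

For a field `F ⊇ ℚ` and `j : F`, the set of all `x ∈ ℚ(j)` with `x * Q(j) = P(j)` for integer
polynomials `P, Q`, `Q` nonzero mod `ℓ`, is a valuation subring `m28bg_Ov` of `ℚ(j)`; every
nonzero element of `ℚ(j)` is `ℓ ^ k` times a unit (`m28bg_norm`).
-/

set_option autoImplicit false

noncomputable section

namespace Fermat.Agent.M28

open Polynomial IntermediateField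

variable (ℓ : ℕ)

/-- `Q` is nonzero modulo `ℓ`. -/
def m28bg_prim (Q : ℤ[X]) : Prop := Q.map (Int.castRingHom (ZMod ℓ)) ≠ 0

theorem m28bg_prim_one [Fact ℓ.Prime] : m28bg_prim ℓ 1 := by
  unfold m28bg_prim
  rw [Polynomial.map_one]
  exact one_ne_zero

theorem m28bg_prim_mul [Fact ℓ.Prime] {P Q : ℤ[X]} (hP : m28bg_prim ℓ P) (hQ : m28bg_prim ℓ Q) :
    m28bg_prim ℓ (P * Q) := by
  unfold m28bg_prim at *
  rw [Polynomial.map_mul]
  exact mul_ne_zero hP hQ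

theorem m28bg_prim_ne_zero {Q : ℤ[X]} (hQ : m28bg_prim ℓ Q) : Q ≠ 0 := by
  rintro rfl
  exact hQ (Polynomial.map_zero _)

theorem m28bg_map_eq_zero_iff (Q : ℤ[X]) :
    Q.map (Int.castRingHom (ZMod ℓ)) = 0 ↔ C (ℓ : ℤ) ∣ Q := by
  rw [Polynomial.C_dvd_iff_dvd_coeff, Polynomial.ext_iff]
  refine forall_congr' fun i => ?_
  rw [Polynomial.coeff_map, Polynomial.coeff_zero, eq_intCast, ZMod.intCast_zmod_eq_zero_iff_dvd]

theorem m28bg_prim_iff (Q : ℤ[X]) : m28bg_prim ℓ Q ↔ ¬ C (ℓ : ℤ) ∣ Q := by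
  unfold m28bg_prim
  rw [Ne, m28bg_map_eq_zero_iff]

theorem m28bg_prim_C [Fact ℓ.Prime] {u : ℤ} (hu : ¬ (ℓ : ℤ) ∣ u) : m28bg_prim ℓ (C u) := by
  rw [m28bg_prim_iff]
  intro h
  rw [Polynomial.C_dvd_iff_dvd_coeff] at h
  exact hu (by simpa using h 0)

theorem m28bg_irreducible_C [Fact ℓ.Prime] : Irreducible (C (ℓ : ℤ) : ℤ[X]) := by
  have hp : Prime (ℓ : ℤ) := Nat.prime_iff_prime_int.mp Fact.out
  exact (Polynomial.prime_C_iff.mpr hp).irreducible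

/-- every nonzero integer polynomial is `ℓ ^ a` times a polynomial nonzero mod `ℓ`. -/
theorem m28bg_normZ [Fact ℓ.Prime] (Q : ℤ[X]) (hQ : Q ≠ 0) :
    ∃ (a : ℕ) (Q₀ : ℤ[X]), m28bg_prim ℓ Q₀ ∧ Q = C (ℓ : ℤ) ^ a * Q₀ := by
  obtain ⟨a, Q₀, h1, h2⟩ := WfDvdMonoid.max_power_factor hQ (m28bg_irreducible_C ℓ)
  exact ⟨a, Q₀, (m28bg_prim_iff ℓ Q₀).mpr h1, h2⟩

/-- every nonzero integer is `ℓ ^ a` times an integer prime to `ℓ`. -/
theorem m28bg_normInt [Fact ℓ.Prime] (b : ℤ) (hb : b ≠ 0) :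
    ∃ (a : ℕ) (u : ℤ), ¬ (ℓ : ℤ) ∣ u ∧ b = (ℓ : ℤ) ^ a * u := by
  have hp : Prime (ℓ : ℤ) := Nat.prime_iff_prime_int.mp Fact.out
  obtain ⟨a, u, h1, h2⟩ := WfDvdMonoid.max_power_factor hb hp.irreducible
  exact ⟨a, u, h1, h2⟩

variable {F : Type} [Field F] [Algebra ℚ F] (j : F)

theorem m28bg_aeval_map (P : ℤ[X]) :
    aeval j (P.map (Int.castRingHom ℚ)) = aeval j P := by
  have := Polynomial.aeval_map_algebraMap (A := ℚ) (B := F) j P
  simpa using this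

theorem m28bg_lne [Fact ℓ.Prime] : ((ℓ : ℕ) : F) ≠ 0 := by
  have : CharZero F := charZero_of_injective_algebraMap (algebraMap ℚ F).injective
  exact Nat.cast_ne_zero.mpr (Fact.out : ℓ.Prime).ne_zero

/-- **normal form** of a nonzero value `r(j)` of a rational polynomial. -/
theorem m28bg_normQ [Fact ℓ.Prime] (r : ℚ[X]) (hr : aeval j r ≠ 0) :
    ∃ (k : ℤ) (P Q : ℤ[X]), m28bg_prim ℓ P ∧ m28bg_prim ℓ Q ∧ aeval j Q ≠ 0 ∧
      aeval j r * aeval j Q = ((ℓ : ℕ) : F) ^ k * aeval j P := by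
  have hr0 : r ≠ 0 := by
    rintro rfl
    exact hr (map_zero _)
  obtain ⟨b, hb, hspec⟩ := IsLocalization.integerNormalization_spec (nonZeroDivisors ℤ) r
  set r₁ : ℤ[X] := IsLocalization.integerNormalization (nonZeroDivisors ℤ) r with hr₁
  have hb0 : b ≠ 0 := nonZeroDivisors.ne_zero hb
  have hr₁0 : r₁ ≠ 0 := by
    intro h
    rw [h, Polynomial.map_zero] at hspec
    have : (b • r) = 0 := hspec.symm
    rw [Algebra.smul_def] at this
    rcases mul_eq_zero.mp this with h' | h'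
    · have : (algebraMap ℤ ℚ[X]) b ≠ 0 := by
        rw [Ne, ← map_zero (algebraMap ℤ ℚ[X])]
        intro hh
        have hinj : Function.Injective (algebraMap ℤ ℚ[X]) := by
          rw [IsScalarTower.algebraMap_eq ℤ ℚ ℚ[X]]
          exact (Polynomial.C_injective).comp (algebraMap ℤ ℚ).injective_int
        exact hb0 (hinj hh)
      exact this h'
    · exact hr0 h'
  obtain ⟨a, P, hP, hPeq⟩ := m28bg_normZ ℓ r₁ hr₁0
  obtain ⟨a', u, hu, hueq⟩ := m28bg_normInt ℓ b hb0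
  have hl : ((ℓ : ℕ) : F) ≠ 0 := m28bg_lne ℓ
  have hu0 : u ≠ 0 := by
    rintro rfl
    exact hu (dvd_zero _)
  have h4 : aeval j (C u : ℤ[X]) = (u : F) := by
    rw [aeval_C]; simp
  have hu0F : (u : F) ≠ 0 := by
    have : CharZero F := charZero_of_injective_algebraMap (algebraMap ℚ F).injective
    exact Int.cast_ne_zero.mpr hu0
  refine ⟨(a : ℤ) - (a' : ℤ), P, C u, hP, m28bg_prim_C ℓ hu, by rw [h4]; exact hu0F, ?_⟩
  have h1 : aeval j (r₁.map (Int.castRingHom ℚ)) = (b : F) * aeval j r := by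
    have : r₁.map (Int.castRingHom ℚ) = b • r := hspec
    rw [this, map_zsmul, zsmul_eq_mul]
  rw [m28bg_aeval_map] at h1
  have h2 : aeval j r₁ = ((ℓ : ℕ) : F) ^ a * aeval j P := by
    rw [hPeq, map_mul, map_pow, aeval_C]
    simp
  have h3 : (b : F) = ((ℓ : ℕ) : F) ^ a' * (u : F) := by
    rw [hueq]; push_cast; ring
  rw [h4, zpow_sub₀ hl, zpow_natCast, zpow_natCast, div_mul_eq_mul_div, eq_div_iff (pow_ne_zero _ hl),
    ← h2, h1, h3]
  ring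

/-- **normal form** of a nonzero element of `ℚ(j)`: `x = ℓ ^ k * P(j) / Q(j)`. -/
theorem m28bg_norm [Fact ℓ.Prime] (x : F) (hx : x ∈ ℚ⟮j⟯) (hx0 : x ≠ 0) :
    ∃ (k : ℤ) (P Q : ℤ[X]), m28bg_prim ℓ P ∧ m28bg_prim ℓ Q ∧
      x * aeval j Q = ((ℓ : ℕ) : F) ^ k * aeval j P := by
  obtain ⟨r, s, hrs⟩ := (IntermediateField.mem_adjoin_simple_iff ℚ x).mp hx
  have hs : aeval j s ≠ 0 := by
    intro h
    rw [h, div_zero] at hrs
    exact hx0 hrs
  have hr : aeval j r ≠ 0 := by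
    intro h
    rw [h, zero_div] at hrs
    exact hx0 hrs
  obtain ⟨k, P, Q, hP, hQ, hQ0, h⟩ := m28bg_normQ ℓ j r hr
  obtain ⟨k', P', Q', hP', hQ', hQ'0, h'⟩ := m28bg_normQ ℓ j s hs
  have hl : ((ℓ : ℕ) : F) ≠ 0 := m28bg_lne ℓ
  refine ⟨k - k', P * Q', P' * Q, m28bg_prim_mul ℓ hP hQ', m28bg_prim_mul ℓ hP' hQ, ?_⟩
  rw [map_mul, map_mul, hrs, zpow_sub₀ hl]
  have e1 : aeval j r / aeval j s * (aeval j P' * aeval j Q)
      = (aeval j r * aeval j Q) * aeval j P' / aeval j s := by ring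
  rw [e1, h]
  have e2 : aeval j P' = aeval j s * aeval j Q' / ((ℓ : ℕ) : F) ^ k' := by
    rw [h']
    field_simp
  rw [e2]
  field_simp

/-- the Gauss valuation ring of `ℚ(j)` at `ℓ`. -/
def m28bg_Ov [Fact ℓ.Prime] : ValuationSubring ℚ⟮j⟯ where
  carrier := {x | ∃ P Q : ℤ[X], m28bg_prim ℓ Q ∧ (x : F) * aeval j Q = aeval j P}
  mul_mem' := by
    rintro x y ⟨P, Q, hQ, h⟩ ⟨P', Q', hQ', h'⟩
    refine ⟨P * P', Q * Q', m28bg_prim_mul ℓ hQ hQ', ?_⟩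
    rw [map_mul, map_mul, ← h, ← h']
    push_cast
    ring
  one_mem' := ⟨1, 1, m28bg_prim_one ℓ, by simp⟩
  add_mem' := by
    rintro x y ⟨P, Q, hQ, h⟩ ⟨P', Q', hQ', h'⟩
    refine ⟨P * Q' + P' * Q, Q * Q', m28bg_prim_mul ℓ hQ hQ', ?_⟩
    rw [map_add, map_mul, map_mul, map_mul, ← h, ← h']
    push_cast
    ring
  zero_mem' := ⟨0, 1, m28bg_prim_one ℓ, by simp⟩
  neg_mem' := by
    rintro x ⟨P, Q, hQ, h⟩
    refine ⟨-P, Q, hQ, ?_⟩
    rw [map_neg, ← h]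
    push_cast
    ring
  mem_or_inv_mem' := by
    intro x
    by_cases hx0 : x = 0
    · left
      rw [hx0]
      exact ⟨0, 1, m28bg_prim_one ℓ, by simp⟩
    have hx0' : (x : F) ≠ 0 := fun h => hx0 (Subtype.ext h)
    obtain ⟨k, P, Q, hP, hQ, h⟩ := m28bg_norm ℓ j (x : F) x.2 hx0'
    have hl : ((ℓ : ℕ) : F) ≠ 0 := m28bg_lne ℓ
    rcases le_or_gt 0 k with hk | hk
    · left
      lift k to ℕ using hk
      refine ⟨C (ℓ : ℤ) ^ k * P, Q, hQ, ?_⟩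
      rw [h, map_mul, map_pow, aeval_C, zpow_natCast]
      simp
    · right
      obtain ⟨m, hm⟩ : ∃ m : ℕ, -k = (m : ℤ) := ⟨(-k).toNat, by omega⟩
      refine ⟨C (ℓ : ℤ) ^ m * Q, P, hP, ?_⟩
      have hk' : k = -(m : ℤ) := by omega
      rw [hk', zpow_neg, zpow_natCast] at h
      rw [map_mul, map_pow, aeval_C]
      have e : ((x⁻¹ : ℚ⟮j⟯) : F) = (x : F)⁻¹ := by simp
      rw [e]
      have hpow : (((ℓ : ℕ) : F) ^ m) ≠ 0 := pow_ne_zero _ hl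
      have h2 : aeval j P = (x : F) * aeval j Q * ((ℓ : ℕ) : F) ^ m := by
        rw [h]; field_simp
      rw [h2]
      simp only [algebraMap_int_eq, eq_intCast, Int.cast_natCast]
      field_simp

theorem m28bg_mem_Ov_iff [Fact ℓ.Prime] (x : ℚ⟮j⟯) :
    x ∈ m28bg_Ov ℓ j ↔ ∃ P Q : ℤ[X], m28bg_prim ℓ Q ∧ (x : F) * aeval j Q = aeval j P :=
  Iff.rfl

end Fermat.Agent.M28

end
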