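import Mathlib
import Fermat.Agent.M28.BmRes
import Fermat.Agent.M28.BgVal

/-!
# S28 / PKG-BG, part 2: the integrality descent lemma (prefix `m28bg_`)

* `m28bg_core`: over an integrally closed domain `A` with fraction field inside a field `F`,
  if `p • x` and `t • x` are integral over `A`, `p` prime, `p ∤ t`, then `x` is integral.
* `m28bg_zl_pid`, `m28bg_zl_prime`: `ℤ_(ℓ)` is a PID in which `ℓ` is prime.
* `m28bg_Lg`: for `g` transcendental, integrality over `ℤ_(ℓ)[g]` of `ℓ * x` and of `T(g) * x`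
  (`T` an integer polynomial nonzero mod `ℓ`) implies integrality of `x`.
-/

set_option autoImplicit false
set_option linter.style.haveILetI false
set_option linter.unusedSectionVars false

noncomputable section

namespace Fermat.Agent.M28

open Polynomial

/-- coefficients of the minimal polynomial over the fraction field of `r • x`. -/
theorem m28bg_coeff_smul {A F : Type} [CommRing A] [IsDomain A] [IsIntegrallyClosed A] [Field F]
    [Algebra A F] [FaithfulSMul A F] {r : A} (hr : r ≠ 0) {x : F}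
    (h1 : IsIntegral A (r • x)) :
    letI : Algebra (FractionRing A) F := FractionRing.liftAlgebra A F
    ∀ i, algebraMap A (FractionRing A) ((minpoly A (r • x)).coeff i) =
      (minpoly (FractionRing A) x).coeff i *
        (algebraMap A (FractionRing A) r) ^ ((minpoly (FractionRing A) x).natDegree - i) := by
  letI : Algebra (FractionRing A) F := FractionRing.liftAlgebra A F
  intro i
  have hrK : algebraMap A (FractionRing A) r ≠ 0 := by
    rw [Ne, map_eq_zero_iff _ (IsFractionRing.injective A (FractionRing A))]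
    exact hr
  have hxK : IsIntegral (FractionRing A) x := by
    have h3 : IsIntegral (FractionRing A) (r • x) := h1.tower_top
    have h4 : x = (algebraMap A (FractionRing A) r)⁻¹ • (r • x) := by
      rw [← IsScalarTower.algebraMap_smul (FractionRing A) r x, smul_smul,
        inv_mul_cancel₀ hrK, one_smul]
    rw [h4]
    exact h3.smul _
  have e1 := minpoly.isIntegrallyClosed_eq_field_fractions' (FractionRing A) h1
  have e2 : minpoly (FractionRing A) (r • x)
      = (minpoly (FractionRing A) x).scaleRoots (algebraMap A (FractionRing A) r) := by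
    rw [← IsScalarTower.algebraMap_smul (FractionRing A) r x]
    exact IsIntegrallyClosed.minpoly_smul hrK hxK
  have e3 := congrArg (fun q => q.coeff i) (e1.symm.trans e2)
  simpa [coeff_map, coeff_scaleRoots] using e3

/-- **core lemma**: over an integrally closed domain, if `p • x` and `t • x` are integral with
`p` prime not dividing `t`, then `x` is integral. -/
theorem m28bg_core {A F : Type} [CommRing A] [IsDomain A] [IsIntegrallyClosed A] [Field F]
    [Algebra A F] [FaithfulSMul A F] {p t : A} (hp : Prime p) (hpt : ¬ p ∣ t) {x : F}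
    (h1 : IsIntegral A (p • x)) (h2 : IsIntegral A (t • x)) : IsIntegral A x := by
  letI : Algebra (FractionRing A) F := FractionRing.liftAlgebra A F
  have ht0 : t ≠ 0 := by
    rintro rfl
    exact hpt (dvd_zero p)
  have c1 := m28bg_coeff_smul hp.ne_zero h1
  have c2 := m28bg_coeff_smul ht0 h2
  set μ := minpoly (FractionRing A) x with hμ
  have hinj : Function.Injective (algebraMap A (FractionRing A)) :=
    IsFractionRing.injective A (FractionRing A)
  have hpK : algebraMap A (FractionRing A) p ≠ 0 := by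
    rw [Ne, map_eq_zero_iff _ hinj]
    exact hp.ne_zero
  have hxK : IsIntegral (FractionRing A) x := by
    have h3 : IsIntegral (FractionRing A) (p • x) := h1.tower_top
    have h4 : x = (algebraMap A (FractionRing A) p)⁻¹ • (p • x) := by
      rw [← IsScalarTower.algebraMap_smul (FractionRing A) p x, smul_smul,
        inv_mul_cancel₀ hpK, one_smul]
    rw [h4]
    exact h3.smul _
  have hlift : μ ∈ Polynomial.lifts (algebraMap A (FractionRing A)) := by
    rw [Polynomial.lifts_iff_coeff_lifts]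
    intro i
    set e := μ.natDegree - i
    have h5 : (minpoly A (p • x)).coeff i * t ^ e = (minpoly A (t • x)).coeff i * p ^ e := by
      apply hinj
      rw [map_mul, map_mul, map_pow, map_pow, c1 i, c2 i]
      ring
    have h6 : p ^ e ∣ (minpoly A (p • x)).coeff i := by
      refine hp.pow_dvd_of_dvd_mul_right e ?_ ?_ (b := t ^ e)
      · intro h
        exact hpt (hp.dvd_of_dvd_pow h)
      · rw [h5]
        exact dvd_mul_left _ _
    obtain ⟨w, hw⟩ := h6
    refine ⟨w, ?_⟩
    have h7 := c1 i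
    rw [hw, map_mul, map_pow] at h7
    have h8 : (algebraMap A (FractionRing A) p) ^ e ≠ 0 := pow_ne_zero _ hpK
    have h9 : (algebraMap A (FractionRing A) w) * (algebraMap A (FractionRing A) p) ^ e
        = μ.coeff i * (algebraMap A (FractionRing A) p) ^ e := by
      rw [← h7]; ring
    exact mul_right_cancel₀ h8 h9
  obtain ⟨q, hq, -, hqm⟩ := Polynomial.lifts_and_degree_eq_and_monic hlift (minpoly.monic hxK)
  refine ⟨q, hqm, ?_⟩
  have h10 : aeval x (q.map (algebraMap A (FractionRing A))) = 0 := by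
    rw [hq]
    exact minpoly.aeval _ _
  rw [Polynomial.aeval_map_algebraMap] at h10
  exact h10


variable (ℓ : ℕ) [Fact ℓ.Prime]

/-- `ℤ_(ℓ)` is a principal ideal ring. -/
theorem m28bg_zl_pid : IsPrincipalIdealRing ↥(GaloisRep.ratLocalizedAt ℓ) := by
  refine ⟨fun I => ?_⟩
  obtain ⟨n, hn⟩ : ∃ n : ℤ, I.comap (Int.castRingHom ↥(GaloisRep.ratLocalizedAt ℓ))
      = Ideal.span {n} :=
    ⟨_, (Submodule.IsPrincipal.span_singleton_generator
      (I.comap (Int.castRingHom ↥(GaloisRep.ratLocalizedAt ℓ)))).symm⟩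
  refine ⟨⟨(n : ↥(GaloisRep.ratLocalizedAt ℓ)), ?_⟩⟩
  have hnI : (n : ↥(GaloisRep.ratLocalizedAt ℓ)) ∈ I := by
    have : n ∈ I.comap (Int.castRingHom ↥(GaloisRep.ratLocalizedAt ℓ)) := by
      rw [hn]
      exact Ideal.mem_span_singleton_self n
    simpa [Ideal.mem_comap] using this
  apply le_antisymm
  · intro x hx
    obtain ⟨m, d, u, hdu, hxm, -⟩ := m28bm_exists_num_den ℓ x
    have hm : (m : ↥(GaloisRep.ratLocalizedAt ℓ)) ∈ I := by
      have : (m : ↥(GaloisRep.ratLocalizedAt ℓ)) = (d : ↥(GaloisRep.ratLocalizedAt ℓ)) * x := by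
        rw [hxm]
        calc (m : ↥(GaloisRep.ratLocalizedAt ℓ))
            = (m : ↥(GaloisRep.ratLocalizedAt ℓ)) * ((d : ↥(GaloisRep.ratLocalizedAt ℓ)) * u) := by
              rw [hdu, mul_one]
          _ = _ := by ring
      rw [this]
      exact I.mul_mem_left _ hx
    have hm' : m ∈ I.comap (Int.castRingHom ↥(GaloisRep.ratLocalizedAt ℓ)) := by
      simpa [Ideal.mem_comap] using hm
    rw [hn, Ideal.mem_span_singleton] at hm'
    obtain ⟨c, rfl⟩ := hm'
    show x ∈ Ideal.span {(n : ↥(GaloisRep.ratLocalizedAt ℓ))}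
    rw [Ideal.mem_span_singleton]
    refine ⟨(c : ↥(GaloisRep.ratLocalizedAt ℓ)) * u, ?_⟩
    rw [hxm]
    push_cast
    ring
  · show Ideal.span {(n : ↥(GaloisRep.ratLocalizedAt ℓ))} ≤ I
    rw [Ideal.span_le, Set.singleton_subset_iff]
    exact hnI

theorem m28bg_zl_ne_zero : ((ℓ : ℕ) : ↥(GaloisRep.ratLocalizedAt ℓ)) ≠ 0 := by
  intro h
  have := congrArg (Subtype.val) h
  simp at this
  exact (Fact.out : ℓ.Prime).ne_zero this

/-- `ℓ` is a prime element of `ℤ_(ℓ)`. -/
theorem m28bg_zl_prime : Prime ((ℓ : ℕ) : ↥(GaloisRep.ratLocalizedAt ℓ)) := by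
  rw [← Ideal.span_singleton_prime (m28bg_zl_ne_zero ℓ), ← m28bm_res_ker]
  exact RingHom.ker_isPrime _

/-- an integer polynomial that is nonzero mod `ℓ` is not divisible by `ℓ` over `ℤ_(ℓ)`. -/
theorem m28bg_not_dvd_map {T : ℤ[X]} (hT : m28bg_prim ℓ T) :
    ¬ (C ((ℓ : ℕ) : ↥(GaloisRep.ratLocalizedAt ℓ)) ∣
      T.map (Int.castRingHom ↥(GaloisRep.ratLocalizedAt ℓ))) := by
  intro h
  apply hT
  rw [Polynomial.C_dvd_iff_dvd_coeff] at h
  ext i
  rw [Polynomial.coeff_map, Polynomial.coeff_zero]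
  have h1 := h i
  rw [Polynomial.coeff_map] at h1
  obtain ⟨c, hc⟩ := h1
  have h2 := congrArg (m28bm_res ℓ) hc
  rw [map_mul, map_natCast, ZMod.natCast_self, zero_mul] at h2
  rw [eq_intCast] at h2 ⊢
  rw [← h2, map_intCast]

variable {F : Type} [Field F] [Algebra ↥(GaloisRep.ratLocalizedAt ℓ) F]

/-- **(L_g)**: integrality over `ℤ_(ℓ)[g]` descends along `ℓ` and a primitive `T(g)`. -/
theorem m28bg_Lg (g : F) (hg : Transcendental ↥(GaloisRep.ratLocalizedAt ℓ) g)
    (T : ℤ[X]) (hT : m28bg_prim ℓ T) (x : F)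
    (h1 : IsIntegral ↥(Algebra.adjoin ↥(GaloisRep.ratLocalizedAt ℓ) ({g} : Set F))
      (((ℓ : ℕ) : F) * x))
    (h2 : IsIntegral ↥(Algebra.adjoin ↥(GaloisRep.ratLocalizedAt ℓ) ({g} : Set F))
      (aeval g T * x)) :
    IsIntegral ↥(Algebra.adjoin ↥(GaloisRep.ratLocalizedAt ℓ) ({g} : Set F)) x := by
  haveI := m28bg_zl_pid ℓ
  set A := Algebra.adjoin ↥(GaloisRep.ratLocalizedAt ℓ) ({g} : Set F) with hA
  let φ : Polynomial ↥(GaloisRep.ratLocalizedAt ℓ) →ₐ[↥(GaloisRep.ratLocalizedAt ℓ)] ↥A :=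
    (aeval g).codRestrict A (fun P => Polynomial.aeval_mem_adjoin_singleton _ _)
  have hφ : ∀ P, ((φ P : ↥A) : F) = aeval g P := fun P => rfl
  have hinj : Function.Injective φ := by
    intro P Q hPQ
    have := congrArg (Subtype.val) hPQ
    rw [hφ, hφ] at this
    exact (transcendental_iff_injective.mp hg) this
  have hsurj : Function.Surjective φ := by
    rintro ⟨a, ha⟩
    have ha' := ha
    rw [hA, Algebra.adjoin_singleton_eq_range_aeval, AlgHom.mem_range] at ha'
    obtain ⟨P, hP⟩ := ha'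
    exact ⟨P, Subtype.ext hP⟩
  let e : Polynomial ↥(GaloisRep.ratLocalizedAt ℓ) ≃+* ↥A :=
    RingEquiv.ofBijective φ.toRingHom ⟨hinj, hsurj⟩
  have he : ∀ P, e P = φ P := fun P => rfl
  haveI : IsIntegrallyClosed ↥A := IsIntegrallyClosed.of_equiv e
  haveI : FaithfulSMul ↥A F :=
    (faithfulSMul_iff_algebraMap_injective ↥A F).mpr Subtype.val_injective
  have hp : Prime (e (C ((ℓ : ℕ) : ↥(GaloisRep.ratLocalizedAt ℓ)))) :=
    (MulEquiv.prime_iff e).mpr (Polynomial.prime_C_iff.mpr (m28bg_zl_prime ℓ))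
  have hpt : ¬ (e (C ((ℓ : ℕ) : ↥(GaloisRep.ratLocalizedAt ℓ))) ∣
      e (T.map (Int.castRingHom ↥(GaloisRep.ratLocalizedAt ℓ)))) := by
    rw [map_dvd_iff e]
    exact m28bg_not_dvd_map ℓ hT
  have e1 : ((e (C ((ℓ : ℕ) : ↥(GaloisRep.ratLocalizedAt ℓ))) : ↥A) : F) = ((ℓ : ℕ) : F) := by
    rw [he, hφ, aeval_C, map_natCast]
  have e2 : ((e (T.map (Int.castRingHom ↥(GaloisRep.ratLocalizedAt ℓ))) : ↥A) : F)
      = aeval g T := by
    rw [he, hφ]
    have := Polynomial.aeval_map_algebraMap (A := ↥(GaloisRep.ratLocalizedAt ℓ)) (B := F) g T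
    simpa using this
  refine m28bg_core hp hpt (x := x) ?_ ?_
  · have : (e (C ((ℓ : ℕ) : ↥(GaloisRep.ratLocalizedAt ℓ)))) • x = ((ℓ : ℕ) : F) * x := by
      rw [Algebra.smul_def, ← e1]; rfl
    rw [this]; exact h1
  · have : (e (T.map (Int.castRingHom ↥(GaloisRep.ratLocalizedAt ℓ)))) • x = aeval g T * x := by
      rw [Algebra.smul_def, ← e2]; rfl
    rw [this]; exact h2

end Fermat.Agent.M28

end
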