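import Mathlib
import Fermat.Agent.M28.BgVal

/-!
# S28 / PKG-BG, part 3: scaling lemma, step 1 and the normal form (prefix `m28bg_`)

* `m28bg_scale`: a finite family in `ℚ(j)`, not all zero, is `ℓ ^ k * Pᵢ(j) / Q(j)` with a common
  `k`, a common `Q` nonzero mod `ℓ`, and some `Pᵢ` nonzero mod `ℓ`.
* `m28bg_linearIndependent`: a family in `R` whose reductions are independent over `𝔽_ℓ(j̄)` is
  independent over `ℚ(j)`.
* `m28bg_nf_of_basis`: every nonzero `x : F` satisfies `x * Q(j) = ℓ ^ k * r` with `r ∈ R`,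
  `ρ r ≠ 0`, `Q` nonzero mod `ℓ`.
-/

set_option autoImplicit false
set_option linter.style.haveILetI false
set_option linter.unusedSectionVars false

noncomputable section

namespace Fermat.Agent.M28

open Polynomial IntermediateField

/-- ring homs commute with evaluation of integer polynomials. -/
theorem m28bg_map_aeval {A B : Type} [CommRing A] [CommRing B] (φ : A →+* B) (a : A) (P : ℤ[X]) :
    φ (aeval a P) = aeval (φ a) P := by
  rw [aeval_def, aeval_def, hom_eval₂]
  congr 1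
  exact RingHom.ext_int _ _

variable (ℓ : ℕ) [Fact ℓ.Prime]

section evb

variable {M : Type} [Field M] [Algebra (ZMod ℓ) M] (jb : M)

theorem m28bg_evb_map (P : ℤ[X]) :
    aeval jb (P.map (Int.castRingHom (ZMod ℓ))) = aeval jb P := by
  have := Polynomial.aeval_map_algebraMap (A := ZMod ℓ) (B := M) jb P
  simpa using this

theorem m28bg_evb_ne_zero (htrl : Transcendental (ZMod ℓ) jb) {P : ℤ[X]} (hP : m28bg_prim ℓ P) :
    aeval jb P ≠ 0 := by
  rw [← m28bg_evb_map ℓ jb P]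
  intro h
  exact hP ((transcendental_iff.mp htrl) _ h)

theorem m28bg_evb_eq_zero {P : ℤ[X]} (hP : ¬ m28bg_prim ℓ P) : aeval jb P = 0 := by
  rw [← m28bg_evb_map ℓ jb P]
  have : P.map (Int.castRingHom (ZMod ℓ)) = 0 := by
    by_contra h
    exact hP h
  rw [this, map_zero]

theorem m28bg_evb_mem (P : ℤ[X]) : aeval jb P ∈ IntermediateField.adjoin (ZMod ℓ) {jb} := by
  rw [← m28bg_evb_map ℓ jb P]
  exact IntermediateField.algebra_adjoin_le_adjoin _ _ (Polynomial.aeval_mem_adjoin_singleton _ _)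

theorem m28bg_l_eq_zero : ((ℓ : ℕ) : M) = 0 := by
  have : ((ℓ : ℕ) : M) = algebraMap (ZMod ℓ) M ((ℓ : ℕ) : ZMod ℓ) := by
    rw [map_natCast]
  rw [this, ZMod.natCast_self, map_zero]

end evb

section ev

variable {F : Type} [Field F] [Algebra ℚ F] (j : F)

theorem m28bg_ev_ne_zero (htr : Transcendental ℚ j) {P : ℤ[X]} (hP : P ≠ 0) : aeval j P ≠ 0 := by
  rw [← m28bg_aeval_map j P]
  intro h
  have h1 := (transcendental_iff.mp htr) _ h
  apply hP
  have hinj : Function.Injective (Int.castRingHom ℚ) := Int.cast_injective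
  exact (Polynomial.map_injective _ hinj) (by rw [h1, Polynomial.map_zero])

theorem m28bg_ev_mem (P : ℤ[X]) : aeval j P ∈ ℚ⟮j⟯ := by
  rw [← m28bg_aeval_map j P]
  exact IntermediateField.algebra_adjoin_le_adjoin _ _ (Polynomial.aeval_mem_adjoin_singleton _ _)

/-- **scaling lemma** (finset form). -/
theorem m28bg_scale_finset {κ : Type} (c : κ → F) (hc : ∀ i, c i ∈ ℚ⟮j⟯)
    (s : Finset κ) :
    ∃ (k : ℤ) (Q : ℤ[X]) (P : κ → ℤ[X]), m28bg_prim ℓ Q ∧
      (∀ i ∈ s, c i * aeval j Q = ((ℓ : ℕ) : F) ^ k * aeval j (P i)) ∧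
      ((∀ i ∈ s, c i = 0) ∨ ∃ i ∈ s, m28bg_prim ℓ (P i)) := by
  classical
  have hl : ((ℓ : ℕ) : F) ≠ 0 := m28bg_lne ℓ
  induction s using Finset.induction_on with
  | empty => exact ⟨0, 1, fun _ => 0, m28bg_prim_one ℓ, by simp, Or.inl (by simp)⟩
  | insert a s ha ih =>
    obtain ⟨k, Q, P, hQ, hP, hdisj⟩ := ih
    by_cases hca : c a = 0
    · refine ⟨k, Q, Function.update P a 0, hQ, ?_, ?_⟩
      · intro i hi
        rcases Finset.mem_insert.mp hi with rfl | hi
        · simp [hca]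
        · have : i ≠ a := fun h => ha (h ▸ hi)
          rw [Function.update_of_ne this]
          exact hP i hi
      · rcases hdisj with h | ⟨i, hi, hPi⟩
        · left
          intro i hi
          rcases Finset.mem_insert.mp hi with rfl | hi
          · exact hca
          · exact h i hi
        · right
          refine ⟨i, Finset.mem_insert_of_mem hi, ?_⟩
          have : i ≠ a := fun h => ha (h ▸ hi)
          rwa [Function.update_of_ne this]
    · obtain ⟨ka, Pa, Qa, hPa, hQa, hnorm⟩ := m28bg_norm ℓ j (c a) (hc a) hca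
      rcases hdisj with h | ⟨i0, hi0, hPi0⟩
      · refine ⟨ka, Qa, fun i => if i = a then Pa else 0, hQa, ?_,
          Or.inr ⟨a, Finset.mem_insert_self a s, by simpa using hPa⟩⟩
        intro i hi
        rcases Finset.mem_insert.mp hi with rfl | hi
        · simpa using hnorm
        · have : i ≠ a := fun h => ha (h ▸ hi)
          simp [this, h i hi]
      · have hi0a : i0 ≠ a := fun h => ha (h ▸ hi0)
        rcases le_or_gt k ka with hk | hk
        · obtain ⟨m, hm⟩ : ∃ m : ℕ, ka = k + m := ⟨(ka - k).toNat, by omega⟩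
          refine ⟨k, Q * Qa, fun i => if i = a then C (ℓ : ℤ) ^ m * Pa * Q else P i * Qa,
            m28bg_prim_mul ℓ hQ hQa, ?_, Or.inr ⟨i0, Finset.mem_insert_of_mem hi0, ?_⟩⟩
          · intro i hi
            rcases Finset.mem_insert.mp hi with rfl | hi
            · simp only [if_true, map_mul, map_pow, aeval_C]
              have e : c i * (aeval j Q * aeval j Qa) = (c i * aeval j Qa) * aeval j Q := by ring
              rw [e, hnorm, hm, zpow_add₀ hl, zpow_natCast]
              simp only [algebraMap_int_eq, eq_intCast, Int.cast_natCast]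
              ring
            · have : i ≠ a := fun h => ha (h ▸ hi)
              simp only [this, if_false, map_mul]
              rw [← mul_assoc, hP i hi]
              ring
          · simp only [hi0a, if_false]
            exact m28bg_prim_mul ℓ hPi0 hQa
        · obtain ⟨m, hm⟩ : ∃ m : ℕ, k = ka + m := ⟨(k - ka).toNat, by omega⟩
          refine ⟨ka, Q * Qa, fun i => if i = a then Pa * Q else C (ℓ : ℤ) ^ m * P i * Qa,
            m28bg_prim_mul ℓ hQ hQa, ?_, Or.inr ⟨a, Finset.mem_insert_self a s, ?_⟩⟩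
          · intro i hi
            rcases Finset.mem_insert.mp hi with rfl | hi
            · simp only [if_true, map_mul]
              have e : c i * (aeval j Q * aeval j Qa) = (c i * aeval j Qa) * aeval j Q := by ring
              rw [e, hnorm]
              ring
            · have : i ≠ a := fun h => ha (h ▸ hi)
              simp only [this, if_false, map_mul, map_pow, aeval_C]
              rw [← mul_assoc, hP i hi, hm, zpow_add₀ hl, zpow_natCast]
              simp only [algebraMap_int_eq, eq_intCast, Int.cast_natCast]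
              ring
          · simp only [if_true]
            exact m28bg_prim_mul ℓ hPa hQ

/-- **scaling lemma**: a finite family in `ℚ(j)`, not all zero, has a common normal form. -/
theorem m28bg_scale {n : ℕ} (c : Fin n → F) (hc : ∀ i, c i ∈ ℚ⟮j⟯) (h0 : ∃ i, c i ≠ 0) :
    ∃ (k : ℤ) (Q : ℤ[X]) (P : Fin n → ℤ[X]), m28bg_prim ℓ Q ∧ (∃ i, m28bg_prim ℓ (P i)) ∧
      ∀ i, c i * aeval j Q = ((ℓ : ℕ) : F) ^ k * aeval j (P i) := by
  obtain ⟨k, Q, P, hQ, hP, hdisj⟩ := m28bg_scale_finset ℓ j c hc Finset.univ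
  refine ⟨k, Q, P, hQ, ?_, fun i => hP i (Finset.mem_univ i)⟩
  rcases hdisj with h | ⟨i, -, hi⟩
  · obtain ⟨i, hi⟩ := h0
    exact absurd (h i (Finset.mem_univ i)) hi
  · exact ⟨i, hi⟩

end ev

section nf

variable {F M R : Type} [Field F] [Algebra ℚ F] [Field M] [Algebra (ZMod ℓ) M] [CommRing R]

/-- if `ρ (∑ Pᵢ(j) bᵢ) = 0` then every `Pᵢ` vanishes mod `ℓ`. -/
theorem m28bg_ind (jb : M) (jR : R) (ρ : R →+* M) (hρj : ρ jR = jb)
    (htrl : Transcendental (ZMod ℓ) jb) {n : ℕ} (b : Fin n → R)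
    (hb : LinearIndependent ↥(IntermediateField.adjoin (ZMod ℓ) {jb}) (fun i => ρ (b i)))
    (P : Fin n → ℤ[X]) (h : ρ (∑ i, aeval jR (P i) * b i) = 0) (i : Fin n) :
    ¬ m28bg_prim ℓ (P i) := by
  intro hP
  rw [map_sum] at h
  have h1 : ∑ i, (⟨aeval jb (P i), m28bg_evb_mem ℓ jb (P i)⟩ :
      ↥(IntermediateField.adjoin (ZMod ℓ) {jb})) • ρ (b i) = 0 := by
    rw [← h]
    refine Finset.sum_congr rfl fun i _ => ?_
    rw [map_mul, m28bg_map_aeval, hρj]
    rfl
  have h2 := Fintype.linearIndependent_iff.mp hb _ h1 i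
  have h3 : aeval jb (P i) = 0 := congrArg Subtype.val h2
  exact m28bg_evb_ne_zero ℓ jb htrl hP h3

/-- **step 1**: the family `b` is linearly independent over `ℚ(j)`. -/
theorem m28bg_linearIndependent (j : F) (jb : M) (jR : R) (ι : R →+* F) (ρ : R →+* M)
    (hιinj : Function.Injective ι) (hιj : ι jR = j) (hρj : ρ jR = jb)
    (htrl : Transcendental (ZMod ℓ) jb) {n : ℕ} (b : Fin n → R)
    (hb : LinearIndependent ↥(IntermediateField.adjoin (ZMod ℓ) {jb}) (fun i => ρ (b i))) :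
    LinearIndependent ↥ℚ⟮j⟯ (fun i => ι (b i)) := by
  rw [Fintype.linearIndependent_iff]
  intro g hg
  by_contra hne
  push Not at hne
  obtain ⟨i1, hi1⟩ := hne
  have h0 : ∃ i, ((g i : ↥ℚ⟮j⟯) : F) ≠ 0 := ⟨i1, fun h => hi1 (Subtype.ext h)⟩
  obtain ⟨k, Q, P, hQ, ⟨i2, hP2⟩, hPQ⟩ :=
    m28bg_scale ℓ j (fun i => ((g i : ↥ℚ⟮j⟯) : F)) (fun i => (g i).2) h0
  have hl : ((ℓ : ℕ) : F) ≠ 0 := m28bg_lne ℓ
  have h1 : ((ℓ : ℕ) : F) ^ k * ∑ i, aeval j (P i) * ι (b i) = 0 := by
    rw [Finset.mul_sum]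
    have h2 : ∀ i, ((ℓ : ℕ) : F) ^ k * (aeval j (P i) * ι (b i))
        = aeval j Q * ((g i : ↥ℚ⟮j⟯) • ι (b i)) := by
      intro i
      rw [← mul_assoc, ← hPQ i]
      show _ = aeval j Q * (((g i : ↥ℚ⟮j⟯) : F) * ι (b i))
      ring
    rw [Finset.sum_congr rfl (fun i _ => h2 i), ← Finset.mul_sum, hg, mul_zero]
  have h3 : ∑ i, aeval j (P i) * ι (b i) = 0 := by
    rcases mul_eq_zero.mp h1 with h | h
    · exact absurd h (zpow_ne_zero _ hl)
    · exact h
  have h4 : ι (∑ i, aeval jR (P i) * b i) = 0 := by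
    rw [map_sum, ← h3]
    refine Finset.sum_congr rfl fun i _ => ?_
    rw [map_mul, m28bg_map_aeval, hιj]
  have h5 : ∑ i, aeval jR (P i) * b i = 0 := hιinj (by rw [h4, map_zero])
  exact m28bg_ind ℓ jb jR ρ hρj htrl b hb P (by rw [h5, map_zero]) i2 hP2

/-- **normal form**: every nonzero `x : F` is `ℓ ^ k * r / Q(j)` with `ρ r ≠ 0`, `Q` nonzero
mod `ℓ`. -/
theorem m28bg_nf_of_basis (j : F) (jb : M) (jR : R) (ι : R →+* F) (ρ : R →+* M)
    (hιinj : Function.Injective ι) (hιj : ι jR = j) (hρj : ρ jR = jb)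
    (htrl : Transcendental (ZMod ℓ) jb)
    [FiniteDimensional ↥ℚ⟮j⟯ F] (n : ℕ) (hn : Module.finrank ↥ℚ⟮j⟯ F ≤ n)
    (b : Fin n → R)
    (hb : LinearIndependent ↥(IntermediateField.adjoin (ZMod ℓ) {jb}) (fun i => ρ (b i)))
    (x : F) (hx : x ≠ 0) :
    ∃ (k : ℤ) (Q : ℤ[X]) (r : R), m28bg_prim ℓ Q ∧ ρ r ≠ 0 ∧
      x * aeval j Q = ((ℓ : ℕ) : F) ^ k * ι r := by
  have hli := m28bg_linearIndependent ℓ j jb jR ι ρ hιinj hιj hρj htrl b hb
  have hcard : Fintype.card (Fin n) = Module.finrank ↥ℚ⟮j⟯ F := by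
    apply le_antisymm
    · exact hli.fintype_card_le_finrank
    · rw [Fintype.card_fin]; exact hn
  have hspan := hli.span_eq_top_of_card_eq_finrank' hcard
  have hxs : x ∈ Submodule.span ↥ℚ⟮j⟯ (Set.range (fun i => ι (b i))) := by
    rw [hspan]; exact Submodule.mem_top
  obtain ⟨c, hc⟩ := (Submodule.mem_span_range_iff_exists_fun ↥ℚ⟮j⟯).mp hxs
  have h0 : ∃ i, ((c i : ↥ℚ⟮j⟯) : F) ≠ 0 := by
    by_contra hne
    push Not at hne
    apply hx
    rw [← hc]
    refine Finset.sum_eq_zero fun i _ => ?_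
    show ((c i : ↥ℚ⟮j⟯) : F) * ι (b i) = 0
    rw [hne i, zero_mul]
  obtain ⟨k, Q, P, hQ, ⟨i2, hP2⟩, hPQ⟩ :=
    m28bg_scale ℓ j (fun i => ((c i : ↥ℚ⟮j⟯) : F)) (fun i => (c i).2) h0
  refine ⟨k, Q, ∑ i, aeval jR (P i) * b i, hQ, ?_, ?_⟩
  · intro h
    exact m28bg_ind ℓ jb jR ρ hρj htrl b hb P h i2 hP2
  · rw [← hc, Finset.sum_mul, map_sum, Finset.mul_sum]
    refine Finset.sum_congr rfl fun i _ => ?_
    rw [map_mul, m28bg_map_aeval, hιj, ← mul_assoc, ← hPQ i]
    show ((c i : ↥ℚ⟮j⟯) : F) * ι (b i) * aeval j Q = _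
    ring

end nf

end Fermat.Agent.M28

end
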