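import Mathlib
import Fermat.Agent.M28.BgCore
import Fermat.Agent.M28.BgNF

/-!
# S28 / PKG-BG, part 4: the ring `O'`, the reduction map `θ'` and its kernel (prefix `m28bg_`)

For abstract data `D : M28BgData ℓ F M R` (a ring `R ↪ F` with reduction `ρ : R → M`, `j ↦ j̄`,
and the normal form property):
* `m28bg_Op D : Subring F` is `R[1 / Q(j)]`, `m28bg_thetaP D : O' →+* M` extends `ρ`;
* `m28bg_ker`: the kernel of `θ'` is `ℓ O'`;
* `m28bg_mem_Op_of_isIntegral`: `O'` is integrally closed in `F`;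
* `m28bg_fin`: an element integral over `ℤ_(ℓ)[j]` and killed by `θ'` is `ℓ` times an element
  integral over `ℤ_(ℓ)[j]`.
-/

set_option autoImplicit false
set_option linter.style.haveILetI false
set_option linter.unusedSectionVars false

noncomputable section

namespace Fermat.Agent.M28

open Polynomial IntermediateField

/-- the abstract data of PKG-BG: a ring `R` inside a field `F ⊇ ℚ(j)` with a reduction map `ρ` to
a field `M ⊇ 𝔽_ℓ(j̄)`, such that every nonzero element of `F` has a normal form. -/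
structure M28BgData (ℓ : ℕ) (F M R : Type) [Field F] [Algebra ℚ F] [Field M]
    [Algebra (ZMod ℓ) M] [CommRing R] where
  j : F
  jb : M
  jR : R
  ι : R →+* F
  ρ : R →+* M
  ι_inj : Function.Injective ι
  ι_j : ι jR = j
  ρ_j : ρ jR = jb
  htr : Transcendental ℚ j
  htrl : Transcendental (ZMod ℓ) jb
  nf : ∀ x : F, x ≠ 0 → ∃ (k : ℤ) (Q : ℤ[X]) (r : R), m28bg_prim ℓ Q ∧ ρ r ≠ 0 ∧
      x * aeval j Q = ((ℓ : ℕ) : F) ^ k * ι r

variable {ℓ : ℕ} [Fact ℓ.Prime] {F M R : Type} [Field F] [Algebra ℚ F] [Field M]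
  [Algebra (ZMod ℓ) M] [CommRing R] (D : M28BgData ℓ F M R)

theorem m28bg_iota_aeval (P : ℤ[X]) : D.ι (aeval D.jR P) = aeval D.j P := by
  rw [m28bg_map_aeval, D.ι_j]

theorem m28bg_rho_aeval (P : ℤ[X]) : D.ρ (aeval D.jR P) = aeval D.jb P := by
  rw [m28bg_map_aeval, D.ρ_j]

theorem m28bg_evj_ne_zero {Q : ℤ[X]} (hQ : m28bg_prim ℓ Q) : aeval D.j Q ≠ 0 :=
  m28bg_ev_ne_zero D.j D.htr (m28bg_prim_ne_zero ℓ hQ)

theorem m28bg_evjb_ne_zero {Q : ℤ[X]} (hQ : m28bg_prim ℓ Q) : aeval D.jb Q ≠ 0 :=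
  m28bg_evb_ne_zero ℓ D.jb D.htrl hQ

/-- the ring `O' = R[1 / Q(j) : Q ≢ 0 mod ℓ]`. -/
def m28bg_Op : Subring F where
  carrier := {x | ∃ (Q : ℤ[X]) (r : R), m28bg_prim ℓ Q ∧ x * aeval D.j Q = D.ι r}
  mul_mem' := by
    rintro x y ⟨Q, r, hQ, h⟩ ⟨Q', r', hQ', h'⟩
    refine ⟨Q * Q', r * r', m28bg_prim_mul ℓ hQ hQ', ?_⟩
    rw [map_mul, map_mul, ← h, ← h']
    ring
  one_mem' := ⟨1, 1, m28bg_prim_one ℓ, by simp⟩
  add_mem' := by
    rintro x y ⟨Q, r, hQ, h⟩ ⟨Q', r', hQ', h'⟩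
    refine ⟨Q * Q', r * aeval D.jR Q' + r' * aeval D.jR Q, m28bg_prim_mul ℓ hQ hQ', ?_⟩
    rw [map_add, map_mul, map_mul, map_mul, m28bg_iota_aeval, m28bg_iota_aeval, ← h, ← h']
    ring
  zero_mem' := ⟨1, 0, m28bg_prim_one ℓ, by simp⟩
  neg_mem' := by
    rintro x ⟨Q, r, hQ, h⟩
    refine ⟨Q, -r, hQ, ?_⟩
    rw [map_neg, ← h]
    ring

theorem m28bg_mem_Op_iff (x : F) :
    x ∈ m28bg_Op D ↔ ∃ (Q : ℤ[X]) (r : R), m28bg_prim ℓ Q ∧ x * aeval D.j Q = D.ι r :=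
  Iff.rfl

theorem m28bg_iota_mem_Op (r : R) : D.ι r ∈ m28bg_Op D :=
  ⟨1, r, m28bg_prim_one ℓ, by simp⟩

/-- the value of `θ'` does not depend on the representation. -/
theorem m28bg_theta_wd {x : F} {Q Q' : ℤ[X]} {r r' : R} (hQ : m28bg_prim ℓ Q)
    (hQ' : m28bg_prim ℓ Q') (h : x * aeval D.j Q = D.ι r) (h' : x * aeval D.j Q' = D.ι r') :
    D.ρ r / aeval D.jb Q = D.ρ r' / aeval D.jb Q' := by
  have h1 : r * aeval D.jR Q' = r' * aeval D.jR Q := by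
    apply D.ι_inj
    rw [map_mul, map_mul, m28bg_iota_aeval, m28bg_iota_aeval, ← h, ← h']
    ring
  have h2 := congrArg D.ρ h1
  rw [map_mul, map_mul, m28bg_rho_aeval, m28bg_rho_aeval] at h2
  rw [div_eq_div_iff (m28bg_evjb_ne_zero D hQ) (m28bg_evjb_ne_zero D hQ')]
  exact h2

/-- the underlying function of `θ'`. -/
def m28bg_thetaFun (x : ↥(m28bg_Op D)) : M :=
  D.ρ (Classical.choose (Classical.choose_spec x.2)) / aeval D.jb (Classical.choose x.2)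

theorem m28bg_thetaFun_eq (x : ↥(m28bg_Op D)) {Q : ℤ[X]} {r : R} (hQ : m28bg_prim ℓ Q)
    (h : (x : F) * aeval D.j Q = D.ι r) :
    m28bg_thetaFun D x = D.ρ r / aeval D.jb Q := by
  have hs := Classical.choose_spec (Classical.choose_spec x.2)
  exact m28bg_theta_wd D hs.1 hQ hs.2 h

theorem m28bg_exists_rep (x : ↥(m28bg_Op D)) :
    ∃ (Q : ℤ[X]) (r : R), m28bg_prim ℓ Q ∧ (x : F) * aeval D.j Q = D.ι r := x.2

/-- the reduction map `θ' : O' → M`. -/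
def m28bg_thetaP : ↥(m28bg_Op D) →+* M where
  toFun := m28bg_thetaFun D
  map_one' := by
    rw [m28bg_thetaFun_eq D 1 (Q := 1) (r := 1) (m28bg_prim_one ℓ) (by simp)]
    simp
  map_mul' := by
    intro x y
    obtain ⟨Q, r, hQ, h⟩ := m28bg_exists_rep D x
    obtain ⟨Q', r', hQ', h'⟩ := m28bg_exists_rep D y
    have hxy : ((x * y : ↥(m28bg_Op D)) : F) * aeval D.j (Q * Q') = D.ι (r * r') := by
      rw [map_mul, map_mul, ← h, ← h']
      push_cast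
      ring
    rw [m28bg_thetaFun_eq D (x * y) (m28bg_prim_mul ℓ hQ hQ') hxy,
      m28bg_thetaFun_eq D x hQ h, m28bg_thetaFun_eq D y hQ' h', map_mul, map_mul]
    have h1 := m28bg_evjb_ne_zero D hQ
    have h2 := m28bg_evjb_ne_zero D hQ'
    field_simp
  map_zero' := by
    rw [m28bg_thetaFun_eq D 0 (Q := 1) (r := 0) (m28bg_prim_one ℓ) (by simp)]
    simp
  map_add' := by
    intro x y
    obtain ⟨Q, r, hQ, h⟩ := m28bg_exists_rep D x
    obtain ⟨Q', r', hQ', h'⟩ := m28bg_exists_rep D y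
    have hxy : ((x + y : ↥(m28bg_Op D)) : F) * aeval D.j (Q * Q')
        = D.ι (r * aeval D.jR Q' + r' * aeval D.jR Q) := by
      rw [map_add, map_mul, map_mul, map_mul, m28bg_iota_aeval, m28bg_iota_aeval, ← h, ← h']
      push_cast
      ring
    rw [m28bg_thetaFun_eq D (x + y) (m28bg_prim_mul ℓ hQ hQ') hxy,
      m28bg_thetaFun_eq D x hQ h, m28bg_thetaFun_eq D y hQ' h', map_add, map_mul, map_mul,
      m28bg_rho_aeval, m28bg_rho_aeval, map_mul]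
    have h1 := m28bg_evjb_ne_zero D hQ
    have h2 := m28bg_evjb_ne_zero D hQ'
    field_simp

theorem m28bg_thetaP_eq (x : ↥(m28bg_Op D)) {Q : ℤ[X]} {r : R} (hQ : m28bg_prim ℓ Q)
    (h : (x : F) * aeval D.j Q = D.ι r) :
    m28bg_thetaP D x = D.ρ r / aeval D.jb Q :=
  m28bg_thetaFun_eq D x hQ h

theorem m28bg_thetaP_iota (r : R) : m28bg_thetaP D ⟨D.ι r, m28bg_iota_mem_Op D r⟩ = D.ρ r := by
  rw [m28bg_thetaP_eq D _ (Q := 1) (r := r) (m28bg_prim_one ℓ) (by simp)]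
  simp

/-- **(K)**: the kernel of `θ'` is generated by `ℓ`. -/
theorem m28bg_ker (x : ↥(m28bg_Op D)) (hx : m28bg_thetaP D x = 0) :
    ∃ (y : F) (Q : ℤ[X]) (r : R), m28bg_prim ℓ Q ∧ y * aeval D.j Q = D.ι r ∧
      (x : F) = ((ℓ : ℕ) : F) * y := by
  by_cases hx0 : (x : F) = 0
  · exact ⟨0, 1, 0, m28bg_prim_one ℓ, by simp, by rw [hx0, mul_zero]⟩
  obtain ⟨Q, r, hQ, h⟩ := m28bg_exists_rep D x
  rw [m28bg_thetaP_eq D x hQ h, div_eq_zero_iff] at hx
  have hr : D.ρ r = 0 := by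
    rcases hx with hx | hx
    · exact hx
    · exact absurd hx (m28bg_evjb_ne_zero D hQ)
  obtain ⟨k, Q₁, r₁, hQ₁, hr₁, h₁⟩ := D.nf (x : F) hx0
  have hl : ((ℓ : ℕ) : F) ≠ 0 := m28bg_lne ℓ
  rcases le_or_gt k 0 with hk | hk
  · exfalso
    obtain ⟨m, hm⟩ : ∃ m : ℕ, k = -(m : ℤ) := ⟨(-k).toNat, by omega⟩
    have h2 : ((ℓ : ℕ) : F) ^ m * ((x : F) * aeval D.j Q₁) = D.ι r₁ := by
      rw [h₁, hm, zpow_neg, zpow_natCast, ← mul_assoc, mul_inv_cancel₀ (pow_ne_zero _ hl),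
        one_mul]
    have h3 : r₁ * aeval D.jR Q = ((ℓ : ℕ) : R) ^ m * aeval D.jR Q₁ * r := by
      apply D.ι_inj
      rw [map_mul, map_mul, map_mul, map_pow, map_natCast, m28bg_iota_aeval, m28bg_iota_aeval,
        ← h2, ← h]
      ring
    have h4 := congrArg D.ρ h3
    rw [map_mul, map_mul, hr, mul_zero, m28bg_rho_aeval] at h4
    rcases mul_eq_zero.mp h4 with h5 | h5
    · exact hr₁ h5
    · exact m28bg_evjb_ne_zero D hQ h5
  · obtain ⟨m, hm⟩ : ∃ m : ℕ, k = (m : ℤ) + 1 := ⟨(k - 1).toNat, by omega⟩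
    have hQ₁0 := m28bg_evj_ne_zero D hQ₁
    refine ⟨((ℓ : ℕ) : F) ^ m * D.ι r₁ / aeval D.j Q₁, Q₁, ((ℓ : ℕ) : R) ^ m * r₁, hQ₁, ?_, ?_⟩
    · rw [map_mul, map_pow, map_natCast]
      field_simp
    · have h2 : (x : F) = ((ℓ : ℕ) : F) ^ k * D.ι r₁ / aeval D.j Q₁ := by
        rw [← h₁]
        field_simp
      rw [h2, hm, zpow_add₀ hl, zpow_natCast, zpow_one]
      field_simp

/-- **(2')**: `O'` is integrally closed in `F`. -/
theorem m28bg_mem_Op_of_isIntegral {A : Type} [CommRing A] [Algebra A F]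
    (hA : ∀ a : A, algebraMap A F a ∈ m28bg_Op D) (x : F) (hx : IsIntegral A x) :
    x ∈ m28bg_Op D := by
  by_cases hx0 : x = 0
  · rw [hx0]; exact zero_mem _
  obtain ⟨k, Q, r, hQ, hr, h⟩ := D.nf x hx0
  have hl : ((ℓ : ℕ) : F) ≠ 0 := m28bg_lne ℓ
  rcases le_or_gt 0 k with hk | hk
  · lift k to ℕ using hk
    exact ⟨Q, ((ℓ : ℕ) : R) ^ k * r, hQ, by
      rw [h, map_mul, map_pow, map_natCast, zpow_natCast]⟩
  · exfalso
    obtain ⟨m, hm⟩ : ∃ m : ℕ, k = -((m : ℤ) + 1) := ⟨(-k - 1).toNat, by omega⟩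
    set uR : R := ((ℓ : ℕ) : R) ^ (m + 1) * aeval D.jR Q with huR
    have hux : D.ι uR * x = D.ι r := by
      rw [huR, map_mul, map_pow, map_natCast, m28bg_iota_aeval]
      have : ((ℓ : ℕ) : F) ^ (m + 1) * aeval D.j Q * x
          = ((ℓ : ℕ) : F) ^ (m + 1) * (x * aeval D.j Q) := by ring
      rw [this, h, hm, zpow_neg, ← mul_assoc]
      have e : (((ℓ : ℕ) : F) ^ ((m : ℤ) + 1)) = ((ℓ : ℕ) : F) ^ (m + 1) := by
        rw [← zpow_natCast]; push_cast; rfl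
      rw [e, mul_inv_cancel₀ (pow_ne_zero _ hl), one_mul]
    have hρu : D.ρ uR = 0 := by
      rw [huR, map_mul, map_pow, map_natCast, m28bg_l_eq_zero ℓ, zero_pow (Nat.succ_ne_zero m),
        zero_mul]
    obtain ⟨p, hpm, hp⟩ := hx
    set d := p.natDegree with hd
    have hsum : ∑ i ∈ Finset.range d, algebraMap A F (p.coeff i) * x ^ i + x ^ d = 0 := by
      rw [Polynomial.eval₂_eq_sum_range, Finset.sum_range_succ, hpm.coeff_natDegree, map_one,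
        one_mul] at hp
      exact hp
    set u' : ↥(m28bg_Op D) := ⟨D.ι uR, m28bg_iota_mem_Op D uR⟩ with hu'
    set y' : ↥(m28bg_Op D) := ⟨D.ι r, m28bg_iota_mem_Op D r⟩ with hy'
    have hS : ∑ i ∈ Finset.range d,
        (⟨algebraMap A F (p.coeff i), hA _⟩ : ↥(m28bg_Op D)) * u' ^ (d - i) * y' ^ i + y' ^ d
        = 0 := by
      apply Subtype.val_injective
      have h1 : ((∑ i ∈ Finset.range d,
          (⟨algebraMap A F (p.coeff i), hA _⟩ : ↥(m28bg_Op D)) * u' ^ (d - i) * y' ^ i + y' ^ d :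
            ↥(m28bg_Op D)) : F)
          = ∑ i ∈ Finset.range d, algebraMap A F (p.coeff i) * (D.ι uR) ^ (d - i) * (D.ι r) ^ i
            + (D.ι r) ^ d := by
        push_cast
        rfl
      rw [h1]
      have h2 : ∑ i ∈ Finset.range d, algebraMap A F (p.coeff i) * (D.ι uR) ^ (d - i) * (D.ι r) ^ i
            + (D.ι r) ^ d
          = (D.ι uR) ^ d * (∑ i ∈ Finset.range d, algebraMap A F (p.coeff i) * x ^ i + x ^ d) := by
        rw [mul_add, Finset.mul_sum, ← hux, mul_pow]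
        congr 1
        refine Finset.sum_congr rfl fun i hi => ?_
        have hi' : i ≤ d := (Finset.mem_range.mp hi).le
        rw [mul_pow, ← pow_sub_mul_pow (D.ι uR) hi']
        ring
      rw [h2, hsum, mul_zero]
      rfl
    have h3 := congrArg (m28bg_thetaP D) hS
    rw [map_add, map_sum, map_zero, map_pow] at h3
    have hθu : m28bg_thetaP D u' = 0 := by
      rw [hu', m28bg_thetaP_iota, hρu]
    have hθy : m28bg_thetaP D y' = D.ρ r := by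
      rw [hy', m28bg_thetaP_iota]
    have h4 : ∑ i ∈ Finset.range d, m28bg_thetaP D
        ((⟨algebraMap A F (p.coeff i), hA _⟩ : ↥(m28bg_Op D)) * u' ^ (d - i) * y' ^ i) = 0 := by
      refine Finset.sum_eq_zero fun i hi => ?_
      have hi' : d - i ≠ 0 := by
        have := Finset.mem_range.mp hi
        omega
      rw [map_mul, map_mul, map_pow, hθu, zero_pow hi', mul_zero, zero_mul]
    rw [h4, zero_add, hθy] at h3
    exact hr (IsReduced.eq_zero _ ⟨d, h3⟩)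

section zl

variable [Algebra ↥(GaloisRep.ratLocalizedAt ℓ) F]

theorem m28bg_algebraMap_mem_Op (a : ↥(GaloisRep.ratLocalizedAt ℓ)) :
    algebraMap ↥(GaloisRep.ratLocalizedAt ℓ) F a ∈ m28bg_Op D := by
  obtain ⟨n, d, u, hdu, hxn, hd⟩ := m28bm_exists_num_den ℓ a
  refine ⟨C (d : ℤ), (n : R), m28bg_prim_C ℓ ?_, ?_⟩
  · intro h
    have h1 : ℓ ∣ d := by exact_mod_cast h
    have h2 : ℓ = 1 := Nat.Coprime.eq_one_of_dvd hd.symm h1
    exact (Fact.out : ℓ.Prime).one_lt.ne' h2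
  · rw [aeval_C, map_intCast]
    have h1 : algebraMap ℤ F (d : ℤ) = algebraMap ↥(GaloisRep.ratLocalizedAt ℓ) F
        ((d : ℕ) : ↥(GaloisRep.ratLocalizedAt ℓ)) := by
      rw [map_natCast]
      simp
    rw [h1, ← map_mul, hxn]
    have h2 : (n : ↥(GaloisRep.ratLocalizedAt ℓ)) * u * ((d : ℕ) : ↥(GaloisRep.ratLocalizedAt ℓ))
        = (n : ↥(GaloisRep.ratLocalizedAt ℓ)) := by
      rw [mul_assoc, mul_comm u, hdu, mul_one]
    rw [h2, map_intCast]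

theorem m28bg_j_ne_zero : D.j ≠ 0 := by
  intro h
  have := D.htr
  rw [h] at this
  exact this (isAlgebraic_zero)

theorem m28bg_j_mem_Op : D.j ∈ m28bg_Op D :=
  ⟨1, D.jR, m28bg_prim_one ℓ, by rw [D.ι_j]; simp⟩

theorem m28bg_prim_X : m28bg_prim ℓ (X : ℤ[X]) := by
  unfold m28bg_prim
  rw [Polynomial.map_X]
  exact Polynomial.X_ne_zero

theorem m28bg_prim_X_pow (n : ℕ) : m28bg_prim ℓ ((X : ℤ[X]) ^ n) := by
  unfold m28bg_prim
  rw [Polynomial.map_pow, Polynomial.map_X]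
  exact pow_ne_zero _ Polynomial.X_ne_zero

theorem m28bg_jinv_mem_Op : D.j⁻¹ ∈ m28bg_Op D :=
  ⟨X, 1, m28bg_prim_X, by rw [aeval_X, map_one, inv_mul_cancel₀ (m28bg_j_ne_zero D)]⟩

/-- `ℤ_(ℓ)[S] ⊆ O'` for `S ⊆ {j, j⁻¹}`. -/
theorem m28bg_adjoin_le_Op (S : Set F) (hS : S ⊆ {D.j, D.j⁻¹}) (a : F)
    (ha : a ∈ Algebra.adjoin ↥(GaloisRep.ratLocalizedAt ℓ) S) : a ∈ m28bg_Op D := by
  induction ha using Algebra.adjoin_induction with
  | mem y hy =>
    rcases hS hy with rfl | hy'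
    · exact m28bg_j_mem_Op D
    · rw [Set.mem_singleton_iff] at hy'
      rw [hy']
      exact m28bg_jinv_mem_Op D
  | algebraMap a => exact m28bg_algebraMap_mem_Op D a
  | add y z _ _ hy hz => exact add_mem hy hz
  | mul y z _ _ hy hz => exact mul_mem hy hz

/-- every element of `F` integral over `ℤ_(ℓ)[S]`, `S ⊆ {j, j⁻¹}`, lies in `O'`. -/
theorem m28bg_mem_Op_of_isIntegral_adjoin (S : Set F) (hS : S ⊆ {D.j, D.j⁻¹}) (x : F)
    (hx : IsIntegral ↥(Algebra.adjoin ↥(GaloisRep.ratLocalizedAt ℓ) S) x) : x ∈ m28bg_Op D :=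
  m28bg_mem_Op_of_isIntegral D (fun a => m28bg_adjoin_le_Op D S hS a.1 a.2) x hx

theorem m28bg_transcendental_zl [IsScalarTower ↥(GaloisRep.ratLocalizedAt ℓ) ℚ F] (g : F)
    (hg : Transcendental ℚ g) : Transcendental ↥(GaloisRep.ratLocalizedAt ℓ) g :=
  hg.restrictScalars (R := ↥(GaloisRep.ratLocalizedAt ℓ)) Subtype.val_injective

/-- **(3), finite chart**: an element integral over `ℤ_(ℓ)[j]` killed by `θ'` is `ℓ` times an
element integral over `ℤ_(ℓ)[j]`. -/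
theorem m28bg_fin [IsScalarTower ↥(GaloisRep.ratLocalizedAt ℓ) ℚ F]
    (hint : ∀ r : R, IsIntegral ↥(Algebra.adjoin ↥(GaloisRep.ratLocalizedAt ℓ) ({D.j} : Set F))
      (D.ι r))
    (x : ↥(m28bg_Op D))
    (hx : IsIntegral ↥(Algebra.adjoin ↥(GaloisRep.ratLocalizedAt ℓ) ({D.j} : Set F)) (x : F))
    (hθ : m28bg_thetaP D x = 0) :
    ∃ y : F, IsIntegral ↥(Algebra.adjoin ↥(GaloisRep.ratLocalizedAt ℓ) ({D.j} : Set F)) y ∧
      (x : F) = ((ℓ : ℕ) : F) * y := by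
  obtain ⟨y, Q, r, hQ, hy, hxy⟩ := m28bg_ker D x hθ
  refine ⟨y, ?_, hxy⟩
  refine m28bg_Lg ℓ D.j (m28bg_transcendental_zl D.j D.htr) Q hQ y ?_ ?_
  · rw [← hxy]; exact hx
  · rw [mul_comm, hy]; exact hint r

end zl

end Fermat.Agent.M28

end
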