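import Mathlib
import Fermat.Prelude.Def_ModularCurve_IgusaScheme
import Fermat.Prelude.Def_ModularCurve_JqCoeff
import Fermat.Agent.M28.BgTheta

/-!
# S28 / PKG-BG, part 5: the chart algebras (prefix `m28bg_`)

`m28bg_theta` is exactly the interface statement [BG]: from a reduction map `ρ` on a subalgebra
`R` integral over `ℤ_(ℓ)[j]` and a family `b` of `n ≥ [F : ℚ(j)]` elements of `R` whose reductions
are independent over `𝔽_ℓ(j̄)`, each of the three chart algebras has a ring hom to `𝔽_ℓ((q))` with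
kernel `(ℓ)`.

The finite chart is `m28bg_fin`; the middle chart follows from the finite one by clearing powers of
`j`; the chart at infinity follows from the middle one by `m28bg_Lg` for `g = j⁻¹`.
-/

set_option autoImplicit false
set_option linter.style.haveILetI false
set_option linter.unusedSectionVars false

noncomputable section

namespace Fermat.Agent.M28

open ModularCurve ModularCurve.IgusaScheme Polynomial IntermediateField

/-- the inclusion of a subalgebra into a subring containing it. -/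
def m28bg_incl {A F : Type} [CommRing A] [Field F] [Algebra A F] (B : Subalgebra A F)
    (O : Subring F) (h : ∀ x ∈ B, x ∈ O) : ↥B →+* ↥O where
  toFun x := ⟨x.1, h x.1 x.2⟩
  map_one' := rfl
  map_mul' _ _ := rfl
  map_zero' := rfl
  map_add' _ _ := rfl

theorem m28bg_incl_coe {A F : Type} [CommRing A] [Field F] [Algebra A F] (B : Subalgebra A F)
    (O : Subring F) (h : ∀ x ∈ B, x ∈ O) (x : ↥B) : ((m28bg_incl B O h x : ↥O) : F) = x := rfl

section charts

variable {N : ℕ} [NeZero N] {ℓ : ℕ} [Fact ℓ.Prime] {M R' : Type} [Field M]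
  [Algebra (ZMod ℓ) M] [CommRing R']
  (D : M28BgData ℓ ↥(modularFunctionFieldFull N) M R')

theorem m28bg_chart_le_Op (S : Set ↥(modularFunctionFieldFull N)) (hS : S ⊆ {D.j, D.j⁻¹})
    (x : ↥(modularFunctionFieldFull N)) (hx : x ∈ chartAlg N ℓ S) : x ∈ m28bg_Op D :=
  m28bg_mem_Op_of_isIntegral_adjoin D S hS x hx

theorem m28bg_chart_fin
    (hint : ∀ r : R', IsIntegral ↥(Algebra.adjoin ↥(GaloisRep.ratLocalizedAt ℓ)
      ({D.j} : Set ↥(modularFunctionFieldFull N))) (D.ι r))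
    (x : ↥(m28bg_Op D)) (hx : (x : ↥(modularFunctionFieldFull N)) ∈ chartAlg N ℓ {D.j})
    (hθ : m28bg_thetaP D x = 0) :
    ∃ y ∈ chartAlg N ℓ {D.j},
      (x : ↥(modularFunctionFieldFull N)) = ((ℓ : ℕ) : ↥(modularFunctionFieldFull N)) * y := by
  obtain ⟨y, hy, hxy⟩ := m28bg_fin D hint x hx hθ
  exact ⟨y, hy, hxy⟩

theorem m28bg_chart_mid
    (hint : ∀ r : R', IsIntegral ↥(Algebra.adjoin ↥(GaloisRep.ratLocalizedAt ℓ)
      ({D.j} : Set ↥(modularFunctionFieldFull N))) (D.ι r))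
    (x : ↥(m28bg_Op D))
    (hx : (x : ↥(modularFunctionFieldFull N)) ∈ chartAlg N ℓ {D.j, D.j⁻¹})
    (hθ : m28bg_thetaP D x = 0) :
    ∃ y ∈ chartAlg N ℓ {D.j, D.j⁻¹},
      (x : ↥(modularFunctionFieldFull N)) = ((ℓ : ℕ) : ↥(modularFunctionFieldFull N)) * y := by
  have hj0 : D.j ≠ 0 := m28bg_j_ne_zero D
  have hz : (x : ↥(modularFunctionFieldFull N)) ∈ chartAlg N ℓ (insert D.j⁻¹ {D.j}) := by
    rw [show insert D.j⁻¹ ({D.j} : Set ↥(modularFunctionFieldFull N)) = {D.j, D.j⁻¹}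
      from Set.pair_comm _ _]
    exact hx
  obtain ⟨n, hn⟩ := exists_pow_mul_mem_chartAlg (Set.mem_singleton _) hj0 hz
  have hO : D.j ^ n * (x : ↥(modularFunctionFieldFull N)) ∈ m28bg_Op D :=
    mul_mem (pow_mem (m28bg_j_mem_Op D) n) x.2
  have hθ' : m28bg_thetaP D ⟨D.j ^ n * (x : ↥(modularFunctionFieldFull N)), hO⟩ = 0 := by
    have e : (⟨D.j ^ n * (x : ↥(modularFunctionFieldFull N)), hO⟩ : ↥(m28bg_Op D))
        = ⟨D.j, m28bg_j_mem_Op D⟩ ^ n * x := rfl
    rw [e, map_mul, hθ, mul_zero]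
  obtain ⟨y, hy, hxy⟩ := m28bg_chart_fin D hint ⟨_, hO⟩ hn hθ'
  refine ⟨(D.j⁻¹) ^ n * y, mul_mem (pow_mem (subset_chartAlg N ℓ _ (by simp)) n)
    (chartAlg_mono N ℓ (by simp) hy), ?_⟩
  have hxy' : D.j ^ n * (x : ↥(modularFunctionFieldFull N))
      = ((ℓ : ℕ) : ↥(modularFunctionFieldFull N)) * y := hxy
  have hjn : D.j ^ n ≠ 0 := pow_ne_zero _ hj0
  calc (x : ↥(modularFunctionFieldFull N))
      = (D.j ^ n)⁻¹ * (D.j ^ n * (x : ↥(modularFunctionFieldFull N))) := by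
        rw [← mul_assoc, inv_mul_cancel₀ hjn, one_mul]
    _ = ((ℓ : ℕ) : ↥(modularFunctionFieldFull N)) * ((D.j⁻¹) ^ n * y) := by
        rw [hxy', inv_pow]
        ring

theorem m28bg_chart_inf
    (hint : ∀ r : R', IsIntegral ↥(Algebra.adjoin ↥(GaloisRep.ratLocalizedAt ℓ)
      ({D.j} : Set ↥(modularFunctionFieldFull N))) (D.ι r))
    (x : ↥(m28bg_Op D))
    (hx : (x : ↥(modularFunctionFieldFull N)) ∈ chartAlg N ℓ {D.j⁻¹})
    (hθ : m28bg_thetaP D x = 0) :
    ∃ y ∈ chartAlg N ℓ {D.j⁻¹},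
      (x : ↥(modularFunctionFieldFull N)) = ((ℓ : ℕ) : ↥(modularFunctionFieldFull N)) * y := by
  have hj0 : D.j ≠ 0 := m28bg_j_ne_zero D
  have hmid : (x : ↥(modularFunctionFieldFull N)) ∈ chartAlg N ℓ {D.j, D.j⁻¹} :=
    chartAlg_mono N ℓ (by simp) hx
  obtain ⟨y, hy, hxy⟩ := m28bg_chart_mid D hint x hmid hθ
  have hz : y ∈ chartAlg N ℓ (insert (D.j⁻¹)⁻¹ {D.j⁻¹}) := by
    rw [inv_inv]; exact hy
  obtain ⟨n, hn⟩ := exists_pow_mul_mem_chartAlg (Set.mem_singleton _) (inv_ne_zero hj0) hz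
  refine ⟨y, ?_, hxy⟩
  have htr' : Transcendental ℚ D.j⁻¹ := fun h => D.htr (by simpa using h.inv)
  refine m28bg_Lg ℓ D.j⁻¹ (m28bg_transcendental_zl D.j⁻¹ htr') (X ^ n) (m28bg_prim_X_pow n) y
    ?_ ?_
  · rw [← hxy]; exact hx
  · rw [map_pow, aeval_X]; exact hn

end charts

/-- **[BG]** (exactly the statement of the interface): each chart algebra has a ring hom to
`𝔽_ℓ((q))` with kernel `(ℓ)`. -/
theorem m28bg_theta (N : ℕ) [NeZero N] (ℓ : ℕ) [Fact ℓ.Prime]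
    (htr : Transcendental ℚ (jFull N))
    (htrl : Transcendental (ZMod ℓ) (jqModC (ZMod ℓ)))
    [FiniteDimensional ↥(IntermediateField.adjoin ℚ {jFull N}) ↥(modularFunctionFieldFull N)]
    (n : ℕ)
    (hn : Module.finrank ↥(IntermediateField.adjoin ℚ {jFull N}) ↥(modularFunctionFieldFull N) ≤ n)
    (R : Subalgebra ↥(GaloisRep.ratLocalizedAt ℓ) ↥(modularFunctionFieldFull N))
    (hj : jFull N ∈ R)
    (hint : ∀ r ∈ R, IsIntegral ↥(Algebra.adjoin ↥(GaloisRep.ratLocalizedAt ℓ) ({jFull N} : Set ↥(modularFunctionFieldFull N))) r)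
    (ρ : ↥R →+* LaurentSeries (ZMod ℓ))
    (hρj : ρ ⟨jFull N, hj⟩ = jqModC (ZMod ℓ))
    (b : Fin n → ↥R)
    (hb : LinearIndependent ↥(IntermediateField.adjoin (ZMod ℓ) {jqModC (ZMod ℓ)})
      (fun i => ρ (b i)))
    (S : Set ↥(modularFunctionFieldFull N))
    (hS : S = {jFull N} ∨ S = {(jFull N)⁻¹} ∨ S = {jFull N, (jFull N)⁻¹}) :
    ∃ θ : ↥(chartAlg N ℓ S) →+* LaurentSeries (ZMod ℓ),
      RingHom.ker θ = Ideal.span {((ℓ : ℕ) : ↥(chartAlg N ℓ S))} := by
  let D : M28BgData ℓ ↥(modularFunctionFieldFull N) (LaurentSeries (ZMod ℓ)) ↥R :=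
    { j := jFull N
      jb := jqModC (ZMod ℓ)
      jR := ⟨jFull N, hj⟩
      ι := R.val.toRingHom
      ρ := ρ
      ι_inj := Subtype.val_injective
      ι_j := rfl
      ρ_j := hρj
      htr := htr
      htrl := htrl
      nf := fun x hx => m28bg_nf_of_basis ℓ (jFull N) (jqModC (ZMod ℓ)) ⟨jFull N, hj⟩
        R.val.toRingHom ρ Subtype.val_injective rfl hρj htrl n hn b hb x hx }
  have hint' : ∀ r : ↥R, IsIntegral ↥(Algebra.adjoin ↥(GaloisRep.ratLocalizedAt ℓ)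
      ({D.j} : Set ↥(modularFunctionFieldFull N))) (D.ι r) := fun r => hint r.1 r.2
  have hSsub : S ⊆ {D.j, D.j⁻¹} := by
    rcases hS with rfl | rfl | rfl
    · exact sFin_subset N
    · exact sInf_subset N
    · exact subset_rfl
  have hle := m28bg_chart_le_Op D S hSsub
  have key : ∀ x : ↥(m28bg_Op D), (x : ↥(modularFunctionFieldFull N)) ∈ chartAlg N ℓ S →
      m28bg_thetaP D x = 0 → ∃ y ∈ chartAlg N ℓ S,
        (x : ↥(modularFunctionFieldFull N)) = ((ℓ : ℕ) : ↥(modularFunctionFieldFull N)) * y := by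
    rcases hS with rfl | rfl | rfl
    · exact fun x hx hθ => m28bg_chart_fin D hint' x hx hθ
    · exact fun x hx hθ => m28bg_chart_inf D hint' x hx hθ
    · exact fun x hx hθ => m28bg_chart_mid D hint' x hx hθ
  refine ⟨(m28bg_thetaP D).comp (m28bg_incl (chartAlg N ℓ S) (m28bg_Op D) hle), ?_⟩
  apply le_antisymm
  · intro x hx
    rw [RingHom.mem_ker, RingHom.comp_apply] at hx
    obtain ⟨y, hy, hxy⟩ := key _ x.2 hx
    rw [Ideal.mem_span_singleton]
    refine ⟨⟨y, hy⟩, Subtype.ext ?_⟩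
    rw [Subalgebra.coe_mul]
    have e : ((((ℓ : ℕ) : ↥(chartAlg N ℓ S)) : ↥(chartAlg N ℓ S)) : ↥(modularFunctionFieldFull N))
        = ((ℓ : ℕ) : ↥(modularFunctionFieldFull N)) := by
      norm_cast
    rw [e]
    exact hxy
  · rw [Ideal.span_le, Set.singleton_subset_iff, SetLike.mem_coe, RingHom.mem_ker, map_natCast]
    exact m28bg_l_eq_zero ℓ

end Fermat.Agent.M28

end
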