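import Mathlib
import Fermat.Prelude.Def_ModularCurve_X0ModL

/-!
# S28 (Igusa), PKG-D — descent of the degree bound to the prime field (prefix `m28dd_`)

`m28d_descent` (exactly the statement of `Spec.m28d_descent`): if there are `ψ(N)` elements of
`k[j_d : d ∣ N] ⊆ k((q))` linearly independent over `k(j)`, `k` a field of characteristic `ℓ`,
then there are `ψ(N)` elements of `𝔽_ℓ[j_d : d ∣ N] ⊆ 𝔽_ℓ((q))` linearly independent over
`𝔽_ℓ(j)`.
-/

set_option autoImplicit false
set_option linter.deprecated false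
set_option linter.unusedSectionVars false
set_option linter.unusedVariables false
set_option linter.style.haveILetI false

namespace Fermat.Agent.M28

open ModularCurve Cardinal

noncomputable section

/-- From an independent family in the span of `S` extract an independent family of the same
size inside `S`. -/
theorem m28dd_exists_indep_of_span {K V : Type} [Field K] [AddCommGroup V] [Module K V] {n : ℕ}
    (S : Set V) (v : Fin n → V) (hv : LinearIndependent K v)
    (hS : ∀ i, v i ∈ Submodule.span K S) :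
    ∃ w : Fin n → V, (∀ i, w i ∈ S) ∧ LinearIndependent K w := by
  obtain ⟨b, hbS, hspan, hb⟩ := exists_linearIndependent K S
  let v' : Fin n → ↥(Submodule.span K b) := fun i => ⟨v i, hspan ▸ hS i⟩
  have hv' : LinearIndependent K v' := by
    apply LinearIndependent.of_comp (Submodule.span K b).subtype
    exact hv
  have h1 : #(Fin n) ≤ Module.rank K ↥(Submodule.span K b) := hv'.cardinal_le_rank
  have h2 : Module.rank K ↥(Submodule.span K b) = #b := rank_span_set hb
  rw [h2] at h1
  obtain ⟨e⟩ := (Cardinal.le_def _ _).mp h1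
  exact ⟨fun i => (e i : V), fun i => hbS (e i).2, hb.comp e e.injective⟩

/-- The span of a multiplicatively closed set is multiplicatively closed. -/
theorem m28dd_span_mul_mem {K V : Type} [CommRing K] [CommRing V] [Algebra K V] (S : Set V)
    (hS : ∀ x ∈ S, ∀ y ∈ S, x * y ∈ S) {x y : V} (hx : x ∈ Submodule.span K S)
    (hy : y ∈ Submodule.span K S) : x * y ∈ Submodule.span K S := by
  have h1 : x * y ∈ Submodule.span K S * Submodule.span K S := Submodule.mul_mem_mul hx hy
  rw [Submodule.span_mul_span] at h1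
  refine Submodule.span_mono ?_ h1
  rintro z ⟨a, ha, b, hb, rfl⟩
  exact hS a ha b hb

variable (k : Type) [Field k] (ℓ : ℕ) [Fact ℓ.Prime] [CharP k ℓ]

/-- The coefficient embedding `𝔽_ℓ((q)) → k((q))`. -/
def m28dd_c : LaurentSeries (ZMod ℓ) →+* LaurentSeries k :=
  coeffMap (ZMod.castHom (dvd_refl ℓ) k)

theorem m28dd_c_injective : Function.Injective (m28dd_c k ℓ) := by
  intro x y h
  ext n
  have h1 := congrArg (fun z : LaurentSeries k => z.coeff n) h
  simp only [m28dd_c, coeffMap_coeff] at h1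
  exact (ZMod.castHom (dvd_refl ℓ) k).injective h1

theorem m28dd_c_J : m28dd_c k ℓ (jqModC (ZMod ℓ)) = jqModC k :=
  coeffMap_jqModC _

theorem m28dd_c_Jd (d : ℕ) [NeZero d] :
    m28dd_c k ℓ (qExpand (ZMod ℓ) d (jqModC (ZMod ℓ))) = qExpand k d (jqModC k) := by
  rw [m28dd_c, coeffMap_qExpand, coeffMap_jqModC]

theorem m28dd_c_algebraMap (a : ZMod ℓ) :
    m28dd_c k ℓ (algebraMap (ZMod ℓ) (LaurentSeries (ZMod ℓ)) a) =
      algebraMap k (LaurentSeries k) (ZMod.castHom (dvd_refl ℓ) k a) := by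
  rw [algebraMap_laurentSeries_eq_single, algebraMap_laurentSeries_eq_single, m28dd_c,
    coeffMap_single]

variable (N : ℕ) [NeZero N]

/-- The image of `𝔽_ℓ[j_d : d ∣ N]` in `k((q))`. -/
def m28dd_S : Set (LaurentSeries k) :=
  m28dd_c k ℓ '' (Algebra.adjoin (ZMod ℓ) (divisorExpansionsC (ZMod ℓ) N) : Set _)

theorem m28dd_S_mul (x : LaurentSeries k) (hx : x ∈ m28dd_S k ℓ N) (y : LaurentSeries k)
    (hy : y ∈ m28dd_S k ℓ N) : x * y ∈ m28dd_S k ℓ N := by
  obtain ⟨a, ha, rfl⟩ := hx
  obtain ⟨b, hb, rfl⟩ := hy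
  exact ⟨a * b, Subalgebra.mul_mem _ ha hb, map_mul _ _ _⟩

theorem m28dd_S_one : (1 : LaurentSeries k) ∈ m28dd_S k ℓ N :=
  ⟨1, Subalgebra.one_mem _, map_one _⟩

/-- `k[j_d : d ∣ N]` lies in the `k(j)`-span of the image of `𝔽_ℓ[j_d : d ∣ N]`. -/
theorem m28dd_mem_span (x : LaurentSeries k)
    (hx : x ∈ Algebra.adjoin k (divisorExpansionsC k N)) :
    x ∈ Submodule.span ↥(IntermediateField.adjoin k {jqModC k}) (m28dd_S k ℓ N) := by
  induction hx using Algebra.adjoin_induction with
  | mem x hx =>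
    obtain ⟨d, hd0, hd, rfl⟩ := hx
    haveI := hd0
    refine Submodule.subset_span ⟨qExpand (ZMod ℓ) d (jqModC (ZMod ℓ)), ?_, m28dd_c_Jd k ℓ d⟩
    exact Algebra.subset_adjoin (mem_divisorExpansionsC (ZMod ℓ) N hd)
  | algebraMap a =>
    have h1 : algebraMap k (LaurentSeries k) a =
        (algebraMap k ↥(IntermediateField.adjoin k {jqModC k}) a) • (1 : LaurentSeries k) := by
      rw [Algebra.smul_def, mul_one]
      rfl
    rw [h1]
    exact Submodule.smul_mem _ _ (Submodule.subset_span (m28dd_S_one k ℓ N))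
  | add x y _ _ hx hy => exact Submodule.add_mem _ hx hy
  | mul x y _ _ hx hy => exact m28dd_span_mul_mem _ (m28dd_S_mul k ℓ N) hx hy

/-- The coefficient embedding maps `𝔽_ℓ(j)` into `k(j)`. -/
theorem m28dd_c_mem (a : LaurentSeries (ZMod ℓ))
    (ha : a ∈ IntermediateField.adjoin (ZMod ℓ) {jqModC (ZMod ℓ)}) :
    m28dd_c k ℓ a ∈ IntermediateField.adjoin k {jqModC k} := by
  induction ha using IntermediateField.adjoin_induction with
  | mem x hx =>
    rw [Set.mem_singleton_iff] at hx
    rw [hx, m28dd_c_J]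
    exact IntermediateField.subset_adjoin _ _ (Set.mem_singleton _)
  | algebraMap x =>
    rw [m28dd_c_algebraMap]
    exact IntermediateField.algebraMap_mem _ _
  | add x y _ _ hx hy =>
    rw [map_add]
    exact add_mem hx hy
  | inv x _ hx =>
    rw [map_inv₀]
    exact inv_mem hx
  | mul x y _ _ hx hy =>
    rw [map_mul]
    exact mul_mem hx hy

/-- Linear independence is reflected by the coefficient embedding. -/
theorem m28dd_linearIndependent {n : ℕ} (u : Fin n → LaurentSeries (ZMod ℓ))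
    (hlin : LinearIndependent ↥(IntermediateField.adjoin k {jqModC k})
      (fun i => m28dd_c k ℓ (u i))) :
    LinearIndependent ↥(IntermediateField.adjoin (ZMod ℓ) {jqModC (ZMod ℓ)}) u := by
  rw [linearIndependent_iff'] at hlin ⊢
  intro s g hg i hi
  have h1 := congrArg (m28dd_c k ℓ) hg
  rw [map_sum, map_zero] at h1
  have h2 := hlin s (fun i => ⟨m28dd_c k ℓ (g i : LaurentSeries (ZMod ℓ)),
    m28dd_c_mem k ℓ _ (g i).2⟩) ?_ i hi
  · have h3 := congrArg Subtype.val h2
    have h4 : m28dd_c k ℓ (g i : LaurentSeries (ZMod ℓ)) = 0 := h3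
    have h5 : ((g i : ↥(IntermediateField.adjoin (ZMod ℓ) {jqModC (ZMod ℓ)})) :
        LaurentSeries (ZMod ℓ)) = 0 :=
      m28dd_c_injective k ℓ (h4.trans (map_zero _).symm)
    exact Subtype.ext h5
  · rw [← h1]
    apply Finset.sum_congr rfl
    intro j hj
    show m28dd_c k ℓ (g j : LaurentSeries (ZMod ℓ)) * m28dd_c k ℓ (u j) = _
    rw [← map_mul]
    rfl

/-- **[D-desc]** descent of the degree bound to the prime field (the statement of
`Spec.m28d_descent`). -/
theorem m28d_descent (k : Type) [Field k] (ℓ : ℕ) [Fact ℓ.Prime] [CharP k ℓ]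
    (N : ℕ) [NeZero N]
    (h : ∃ v : Fin (dedekindPsi N) → LaurentSeries k,
      (∀ i, v i ∈ Algebra.adjoin k (divisorExpansionsC k N)) ∧
      LinearIndependent ↥(IntermediateField.adjoin k {jqModC k}) v) :
    ∃ v : Fin (dedekindPsi N) → LaurentSeries (ZMod ℓ),
      (∀ i, v i ∈ Algebra.adjoin (ZMod ℓ) (divisorExpansionsC (ZMod ℓ) N)) ∧
      LinearIndependent ↥(IntermediateField.adjoin (ZMod ℓ) {jqModC (ZMod ℓ)}) v := by
  obtain ⟨v, hv, hlin⟩ := h
  obtain ⟨w, hw, hwlin⟩ := m28dd_exists_indep_of_span (m28dd_S k ℓ N) v hlin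
    (fun i => m28dd_mem_span k ℓ N (v i) (hv i))
  choose u hu hu' using hw
  refine ⟨u, hu, m28dd_linearIndependent k ℓ u ?_⟩
  have : (fun i => m28dd_c k ℓ (u i)) = w := funext hu'
  rw [this]
  exact hwlin

end

end Fermat.Agent.M28
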