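import Fermat.Agent.M28.DInst
import Fermat.Prelude.Def_ModularCurve_X0ModL

/-!
# S28 (Igusa), PKG-D — transport of the abstract tower theorem to the `Spec` shape
(prefix `m28di_`)

`m28di_tower_of : m28dt_Statement → (statement of Spec.m28d_tower)`.
The family `v` in `Ω = AlgebraicClosure k((t))` produced by the abstract tower theorem lies in
the image of the injective `k`-algebra homomorphism
`ψ = (k((q)) → k((t)), q ↦ t ^ N)` followed by `k((t)) → Ω`; pull it back.
-/

set_option autoImplicit false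
set_option linter.deprecated false
set_option linter.unusedSectionVars false
set_option linter.unusedVariables false
set_option linter.style.haveILetI false

namespace Fermat.Agent.M28

open HahnSeries ModularCurve Polynomial
open Fermat.Agent.S24

noncomputable section

variable {k : Type} [Field k]

/-- `ψ : k((q)) → Ω`, `q ↦ t ^ N`. -/
def m28di_psi (k : Type) [Field k] (N : ℕ) : LaurentSeries k →ₐ[k] m28d_Om k where
  __ := (algebraMap (LaurentSeries k) (m28d_Om k)).comp (m28d_qx k N)
  commutes' c := by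
    show algebraMap (LaurentSeries k) (m28d_Om k) (m28d_qx k N (algebraMap k (LaurentSeries k) c))
      = algebraMap k (m28d_Om k) c
    rw [m28d_qx_algebraMap]
    rfl

theorem m28di_psi_apply (N : ℕ) (f : LaurentSeries k) :
    m28di_psi k N f = algebraMap (LaurentSeries k) (m28d_Om k) (m28d_qx k N f) := rfl

theorem m28di_psi_injective (N : ℕ) : Function.Injective (m28di_psi k N) := by
  intro x y h
  rw [m28di_psi_apply, m28di_psi_apply] at h
  exact m28d_qx_injective N (m28di_emb_injective h)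

theorem m28di_psi_J (N : ℕ) : m28di_psi k N (jqModC k) = m28di_C (1 : kˣ) N := by
  rw [m28di_psi_apply, m28di_C, m28d_C, m28d_sub_one_eq_qx]

theorem m28di_psi_Jd (N : ℕ) (hN : N ≠ 0) (d : ℕ) [NeZero d] :
    m28di_psi k N (qExpand k d (jqModC k)) = m28di_C (1 : kˣ) (N * d) := by
  rw [m28di_psi_apply, m28di_C, ← m28d_Jd_eq_C, m28d_Jd_eq_qx hN (NeZero.ne d), m28d_qx_eq d]

/-- elements of `k[J_d(t) : d ∣ N] ⊆ Ω` come from `k[j_d(q) : d ∣ N]`. -/
theorem m28di_exists_preimage (N : ℕ) [NeZero N] (C : kˣ → ℕ → m28d_Om k)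
    (hC : C = m28di_C) (x : m28d_Om k)
    (hx : x ∈ Algebra.adjoin k ((fun d => C 1 (N * d)) '' {d | d ∣ N})) :
    ∃ y ∈ Algebra.adjoin k (divisorExpansionsC k N), m28di_psi k N y = x := by
  subst hC
  induction hx using Algebra.adjoin_induction with
  | mem x hx =>
    obtain ⟨d, hd, rfl⟩ := hx
    have hd0 : d ≠ 0 := fun h => NeZero.ne N (by
      rw [Set.mem_setOf_eq, h] at hd
      exact Nat.eq_zero_of_zero_dvd hd)
    haveI : NeZero d := ⟨hd0⟩
    exact ⟨qExpand k d (jqModC k), Algebra.subset_adjoin (mem_divisorExpansionsC k N hd),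
      m28di_psi_Jd N (NeZero.ne N) d⟩
  | algebraMap c =>
    exact ⟨algebraMap k _ c, Subalgebra.algebraMap_mem _ c, (m28di_psi k N).commutes c⟩
  | add x y _ _ hx hy =>
    obtain ⟨x', hx', rfl⟩ := hx
    obtain ⟨y', hy', rfl⟩ := hy
    exact ⟨x' + y', Subalgebra.add_mem _ hx' hy', map_add _ _ _⟩
  | mul x y _ _ hx hy =>
    obtain ⟨x', hx', rfl⟩ := hx
    obtain ⟨y', hy', rfl⟩ := hy
    exact ⟨x' * y', Subalgebra.mul_mem _ hx' hy', map_mul _ _ _⟩

/-- `ψ` maps `k(J)` into `k(C 1 N)`. -/
theorem m28di_psi_mem (N : ℕ) (a : LaurentSeries k)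
    (ha : a ∈ IntermediateField.adjoin k {jqModC k}) :
    m28di_psi k N a ∈ IntermediateField.adjoin k {m28di_C (1 : kˣ) N} := by
  have h1 : m28di_psi k N a ∈ (IntermediateField.adjoin k {jqModC k}).map (m28di_psi k N) :=
    (IntermediateField.mem_map _).mpr ⟨a, ha, rfl⟩
  rw [IntermediateField.adjoin_map, Set.image_singleton, m28di_psi_J] at h1
  exact h1

/-- Linear independence is reflected by `ψ`. -/
theorem m28di_linearIndependent {n : ℕ} (N : ℕ) (v' : Fin n → LaurentSeries k)
    (hlin : LinearIndependent ↥(IntermediateField.adjoin k {m28di_C (1 : kˣ) N})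
      (fun i => m28di_psi k N (v' i))) :
    LinearIndependent ↥(IntermediateField.adjoin k {jqModC k}) v' := by
  rw [linearIndependent_iff'] at hlin ⊢
  intro s g hg i hi
  have h1 := congrArg (m28di_psi k N) hg
  rw [map_sum, map_zero] at h1
  have h2 := hlin s (fun i => ⟨m28di_psi k N (g i : LaurentSeries k),
    m28di_psi_mem N _ (g i).2⟩) ?_ i hi
  · have h3 := congrArg Subtype.val h2
    have h4 : m28di_psi k N (g i : LaurentSeries k) = 0 := h3
    have h5 : ((g i : ↥(IntermediateField.adjoin k {jqModC k})) : LaurentSeries k) = 0 :=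
      m28di_psi_injective N (h4.trans (map_zero _).symm)
    exact Subtype.ext h5
  · rw [← h1]
    apply Finset.sum_congr rfl
    intro j hj
    show m28di_psi k N (g j : LaurentSeries k) * m28di_psi k N (v' j) = _
    rw [← map_mul]
    rfl

/-- **Transport**: the abstract tower theorem gives the tower theorem in the shape of
`Spec.m28d_tower`. -/
theorem m28di_tower_of (h : m28dt_Statement)
    (k : Type) [Field k] [IsAlgClosed k] (ℓ : ℕ) [Fact ℓ.Prime] [CharP k ℓ]
    (N : ℕ) [NeZero N] (hℓN : ¬ ℓ ∣ N)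
    (hP : ∀ (p : ℕ) [NeZero p], p.Prime → p ∣ N → Nonempty (M28PrimeData k p)) :
    ∃ v : Fin (dedekindPsi N) → LaurentSeries k,
      (∀ i, v i ∈ Algebra.adjoin k (divisorExpansionsC k N)) ∧
      LinearIndependent ↥(IntermediateField.adjoin k {jqModC k}) v := by
  have hNk : (N : k) ≠ 0 := by
    rw [Ne, CharP.cast_eq_zero_iff k ℓ N]
    exact hℓN
  have hpk : ∀ p : ℕ, p.Prime → p ∣ N → (p : k) ≠ 0 := by
    intro p hp hpN
    rw [Ne, CharP.cast_eq_zero_iff k ℓ p]
    exact fun hlp => hℓN (hlp.trans hpN)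
  obtain ⟨v, hv, hlin⟩ := h k (m28d_Om k) N hNk (m28di_data N hpk hP)
  have hex : ∀ i, ∃ y ∈ Algebra.adjoin k (divisorExpansionsC k N), m28di_psi k N y = v i :=
    fun i => m28di_exists_preimage N _ rfl (v i) (hv i)
  choose v' hv' hv'' using hex
  refine ⟨v', hv', m28di_linearIndependent N v' ?_⟩
  have : (fun i => m28di_psi k N (v' i)) = v := funext hv''
  rw [this]
  exact hlin

end

end Fermat.Agent.M28
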