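import Mathlib
import Fermat.Prelude.Def_ModularCurve_X0

/-!
# S28 (Igusa), PKG-D — the abstract tower interface (prefix `m28dt_`)

`Ω` is an algebraically closed field containing `k`; in the application
`Ω = AlgebraicClosure (LaurentSeries k)` and

* `C ξ m`   is the cusp series `J (ξ * t ^ m)` (order `-m`, leading coefficient `ξ⁻¹`);
* `τ ε`     is (an extension to `Ω` of) the substitution `t ↦ ε * t`;
* `Pos`     is the set of (images of) Laurent series of positive order, together with `0`;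
* for a prime `p ∣ N`: `Φ` is the modular equation, `W ξ m = w (ξ * t ^ m)` the substituted
  modular unit, `U` its integrality equation and `A` the interpolation polynomial.

The abstract tower theorem (`DTower.lean`) only uses the fields of these structures.
-/

set_option autoImplicit false

noncomputable section

namespace Fermat.Agent.M28

open Polynomial

/-- evaluation `k[Y] →+* Ω`, `Y ↦ y`. -/
def m28dt_ev {k Ω : Type} [Field k] [Field Ω] [Algebra k Ω] (y : Ω) : Polynomial k →+* Ω :=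
  (Polynomial.aeval (R := k) y).toRingHom

/-- The prime-level input of the tower theorem. -/
structure M28TowerPrime (k Ω : Type) [Field k] [Field Ω] [Algebra k Ω]
    (C : kˣ → ℕ → Ω) (Pos : Set Ω) (p : ℕ) where
  /-- the modular equation -/
  Φ : Polynomial (Polynomial k)
  Φ_monic : Φ.Monic
  Φ_natDegree : Φ.natDegree = p + 1
  /-- ROOTS: the full factorisation of `Φ (X, C ξ m)` for `p ∣ m`. -/
  roots : ∀ (ξ ξ' ζ : kˣ) (m : ℕ), 0 < m → p ∣ m → IsPrimitiveRoot ζ p → ξ' ^ p = ξ →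
    Φ.map (m28dt_ev (C ξ m)) =
      (X - Polynomial.C (C (ξ ^ p) (p * m))) *
        ∏ b ∈ Finset.range p, (X - Polynomial.C (C (ζ ^ b * ξ') (m / p)))
  /-- the substituted modular unit `w (ξ * t ^ m)` -/
  W : kˣ → ℕ → Ω
  W_ne : ∀ ξ m, 0 < m → W ξ m ≠ 0
  W_pos : ∀ ξ m, 0 < m → W ξ m ∈ Pos
  /-- the integrality equation of `w` over `k[j]` -/
  U : Polynomial (Polynomial k)
  U_monic : U.Monic
  U_root : ∀ ξ m, 0 < m → (U.map (m28dt_ev (C ξ m))).eval (W ξ m) = 0
  /-- the interpolation polynomial: `w * Φ_X (j(q^p), j(q)) = A (j(q^p), j(q))`. -/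
  A : Polynomial (Polynomial k)
  A_eq : ∀ ξ m, 0 < m →
    W ξ m * ((derivative Φ).map (m28dt_ev (C ξ m))).eval (C (ξ ^ p) (p * m)) =
      (A.map (m28dt_ev (C ξ m))).eval (C (ξ ^ p) (p * m))

/-- The input of the tower theorem. -/
structure M28TowerData (k Ω : Type) [Field k] [Field Ω] [Algebra k Ω] (N : ℕ) where
  /-- cusp series `J (ξ * t ^ m)` -/
  C : kˣ → ℕ → Ω
  C_inj : ∀ (ξ ξ' : kˣ) (m m' : ℕ), 0 < m → 0 < m' → C ξ m = C ξ' m' → m = m' ∧ ξ = ξ'
  /-- the substitution `t ↦ ε * t` -/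
  τ : kˣ → (Ω →+* Ω)
  τ_algebraMap : ∀ (ε : kˣ) (c : k), τ ε (algebraMap k Ω c) = algebraMap k Ω c
  τ_C : ∀ (ε ξ : kˣ) (m : ℕ), 0 < m → τ ε (C ξ m) = C (ξ * ε ^ m) m
  /-- series of positive order -/
  Pos : Set Ω
  Pos_zero : (0 : Ω) ∈ Pos
  Pos_mul : ∀ x y, x ∈ Pos → y ∈ Pos → x * y ∈ Pos
  Pos_neg : ∀ x, x ∈ Pos → -x ∈ Pos
  Pos_poly : ∀ f : Polynomial k, f ≠ 0 → Polynomial.aeval (C 1 N) f ∉ Pos
  /-- the prime-level packages -/
  prime : ∀ p : ℕ, p.Prime → p ∣ N → M28TowerPrime k Ω C Pos p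

/-- the generators `J_d = J (t ^ (N * d))`, `d ∣ N'`. -/
def m28dt_Jset {k Ω : Type} [Field k] [Field Ω] [Algebra k Ω] {N : ℕ} (D : M28TowerData k Ω N)
    (N' : ℕ) : Set Ω :=
  (fun d => D.C 1 (N * d)) '' {d | d ∣ N'}

/-- **The abstract tower theorem** (statement; proved in `DTower.lean`). -/
def m28dt_Statement : Prop :=
  ∀ (k Ω : Type) [Field k] [IsAlgClosed k] [Field Ω] [Algebra k Ω] [IsAlgClosed Ω]
    (N : ℕ) [NeZero N], (N : k) ≠ 0 → ∀ D : M28TowerData k Ω N,
    ∃ v : Fin (ModularCurve.dedekindPsi N) → Ω,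
      (∀ i, v i ∈ Algebra.adjoin k (m28dt_Jset D N)) ∧
      LinearIndependent ↥(IntermediateField.adjoin k {D.C 1 N}) v

end Fermat.Agent.M28

end
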