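import Mathlib
import Fermat.Agent.S24.MGCard

/-!
# S28 (Igusa), PKG-D — general lemmas for the abstract tower theorem (prefix `m28dt_`)
-/

set_option autoImplicit false

noncomputable section

namespace Fermat.Agent.M28

open Polynomial

/-! ### `dedekindPsi` at `N' * p` -/

theorem m28dt_psi_mul_prime_of_not_dvd {N' p : ℕ} (hp : p.Prime) (h : ¬ p ∣ N') :
    ModularCurve.dedekindPsi (N' * p) = ModularCurve.dedekindPsi N' * (p + 1) := by
  have hcop : N'.Coprime p := ((Nat.Prime.coprime_iff_not_dvd hp).mpr h).symm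
  rw [Fermat.Agent.S24.mgc_psi_mul hcop]
  have := Fermat.Agent.S24.mgc_psi_prime_pow (p := p) (e := 1) hp one_pos
  simp only [pow_one, Nat.sub_self, pow_zero] at this
  rw [this]

theorem m28dt_psi_mul_prime_of_dvd {N' p : ℕ} (hN' : N' ≠ 0) (hp : p.Prime) (h : p ∣ N') :
    ModularCurve.dedekindPsi (N' * p) = ModularCurve.dedekindPsi N' * p := by
  obtain ⟨e, n, hn, rfl⟩ := Nat.exists_eq_pow_mul_and_not_dvd hN' p hp.ne_one
  have he : 0 < e := by
    rcases Nat.eq_zero_or_pos e with h0 | h0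
    · subst h0
      rw [pow_zero, one_mul] at h
      exact absurd h hn
    · exact h0
  have hcop : ∀ i, (p ^ i).Coprime n := fun i =>
    Nat.Coprime.pow_left i ((Nat.Prime.coprime_iff_not_dvd hp).mpr hn)
  obtain ⟨f, rfl⟩ : ∃ f, e = f + 1 := ⟨e - 1, by omega⟩
  have e1 : p ^ (f + 1) * n * p = p ^ (f + 1 + 1) * n := by ring
  have h1 := Fermat.Agent.S24.mgc_psi_prime_pow hp (Nat.succ_pos f)
  have h2 := Fermat.Agent.S24.mgc_psi_prime_pow hp (Nat.succ_pos (f + 1))
  simp only [Nat.succ_eq_add_one, Nat.add_sub_cancel] at h1 h2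
  rw [e1, Fermat.Agent.S24.mgc_psi_mul (hcop _), Fermat.Agent.S24.mgc_psi_mul (hcop _), h1, h2]
  ring

/-! ### Roots and orbits -/

/-- A ring endomorphism fixing a polynomial permutes its roots. -/
theorem m28dt_isRoot_map {Ω : Type} [Field Ω] (τ : Ω →+* Ω) {Q : Polynomial Ω}
    (hQ : Q.map τ = Q) {r : Ω} (hr : Q.IsRoot r) : Q.IsRoot (τ r) := by
  have h1 : (Q.map τ).eval (τ r) = 0 := by
    rw [Polynomial.eval_map, Polynomial.eval₂_at_apply, hr.eq_zero, map_zero]
  rwa [hQ] at h1

/-- `n` distinct roots force degree `≥ n`. -/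
theorem m28dt_le_natDegree_of_roots {Ω : Type} [Field Ω] {Q : Polynomial Ω} (hQ : Q ≠ 0)
    {n : ℕ} (s : ℕ → Ω) (hinj : ∀ i < n, ∀ j < n, s i = s j → i = j)
    (hroot : ∀ i < n, Q.IsRoot (s i)) : n ≤ Q.natDegree := by
  classical
  have hsub : ((Finset.range n).image s).val ⊆ Q.roots := by
    intro x hx
    obtain ⟨i, hi, rfl⟩ := Finset.mem_image.mp (Finset.mem_val.mp hx)
    rw [Polynomial.mem_roots hQ]
    exact hroot i (Finset.mem_range.mp hi)
  have hcard : ((Finset.range n).image s).card = n := by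
    rw [Finset.card_image_of_injOn, Finset.card_range]
    intro i hi j hj hij
    exact hinj i (Finset.mem_range.mp hi) j (Finset.mem_range.mp hj) hij
  calc n = ((Finset.range n).image s).card := hcard.symm
    _ ≤ Q.natDegree := Polynomial.card_le_degree_of_subset_roots hsub

/-- The product of a nonempty multiset of elements of a multiplicatively closed set. -/
theorem m28dt_multiset_prod_mem {Ω : Type} [Field Ω] (Pos : Set Ω)
    (hmul : ∀ x y, x ∈ Pos → y ∈ Pos → x * y ∈ Pos) (s : Multiset Ω)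
    (hs : s ≠ 0) (h : ∀ x ∈ s, x ∈ Pos) : s.prod ∈ Pos := by
  induction s using Multiset.induction_on with
  | empty => exact absurd rfl hs
  | cons a t ih =>
    rw [Multiset.prod_cons]
    by_cases ht : t = 0
    · subst ht
      simpa using h a (Multiset.mem_cons_self a _)
    · exact hmul _ _ (h a (Multiset.mem_cons_self a _))
        (ih ht fun x hx => h x (Multiset.mem_cons_of_mem hx))

/-- The constant coefficient of a monic split polynomial of positive degree all of whose roots
lie in `Pos` lies in `Pos`. -/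
theorem m28dt_coeff_zero_mem {Ω : Type} [Field Ω] (Pos : Set Ω)
    (hmul : ∀ x y, x ∈ Pos → y ∈ Pos → x * y ∈ Pos) (hneg : ∀ x, x ∈ Pos → -x ∈ Pos)
    {Q : Polynomial Ω} (hm : Q.Monic) (hs : Q.Splits) (hdeg : 0 < Q.natDegree)
    (h : ∀ r, Q.IsRoot r → r ∈ Pos) : Q.coeff 0 ∈ Pos := by
  rw [hs.coeff_zero_eq_prod_roots_of_monic hm]
  have hne : Q.roots ≠ 0 := by
    intro h0
    have := hs.natDegree_eq_card_roots
    rw [h0, Multiset.card_zero] at this
    omega
  have hp : Q.roots.prod ∈ Pos :=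
    m28dt_multiset_prod_mem Pos hmul _ hne fun r hr => h r ((Polynomial.mem_roots hm.ne_zero).mp hr)
  rcases Nat.even_or_odd Q.natDegree with he | ho
  · rw [he.neg_one_pow, one_mul]; exact hp
  · rw [ho.neg_one_pow, neg_one_mul]; exact hneg _ hp

/-! ### Extension of embeddings with a prescribed root -/

/-- Let `M / E` be an algebraic field extension, `Ω` algebraically closed and `ι₀ : E →+* Ω`.
For `G ∈ M` and a root `r` of the image of `minpoly E G`, there is an extension of `ι₀` to `M`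
mapping `G` to `r`. -/
theorem m28dt_exists_extension {E M Ω : Type} [Field E] [Field M] [Field Ω] [Algebra E M]
    [Algebra.IsAlgebraic E M] [IsAlgClosed Ω] (ι₀ : E →+* Ω) (G : M) (r : Ω)
    (hr : ((minpoly E G).map ι₀).IsRoot r) :
    ∃ f : M →+* Ω, f.comp (algebraMap E M) = ι₀ ∧ f G = r := by
  letI : Algebra E Ω := ι₀.toAlgebra
  have hint : IsIntegral E G := Algebra.IsIntegral.isIntegral G
  have hmem : r ∈ (minpoly E G).rootSet Ω := by
    rw [Polynomial.mem_rootSet]
    refine ⟨minpoly.ne_zero hint, ?_⟩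
    rw [Polynomial.aeval_def, ← Polynomial.eval_map]
    exact hr
  rw [← Algebra.IsAlgebraic.range_eval_eq_rootSet_minpoly Ω G] at hmem
  obtain ⟨ψ, hψ⟩ := hmem
  refine ⟨ψ.toRingHom, ?_, hψ⟩
  ext x
  exact ψ.commutes x

end Fermat.Agent.M28

end
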