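import Mathlib
import Fermat.Agent.M28.DTowerDefs
import Fermat.Agent.M28.DTowerLemmas

/-!
# S28 (Igusa), PKG-D — roots of the modular equation in the abstract tower (prefix `m28dt_`)
-/

set_option autoImplicit false

noncomputable section

namespace Fermat.Agent.M28

open Polynomial

/-! ### Bivariate evaluation -/

section bev

variable {k : Type} [Field k]

/-- `Φ (g, y)` for `Φ ∈ k[Y][X]`. -/
def m28dt_bev {A : Type} [CommRing A] [Algebra k A] (Φ : Polynomial (Polynomial k)) (g y : A) : A :=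
  Φ.eval₂ (Polynomial.aeval (R := k) y).toRingHom g

theorem m28dt_bev_algHom {A B : Type} [CommRing A] [Algebra k A] [CommRing B] [Algebra k B]
    (f : A →ₐ[k] B) (Φ : Polynomial (Polynomial k)) (g y : A) :
    f (m28dt_bev Φ g y) = m28dt_bev Φ (f g) (f y) := by
  unfold m28dt_bev
  have h := Polynomial.hom_eval₂ Φ (Polynomial.aeval (R := k) y).toRingHom (f : A →+* B) g
  have h2 : (f : A →+* B).comp (Polynomial.aeval (R := k) y).toRingHom =
      (Polynomial.aeval (R := k) (f y)).toRingHom := by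
    rw [Polynomial.aeval_algHom]
    rfl
  rw [h2] at h
  exact h

theorem m28dt_eval_map_ev {Ω : Type} [Field Ω] [Algebra k Ω] (Φ : Polynomial (Polynomial k))
    (g y : Ω) : (Φ.map (m28dt_ev y)).eval g = m28dt_bev Φ g y := by
  rw [Polynomial.eval_map]; rfl

end bev

/-! ### Roots of unity and `p`-th roots in `k` -/

section kroots

variable {k : Type} [Field k] [IsAlgClosed k]

theorem m28dt_exists_primitiveRoot {n : ℕ} (hn : (n : k) ≠ 0) : ∃ ζ : kˣ, IsPrimitiveRoot ζ n := by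
  haveI : NeZero (n : k) := ⟨hn⟩
  haveI : NeZero n := ⟨fun h => hn (by rw [h, Nat.cast_zero])⟩
  haveI := IsSepClosed.hasEnoughRootsOfUnity k n
  obtain ⟨ζ, hζ⟩ := HasEnoughRootsOfUnity.exists_primitiveRoot k n
  have h0 : ζ ≠ 0 := hζ.ne_zero (NeZero.ne n)
  refine ⟨Units.mk0 ζ h0, ?_⟩
  rw [← IsPrimitiveRoot.coe_units_iff]
  exact hζ

theorem m28dt_exists_root (ξ : kˣ) {p : ℕ} (hp : 0 < p) : ∃ η : kˣ, η ^ p = ξ := by
  obtain ⟨z, hz⟩ := IsAlgClosed.exists_pow_nat_eq (ξ : k) hp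
  have h0 : z ≠ 0 := by
    rintro rfl
    rw [zero_pow hp.ne'] at hz
    exact ξ.ne_zero hz.symm
  refine ⟨Units.mk0 z h0, Units.ext ?_⟩
  simpa using hz

theorem m28dt_natCast_ne_zero_of_dvd {N n : ℕ} (hN : (N : k) ≠ 0) (h : n ∣ N) : (n : k) ≠ 0 := by
  obtain ⟨c, rfl⟩ := h
  intro h0
  apply hN
  rw [Nat.cast_mul, h0, zero_mul]

end kroots

/-! ### The four root lemmas -/

section roots

variable {k Ω : Type} [Field k] [IsAlgClosed k] [Field Ω] [Algebra k Ω]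
variable {C : kˣ → ℕ → Ω} {Pos : Set Ω} {p : ℕ}

/-- (R1) the first-kind root. -/
theorem m28dt_root_first (P : M28TowerPrime k Ω C Pos p) (hp : p.Prime) (hpk : (p : k) ≠ 0)
    (ξ : kˣ) {m : ℕ} (hm : 0 < m) (hpm : p ∣ m) :
    m28dt_bev P.Φ (C (ξ ^ p) (p * m)) (C ξ m) = 0 := by
  obtain ⟨ζ, hζ⟩ := m28dt_exists_primitiveRoot (k := k) hpk
  obtain ⟨ξ', hξ'⟩ := m28dt_exists_root ξ hp.pos
  have h := P.roots ξ ξ' ζ m hm hpm hζ hξ'
  rw [← m28dt_eval_map_ev, h, Polynomial.eval_mul]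
  simp

/-- (R2) the second-kind roots. -/
theorem m28dt_root_second (P : M28TowerPrime k Ω C Pos p) (hp : p.Prime) (hpk : (p : k) ≠ 0)
    (η : kˣ) {m : ℕ} (hm : 0 < m) (hpm : p ∣ m) :
    m28dt_bev P.Φ (C η (m / p)) (C (η ^ p) m) = 0 := by
  obtain ⟨ζ, hζ⟩ := m28dt_exists_primitiveRoot (k := k) hpk
  have h := P.roots (η ^ p) η ζ m hm hpm hζ rfl
  rw [← m28dt_eval_map_ev, h, Polynomial.eval_mul, Polynomial.eval_prod]
  apply mul_eq_zero_of_right
  apply Finset.prod_eq_zero (Finset.mem_range.mpr hp.pos)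
  simp

/-- (R3) classification of the roots. -/
theorem m28dt_root_cases (P : M28TowerPrime k Ω C Pos p) (hp : p.Prime) (hpk : (p : k) ≠ 0)
    (ξ : kˣ) {m : ℕ} (hm : 0 < m) (hpm : p ∣ m) {r : Ω}
    (hr : m28dt_bev P.Φ r (C ξ m) = 0) :
    r = C (ξ ^ p) (p * m) ∨ ∃ η : kˣ, η ^ p = ξ ∧ r = C η (m / p) := by
  obtain ⟨ζ, hζ⟩ := m28dt_exists_primitiveRoot (k := k) hpk
  obtain ⟨ξ', hξ'⟩ := m28dt_exists_root ξ hp.pos
  have h := P.roots ξ ξ' ζ m hm hpm hζ hξ'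
  rw [← m28dt_eval_map_ev, h, Polynomial.eval_mul, Polynomial.eval_prod, mul_eq_zero] at hr
  rcases hr with hr | hr
  · left
    simpa [sub_eq_zero] using hr
  · right
    obtain ⟨b, -, hb⟩ := Finset.prod_eq_zero_iff.mp hr
    refine ⟨ζ ^ b * ξ', ?_, by simpa [sub_eq_zero] using hb⟩
    rw [mul_pow, hξ', ← pow_mul, mul_comm b p, pow_mul, hζ.pow_eq_one, one_pow, one_mul]

/-- separability of `Φ (X, C ξ m)`. -/
theorem m28dt_separable (P : M28TowerPrime k Ω C Pos p) (hp : p.Prime) (hpk : (p : k) ≠ 0)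
    (hinj : ∀ (ξ ξ' : kˣ) (m m' : ℕ), 0 < m → 0 < m' → C ξ m = C ξ' m' → m = m' ∧ ξ = ξ')
    (ξ : kˣ) {m : ℕ} (hm : 0 < m) (hpm : p ∣ m) :
    (P.Φ.map (m28dt_ev (C ξ m))).Separable := by
  obtain ⟨ζ, hζ⟩ := m28dt_exists_primitiveRoot (k := k) hpk
  obtain ⟨ξ', hξ'⟩ := m28dt_exists_root ξ hp.pos
  rw [P.roots ξ ξ' ζ m hm hpm hζ hξ']
  have hmp : 0 < m / p := Nat.div_pos (Nat.le_of_dvd hm hpm) hp.pos
  have hpm0 : 0 < p * m := Nat.mul_pos hp.pos hm
  refine Polynomial.Separable.mul Polynomial.separable_X_sub_C ?_ ?_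
  · rw [Polynomial.separable_prod_X_sub_C_iff']
    intro x hx y hy hxy
    have h1 := (hinj _ _ _ _ hmp hmp hxy).2
    have h2 : ζ ^ x = ζ ^ y := mul_right_cancel h1
    exact hζ.pow_inj (Finset.mem_range.mp hx) (Finset.mem_range.mp hy) h2
  · rw [(Polynomial.irreducible_X_sub_C _).coprime_iff_not_dvd, Polynomial.dvd_iff_isRoot,
      Polynomial.IsRoot.def, Polynomial.eval_prod, Finset.prod_eq_zero_iff]
    rintro ⟨b, -, hb⟩
    have hb' : C (ξ ^ p) (p * m) = C (ζ ^ b * ξ') (m / p) := by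
      simpa [sub_eq_zero] using hb
    have h1 := (hinj _ _ _ _ hpm0 hmp hb').1
    have h2 : m / p ≤ m := Nat.div_le_self m p
    have h3 : m < p * m := by
      have := hp.two_le
      nlinarith
    omega

/-- (R4) the roots are simple. -/
theorem m28dt_root_simple (P : M28TowerPrime k Ω C Pos p) (hp : p.Prime) (hpk : (p : k) ≠ 0)
    (hinj : ∀ (ξ ξ' : kˣ) (m m' : ℕ), 0 < m → 0 < m' → C ξ m = C ξ' m' → m = m' ∧ ξ = ξ')
    (ξ : kˣ) {m : ℕ} (hm : 0 < m) (hpm : p ∣ m) {r : Ω}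
    (hr : m28dt_bev P.Φ r (C ξ m) = 0) :
    m28dt_bev (derivative P.Φ) r (C ξ m) ≠ 0 := by
  have hsep := m28dt_separable P hp hpk hinj ξ hm hpm
  have h := hsep.eval₂_derivative_ne_zero (RingHom.id Ω) (x := r)
    (by rw [Polynomial.eval₂_id, m28dt_eval_map_ev]; exact hr)
  rw [Polynomial.eval₂_id, Polynomial.derivative_map, m28dt_eval_map_ev] at h
  exact h

end roots

end Fermat.Agent.M28

end
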