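import Mathlib
import Fermat.Agent.M28.DTowerRoots

/-!
# S28 (Igusa), PKG-D — the abstract tower: fields, cusp shape of embeddings (prefix `m28dt_`)
-/

set_option autoImplicit false

noncomputable section

namespace Fermat.Agent.M28

open Polynomial

section defs

variable {k Ω : Type} [Field k] [Field Ω] [Algebra k Ω] {N : ℕ} (D : M28TowerData k Ω N)

/-- `J_d = J (t ^ (N * d))`. -/
def m28dt_J (d : ℕ) : Ω := D.C 1 (N * d)

/-- `K₀ = k (J_1)`. -/
def m28dt_K0 : IntermediateField k Ω := IntermediateField.adjoin k {D.C 1 N}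

/-- `E_{N'} = K₀ (J_d : d ∣ N')`. -/
def m28dt_E (N' : ℕ) : IntermediateField ↥(m28dt_K0 D) Ω :=
  IntermediateField.adjoin ↥(m28dt_K0 D) (m28dt_Jset D N')

/-- the cusp shape: `z = C ξ (e * a)` with `a * δ = d`, `δ * e = N`. -/
def m28dt_IsCusp (d : ℕ) (z : Ω) : Prop :=
  ∃ (ξ : kˣ) (a δ e : ℕ), a * δ = d ∧ δ * e = N ∧ z = D.C ξ (e * a)

theorem m28dt_J_one : m28dt_J D 1 = D.C 1 N := by
  rw [m28dt_J, mul_one]

theorem m28dt_C1N_mem_K0 : D.C 1 N ∈ m28dt_K0 D :=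
  IntermediateField.subset_adjoin _ _ rfl

theorem m28dt_J_mem_Jset {N' d : ℕ} (hd : d ∣ N') : m28dt_J D d ∈ m28dt_Jset D N' :=
  ⟨d, hd, rfl⟩

theorem m28dt_J_mem_E {N' d : ℕ} (hd : d ∣ N') : m28dt_J D d ∈ m28dt_E D N' :=
  IntermediateField.subset_adjoin _ _ (m28dt_J_mem_Jset D hd)

theorem m28dt_Jset_mono {N' N'' : ℕ} (h : N' ∣ N'') : m28dt_Jset D N' ⊆ m28dt_Jset D N'' := by
  rintro x ⟨d, hd, rfl⟩
  exact ⟨d, hd.trans h, rfl⟩

theorem m28dt_E_mono {N' N'' : ℕ} (h : N' ∣ N'') : m28dt_E D N' ≤ m28dt_E D N'' :=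
  IntermediateField.adjoin.mono _ _ _ (m28dt_Jset_mono D h)

theorem m28dt_coe_algebraMap_K0 (c : k) :
    ((algebraMap k ↥(m28dt_K0 D) c : ↥(m28dt_K0 D)) : Ω) = algebraMap k Ω c := by
  rw [IsScalarTower.algebraMap_apply k ↥(m28dt_K0 D) Ω c]
  rfl

theorem m28dt_coe_algebraMap_E (N' : ℕ) (c : k) :
    ((algebraMap k ↥(m28dt_E D N') c : ↥(m28dt_E D N')) : Ω) = algebraMap k Ω c := by
  rw [IsScalarTower.algebraMap_apply k ↥(m28dt_K0 D) ↥(m28dt_E D N') c,
    IsScalarTower.algebraMap_apply k ↥(m28dt_K0 D) Ω c]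
  rfl

/-- the inclusion `E ⊆ Ω` as a `k`-algebra homomorphism. -/
def m28dt_val (N' : ℕ) : ↥(m28dt_E D N') →ₐ[k] Ω := (m28dt_E D N').val.restrictScalars k

@[simp] theorem m28dt_val_apply (N' : ℕ) (x : ↥(m28dt_E D N')) : m28dt_val D N' x = (x : Ω) := rfl

theorem m28dt_val_injective (N' : ℕ) : Function.Injective (m28dt_val D N') :=
  fun _ _ h => Subtype.ext h

/-- bivariate evaluation commutes with the inclusion. -/
theorem m28dt_coe_bev (N' : ℕ) (Φ : Polynomial (Polynomial k)) (g y : ↥(m28dt_E D N')) :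
    ((m28dt_bev Φ g y : ↥(m28dt_E D N')) : Ω) = m28dt_bev Φ (g : Ω) (y : Ω) :=
  m28dt_bev_algHom (m28dt_val D N') Φ g y

/-- bivariate evaluation commutes with `K₀`-embeddings. -/
theorem m28dt_embed_bev (N' : ℕ) (ι : ↥(m28dt_E D N') →ₐ[↥(m28dt_K0 D)] Ω)
    (Φ : Polynomial (Polynomial k)) (g y : ↥(m28dt_E D N')) :
    ι (m28dt_bev Φ g y) = m28dt_bev Φ (ι g) (ι y) :=
  m28dt_bev_algHom (ι.restrictScalars k) Φ g y

/-- a relation `Φ (g, y) = 0` in `Ω` between elements of `E` is transported by embeddings. -/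
theorem m28dt_embed_root (N' : ℕ) (ι : ↥(m28dt_E D N') →ₐ[↥(m28dt_K0 D)] Ω)
    (Φ : Polynomial (Polynomial k)) (g y : ↥(m28dt_E D N'))
    (h : m28dt_bev Φ (g : Ω) (y : Ω) = 0) : m28dt_bev Φ (ι g) (ι y) = 0 := by
  have h1 : m28dt_bev Φ g y = 0 := by
    apply m28dt_val_injective D N'
    rw [m28dt_val_apply, m28dt_coe_bev, h]
    rfl
  rw [← m28dt_embed_bev, h1, map_zero]

/-! ### ring homomorphisms fixing the generators -/

/-- a ring endomorphism of `Ω` fixing `k` and `J_1` fixes `K₀`. -/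
theorem m28dt_fix_K0 (τ : Ω →+* Ω) (hk : ∀ c : k, τ (algebraMap k Ω c) = algebraMap k Ω c)
    (h1 : τ (D.C 1 N) = D.C 1 N) : ∀ x ∈ m28dt_K0 D, τ x = x := by
  intro x hx
  induction hx using IntermediateField.adjoin_induction with
  | mem x hx =>
    rw [Set.mem_singleton_iff] at hx
    rw [hx, h1]
  | algebraMap c => exact hk c
  | add x y _ _ hx hy => rw [map_add, hx, hy]
  | inv x _ hx => rw [map_inv₀, hx]
  | mul x y _ _ hx hy => rw [map_mul, hx, hy]

/-- two ring homomorphisms `E → Ω` agreeing on `K₀` and on the generators `J_d` are equal. -/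
theorem m28dt_ringHom_ext (N' : ℕ) (f g : ↥(m28dt_E D N') →+* Ω)
    (hK : ∀ c : ↥(m28dt_K0 D), f (algebraMap ↥(m28dt_K0 D) ↥(m28dt_E D N') c) =
      g (algebraMap ↥(m28dt_K0 D) ↥(m28dt_E D N') c))
    (hJ : ∀ d, d ∣ N' → ∀ x : ↥(m28dt_E D N'), (x : Ω) = m28dt_J D d → f x = g x) :
    f = g := by
  ext ⟨x, hx⟩
  induction hx using IntermediateField.adjoin_induction with
  | mem x hx =>
    obtain ⟨d, hd, rfl⟩ := hx
    exact hJ d hd _ rfl
  | algebraMap c => exact hK c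
  | add x y hx hy ihx ihy =>
    have : (⟨x + y, add_mem hx hy⟩ : ↥(m28dt_E D N')) = ⟨x, hx⟩ + ⟨y, hy⟩ := rfl
    rw [this, map_add, map_add, ihx, ihy]
  | inv x hx ihx =>
    have : (⟨x⁻¹, inv_mem hx⟩ : ↥(m28dt_E D N')) = (⟨x, hx⟩ : ↥(m28dt_E D N'))⁻¹ := rfl
    rw [this, map_inv₀, map_inv₀, ihx]
  | mul x y hx hy ihx ihy =>
    have : (⟨x * y, mul_mem hx hy⟩ : ↥(m28dt_E D N')) = ⟨x, hx⟩ * ⟨y, hy⟩ := rfl
    rw [this, map_mul, map_mul, ihx, ihy]

end defs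

/-! ### (a): the cusp shape of every embedding -/

section cusp

variable {k Ω : Type} [Field k] [IsAlgClosed k] [Field Ω] [Algebra k Ω] {N : ℕ}
  (D : M28TowerData k Ω N)

/-- `Φ_p (J_{p d'}, J_{d'}) = 0`. -/
theorem m28dt_J_root_first (hNk : (N : k) ≠ 0) {p : ℕ} (hp : p.Prime) (hpN : p ∣ N) {d' : ℕ}
    (hd' : 0 < d') :
    m28dt_bev (D.prime p hp hpN).Φ (m28dt_J D (p * d')) (m28dt_J D d') = 0 := by
  have hN0 : 0 < N := Nat.pos_of_ne_zero fun h => hNk (by rw [h, Nat.cast_zero])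
  have h := m28dt_root_first (D.prime p hp hpN) hp (m28dt_natCast_ne_zero_of_dvd hNk hpN) 1
    (m := N * d') (Nat.mul_pos hN0 hd') (Dvd.dvd.mul_right hpN d')
  rw [one_pow] at h
  rw [m28dt_J, m28dt_J, show N * (p * d') = p * (N * d') by ring]
  exact h

/-- `Φ_p (J_{d'}, J_{p d'}) = 0`. -/
theorem m28dt_J_root_second (hNk : (N : k) ≠ 0) {p : ℕ} (hp : p.Prime) (hpN : p ∣ N) {d' : ℕ}
    (hd' : 0 < d') :
    m28dt_bev (D.prime p hp hpN).Φ (m28dt_J D d') (m28dt_J D (p * d')) = 0 := by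
  have hN0 : 0 < N := Nat.pos_of_ne_zero fun h => hNk (by rw [h, Nat.cast_zero])
  have h := m28dt_root_second (D.prime p hp hpN) hp (m28dt_natCast_ne_zero_of_dvd hNk hpN) 1
    (m := N * (p * d')) (Nat.mul_pos hN0 (Nat.mul_pos hp.pos hd'))
    (Dvd.dvd.mul_right hpN _)
  rw [one_pow] at h
  rw [m28dt_J, m28dt_J]
  have e1 : N * (p * d') / p = N * d' := by
    rw [show N * (p * d') = p * (N * d') by ring, Nat.mul_div_cancel_left _ hp.pos]
  rw [e1] at h
  exact h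

theorem m28dt_cusp (hNk : (N : k) ≠ 0) {N' : ℕ} (hN' : N' ∣ N)
    (ι : ↥(m28dt_E D N') →ₐ[↥(m28dt_K0 D)] Ω) :
    ∀ d, d ∣ N' → ∀ x : ↥(m28dt_E D N'), (x : Ω) = m28dt_J D d →
      m28dt_IsCusp D d (ι x) := by
  have hN0 : N ≠ 0 := fun h => hNk (by rw [h, Nat.cast_zero])
  intro d
  induction d using Nat.strong_induction_on with
  | _ d ih =>
    intro hd x hx
    have hdN : d ∣ N := hd.trans hN'
    have hd0 : d ≠ 0 := fun h => hN0 (by rw [h] at hdN; exact Nat.eq_zero_of_zero_dvd hdN)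
    rcases eq_or_ne d 1 with rfl | hd1
    · have hxK : x = algebraMap ↥(m28dt_K0 D) ↥(m28dt_E D N')
          ⟨D.C 1 N, m28dt_C1N_mem_K0 D⟩ := by
        apply Subtype.ext
        rw [hx, m28dt_J_one]
        rfl
      rw [hxK, ι.commutes]
      exact ⟨1, 1, 1, N, rfl, one_mul N, by rw [mul_one]; rfl⟩
    · have hp : d.minFac.Prime := Nat.minFac_prime hd1
      obtain ⟨d', hd'⟩ := Nat.minFac_dvd d
      set p := d.minFac with hpdef
      have hd'0 : 0 < d' := Nat.pos_of_ne_zero fun h => hd0 (by rw [hd', h, mul_zero])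
      have hd'd : d' ∣ d := ⟨p, by rw [hd', mul_comm]⟩
      have hd'lt : d' < d := by
        rw [hd']
        have := hp.two_le
        nlinarith
      have hpN : p ∣ N := (Nat.minFac_dvd d).trans hdN
      have hpk : (p : k) ≠ 0 := m28dt_natCast_ne_zero_of_dvd hNk hpN
      -- the element `J_{d'}`
      obtain ⟨ξ, a, δ, e, haδ, hδe, hι'⟩ := ih d' hd'lt (hd'd.trans hd)
        ⟨m28dt_J D d', m28dt_J_mem_E D (hd'd.trans hd)⟩ rfl
      have hδ0 : 0 < δ := Nat.pos_of_ne_zero fun h => hN0 (by rw [← hδe, h, zero_mul])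
      have he0 : 0 < e := Nat.pos_of_ne_zero fun h => hN0 (by rw [← hδe, h, mul_zero])
      have ha0 : 0 < a := Nat.pos_of_ne_zero fun h => hd'0.ne' (by rw [← haδ, h, zero_mul])
      -- `p ∣ e`
      have hpe : p ∣ e := by
        have h1 : p * d' ∣ δ * e := by rw [hδe, ← hd']; exact hdN
        rw [← haδ, show p * (a * δ) = δ * (p * a) by ring] at h1
        exact (dvd_of_mul_right_dvd ((Nat.mul_dvd_mul_iff_left hδ0).mp h1))
      -- the relation
      have hrel : m28dt_bev (D.prime p hp hpN).Φ (x : Ω)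
          ((⟨m28dt_J D d', m28dt_J_mem_E D (hd'd.trans hd)⟩ : ↥(m28dt_E D N')) : Ω) = 0 := by
        have h := m28dt_J_root_first D hNk hp hpN hd'0
        rw [← hd'] at h
        rw [hx]
        exact h
      have hrel' := m28dt_embed_root D N' ι _ x _ hrel
      rw [hι'] at hrel'
      rcases m28dt_root_cases (D.prime p hp hpN) hp hpk ξ (Nat.mul_pos he0 ha0)
        (Dvd.dvd.mul_right hpe a) hrel' with h1 | ⟨η, -, h2⟩
      · refine ⟨ξ ^ p, p * a, δ, e, ?_, hδe, ?_⟩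
        · rw [hd', ← haδ]; ring
        · rw [h1, show p * (e * a) = e * (p * a) by ring]
      · obtain ⟨e', rfl⟩ := hpe
        refine ⟨η, a, δ * p, e', ?_, ?_, ?_⟩
        · rw [hd', ← haδ]; ring
        · rw [← hδe]; ring
        · rw [h2, show p * e' * a = p * (e' * a) by ring, Nat.mul_div_cancel_left _ hp.pos]

end cusp

end Fermat.Agent.M28

end
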