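import Mathlib
import Fermat.Agent.M28.DTowerLemmas

/-!
# S28 (Igusa), PKG-D — the norm argument (EXCLUDE) (prefix `m28dt_`)

`m28dt_exclude`: let `J1 ∈ Ω` be transcendental over `k`, `K₀ = k(J1)`, `E / K₀` an algebraic
subextension of `Ω` (algebraically closed), `Pos ⊆ Ω` closed under products and negation and
containing no `f(J1)`, `f ≠ 0`.  Then a nonzero `w ∈ E`, integral over `k[J1]`, cannot have all
its `K₀`-conjugates in `Pos`.
-/

set_option autoImplicit false
set_option linter.deprecated false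
set_option linter.unusedSectionVars false
set_option linter.unusedVariables false
set_option linter.style.haveILetI false

noncomputable section

namespace Fermat.Agent.M28

open Polynomial

section

variable {k Ω : Type} [Field k] [Field Ω] [Algebra k Ω]

/-- `k[J1]` is integrally closed for transcendental `J1`. -/
theorem m28dt_adjoin_isIntegrallyClosed (J1 : Ω) (htr : Transcendental k J1) :
    IsIntegrallyClosed ↥(Algebra.adjoin k {J1}) :=
  IsIntegrallyClosed.of_equiv (Polynomial.algEquivOfTranscendental k J1 htr).toRingEquiv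

open scoped IntermediateField.algebraAdjoinAdjoin in
/-- **EXCLUDE** (the norm argument). -/
theorem m28dt_exclude [IsAlgClosed Ω] (J1 : Ω) (htr : Transcendental k J1)
    (E : IntermediateField ↥(IntermediateField.adjoin k {J1}) Ω)
    [Algebra.IsAlgebraic ↥(IntermediateField.adjoin k {J1}) ↥E]
    (Pos : Set Ω) (hmul : ∀ x y, x ∈ Pos → y ∈ Pos → x * y ∈ Pos)
    (hneg : ∀ x, x ∈ Pos → -x ∈ Pos)
    (hpoly : ∀ f : Polynomial k, f ≠ 0 → Polynomial.aeval J1 f ∉ Pos)
    (w : ↥E) (hw0 : w ≠ 0) (hwint : IsIntegral ↥(Algebra.adjoin k {J1}) (w : Ω))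
    (hpos : ∀ ι : ↥E →ₐ[↥(IntermediateField.adjoin k {J1})] Ω, ι w ∈ Pos) : False := by
  haveI := m28dt_adjoin_isIntegrallyClosed J1 htr
  -- the minimal polynomial over `K₀`
  have hwK : IsIntegral ↥(IntermediateField.adjoin k {J1}) w :=
    Algebra.IsIntegral.isIntegral w
  have hmin1 : minpoly ↥(IntermediateField.adjoin k {J1}) w =
      minpoly ↥(IntermediateField.adjoin k {J1}) (w : Ω) :=
    IntermediateField.minpoly_eq w
  have hmin2 : minpoly ↥(IntermediateField.adjoin k {J1}) (w : Ω) =
      (minpoly ↥(Algebra.adjoin k {J1}) (w : Ω)).map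
        (algebraMap ↥(Algebra.adjoin k {J1}) ↥(IntermediateField.adjoin k {J1})) :=
    minpoly.isIntegrallyClosed_eq_field_fractions' _ hwint
  -- the polynomial over `Ω`
  set Q : Polynomial Ω := (minpoly ↥(IntermediateField.adjoin k {J1}) w).map
    (algebraMap ↥(IntermediateField.adjoin k {J1}) Ω) with hQ
  have hQmonic : Q.Monic := (minpoly.monic hwK).map _
  have hQdeg : 0 < Q.natDegree := by
    rw [hQ, (minpoly.monic hwK).natDegree_map]
    exact minpoly.natDegree_pos hwK
  have hQroots : ∀ r, Q.IsRoot r → r ∈ Pos := by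
    intro r hr
    have hmem : r ∈ (minpoly ↥(IntermediateField.adjoin k {J1}) w).rootSet Ω := by
      rw [Polynomial.mem_rootSet]
      refine ⟨minpoly.ne_zero hwK, ?_⟩
      rw [Polynomial.aeval_def, ← Polynomial.eval_map]
      exact hr
    rw [← Algebra.IsAlgebraic.range_eval_eq_rootSet_minpoly Ω w] at hmem
    obtain ⟨ψ, rfl⟩ := hmem
    exact hpos ψ
  have hc0 : Q.coeff 0 ∈ Pos :=
    m28dt_coeff_zero_mem Pos hmul hneg hQmonic (IsAlgClosed.splits _) hQdeg hQroots
  -- the constant coefficient is `f (J1)` with `f ≠ 0`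
  set r0 : ↥(Algebra.adjoin k {J1}) := (minpoly ↥(Algebra.adjoin k {J1}) (w : Ω)).coeff 0 with hr0
  have hcoe : Q.coeff 0 = (r0 : Ω) := by
    rw [hQ, hmin1, hmin2, Polynomial.coeff_map, Polynomial.coeff_map]
    rfl
  have hall : ∀ x : Ω, x ∈ Algebra.adjoin k {J1} → ∃ f : Polynomial k,
      Polynomial.aeval J1 f = x := by
    intro x hx
    rw [Algebra.adjoin_singleton_eq_range_aeval] at hx
    exact hx
  obtain ⟨f, hf⟩ := hall (r0 : Ω) r0.2
  have hf' : Polynomial.aeval J1 f = (r0 : Ω) := hf
  have hfne : f ≠ 0 := by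
    rintro rfl
    rw [map_zero] at hf'
    have h1 : Q.coeff 0 = 0 := by rw [hcoe, ← hf']
    have h2 : (minpoly ↥(IntermediateField.adjoin k {J1}) w).coeff 0 ≠ 0 :=
      minpoly.coeff_zero_ne_zero hwK hw0
    apply h2
    rw [hQ, Polynomial.coeff_map] at h1
    exact (map_eq_zero _).mp h1
  apply hpoly f hfne
  rw [hf', ← hcoe]
  exact hc0

end

end Fermat.Agent.M28

end
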