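import Mathlib
import Fermat.Agent.M28.DTowerCusp

/-!
# S28 (Igusa), PKG-D — the abstract tower: integrality of the `J_d` (prefix `m28dt_`)

* `m28dt_isIntegral_of_bev` : a root `g` of `Ψ (X, y)`, `Ψ` monic, `y` integral over a
  `k`-subalgebra `R` of `Ω`, is integral over `R`;
* `m28dt_J_isIntegral`    : `J_d` is integral over `k[J_1]` for `d ∣ N`;
* `m28dt_J_isIntegral_K0` : `J_d` is integral over `K₀ = k(J_1)`;
* `m28dt_E_isAlgebraic`   : `E_{N'} / K₀` is algebraic.
-/

set_option autoImplicit false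
set_option linter.deprecated false
set_option linter.unusedSectionVars false
set_option linter.unusedVariables false
set_option linter.style.haveILetI false

noncomputable section

namespace Fermat.Agent.M28

open Polynomial

section

variable {k Ω : Type} [Field k] [Field Ω] [Algebra k Ω]

/-- A root `g` of `Ψ (X, y)`, with `Ψ` monic in `X` and `y` integral over the `k`-subalgebra
`R`, is integral over `R`. -/
theorem m28dt_isIntegral_of_bev (R : Subalgebra k Ω) {Ψ : Polynomial (Polynomial k)}
    (hΨ : Ψ.Monic) {g y : Ω} (hy : IsIntegral ↥R y) (h : m28dt_bev Ψ g y = 0) :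
    IsIntegral ↥R g := by
  have hyA : y ∈ integralClosure ↥R Ω := hy
  let cst : k →+* ↥(integralClosure ↥R Ω) :=
    (algebraMap ↥R ↥(integralClosure ↥R Ω)).comp (algebraMap k ↥R)
  let e : Polynomial k →+* ↥(integralClosure ↥R Ω) :=
    Polynomial.eval₂RingHom cst ⟨y, hyA⟩
  have he : (algebraMap ↥(integralClosure ↥R Ω) Ω).comp e =
      (Polynomial.aeval (R := k) y).toRingHom := by
    apply Polynomial.ringHom_ext
    · intro c
      simp only [RingHom.comp_apply, Polynomial.coe_eval₂RingHom, Polynomial.eval₂_C, e,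
        AlgHom.toRingHom_eq_coe, RingHom.coe_coe, Polynomial.aeval_C]
      rfl
    · simp only [RingHom.comp_apply, Polynomial.coe_eval₂RingHom, Polynomial.eval₂_X, e,
        AlgHom.toRingHom_eq_coe, RingHom.coe_coe, Polynomial.aeval_X]
      rfl
  have hx : IsIntegral ↥(integralClosure ↥R Ω) g :=
    ⟨Ψ.map e, hΨ.map e, by rw [Polynomial.eval₂_map, he]; exact h⟩
  exact isIntegral_trans g hx

end

section tower

variable {k Ω : Type} [Field k] [IsAlgClosed k] [Field Ω] [Algebra k Ω] {N : ℕ}
  (D : M28TowerData k Ω N)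

/-- `J_d` is integral over `k[J_1]`. -/
theorem m28dt_J_isIntegral (hNk : (N : k) ≠ 0) {d : ℕ} (hd : d ∣ N) :
    IsIntegral ↥(Algebra.adjoin k {D.C 1 N}) (m28dt_J D d) := by
  have hN0 : N ≠ 0 := fun h => hNk (by rw [h, Nat.cast_zero])
  induction d using Nat.strong_induction_on with
  | _ d ih =>
    have hd0 : d ≠ 0 := fun h => hN0 (by rw [h] at hd; exact Nat.eq_zero_of_zero_dvd hd)
    rcases eq_or_ne d 1 with rfl | hd1
    · rw [m28dt_J_one]
      exact isIntegral_algebraMap
        (x := (⟨D.C 1 N, Algebra.subset_adjoin (Set.mem_singleton _)⟩ :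
          ↥(Algebra.adjoin k {D.C 1 N})))
    · have hp : d.minFac.Prime := Nat.minFac_prime hd1
      obtain ⟨d', hd'⟩ := Nat.minFac_dvd d
      set p := d.minFac with hpdef
      have hd'0 : 0 < d' := Nat.pos_of_ne_zero fun h => hd0 (by rw [hd', h, mul_zero])
      have hd'd : d' ∣ d := ⟨p, by rw [hd', mul_comm]⟩
      have hd'lt : d' < d := by
        rw [hd']
        have := hp.two_le
        nlinarith
      have hpN : p ∣ N := (Nat.minFac_dvd d).trans hd
      have h := m28dt_J_root_first D hNk hp hpN hd'0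
      rw [← hd'] at h
      exact m28dt_isIntegral_of_bev _ (D.prime p hp hpN).Φ_monic (ih d' hd'lt (hd'd.trans hd)) h

open scoped IntermediateField.algebraAdjoinAdjoin in
/-- `J_d` is integral over `K₀ = k(J_1)`. -/
theorem m28dt_J_isIntegral_K0 (hNk : (N : k) ≠ 0) {d : ℕ} (hd : d ∣ N) :
    IsIntegral ↥(m28dt_K0 D) (m28dt_J D d) := by
  show IsIntegral ↥(IntermediateField.adjoin k {D.C 1 N}) (m28dt_J D d)
  exact (m28dt_J_isIntegral D hNk hd).tower_top

/-- `E_{N'} / K₀` is algebraic. -/
theorem m28dt_E_isAlgebraic (hNk : (N : k) ≠ 0) {N' : ℕ} (hN' : N' ∣ N) :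
    Algebra.IsAlgebraic ↥(m28dt_K0 D) ↥(m28dt_E D N') := by
  apply IntermediateField.isAlgebraic_adjoin
  rintro x ⟨d, hd, rfl⟩
  exact m28dt_J_isIntegral_K0 D hNk (hd.trans hN')

end tower

end Fermat.Agent.M28

end
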