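import Mathlib
import Fermat.Agent.M28.DTowerCusp
import Fermat.Agent.M28.DTowerInt
import Fermat.Agent.M28.DTowerExcl

/-!
# S28 (Igusa), PKG-D — the abstract tower, step D1 (`p ∤ N'`) (prefix `m28d1_`)
-/

set_option autoImplicit false
set_option linter.unusedSectionVars false

noncomputable section

namespace Fermat.Agent.M28

open Polynomial

section d1

variable {k Ω : Type} [Field k] [IsAlgClosed k] [Field Ω] [Algebra k Ω] {N : ℕ}
  (D : M28TowerData k Ω N)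

/-- twists by `e`-th roots of unity (`N' * e = N`) fix the image of every `K₀`-embedding of
`E_{N'}` pointwise. -/
theorem m28d1_twist_fix (hNk : (N : k) ≠ 0) {N' e : ℕ} (he : N' * e = N)
    (ι : ↥(m28dt_E D N') →ₐ[↥(m28dt_K0 D)] Ω) (ε : kˣ) (hε : ε ^ e = 1)
    (x : ↥(m28dt_E D N')) : D.τ ε (ι x) = ι x := by
  have hN0 : N ≠ 0 := fun h => hNk (by rw [h, Nat.cast_zero])
  have hNpos : 0 < N := Nat.pos_of_ne_zero hN0
  have hN' : N' ∣ N := ⟨e, he.symm⟩
  have hεN : ε ^ N = 1 := by rw [← he, mul_comm, pow_mul, hε, one_pow]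
  have hK : ∀ x ∈ m28dt_K0 D, D.τ ε x = x :=
    m28dt_fix_K0 D (D.τ ε) (D.τ_algebraMap ε) (by rw [D.τ_C ε 1 N hNpos, one_mul, hεN])
  have key : (D.τ ε).comp (ι : ↥(m28dt_E D N') →+* Ω) = (ι : ↥(m28dt_E D N') →+* Ω) := by
    apply m28dt_ringHom_ext D N'
    · intro c
      rw [RingHom.comp_apply]
      have h1 : (ι : ↥(m28dt_E D N') →+* Ω) (algebraMap ↥(m28dt_K0 D) ↥(m28dt_E D N') c) =
          (c : Ω) := ι.commutes c
      rw [h1]
      exact hK c c.2
    · intro d hd x hx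
      rw [RingHom.comp_apply]
      obtain ⟨ξ, a, δ, e1, haδ, hδe, hz⟩ := m28dt_cusp D hNk hN' ι d hd x hx
      have hz' : (ι : ↥(m28dt_E D N') →+* Ω) x = D.C ξ (e1 * a) := hz
      have hδ0 : 0 < δ := Nat.pos_of_ne_zero fun h => hN0 (by rw [← hδe, h, zero_mul])
      have he0 : 0 < e1 := Nat.pos_of_ne_zero fun h => hN0 (by rw [← hδe, h, mul_zero])
      have ha0 : 0 < a := Nat.pos_of_ne_zero fun h => by
        rw [h, zero_mul] at haδ
        rw [← haδ] at hd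
        have := Nat.eq_zero_of_zero_dvd hd
        rw [this, zero_mul] at he
        exact hN0 he.symm
      have hδN' : δ ∣ N' := (Dvd.intro_left a haδ).trans hd
      obtain ⟨c, hc⟩ := hδN'
      have he1 : e1 = c * e := by
        have : δ * e1 = δ * (c * e) := by rw [hδe, ← he, hc]; ring
        exact Nat.eq_of_mul_eq_mul_left hδ0 this
      rw [hz', D.τ_C ε ξ (e1 * a) (Nat.mul_pos he0 ha0)]
      have : ε ^ (e1 * a) = 1 := by
        rw [he1, mul_comm c e, mul_assoc, pow_mul, hε, one_pow]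
      rw [this, mul_one]
  exact congrArg (fun f => f x) key

/-- the element `J_{N'}` of `E_{N'}`. -/
def m28d1_y (N' : ℕ) : ↥(m28dt_E D N') := ⟨m28dt_J D N', m28dt_J_mem_E D dvd_rfl⟩

/-- `Φ (X, J_{N'})` as a polynomial over `E_{N'}`. -/
def m28d1_Phiy (N' : ℕ) (Φ : Polynomial (Polynomial k)) : Polynomial ↥(m28dt_E D N') :=
  Φ.map (Polynomial.aeval (R := k) (m28d1_y D N')).toRingHom

theorem m28d1_Phiy_map (N' : ℕ) (Φ : Polynomial (Polynomial k))
    (ι : ↥(m28dt_E D N') →ₐ[↥(m28dt_K0 D)] Ω) :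
    (m28d1_Phiy D N' Φ).map (ι : ↥(m28dt_E D N') →+* Ω) =
      Φ.map (m28dt_ev (ι (m28d1_y D N'))) := by
  unfold m28d1_Phiy
  rw [Polynomial.map_map]
  congr 1
  have h2 : ((ι.restrictScalars k : ↥(m28dt_E D N') →ₐ[k] Ω) : ↥(m28dt_E D N') →+* Ω).comp
      (Polynomial.aeval (R := k) (m28d1_y D N')).toRingHom =
      (Polynomial.aeval (R := k) ((ι.restrictScalars k) (m28d1_y D N'))).toRingHom := by
    rw [Polynomial.aeval_algHom]
    rfl
  exact h2

theorem m28d1_Phiy_map_val (N' : ℕ) (Φ : Polynomial (Polynomial k)) :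
    (m28d1_Phiy D N' Φ).map (algebraMap ↥(m28dt_E D N') Ω) =
      Φ.map (m28dt_ev (m28dt_J D N')) :=
  m28d1_Phiy_map D N' Φ (m28dt_E D N').val

theorem m28d1_Phiy_monic (N' : ℕ) {Φ : Polynomial (Polynomial k)} (h : Φ.Monic) :
    (m28d1_Phiy D N' Φ).Monic := h.map _

theorem m28d1_Phiy_natDegree (N' : ℕ) {Φ : Polynomial (Polynomial k)} (h : Φ.Monic) :
    (m28d1_Phiy D N' Φ).natDegree = Φ.natDegree := h.natDegree_map _

/-- `minpoly E_{N'} g ∣ Φ (X, J_{N'})` when `Φ (g, J_{N'}) = 0`. -/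
theorem m28d1_minpoly_dvd (N' : ℕ) (Φ : Polynomial (Polynomial k)) (g : Ω)
    (h : m28dt_bev Φ g (m28dt_J D N') = 0) :
    minpoly ↥(m28dt_E D N') g ∣ m28d1_Phiy D N' Φ := by
  apply minpoly.dvd
  rw [Polynomial.aeval_def, ← Polynomial.eval_map, m28d1_Phiy_map_val, m28dt_eval_map_ev]
  exact h

theorem m28d1_isIntegral (N' : ℕ) {Φ : Polynomial (Polynomial k)} (hΦ : Φ.Monic) (g : Ω)
    (h : m28dt_bev Φ g (m28dt_J D N') = 0) : IsIntegral ↥(m28dt_E D N') g := by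
  refine ⟨m28d1_Phiy D N' Φ, m28d1_Phiy_monic D N' hΦ, ?_⟩
  rw [← Polynomial.aeval_def, Polynomial.aeval_def, ← Polynomial.eval_map, m28d1_Phiy_map_val,
    m28dt_eval_map_ev]
  exact h

/-- basic arithmetic of the step: `p ∣ N`, `p ∣ e`, positivity. -/
theorem m28d1_arith {N' p e : ℕ} (hN0 : N ≠ 0) (_hp : p.Prime) (hN'p : N' * p ∣ N)
    (he : N' * e = N) : 0 < N' ∧ 0 < e ∧ p ∣ e ∧ p ∣ N ∧ N' ∣ N := by
  have hN'0 : 0 < N' := Nat.pos_of_ne_zero fun h => hN0 (by rw [← he, h, zero_mul])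
  have he0 : 0 < e := Nat.pos_of_ne_zero fun h => hN0 (by rw [← he, h, mul_zero])
  refine ⟨hN'0, he0, ?_, (Dvd.intro_left N' rfl).trans hN'p, ⟨e, he.symm⟩⟩
  rw [← he] at hN'p
  exact (Nat.mul_dvd_mul_iff_left hN'0).mp hN'p

/-- the primitive `p`-th root of unity `ε ^ (N * N' / p)`. -/
theorem m28d1_zeta {N' p e : ℕ} (hN0 : N ≠ 0) (hp : p.Prime) (hN'p : N' * p ∣ N)
    (hpN' : ¬ p ∣ N') (he : N' * e = N) (ε : kˣ) (hε : IsPrimitiveRoot ε e) :
    IsPrimitiveRoot (ε ^ (N * N' / p)) p := by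
  obtain ⟨hN'0, he0, ⟨e', he'⟩, -, -⟩ := m28d1_arith hN0 hp hN'p he
  have h1 : N * N' / p = e' * (N' * N') := by
    rw [← he, he', show N' * (p * e') * N' = p * (e' * (N' * N')) by ring,
      Nat.mul_div_cancel_left _ hp.pos]
  rw [h1, pow_mul]
  apply IsPrimitiveRoot.pow_of_coprime
  · exact IsPrimitiveRoot.pow he0 hε (by rw [he', mul_comm])
  · have hc : N'.Coprime p := ((Nat.Prime.coprime_iff_not_dvd hp).mpr hpN').symm
    exact Nat.Coprime.mul_left hc hc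

/-- **Dichotomy**: either `G = J_{N' p}` lies in `E_{N'}`, or its minimal polynomial has degree
`≥ p + 1`. -/
theorem m28d1_dichotomy [IsAlgClosed Ω] (hNk : (N : k) ≠ 0) {N' p e : ℕ} (hp : p.Prime)
    (hN'p : N' * p ∣ N) (hpN' : ¬ p ∣ N') (he : N' * e = N) :
    m28dt_J D (N' * p) ∈ m28dt_E D N' ∨
      p + 1 ≤ (minpoly ↥(m28dt_E D N') (m28dt_J D (N' * p))).natDegree := by
  classical
  have hN0 : N ≠ 0 := fun h => hNk (by rw [h, Nat.cast_zero])
  have hNpos : 0 < N := Nat.pos_of_ne_zero hN0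
  obtain ⟨hN'0, he0, hpe, hpN, hN'N⟩ := m28d1_arith hN0 hp hN'p he
  have hpk : (p : k) ≠ 0 := m28dt_natCast_ne_zero_of_dvd hNk hpN
  have hek : (e : k) ≠ 0 := m28dt_natCast_ne_zero_of_dvd hNk ⟨N', by rw [← he, mul_comm]⟩
  obtain ⟨ε, hε⟩ := m28dt_exists_primitiveRoot (k := k) hek
  have hζ := m28d1_zeta (k := k) hN0 hp hN'p hpN' he ε hε
  set ζ : kˣ := ε ^ (N * N' / p) with hζdef
  set m : ℕ := N * N' with hmdef
  have hm : 0 < m := Nat.mul_pos hNpos hN'0
  have hpm : p ∣ m := Dvd.dvd.mul_right hpN N'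
  have hmp : 0 < m / p := Nat.div_pos (Nat.le_of_dvd hm hpm) hp.pos
  set P := D.prime p hp hpN with hPdef
  set G : Ω := m28dt_J D (N' * p) with hGdef
  have hGC : G = D.C 1 (p * m) := by
    rw [hGdef, m28dt_J, hmdef]
    congr 1
    ring
  have hyC : m28dt_J D N' = D.C 1 m := rfl
  -- the relation
  have hrel : m28dt_bev P.Φ G (m28dt_J D N') = 0 := by
    have h := m28dt_J_root_first D hNk hp hpN hN'0
    rw [mul_comm p N'] at h
    exact h
  have hint : IsIntegral ↥(m28dt_E D N') G := m28d1_isIntegral D N' P.Φ_monic G hrel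
  set μ := minpoly ↥(m28dt_E D N') G with hμdef
  set μΩ : Polynomial Ω := μ.map (algebraMap ↥(m28dt_E D N') Ω) with hμΩdef
  have hdvd : μΩ ∣ P.Φ.map (m28dt_ev (D.C 1 m)) := by
    rw [← hyC, ← m28d1_Phiy_map_val]
    exact Polynomial.map_dvd _ (m28d1_minpoly_dvd D N' P.Φ G hrel)
  have hsepΦ : (P.Φ.map (m28dt_ev (D.C 1 m))).Separable :=
    m28dt_separable P hp hpk D.C_inj 1 hm hpm
  have hsep : μΩ.Separable := hsepΦ.of_dvd hdvd
  have hμΩ0 : μΩ ≠ 0 := (minpoly.monic hint).map _ |>.ne_zero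
  have hdeg : μΩ.natDegree = μ.natDegree := Polynomial.natDegree_map _
  have hGroot : μΩ.IsRoot G := by
    rw [Polynomial.IsRoot.def, hμΩdef, Polynomial.eval_map, ← Polynomial.aeval_def]
    exact minpoly.aeval _ _
  -- twists fix `μΩ`
  have hfix : ∀ i : ℕ, μΩ.map (D.τ (ε ^ i)) = μΩ := by
    intro i
    rw [hμΩdef, Polynomial.map_map]
    congr 1
    ext x
    rw [RingHom.comp_apply]
    exact m28d1_twist_fix D hNk he (m28dt_E D N').val (ε ^ i)
      (by rw [← pow_mul, mul_comm, pow_mul, hε.pow_eq_one, one_pow]) x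
  by_cases hG : G ∈ m28dt_E D N'
  · exact Or.inl hG
  right
  -- a root different from `G`
  have h2 : 2 ≤ μ.natDegree := by
    rw [minpoly.two_le_natDegree_iff hint]
    rintro ⟨x, hx⟩
    exact hG (by rw [← hx]; exact x.2)
  have hcard : μΩ.roots.toFinset.card = μ.natDegree := by
    rw [Multiset.toFinset_card_of_nodup (Polynomial.nodup_roots hsep),
      ← (IsAlgClosed.splits μΩ).natDegree_eq_card_roots, hdeg]
  obtain ⟨r, hr, hrG⟩ := Finset.exists_mem_ne (s := μΩ.roots.toFinset) (by omega) G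
  have hrroot : μΩ.IsRoot r := (Polynomial.mem_roots hμΩ0).mp (Multiset.mem_toFinset.mp hr)
  have hrΦ : m28dt_bev P.Φ r (D.C 1 m) = 0 := by
    rw [← m28dt_eval_map_ev]
    obtain ⟨q, hq⟩ := hdvd
    rw [hq, Polynomial.eval_mul, hrroot.eq_zero, zero_mul]
  rcases m28dt_root_cases P hp hpk 1 hm hpm hrΦ with h1 | ⟨η, -, h2'⟩
  · exfalso
    apply hrG
    rw [h1, hGC, one_pow]
  -- the orbit
  have horbit : ∀ i : ℕ, μΩ.IsRoot (D.C (η * ζ ^ i) (m / p)) := by
    intro i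
    have h := m28dt_isRoot_map (D.τ (ε ^ i)) (hfix i) hrroot
    rw [h2', D.τ_C (ε ^ i) η (m / p) hmp] at h
    have e1 : (ε ^ i) ^ (m / p) = ζ ^ i := by
      rw [hζdef, ← pow_mul, ← pow_mul, mul_comm]
    rw [e1] at h
    exact h
  rw [← hdeg]
  refine m28dt_le_natDegree_of_roots hμΩ0
    (fun i => if i < p then D.C (η * ζ ^ i) (m / p) else G) ?_ ?_
  · intro i hi j hj hij
    have hne : ∀ i' : ℕ, D.C (η * ζ ^ i') (m / p) ≠ G := by
      intro i' h
      rw [hGC] at h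
      have h3 := (D.C_inj _ _ _ _ hmp (Nat.mul_pos hp.pos hm) h).1
      have h4 : m / p ≤ m := Nat.div_le_self m p
      have h5 : m < p * m := by
        have := hp.two_le
        nlinarith
      omega
    by_cases hip : i < p <;> by_cases hjp : j < p
    · simp only [hip, hjp, if_true] at hij
      have h3 := (D.C_inj _ _ _ _ hmp hmp hij).2
      exact hζ.pow_inj hip hjp (mul_left_cancel h3)
    · simp only [hip, hjp, if_true, if_false] at hij
      exact absurd hij (hne i)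
    · simp only [hip, hjp, if_true, if_false] at hij
      exact absurd hij.symm (hne j)
    · omega
  · intro i _
    by_cases hip : i < p
    · simp only [hip, if_true]
      exact horbit i
    · simp only [hip, if_false]
      exact hGroot

/-- transcendence of `J_1`. -/
theorem m28d1_transcendental : Transcendental k (D.C 1 N) := by
  rintro ⟨f, hf0, hf⟩
  exact D.Pos_poly f hf0 (by rw [hf]; exact D.Pos_zero)

/-- **EXCLUDE**: `G = J_{N' p}` does not lie in `E_{N'}` (`p ∤ N'`). -/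
theorem m28d1_not_mem [IsAlgClosed Ω] (hNk : (N : k) ≠ 0) {N' p e : ℕ} (hp : p.Prime)
    (hN'p : N' * p ∣ N) (hpN' : ¬ p ∣ N') (he : N' * e = N) :
    m28dt_J D (N' * p) ∉ m28dt_E D N' := by
  intro hG
  have hN0 : N ≠ 0 := fun h => hNk (by rw [h, Nat.cast_zero])
  have hNpos : 0 < N := Nat.pos_of_ne_zero hN0
  obtain ⟨hN'0, he0, hpe, hpN, hN'N⟩ := m28d1_arith hN0 hp hN'p he
  have hpk : (p : k) ≠ 0 := m28dt_natCast_ne_zero_of_dvd hNk hpN
  have hek : (e : k) ≠ 0 := m28dt_natCast_ne_zero_of_dvd hNk ⟨N', by rw [← he, mul_comm]⟩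
  obtain ⟨ε, hε⟩ := m28dt_exists_primitiveRoot (k := k) hek
  set m : ℕ := N * N' with hmdef
  have hm : 0 < m := Nat.mul_pos hNpos hN'0
  have hpm : p ∣ m := Dvd.dvd.mul_right hpN N'
  set P := D.prime p hp hpN with hPdef
  set G : Ω := m28dt_J D (N' * p) with hGdef
  have hGC : G = D.C (1 ^ p) (p * m) := by
    rw [hGdef, m28dt_J, hmdef, one_pow]
    congr 1
    ring
  have hyC : m28dt_J D N' = D.C 1 m := rfl
  have hrel : m28dt_bev P.Φ G (m28dt_J D N') = 0 := by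
    have h := m28dt_J_root_first D hNk hp hpN hN'0
    rw [mul_comm p N'] at h
    exact h
  -- the elements of `E`
  set g : ↥(m28dt_E D N') := ⟨G, hG⟩ with hgdef
  set y : ↥(m28dt_E D N') := m28d1_y D N' with hydef
  have hgcoe : (g : Ω) = G := rfl
  have hycoe : (y : Ω) = m28dt_J D N' := rfl
  set num : ↥(m28dt_E D N') := m28dt_bev P.A g y with hnum
  set den : ↥(m28dt_E D N') := m28dt_bev (derivative P.Φ) g y with hden
  have hdencoe : (den : Ω) = m28dt_bev (derivative P.Φ) G (D.C 1 m) := m28dt_coe_bev D N' _ g y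
  have hnumcoe : (num : Ω) = m28dt_bev P.A G (D.C 1 m) := m28dt_coe_bev D N' _ g y
  have hden0Ω : m28dt_bev (derivative P.Φ) G (D.C 1 m) ≠ 0 :=
    m28dt_root_simple P hp hpk D.C_inj 1 hm hpm hrel
  have hden0 : den ≠ 0 := by
    intro h
    apply hden0Ω
    rw [← hdencoe, h]
    rfl
  have hAeq : P.W 1 m * m28dt_bev (derivative P.Φ) G (D.C 1 m) =
      m28dt_bev P.A G (D.C 1 m) := by
    have h := P.A_eq 1 m hm
    rw [m28dt_eval_map_ev, m28dt_eval_map_ev, ← hGC] at h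
    exact h
  set w : ↥(m28dt_E D N') := num / den with hwdef
  have hwnum : w * den = num := div_mul_cancel₀ num hden0
  have hwcoe : (w : Ω) = P.W 1 m := by
    have h1 : (w : Ω) * (den : Ω) = (num : Ω) := by
      rw [← hwnum]
      rfl
    rw [hdencoe, hnumcoe, ← hAeq] at h1
    exact mul_right_cancel₀ hden0Ω h1
  have hw0 : w ≠ 0 := by
    intro h
    apply P.W_ne 1 m hm
    rw [← hwcoe, h]
    rfl
  have hwint : IsIntegral ↥(Algebra.adjoin k {D.C 1 N}) (w : Ω) := by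
    rw [hwcoe]
    apply m28dt_isIntegral_of_bev (Algebra.adjoin k {D.C 1 N}) P.U_monic
      (y := D.C 1 m) (m28dt_J_isIntegral D hNk hN'N)
    rw [← m28dt_eval_map_ev]
    exact P.U_root 1 m hm
  refine @m28dt_exclude k Ω _ _ _ _ (D.C 1 N) (m28d1_transcendental D) (m28dt_E D N')
    (m28dt_E_isAlgebraic D hNk hN'N) D.Pos D.Pos_mul D.Pos_neg D.Pos_poly w hw0 hwint ?_
  intro (ι : ↥(m28dt_E D N') →ₐ[↥(m28dt_K0 D)] Ω)
  show ι w ∈ D.Pos
  -- the cusp shape of `ι y`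
  obtain ⟨ξ1, a, δ, e1, haδ, hδe, hz⟩ := m28dt_cusp D hNk hN'N ι N' dvd_rfl y rfl
  have hδ0 : 0 < δ := Nat.pos_of_ne_zero fun h => hN0 (by rw [← hδe, h, zero_mul])
  have he10 : 0 < e1 := Nat.pos_of_ne_zero fun h => hN0 (by rw [← hδe, h, mul_zero])
  have ha0 : 0 < a := Nat.pos_of_ne_zero fun h => hN'0.ne' (by rw [← haδ, h, zero_mul])
  have he1 : e1 = a * e := by
    have : δ * e1 = δ * (a * e) := by rw [hδe, ← he, ← haδ]; ring
    exact Nat.eq_of_mul_eq_mul_left hδ0 this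
  set m1 : ℕ := e1 * a with hm1def
  have hm1 : 0 < m1 := Nat.mul_pos he10 ha0
  have hpm1 : p ∣ m1 := by
    rw [hm1def, he1]
    exact Dvd.dvd.mul_right (Dvd.dvd.mul_left hpe a) a
  have hrelι : m28dt_bev P.Φ (ι g) (D.C ξ1 m1) = 0 := by
    have h := m28dt_embed_root D N' ι P.Φ g y hrel
    rw [hz] at h
    exact h
  have hfirst : ι g = D.C (ξ1 ^ p) (p * m1) := by
    rcases m28dt_root_cases P hp hpk ξ1 hm1 hpm1 hrelι with h1 | ⟨η, -, h2⟩
    · exact h1
    exfalso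
    have hmp1 : 0 < m1 / p := Nat.div_pos (Nat.le_of_dvd hm1 hpm1) hp.pos
    have hfix := m28d1_twist_fix D hNk he ι ε hε.pow_eq_one g
    rw [h2, D.τ_C ε η (m1 / p) hmp1] at hfix
    have h3 := (D.C_inj _ _ _ _ hmp1 hmp1 hfix).2
    have h4 : ε ^ (m1 / p) = 1 := by
      have : η * ε ^ (m1 / p) = η * 1 := by rw [h3, mul_one]
      exact mul_left_cancel this
    obtain ⟨c, hc⟩ := hε.dvd_of_pow_eq_one _ h4
    have h5 : m1 = p * (m1 / p) := (Nat.mul_div_cancel' hpm1).symm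
    have h6 : e * (a * a) = e * (p * c) := by
      calc e * (a * a) = m1 := by rw [hm1def, he1]; ring
        _ = p * (m1 / p) := h5
        _ = e * (p * c) := by rw [hc]; ring
    have h7 : a * a = p * c := Nat.eq_of_mul_eq_mul_left he0 h6
    have h8 : p ∣ a := by
      have : p ∣ a * a := ⟨c, h7⟩
      rcases (Nat.Prime.dvd_mul hp).mp this with h | h <;> exact h
    exact hpN' (h8.trans (Dvd.intro δ haδ))
  have hAeqι : P.W ξ1 m1 * m28dt_bev (derivative P.Φ) (ι g) (D.C ξ1 m1) =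
      m28dt_bev P.A (ι g) (D.C ξ1 m1) := by
    have h := P.A_eq ξ1 m1 hm1
    rw [m28dt_eval_map_ev, m28dt_eval_map_ev, ← hfirst] at h
    exact h
  have hιnum : ι num = m28dt_bev P.A (ι g) (D.C ξ1 m1) := by
    rw [hnum, m28dt_embed_bev, hz]
  have hιden : ι den = m28dt_bev (derivative P.Φ) (ι g) (D.C ξ1 m1) := by
    rw [hden, m28dt_embed_bev, hz]
  have hιden0 : ι den ≠ 0 := by
    intro h
    exact hden0 ((map_eq_zero ι).mp h)
  have hιw : ι w = P.W ξ1 m1 := by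
    have h1 : ι w * ι den = ι num := by rw [← map_mul, hwnum]
    rw [hιnum, ← hAeqι, ← hιden] at h1
    exact mul_right_cancel₀ hιden0 h1
  rw [hιw]
  exact P.W_pos ξ1 m1 hm1

/-- **D1** (`p ∤ N'`): the step hypothesis `hstep1` of `m28dt_main_of_steps`. -/
theorem m28d1_step1 [IsAlgClosed Ω] (hNk : (N : k) ≠ 0) (N' p e : ℕ) (hp : p.Prime)
    (hN'p : N' * p ∣ N) (hpN' : ¬ p ∣ N')
    (ι0 : ↥(m28dt_E D N') →ₐ[↥(m28dt_K0 D)] Ω) (ξ : kˣ) (he : N' * e = N)
    (hι0 : ∀ x : ↥(m28dt_E D N'), (x : Ω) = m28dt_J D N' → ι0 x = D.C ξ e) :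
    p + 1 ≤ (minpoly ↥(m28dt_E D N') (m28dt_J D (N' * p))).natDegree ∧
      ∃ η : kˣ, ((minpoly ↥(m28dt_E D N') (m28dt_J D (N' * p))).map
        (ι0 : ↥(m28dt_E D N') →+* Ω)).IsRoot (D.C η (e / p)) := by
  have hN0 : N ≠ 0 := fun h => hNk (by rw [h, Nat.cast_zero])
  obtain ⟨hN'0, he0, hpe, hpN, hN'N⟩ := m28d1_arith hN0 hp hN'p he
  have hpk : (p : k) ≠ 0 := m28dt_natCast_ne_zero_of_dvd hNk hpN
  have hdeg : p + 1 ≤ (minpoly ↥(m28dt_E D N') (m28dt_J D (N' * p))).natDegree := by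
    rcases m28d1_dichotomy D hNk hp hN'p hpN' he with h | h
    · exact absurd h (m28d1_not_mem D hNk hp hN'p hpN' he)
    · exact h
  refine ⟨hdeg, ?_⟩
  set P := D.prime p hp hpN with hPdef
  have hrel : m28dt_bev P.Φ (m28dt_J D (N' * p)) (m28dt_J D N') = 0 := by
    have h := m28dt_J_root_first D hNk hp hpN hN'0
    rw [mul_comm p N'] at h
    exact h
  have hint : IsIntegral ↥(m28dt_E D N') (m28dt_J D (N' * p)) :=
    m28d1_isIntegral D N' P.Φ_monic _ hrel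
  have hdvd := m28d1_minpoly_dvd D N' P.Φ _ hrel
  have heq : m28d1_Phiy D N' P.Φ = minpoly ↥(m28dt_E D N') (m28dt_J D (N' * p)) := by
    apply Polynomial.eq_of_monic_of_dvd_of_natDegree_le (minpoly.monic hint)
      (m28d1_Phiy_monic D N' P.Φ_monic) hdvd
    rw [m28d1_Phiy_natDegree D N' P.Φ_monic, P.Φ_natDegree]
    exact hdeg
  obtain ⟨η, hη⟩ := m28dt_exists_root ξ hp.pos
  refine ⟨η, ?_⟩
  rw [← heq, m28d1_Phiy_map, hι0 (m28d1_y D N') rfl, Polynomial.IsRoot.def, m28dt_eval_map_ev,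
    ← hη]
  exact m28dt_root_second P hp hpk η he0 hpe

end d1

end Fermat.Agent.M28

end
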