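import Mathlib
import Fermat.Agent.M28.DTowerInt

/-!
# S28 (Igusa), PKG-D — the abstract tower: extending the embedding by one prime step
(prefix `m28dt_`)

`m28dt_top_step`: a `K₀`-embedding `ι0 : E_{N'} → Ω` and a root `r` of the image under `ι0` of
the minimal polynomial of `J_{N' p}` over `E_{N'}` give a `K₀`-embedding
`ι1 : E_{N' p} → Ω` with `ι1 (J_{N' p}) = r`.
-/

set_option autoImplicit false

noncomputable section

namespace Fermat.Agent.M28

open Polynomial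

section top

variable {k Ω : Type} [Field k] [Field Ω] [Algebra k Ω] {N : ℕ}

/-- The extension step with the algebraicity of the upper field as a hypothesis. -/
theorem m28dt_top_step_aux [IsAlgClosed Ω] (D : M28TowerData k Ω N) {N' N'' : ℕ}
    (hle : m28dt_E D N' ≤ m28dt_E D N'')
    (halg : Algebra.IsAlgebraic ↥(m28dt_K0 D) ↥(m28dt_E D N''))
    (G : Ω) (hG : G ∈ m28dt_E D N'')
    (ι0 : ↥(m28dt_E D N') →ₐ[↥(m28dt_K0 D)] Ω) (r : Ω)
    (hroot : ((minpoly ↥(m28dt_E D N') G).map (ι0 : ↥(m28dt_E D N') →+* Ω)).IsRoot r) :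
    ∃ ι1 : ↥(m28dt_E D N'') →ₐ[↥(m28dt_K0 D)] Ω,
      (∀ x : ↥(m28dt_E D N'), ι1 (IntermediateField.inclusion hle x) = ι0 x) ∧
      ∀ x : ↥(m28dt_E D N''), (x : Ω) = G → ι1 x = r := by
  let alg : Algebra ↥(m28dt_E D N') ↥(m28dt_E D N'') :=
    (IntermediateField.inclusion hle).toRingHom.toAlgebra
  have hmap : ∀ x : ↥(m28dt_E D N'),
      algebraMap ↥(m28dt_E D N') ↥(m28dt_E D N'') x = IntermediateField.inclusion hle x :=
    fun _ => rfl
  have tow1 : IsScalarTower ↥(m28dt_E D N') ↥(m28dt_E D N'') Ω :=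
    IsScalarTower.of_algebraMap_eq (fun x => rfl)
  have tow2 : IsScalarTower ↥(m28dt_K0 D) ↥(m28dt_E D N') ↥(m28dt_E D N'') :=
    IsScalarTower.of_algebraMap_eq (fun x => rfl)
  have : Algebra.IsAlgebraic ↥(m28dt_E D N') ↥(m28dt_E D N'') :=
    Algebra.IsAlgebraic.tower_top (K := ↥(m28dt_K0 D)) ↥(m28dt_E D N')
  have hmin : minpoly ↥(m28dt_E D N') (⟨G, hG⟩ : ↥(m28dt_E D N'')) =
      minpoly ↥(m28dt_E D N') G := by
    have h := minpoly.algebraMap_eq (A := ↥(m28dt_E D N')) (B := ↥(m28dt_E D N'')) (B' := Ω)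
      (algebraMap ↥(m28dt_E D N'') Ω).injective (⟨G, hG⟩ : ↥(m28dt_E D N''))
    exact h.symm
  obtain ⟨f, hf, hfG⟩ := m28dt_exists_extension (E := ↥(m28dt_E D N'))
    (M := ↥(m28dt_E D N'')) (ι0 : ↥(m28dt_E D N') →+* Ω) (⟨G, hG⟩ : ↥(m28dt_E D N'')) r
    (by rw [hmin]; exact hroot)
  have hfx : ∀ x : ↥(m28dt_E D N'), f (IntermediateField.inclusion hle x) = ι0 x := by
    intro x
    have := congrArg (fun g : ↥(m28dt_E D N') →+* Ω => g x) hf
    simpa [hmap] using this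
  refine ⟨{ f with commutes' := ?_ }, ?_, ?_⟩
  · intro c
    have h1 : algebraMap ↥(m28dt_K0 D) ↥(m28dt_E D N'') c =
        IntermediateField.inclusion hle (algebraMap ↥(m28dt_K0 D) ↥(m28dt_E D N') c) := rfl
    change f (algebraMap ↥(m28dt_K0 D) ↥(m28dt_E D N'') c) = _
    rw [h1, hfx, AlgHom.commutes]
  · intro x
    exact hfx x
  · intro x hx
    have hxG : x = (⟨G, hG⟩ : ↥(m28dt_E D N'')) := Subtype.ext hx
    change f x = r
    rw [hxG, hfG]

/-- **TOP step**: extend a `K₀`-embedding of `E_{N'}` to `E_{N' p}` with a prescribed value at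
`J_{N' p}` (a root of the image of its minimal polynomial over `E_{N'}`). -/
theorem m28dt_top_step [IsAlgClosed k] [IsAlgClosed Ω] (D : M28TowerData k Ω N)
    (hNk : (N : k) ≠ 0) {N' p : ℕ} (hN'p : N' * p ∣ N)
    (ι0 : ↥(m28dt_E D N') →ₐ[↥(m28dt_K0 D)] Ω) (r : Ω)
    (hroot : ((minpoly ↥(m28dt_E D N') (m28dt_J D (N' * p))).map
      (ι0 : ↥(m28dt_E D N') →+* Ω)).IsRoot r) :
    ∃ ι1 : ↥(m28dt_E D (N' * p)) →ₐ[↥(m28dt_K0 D)] Ω,
      ∀ x : ↥(m28dt_E D (N' * p)), (x : Ω) = m28dt_J D (N' * p) → ι1 x = r := by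
  obtain ⟨ι1, -, h⟩ := m28dt_top_step_aux D (m28dt_E_mono D (Dvd.intro p rfl))
    (m28dt_E_isAlgebraic D hNk hN'p) (m28dt_J D (N' * p)) (m28dt_J_mem_E D dvd_rfl) ι0 r hroot
  exact ⟨ι1, h⟩

end top

end Fermat.Agent.M28

end
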