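import Mathlib
import Fermat.Agent.M28.DTowerTop

/-!
# S28 (Igusa), PKG-D — the abstract tower: degree step and the induction (prefix `m28dt_`)

* `m28dt_deg_step`: a `K₀`-linearly independent family in `k[J_d : d ∣ N']` of size `n` gives
  one of size `n * dp` in `k[J_d : d ∣ N' p]` if `dp ≤ [E_{N'}(J_{N' p}) : E_{N'}]`.
* `m28dt_Top`: the existence of a `K₀`-embedding of `E_{N'}` mapping `J_{N'}` to a cusp series
  `C ξ e`, `N' * e = N`.
* `m28dt_main_of_steps`: the tower theorem from the two prime steps.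
-/

set_option autoImplicit false

noncomputable section

namespace Fermat.Agent.M28

open Polynomial

section ind

variable {k Ω : Type} [Field k] [Field Ω] [Algebra k Ω] {N : ℕ}

/-- `k[J_d : d ∣ N'] ⊆ E_{N'}`. -/
theorem m28dt_adjoin_le_E (D : M28TowerData k Ω N) (N' : ℕ) {x : Ω}
    (hx : x ∈ Algebra.adjoin k (m28dt_Jset D N')) : x ∈ m28dt_E D N' := by
  induction hx using Algebra.adjoin_induction with
  | mem x hx => exact IntermediateField.subset_adjoin _ _ hx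
  | algebraMap c =>
    have h : algebraMap k Ω c = algebraMap ↥(m28dt_K0 D) Ω (algebraMap k ↥(m28dt_K0 D) c) :=
      IsScalarTower.algebraMap_apply k ↥(m28dt_K0 D) Ω c
    rw [h]
    exact (m28dt_E D N').algebraMap_mem _
  | add x y _ _ hx hy => exact add_mem hx hy
  | mul x y _ _ hx hy => exact mul_mem hx hy

/-- **DEG step**. -/
theorem m28dt_deg_step (D : M28TowerData k Ω N) {N' p dp : ℕ}
    (hdeg : dp ≤ (minpoly ↥(m28dt_E D N') (m28dt_J D (N' * p))).natDegree) (n : ℕ)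
    (v : Fin n → Ω) (hv : ∀ i, v i ∈ Algebra.adjoin k (m28dt_Jset D N'))
    (hli : LinearIndependent ↥(m28dt_K0 D) v) :
    ∃ v' : Fin (n * dp) → Ω, (∀ i, v' i ∈ Algebra.adjoin k (m28dt_Jset D (N' * p))) ∧
      LinearIndependent ↥(m28dt_K0 D) v' := by
  -- the family `b` in `E_{N'}`
  have hb : LinearIndependent ↥(m28dt_K0 D)
      (fun i : Fin n => (⟨v i, m28dt_adjoin_le_E D N' (hv i)⟩ : ↥(m28dt_E D N'))) := by
    apply LinearIndependent.of_comp ((m28dt_E D N').val.toLinearMap)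
    exact hli
  -- the powers of `G`
  have hc : LinearIndependent ↥(m28dt_E D N')
      (fun j : Fin dp => (m28dt_J D (N' * p)) ^ (j : ℕ)) := by
    have h := linearIndependent_pow (K := ↥(m28dt_E D N')) (m28dt_J D (N' * p))
    exact h.comp (Fin.castLE hdeg) (Fin.castLE_injective hdeg)
  have hbc := linearIndependent_smul hb hc
  refine ⟨fun i => v (finProdFinEquiv.symm i).1 *
    (m28dt_J D (N' * p)) ^ ((finProdFinEquiv.symm i).2 : ℕ), ?_, ?_⟩
  · intro i
    apply mul_mem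
    · exact Algebra.adjoin_mono (m28dt_Jset_mono D (Dvd.intro p rfl)) (hv _)
    · apply pow_mem
      exact Algebra.subset_adjoin (m28dt_J_mem_Jset D dvd_rfl)
  · exact hbc.comp finProdFinEquiv.symm finProdFinEquiv.symm.injective

/-- the existence of a `K₀`-embedding of `E_{N'}` mapping `J_{N'}` to a cusp series. -/
def m28dt_Top (D : M28TowerData k Ω N) (N' : ℕ) : Prop :=
  ∃ (ι0 : ↥(m28dt_E D N') →ₐ[↥(m28dt_K0 D)] Ω) (ξ : kˣ) (e : ℕ), N' * e = N ∧
    ∀ x : ↥(m28dt_E D N'), (x : Ω) = m28dt_J D N' → ι0 x = D.C ξ e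

/-- the induction statement -/
def m28dt_IndStmt (D : M28TowerData k Ω N) (N' : ℕ) : Prop :=
  m28dt_Top D N' ∧ ∃ (n : ℕ) (v : Fin n → Ω), ModularCurve.dedekindPsi N' ≤ n ∧
    (∀ i, v i ∈ Algebra.adjoin k (m28dt_Jset D N')) ∧ LinearIndependent ↥(m28dt_K0 D) v

theorem m28dt_ind_base (D : M28TowerData k Ω N) : m28dt_IndStmt D 1 := by
  refine ⟨⟨(m28dt_E D 1).val, 1, N, one_mul N, ?_⟩, 1, fun _ => 1, ?_, ?_, ?_⟩
  · intro x hx
    rw [IntermediateField.val_mk] at *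
    rw [hx, m28dt_J_one]
  · rw [ModularCurve.dedekindPsi_one]
  · intro i
    exact one_mem _
  · exact LinearIndependent.of_subsingleton (0 : Fin 1) one_ne_zero

theorem m28dt_ind_step [IsAlgClosed k] [IsAlgClosed Ω] [NeZero N] (D : M28TowerData k Ω N)
    (hNk : (N : k) ≠ 0) {M p dp : ℕ} (hMp : M * p ∣ N)
    (hpsi : ModularCurve.dedekindPsi (M * p) = ModularCurve.dedekindPsi M * dp)
    (hstep : ∀ (e : ℕ) (ι0 : ↥(m28dt_E D M) →ₐ[↥(m28dt_K0 D)] Ω) (ξ : kˣ), M * e = N →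
      (∀ x : ↥(m28dt_E D M), (x : Ω) = m28dt_J D M → ι0 x = D.C ξ e) →
      dp ≤ (minpoly ↥(m28dt_E D M) (m28dt_J D (M * p))).natDegree ∧
        ∃ η : kˣ, ((minpoly ↥(m28dt_E D M) (m28dt_J D (M * p))).map
          (ι0 : ↥(m28dt_E D M) →+* Ω)).IsRoot (D.C η (e / p)))
    (ih : m28dt_IndStmt D M) : m28dt_IndStmt D (M * p) := by
  obtain ⟨⟨ι0, ξ, e, he, hι0⟩, n, v, hn, hv, hli⟩ := ih
  obtain ⟨hdeg, η, hroot⟩ := hstep e ι0 ξ he hι0
  have hN0 : N ≠ 0 := NeZero.ne N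
  have hM0 : 0 < M := Nat.pos_of_ne_zero fun h => hN0 (by rw [← he, h, zero_mul])
  have hpe : p ∣ e := by
    rw [← he] at hMp
    exact (Nat.mul_dvd_mul_iff_left hM0).mp hMp
  obtain ⟨ι1, hι1⟩ := m28dt_top_step D hNk hMp ι0 (D.C η (e / p)) hroot
  obtain ⟨v', hv', hli'⟩ := m28dt_deg_step D hdeg n v hv hli
  refine ⟨⟨ι1, η, e / p, ?_, hι1⟩, n * dp, v', ?_, hv', hli'⟩
  · rw [mul_assoc, Nat.mul_div_cancel' hpe, he]
  · rw [hpsi]
    exact Nat.mul_le_mul_right dp hn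

/-- **The tower theorem from the two prime steps.** -/
theorem m28dt_main_of_steps [IsAlgClosed k] [IsAlgClosed Ω] [NeZero N]
    (D : M28TowerData k Ω N) (hNk : (N : k) ≠ 0)
    (hstep1 : ∀ (N' p e : ℕ) (_ : p.Prime), N' * p ∣ N → ¬ p ∣ N' →
      ∀ (ι0 : ↥(m28dt_E D N') →ₐ[↥(m28dt_K0 D)] Ω) (ξ : kˣ), N' * e = N →
      (∀ x : ↥(m28dt_E D N'), (x : Ω) = m28dt_J D N' → ι0 x = D.C ξ e) →
      p + 1 ≤ (minpoly ↥(m28dt_E D N') (m28dt_J D (N' * p))).natDegree ∧
        ∃ η : kˣ, ((minpoly ↥(m28dt_E D N') (m28dt_J D (N' * p))).map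
          (ι0 : ↥(m28dt_E D N') →+* Ω)).IsRoot (D.C η (e / p)))
    (hstep2 : ∀ (N' p e : ℕ) (_ : p.Prime), N' * p ∣ N → p ∣ N' →
      ∀ (ι0 : ↥(m28dt_E D N') →ₐ[↥(m28dt_K0 D)] Ω) (ξ : kˣ), N' * e = N →
      (∀ x : ↥(m28dt_E D N'), (x : Ω) = m28dt_J D N' → ι0 x = D.C ξ e) →
      p ≤ (minpoly ↥(m28dt_E D N') (m28dt_J D (N' * p))).natDegree ∧
        ∃ η : kˣ, ((minpoly ↥(m28dt_E D N') (m28dt_J D (N' * p))).map
          (ι0 : ↥(m28dt_E D N') →+* Ω)).IsRoot (D.C η (e / p))) :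
    ∃ v : Fin (ModularCurve.dedekindPsi N) → Ω,
      (∀ i, v i ∈ Algebra.adjoin k (m28dt_Jset D N)) ∧
      LinearIndependent ↥(IntermediateField.adjoin k {D.C 1 N}) v := by
  have hN0 : N ≠ 0 := NeZero.ne N
  have key : ∀ N' : ℕ, N' ∣ N → m28dt_IndStmt D N' := by
    intro N'
    induction N' using Nat.strong_induction_on with
    | _ N' ih =>
      intro hN'
      rcases eq_or_ne N' 1 with h1 | h1
      · rw [h1]
        exact m28dt_ind_base D
      · have hp : (N'.minFac).Prime := Nat.minFac_prime h1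
        obtain ⟨M, hM⟩ := Nat.minFac_dvd N'
        have hN'0 : N' ≠ 0 := fun h => hN0 (by rw [h] at hN'; exact zero_dvd_iff.mp hN')
        have hMN' : N' = M * N'.minFac := by rw [mul_comm]; exact hM
        have hM0 : M ≠ 0 := fun h => hN'0 (by rw [hMN', h, zero_mul])
        have hMlt : M < N' := by
          have h2 := hp.two_le
          have hMpos : 0 < M := Nat.pos_of_ne_zero hM0
          calc M < M * N'.minFac := by nlinarith
            _ = N' := hMN'.symm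
        have hMdvd : M ∣ N := (Dvd.intro _ hMN'.symm).trans hN'
        have ihM := ih M hMlt hMdvd
        have hMp : M * N'.minFac ∣ N := by rw [← hMN']; exact hN'
        rw [hMN']
        generalize N'.minFac = p at hp hMp
        by_cases hpM : p ∣ M
        · exact m28dt_ind_step D hNk hMp (m28dt_psi_mul_prime_of_dvd hM0 hp hpM)
            (fun e ι0 ξ he hι0 => hstep2 M p e hp hMp hpM ι0 ξ he hι0) ihM
        · exact m28dt_ind_step D hNk hMp (m28dt_psi_mul_prime_of_not_dvd hp hpM)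
            (fun e ι0 ξ he hι0 => hstep1 M p e hp hMp hpM ι0 ξ he hι0) ihM
  obtain ⟨-, n, v, hn, hv, hli⟩ := key N dvd_rfl
  refine ⟨fun i => v (Fin.castLE hn i), fun i => hv _, ?_⟩
  exact hli.comp (Fin.castLE hn) (Fin.castLE_injective hn)

end ind

end Fermat.Agent.M28

end
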