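import Mathlib
import Fermat.Agent.M28.DTowerCusp

/-!
# S28 (Igusa), PKG-D — orbits of roots under the substitutions `t ↦ ε t` (prefix `m28dt_`)
-/

set_option autoImplicit false

noncomputable section

namespace Fermat.Agent.M28

open Polynomial

/-! ### arithmetic of primitive roots -/

theorem m28dt_primitive_pow {M : Type} [CommMonoid M] {ε : M} {e p c : ℕ} (he : 0 < e)
    (hε : IsPrimitiveRoot ε e) (hp : p.Prime) (hpe : p ∣ e) (hc : ¬ p ∣ c) :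
    IsPrimitiveRoot (ε ^ (e * c / p)) p := by
  obtain ⟨f, rfl⟩ := hpe
  have h1 : p * f * c / p = f * c := by
    rw [mul_assoc, Nat.mul_div_cancel_left _ hp.pos]
  rw [h1, pow_mul]
  have h2 : IsPrimitiveRoot (ε ^ f) p := IsPrimitiveRoot.pow he hε (mul_comm p f)
  exact h2.pow_of_coprime c ((Nat.Prime.coprime_iff_not_dvd hp).mpr hc).symm

section orbit

variable {k Ω : Type} [Field k] [Field Ω] [Algebra k Ω] {N : ℕ} (D : M28TowerData k Ω N)

/-- the orbit of a root `C η m` under `τ ε`. -/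
theorem m28dt_orbit_isRoot {Q : Polynomial Ω} (ε : kˣ) (hQ : Q.map (D.τ ε) = Q) (η : kˣ) {m : ℕ}
    (hm : 0 < m) (hr : Q.IsRoot (D.C η m)) (j : ℕ) : Q.IsRoot (D.C (η * (ε ^ m) ^ j) m) := by
  induction j with
  | zero => simpa using hr
  | succ j ih =>
    have h := m28dt_isRoot_map (D.τ ε) hQ ih
    rw [D.τ_C ε _ m hm] at h
    rwa [pow_succ, ← mul_assoc]

/-- a root of the second kind forces degree `≥ p`. -/
theorem m28dt_orbit_le {Q : Polynomial Ω} (hQ0 : Q ≠ 0) (ε : kˣ) (hQ : Q.map (D.τ ε) = Q)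
    (η : kˣ) {m p : ℕ} (hm : 0 < m) (hprim : IsPrimitiveRoot (ε ^ m) p)
    (hr : Q.IsRoot (D.C η m)) : p ≤ Q.natDegree := by
  refine m28dt_le_natDegree_of_roots hQ0 (fun j => D.C (η * (ε ^ m) ^ j) m) ?_ ?_
  · intro i hi j hj hij
    have h1 := (D.C_inj _ _ _ _ hm hm hij).2
    exact hprim.pow_inj hi hj (mul_left_cancel h1)
  · intro i _
    exact m28dt_orbit_isRoot D ε hQ η hm hr i

/-- a root of the second kind and a root of another order force degree `≥ p + 1`. -/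
theorem m28dt_orbit_succ_le {Q : Polynomial Ω} (hQ0 : Q ≠ 0) (ε : kˣ) (hQ : Q.map (D.τ ε) = Q)
    (η : kˣ) {m p : ℕ} (hm : 0 < m) (hprim : IsPrimitiveRoot (ε ^ m) p)
    (hr : Q.IsRoot (D.C η m)) (ξ' : kˣ) {m' : ℕ} (hm' : 0 < m') (hmm' : m' ≠ m)
    (hr' : Q.IsRoot (D.C ξ' m')) : p + 1 ≤ Q.natDegree := by
  refine m28dt_le_natDegree_of_roots hQ0
    (fun j => if j < p then D.C (η * (ε ^ m) ^ j) m else D.C ξ' m') ?_ ?_
  · intro i hi j hj hij
    by_cases hip : i < p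
    · by_cases hjp : j < p
      · rw [if_pos hip, if_pos hjp] at hij
        have h1 := (D.C_inj _ _ _ _ hm hm hij).2
        exact hprim.pow_inj hip hjp (mul_left_cancel h1)
      · rw [if_pos hip, if_neg hjp] at hij
        exact absurd (D.C_inj _ _ _ _ hm hm' hij).1.symm hmm'
    · by_cases hjp : j < p
      · rw [if_neg hip, if_pos hjp] at hij
        exact absurd (D.C_inj _ _ _ _ hm' hm hij).1 hmm'
      · omega
  · intro i _
    by_cases hip : i < p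
    · rw [if_pos hip]
      exact m28dt_orbit_isRoot D ε hQ η hm hr i
    · rw [if_neg hip]
      exact hr'

end orbit

/-! ### `τ ε` fixes the image of every embedding of `E_{N'}` when `ε ^ (N / N') = 1` -/

section tau

variable {k Ω : Type} [Field k] [IsAlgClosed k] [Field Ω] [Algebra k Ω] {N : ℕ}
  (D : M28TowerData k Ω N)

/-- the refined cusp shape: for `N' * e = N` the order of `ι J_d` is a multiple of `e`. -/
theorem m28dt_cusp_order (hNk : (N : k) ≠ 0) {N' e : ℕ} (hN'e : N' * e = N)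
    (ι : ↥(m28dt_E D N') →ₐ[↥(m28dt_K0 D)] Ω) {d : ℕ} (hd : d ∣ N') (x : ↥(m28dt_E D N'))
    (hx : (x : Ω) = m28dt_J D d) :
    ∃ (ξ : kˣ) (a δ t : ℕ), a * δ = d ∧ d * t = N' ∧ 0 < a ∧ 0 < t ∧ 0 < e ∧
      ι x = D.C ξ (e * (t * a * a)) := by
  have hN0 : N ≠ 0 := fun h => hNk (by rw [h, Nat.cast_zero])
  obtain ⟨ξ, a, δ, e₁, haδ, hδe, hι⟩ := m28dt_cusp D hNk ⟨e, hN'e.symm⟩ ι d hd x hx
  obtain ⟨t, ht⟩ := hd
  have hδ0 : 0 < δ := Nat.pos_of_ne_zero fun h => hN0 (by rw [← hδe, h, zero_mul])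
  have he0 : 0 < e := Nat.pos_of_ne_zero fun h => hN0 (by rw [← hN'e, h, mul_zero])
  have hN'0 : 0 < N' := Nat.pos_of_ne_zero fun h => hN0 (by rw [← hN'e, h, zero_mul])
  have hd0 : 0 < d := Nat.pos_of_ne_zero fun h => hN'0.ne' (by rw [ht, h, zero_mul])
  have ht0 : 0 < t := Nat.pos_of_ne_zero fun h => hN'0.ne' (by rw [ht, h, mul_zero])
  have ha0 : 0 < a := Nat.pos_of_ne_zero fun h => hd0.ne' (by rw [← haδ, h, zero_mul])
  have he₁ : e₁ = a * t * e := by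
    have h1 : δ * e₁ = δ * (a * t * e) := by
      rw [hδe, ← hN'e, ht, ← haδ]; ring
    exact Nat.eq_of_mul_eq_mul_left hδ0 h1
  refine ⟨ξ, a, δ, t, haδ, ht.symm, ha0, ht0, he0, ?_⟩
  rw [hι, he₁]
  congr 1
  ring

theorem m28dt_tau_comp (hNk : (N : k) ≠ 0) {N' e : ℕ} (hN'e : N' * e = N) (ε : kˣ)
    (hε : ε ^ e = 1) (ι : ↥(m28dt_E D N') →ₐ[↥(m28dt_K0 D)] Ω) :
    (D.τ ε).comp (ι : ↥(m28dt_E D N') →+* Ω) = (ι : ↥(m28dt_E D N') →+* Ω) := by
  have hN0 : N ≠ 0 := fun h => hNk (by rw [h, Nat.cast_zero])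
  have hN0' : 0 < N := Nat.pos_of_ne_zero hN0
  have hεN : ε ^ N = 1 := by rw [← hN'e, mul_comm, pow_mul, hε, one_pow]
  apply m28dt_ringHom_ext D N'
  · intro c
    rw [RingHom.comp_apply]
    have h1 : (ι : ↥(m28dt_E D N') →+* Ω) (algebraMap ↥(m28dt_K0 D) ↥(m28dt_E D N') c) =
        (c : Ω) := ι.commutes c
    rw [h1]
    apply m28dt_fix_K0 D (D.τ ε) (D.τ_algebraMap ε) _ _ c.2
    rw [D.τ_C ε 1 N hN0', hεN, mul_one]
  · intro d hd x hx
    obtain ⟨ξ, a, δ, t, -, -, ha0, ht0, he0, hι⟩ := m28dt_cusp_order D hNk hN'e ι hd x hx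
    rw [RingHom.comp_apply]
    have h1 : (ι : ↥(m28dt_E D N') →+* Ω) x = D.C ξ (e * (t * a * a)) := hι
    rw [h1, D.τ_C ε ξ _ (Nat.mul_pos he0 (Nat.mul_pos (Nat.mul_pos ht0 ha0) ha0)), pow_mul, hε,
      one_pow, mul_one]

theorem m28dt_map_tau (hNk : (N : k) ≠ 0) {N' e : ℕ} (hN'e : N' * e = N) (ε : kˣ)
    (hε : ε ^ e = 1) (ι : ↥(m28dt_E D N') →ₐ[↥(m28dt_K0 D)] Ω)
    (P : Polynomial ↥(m28dt_E D N')) :
    (P.map (ι : ↥(m28dt_E D N') →+* Ω)).map (D.τ ε) = P.map (ι : ↥(m28dt_E D N') →+* Ω) := by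
  rw [Polynomial.map_map, m28dt_tau_comp D hNk hN'e ε hε ι]

/-- elements of the image of an embedding are fixed by `τ ε`. -/
theorem m28dt_tau_fix (hNk : (N : k) ≠ 0) {N' e : ℕ} (hN'e : N' * e = N) (ε : kˣ)
    (hε : ε ^ e = 1) (ι : ↥(m28dt_E D N') →ₐ[↥(m28dt_K0 D)] Ω) (x : ↥(m28dt_E D N')) :
    D.τ ε (ι x) = ι x := by
  have h := congrArg (fun f : ↥(m28dt_E D N') →+* Ω => f x) (m28dt_tau_comp D hNk hN'e ε hε ι)
  exact h

end tau

/-! ### the polynomial `Φ (X, y)` over `E` -/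

section FE

variable {k Ω : Type} [Field k] [Field Ω] [Algebra k Ω] {N : ℕ} (D : M28TowerData k Ω N)

theorem m28dt_FE_map (N' : ℕ) (ι : ↥(m28dt_E D N') →ₐ[↥(m28dt_K0 D)] Ω)
    (Φ : Polynomial (Polynomial k)) (y : ↥(m28dt_E D N')) :
    (Φ.map (Polynomial.aeval (R := k) y).toRingHom).map (ι : ↥(m28dt_E D N') →+* Ω) =
      Φ.map (m28dt_ev (ι y)) := by
  rw [Polynomial.map_map]
  congr 1
  unfold m28dt_ev
  have h := Polynomial.aeval_algHom (ι.restrictScalars k) y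
  rw [show (ι.restrictScalars k) y = ι y from rfl] at h
  rw [h]
  rfl

theorem m28dt_FE_aeval (N' : ℕ) (Φ : Polynomial (Polynomial k)) (y : ↥(m28dt_E D N')) (G : Ω) :
    Polynomial.aeval G (Φ.map (Polynomial.aeval (R := k) y).toRingHom) =
      m28dt_bev Φ G (y : Ω) := by
  rw [Polynomial.aeval_def, Polynomial.eval₂_map]
  unfold m28dt_bev
  congr 1
  have h := Polynomial.aeval_algHom (m28dt_val D N') y
  rw [m28dt_val_apply] at h
  rw [h]
  rfl

end FE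

end Fermat.Agent.M28

end
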