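import Mathlib
import Fermat.Agent.M28.DTowerOrbit

/-!
# S28 (Igusa), PKG-D — the degree step at a prime `p ∣ N'` (prefix `m28dt_`)
-/

set_option autoImplicit false

noncomputable section

namespace Fermat.Agent.M28

open Polynomial

section step

variable {k Ω : Type} [Field k] [IsAlgClosed k] [Field Ω] [Algebra k Ω] {N : ℕ}
  (D : M28TowerData k Ω N)

/-- if the minimal polynomial of `G` over `E` has a root `z ∈ E`, then `G = z`. -/
theorem m28dt_eq_of_minpoly_root (N' : ℕ) {G : Ω} (hint : IsIntegral ↥(m28dt_E D N') G)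
    (z : ↥(m28dt_E D N')) (hz : (minpoly ↥(m28dt_E D N') G).IsRoot z) : G = (z : Ω) := by
  have hdeg := Polynomial.degree_eq_one_of_irreducible_of_root (minpoly.irreducible hint) hz
  obtain ⟨g, hg⟩ := minpoly.degree_eq_one_iff.mp hdeg
  have hmin := minpoly.eq_X_sub_C_of_algebraMap_inj g
    (algebraMap ↥(m28dt_E D N') Ω).injective
  rw [hg] at hmin
  rw [hmin, Polynomial.IsRoot.def, Polynomial.eval_sub, Polynomial.eval_X, Polynomial.eval_C,
    sub_eq_zero] at hz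
  rw [← hg, hz]
  rfl

/-- the common set-up of the two steps. -/
theorem m28dt_step_setup (hNk : (N : k) ≠ 0) {N' p : ℕ} (hp : p.Prime) (hpN : p ∣ N)
    (hN'0 : 0 < N') (y : ↥(m28dt_E D N')) (hy : (y : Ω) = m28dt_J D N') :
    ((D.prime p hp hpN).Φ.map (Polynomial.aeval (R := k) y).toRingHom).Monic ∧
    ((D.prime p hp hpN).Φ.map (Polynomial.aeval (R := k) y).toRingHom).natDegree = p + 1 ∧
    IsIntegral ↥(m28dt_E D N') (m28dt_J D (N' * p)) ∧
    minpoly ↥(m28dt_E D N') (m28dt_J D (N' * p)) ∣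
      (D.prime p hp hpN).Φ.map (Polynomial.aeval (R := k) y).toRingHom := by
  have hmonic : ((D.prime p hp hpN).Φ.map (Polynomial.aeval (R := k) y).toRingHom).Monic :=
    (D.prime p hp hpN).Φ_monic.map _
  have hroot : Polynomial.aeval (m28dt_J D (N' * p))
      ((D.prime p hp hpN).Φ.map (Polynomial.aeval (R := k) y).toRingHom) = 0 := by
    rw [m28dt_FE_aeval, hy]
    have := m28dt_J_root_first D hNk hp hpN hN'0
    rwa [mul_comm p N'] at this
  refine ⟨hmonic, ?_, ⟨_, hmonic, hroot⟩, minpoly.dvd _ _ hroot⟩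
  rw [(D.prime p hp hpN).Φ_monic.natDegree_map, (D.prime p hp hpN).Φ_natDegree]

/-- roots of the image of the minimal polynomial are roots of `Φ (X, ι y)`. -/
theorem m28dt_root_of_minpoly (hNk : (N : k) ≠ 0) {N' p : ℕ} (hp : p.Prime) (hpN : p ∣ N)
    (hN'0 : 0 < N') (y : ↥(m28dt_E D N')) (hy : (y : Ω) = m28dt_J D N')
    (ι : ↥(m28dt_E D N') →ₐ[↥(m28dt_K0 D)] Ω) {r : Ω}
    (hr : ((minpoly ↥(m28dt_E D N') (m28dt_J D (N' * p))).map
      (ι : ↥(m28dt_E D N') →+* Ω)).IsRoot r) :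
    m28dt_bev (D.prime p hp hpN).Φ r (ι y) = 0 := by
  obtain ⟨-, -, -, hdvd⟩ := m28dt_step_setup D hNk hp hpN hN'0 y hy
  have h1 := Polynomial.map_dvd (ι : ↥(m28dt_E D N') →+* Ω) hdvd
  rw [m28dt_FE_map] at h1
  obtain ⟨T, hT⟩ := h1
  rw [← m28dt_eval_map_ev, hT, Polynomial.eval_mul, hr.eq_zero, zero_mul]

variable [IsAlgClosed Ω]

/-- **D2**: the step at a prime `p ∣ N'`. -/
theorem m28dt_step2 (hNk : (N : k) ≠ 0) (N' p e : ℕ) (hp : p.Prime) (hN'p : N' * p ∣ N)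
    (hpN' : p ∣ N') (ι0 : ↥(m28dt_E D N') →ₐ[↥(m28dt_K0 D)] Ω) (ξ : kˣ) (he : N' * e = N)
    (hι0 : ∀ x : ↥(m28dt_E D N'), (x : Ω) = m28dt_J D N' → ι0 x = D.C ξ e) :
    p ≤ (minpoly ↥(m28dt_E D N') (m28dt_J D (N' * p))).natDegree ∧
      ∃ η : kˣ, ((minpoly ↥(m28dt_E D N') (m28dt_J D (N' * p))).map
        (ι0 : ↥(m28dt_E D N') →+* Ω)).IsRoot (D.C η (e / p)) := by
  have hN0 : N ≠ 0 := fun h => hNk (by rw [h, Nat.cast_zero])
  have hN0' : 0 < N := Nat.pos_of_ne_zero hN0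
  have hpN : p ∣ N := (Dvd.intro_left N' rfl).trans hN'p
  have hpk : (p : k) ≠ 0 := m28dt_natCast_ne_zero_of_dvd hNk hpN
  have hN'0 : 0 < N' := Nat.pos_of_ne_zero fun h => hN0 (by rw [← he, h, zero_mul])
  have he0 : 0 < e := Nat.pos_of_ne_zero fun h => hN0 (by rw [← he, h, mul_zero])
  have hpe : p ∣ e := by
    rw [← he] at hN'p
    exact (Nat.mul_dvd_mul_iff_left hN'0).mp hN'p
  have hep0 : 0 < e / p := Nat.div_pos (Nat.le_of_dvd he0 hpe) hp.pos
  obtain ⟨y, hyJ⟩ : ∃ y : ↥(m28dt_E D N'), (y : Ω) = m28dt_J D N' :=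
    ⟨⟨m28dt_J D N', m28dt_J_mem_E D (dvd_refl N')⟩, rfl⟩
  have hy : ι0 y = D.C ξ e := hι0 y hyJ
  obtain ⟨hFEmonic, hFEdeg, hint, hPdvd⟩ := m28dt_step_setup D hNk hp hpN hN'0 y hyJ
  have hPmonic := minpoly.monic hint
  have hQdeg := hPmonic.natDegree_map (ι0 : ↥(m28dt_E D N') →+* Ω)
  have hQmonic := hPmonic.map (ι0 : ↥(m28dt_E D N') →+* Ω)
  -- a root
  obtain ⟨r, hr⟩ := IsAlgClosed.exists_root
    ((minpoly ↥(m28dt_E D N') (m28dt_J D (N' * p))).map (ι0 : ↥(m28dt_E D N') →+* Ω)) (by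
      rw [Polynomial.degree_eq_natDegree hQmonic.ne_zero, hQdeg]
      exact_mod_cast (minpoly.natDegree_pos hint).ne')
  have hr' := m28dt_root_of_minpoly D hNk hp hpN hN'0 y hyJ ι0 hr
  rw [hy] at hr'
  -- the root is of the second kind
  have hsecond : ∃ η : kˣ, r = D.C η (e / p) := by
    rcases m28dt_root_cases (D.prime p hp hpN) hp hpk ξ he0 hpe hr' with h1 | ⟨η, -, h2⟩
    · exfalso
      obtain ⟨N'', hN''⟩ := hpN'
      have hN''0 : 0 < N'' := Nat.pos_of_ne_zero fun h => hN'0.ne' (by rw [hN'', h, mul_zero])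
      have hN''d : N'' ∣ N' := ⟨p, by rw [hN'', mul_comm]⟩
      obtain ⟨z, hzJ⟩ : ∃ z : ↥(m28dt_E D N'), (z : Ω) = m28dt_J D N'' :=
        ⟨⟨m28dt_J D N'', m28dt_J_mem_E D hN''d⟩, rfl⟩
      have hzrel : m28dt_bev (D.prime p hp hpN).Φ (z : Ω) (y : Ω) = 0 := by
        rw [hzJ, hyJ, hN'']
        exact m28dt_J_root_second D hNk hp hpN hN''0
      have hzι := m28dt_embed_root D N' ι0 _ z y hzrel
      rw [hy] at hzι
      obtain ⟨ξz, a, δ, t, -, -, ha0, ht0, -, hιz⟩ :=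
        m28dt_cusp_order D hNk he ι0 hN''d z hzJ
      have htaa : 0 < t * a * a := Nat.mul_pos (Nat.mul_pos ht0 ha0) ha0
      have hιz1 : ι0 z = D.C (ξ ^ p) (p * e) := by
        rcases m28dt_root_cases (D.prime p hp hpN) hp hpk ξ he0 hpe hzι with h3 | ⟨η', -, h4⟩
        · exact h3
        · exfalso
          rw [hιz] at h4
          have h5 := (D.C_inj _ _ _ _ (Nat.mul_pos he0 htaa) hep0 h4).1
          have h6 : e / p < e := Nat.div_lt_self he0 hp.one_lt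
          have h7 : e ≤ e * (t * a * a) := Nat.le_mul_of_pos_right e htaa
          omega
      -- `z` is a root of the minimal polynomial
      have hPz : (minpoly ↥(m28dt_E D N') (m28dt_J D (N' * p))).IsRoot z := by
        rw [h1, ← hιz1, Polynomial.IsRoot.def, Polynomial.eval_map] at hr
        have h8 : (ι0 : ↥(m28dt_E D N') →+* Ω)
            ((minpoly ↥(m28dt_E D N') (m28dt_J D (N' * p))).eval z) = 0 := by
          rw [← hr]
          exact (Polynomial.eval₂_at_apply _ _).symm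
        exact (map_eq_zero (ι0 : ↥(m28dt_E D N') →+* Ω)).mp h8
      have hGz := m28dt_eq_of_minpoly_root D N' hint z hPz
      rw [hzJ] at hGz
      have h9 := (D.C_inj _ _ _ _ (Nat.mul_pos hN0' (Nat.mul_pos hN'0 hp.pos))
        (Nat.mul_pos hN0' hN''0) hGz).1
      have h10 : N' * p = N'' := Nat.eq_of_mul_eq_mul_left hN0' h9
      have := hp.two_le
      nlinarith
    · exact ⟨η, h2⟩
  obtain ⟨η, rfl⟩ := hsecond
  -- the orbit
  obtain ⟨ε, hε⟩ := m28dt_exists_primitiveRoot (k := k) (n := e)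
    (m28dt_natCast_ne_zero_of_dvd hNk ⟨N', by rw [← he, mul_comm]⟩)
  have hQτ := m28dt_map_tau D hNk he ε hε.pow_eq_one ι0
    (minpoly ↥(m28dt_E D N') (m28dt_J D (N' * p)))
  have hprim : IsPrimitiveRoot (ε ^ (e / p)) p := by
    have h := m28dt_primitive_pow he0 hε hp hpe (c := 1) (by
      intro h1
      exact hp.one_lt.ne' (Nat.dvd_one.mp h1))
    rwa [mul_one] at h
  refine ⟨?_, η, hr⟩
  rw [← hQdeg]
  exact m28dt_orbit_le D hQmonic.ne_zero ε hQτ η hep0 hprim hr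

end step

end Fermat.Agent.M28

end
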