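import Fermat.Agent.S24.DegGen
import Fermat.Agent.S24.SymRel
import Fermat.Agent.S24.MGCard
import Fermat.Agent.S24.AnaTrans
import Fermat.Prelude.Def_ModularCurve_IgusaScheme

/-!
# S28 / PKG-F1: the degree bound over `ℚ` (prefix `m28f_`)

`F = ℚ(j_d : d ∣ N)` is finite over `ℚ(j)` of degree at most `dedekindPsi N`:
the S24 relation `sym_rel` (generic in the constant field) with `K = ℚ`, the generic algebra
step `deg_finite`, and the index formula `mg_card`.
-/

set_option autoImplicit false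

noncomputable section

namespace Fermat.Agent.M28

open ModularCurve ModularCurve.IgusaScheme IntermediateField Polynomial
open Fermat.Agent.S24

theorem m28f_coeffEmb_rat (x : LaurentSeries ℚ) : coeffEmb ℚ x = x := by
  ext k
  rw [coeffEmb_coeff]
  rfl

/-- the generators `j_d`, `d ∣ N`, as elements of the function field over `ℚ`. -/
def m28f_gen (N : ℕ) [NeZero N] (d : symI N) : ↥(modularFunctionFieldFull N) :=
  haveI : NeZero d.1 := ⟨(symI_pos d).ne'⟩
  ⟨qExpand ℚ d.1 jq, jqd_mem_full N (symI_dvd d)⟩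

theorem m28f_gen_coe (N : ℕ) [NeZero N] (d : symI N) :
    ((m28f_gen N d : ↥(modularFunctionFieldFull N)) : LaurentSeries ℚ) = sym_jd ℚ d := by
  unfold sym_jd
  rw [m28f_coeffEmb_rat]
  rfl

theorem m28f_j_coe (N : ℕ) [NeZero N] :
    ((jFull N : ↥(modularFunctionFieldFull N)) : LaurentSeries ℚ) = sym_jd ℚ (symI_one N) := by
  rw [sym_jd_one, m28f_coeffEmb_rat]
  rfl

/-- the inclusion `F → ℚ((q))` as a `ℚ`-algebra hom (for the synthesized `ℚ`-algebra structures). -/
def m28f_val (N : ℕ) [NeZero N] : ↥(modularFunctionFieldFull N) →ₐ[ℚ] LaurentSeries ℚ :=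
  (algebraMap ↥(modularFunctionFieldFull N) (LaurentSeries ℚ)).toRatAlgHom

theorem m28f_val_apply (N : ℕ) [NeZero N] (x : ↥(modularFunctionFieldFull N)) :
    m28f_val N x = (x : LaurentSeries ℚ) := rfl

theorem m28f_val_injective (N : ℕ) [NeZero N] : Function.Injective (m28f_val N) :=
  fun _ _ h => Subtype.ext h

theorem m28f_adjoin_top (N : ℕ) [NeZero N] :
    IntermediateField.adjoin ℚ (Set.range (m28f_gen N)) = ⊤ := by
  rw [eq_top_iff]
  intro f _
  have hf : (f : LaurentSeries ℚ) ∈ IntermediateField.adjoin ℚ (divisorExpansions N) := f.2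
  have himg : (divisorExpansions N) = (m28f_val N) '' (Set.range (m28f_gen N)) := by
    ext y
    constructor
    · rintro ⟨d, hd0, hd, rfl⟩
      have hmem : d ∈ N.divisors := Nat.mem_divisors.mpr ⟨hd, NeZero.ne N⟩
      exact ⟨m28f_gen N ⟨d, hmem⟩, ⟨⟨d, hmem⟩, rfl⟩, rfl⟩
    · rintro ⟨_, ⟨d, rfl⟩, rfl⟩
      have hne : NeZero d.1 := ⟨(symI_pos d).ne'⟩
      exact ⟨d.1, hne, symI_dvd d, rfl⟩
  rw [himg, ← IntermediateField.adjoin_map] at hf
  obtain ⟨g, hg, hgf⟩ := hf
  have : g = f := m28f_val_injective N hgf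
  rw [← this]
  exact hg

theorem m28f_transcendental (N : ℕ) [NeZero N] : Transcendental ℚ (jFull N) := by
  have h := ad_transcendental_jq ℚ
  rw [m28f_coeffEmb_rat] at h
  intro halg
  apply h
  obtain ⟨P, hP0, hP⟩ := halg
  refine ⟨P, hP0, ?_⟩
  have := congrArg (m28f_val N) hP
  rw [← Polynomial.aeval_algHom_apply, map_zero] at this
  exact this

theorem m28f_rel (N : ℕ) [NeZero N] (a : ↥(modularFunctionFieldFull N))
    (ha : a ∈ Algebra.adjoin ℚ (Set.range (m28f_gen N))) :
    ∃ (B : ℚ[X]) (G : Fin (Fintype.card (s24Q N)) → ℚ[X]), aeval (jFull N) B ≠ 0 ∧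
      a * aeval (jFull N) B
        + ∑ i : Fin (Fintype.card (s24Q N)), m28f_gen N (symI_top N) ^ (i : ℕ)
            * aeval (jFull N) (G i) = 0 := by
  rw [Algebra.adjoin_range_eq_range_aeval] at ha
  obtain ⟨p, rfl⟩ := ha
  obtain ⟨B, G, hB, hrel⟩ := sym_rel (algebraMap ℚ ℂ) N p
  refine ⟨B, G, ?_, ?_⟩
  · intro h0
    exact hB ((transcendental_iff.mp (m28f_transcendental N)) B h0)
  · apply m28f_val_injective N
    have h1 : m28f_val N ((MvPolynomial.aeval (m28f_gen N)).toRingHom p) = sym_piL ℚ N p := by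
      have h := MvPolynomial.comp_aeval_apply (m28f_gen N) (m28f_val N) p
      have hfun : (fun i => (m28f_val N) (m28f_gen N i)) = sym_jd ℚ (N := N) := by
        funext d
        exact m28f_gen_coe N d
      rw [hfun] at h
      exact h
    have h2 : ∀ P : ℚ[X], m28f_val N (aeval (jFull N) P) = aeval (sym_jd ℚ (symI_one N)) P := by
      intro P
      rw [← m28f_j_coe]
      exact (Polynomial.aeval_algHom_apply (m28f_val N) (jFull N) P).symm
    rw [map_add, map_mul, map_sum, h1, h2, map_zero]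
    rw [← hrel]
    congr 1
    refine Finset.sum_congr rfl fun i _ => ?_
    rw [map_mul, map_pow, h2]
    congr 2

/-- **[F1]** the function field over `ℚ` is finite over `ℚ(j)` of degree at most `ψ(N)`. -/
theorem m28f_finrank_le (N : ℕ) [NeZero N] :
    FiniteDimensional ↥(IntermediateField.adjoin ℚ {jFull N}) ↥(modularFunctionFieldFull N) ∧
    Module.finrank ↥(IntermediateField.adjoin ℚ {jFull N}) ↥(modularFunctionFieldFull N)
      ≤ dedekindPsi N := by
  have h := deg_finite (jFull N) (m28f_gen N (symI_top N)) (Fintype.card (s24Q N))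
    (Set.range (m28f_gen N)) (m28f_adjoin_top N) (m28f_rel N)
  refine ⟨h.1, ?_⟩
  have hc : Fintype.card (s24Q N) = dedekindPsi N := by
    rw [← Nat.card_eq_fintype_card]
    exact mg_card N
  rw [← hc]
  exact h.2

end Fermat.Agent.M28

end
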