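import Mathlib
import Fermat.Prelude.Def_ModularCurve_IgusaScheme
import Fermat.Prelude.Def_ModularCurve_X0ModL

/-!
# S28 (Igusa) — shared definitions (prefix `m28_`)

* `m28_ev y`      : the evaluation `R[Y] →+* R((q))`, `Y ↦ y`.
* `m28_w R p g`   : the Laurent series `p ^ 12 * q ^ (p - 1) * g(q)`
                    (the shape of `p ^ 12 * Δ(q ^ p) / Δ(q)`).
* `M28PrimeData R p` : the prime-level package over a coefficient ring `R`:
    the modular equation `Φ_p`, the integrality equation `U` of the modular unit `w`,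
    and the interpolation polynomial `A` with `w * ∂Φ/∂X (j(q^p), j(q)) = A (j(q^p), j(q))`.
  Outer variable of `Polynomial (Polynomial R)` = `X` (the slot of `j(q^p)` resp. `w`),
  inner variable = `Y` (the slot of `j(q)`).
-/

set_option autoImplicit false

noncomputable section

namespace Fermat.Agent.M28

open ModularCurve Polynomial

/-- evaluation `R[Y] →+* R((q))`, `Y ↦ y`. -/
def m28_ev {R : Type} [CommRing R] (y : LaurentSeries R) : Polynomial R →+* LaurentSeries R :=
  (Polynomial.aeval (R := R) y).toRingHom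

/-- `p ^ 12 * q ^ (p - 1) * g(q)`. -/
def m28_w (R : Type) [CommRing R] (p : ℕ) (g : PowerSeries R) : LaurentSeries R :=
  HahnSeries.single ((p : ℤ) - 1) ((p : R) ^ 12) * HahnSeries.ofPowerSeries ℤ R g

/-- The prime-level package over the coefficient ring `R`. -/
structure M28PrimeData (R : Type) [CommRing R] (p : ℕ) [NeZero p] where
  /-- the modular equation, `X`-monic of degree `p + 1`. -/
  Φ : Polynomial (Polynomial R)
  Φ_monic : Φ.Monic
  Φ_natDegree : Φ.natDegree = p + 1
  /-- `Φ (j(q^p), j(q)) = 0` -/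
  Φ_root1 : Φ.eval₂ (m28_ev (jqModC R)) (qExpand R p (jqModC R)) = 0
  /-- `Φ (j(q), j(q^p)) = 0` -/
  Φ_root2 : Φ.eval₂ (m28_ev (qExpand R p (jqModC R))) (jqModC R) = 0
  /-- `w = p ^ 12 * q ^ (p - 1) * g`, `g(0) = 1`. -/
  g : PowerSeries R
  g_const : PowerSeries.constantCoeff g = 1
  /-- the integrality equation of `w` over `R[j]`. -/
  U : Polynomial (Polynomial R)
  U_monic : U.Monic
  U_root : U.eval₂ (m28_ev (jqModC R)) (m28_w R p g) = 0
  /-- the interpolation polynomial. -/
  A : Polynomial (Polynomial R)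
  A_eq : m28_w R p g * (derivative Φ).eval₂ (m28_ev (jqModC R)) (qExpand R p (jqModC R))
    = A.eval₂ (m28_ev (jqModC R)) (qExpand R p (jqModC R))

/-- The ring of all algebraic integers in `ℂ`. -/
abbrev m28Zbar : Type := ↥(integralClosure ℤ ℂ)

end Fermat.Agent.M28

end
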