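/-
S28, package K (helper8): base change of the prime-level package `M28PrimeData` along a ring
homomorphism, and the algebraically closed field of characteristic `ℓ` receiving the ring of
algebraic integers.

* `m28k_map f p D : M28PrimeData S p` for `f : R →+* S`, `S` nontrivial;
* `m28k_exists_field ℓ` : the Spec statement [K2];
* `m28k_primeData_of` : a prime-level package over the algebraic integers gives one over
  `m28k_k ℓ`.
-/
import Mathlib
import Fermat.Agent.M28.Defs
import Fermat.Agent.M28.KField

set_option autoImplicit false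

noncomputable section

namespace Fermat.Agent.M28

open ModularCurve Polynomial

section naturality

variable {R S : Type} [CommRing R] [CommRing S]

theorem m28k_algebraMap (a : R) : algebraMap R (LaurentSeries R) a = HahnSeries.C a := by
  have h1 : algebraMap R (PowerSeries R) a = PowerSeries.C a := by
    simp
  rw [HahnSeries.algebraMap_apply', h1, HahnSeries.ofPowerSeries_C]

theorem m28k_ev_C (y : LaurentSeries R) (a : R) :
    m28_ev y (Polynomial.C a) = HahnSeries.C a := by
  unfold m28_ev
  simp only [AlgHom.toRingHom_eq_coe, RingHom.coe_coe, Polynomial.aeval_C]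
  exact m28k_algebraMap a

theorem m28k_ev_X (y : LaurentSeries R) : m28_ev y Polynomial.X = y := by
  unfold m28_ev
  simp

theorem m28k_ev_eq (y : LaurentSeries R) :
    m28_ev y = Polynomial.eval₂RingHom (HahnSeries.C : R →+* LaurentSeries R) y := by
  apply Polynomial.ringHom_ext
  · intro a
    rw [m28k_ev_C]
    simp
  · rw [m28k_ev_X]
    simp

theorem m28k_coeffMap_C (f : R →+* S) (a : R) :
    coeffMap f (HahnSeries.C a) = HahnSeries.C (f a) := by
  rw [HahnSeries.C_apply, HahnSeries.C_apply]
  exact coeffMap_single f 0 a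

/-- naturality of the inner evaluation under `coeffMap`. -/
theorem m28k_coeffMap_comp_ev (f : R →+* S) (y : LaurentSeries R) :
    (coeffMap f).comp (m28_ev y) = (m28_ev (coeffMap f y)).comp (Polynomial.mapRingHom f) := by
  apply Polynomial.ringHom_ext
  · intro a
    simp only [RingHom.comp_apply, Polynomial.coe_mapRingHom, Polynomial.map_C]
    rw [m28k_ev_C, m28k_ev_C, m28k_coeffMap_C]
  · simp only [RingHom.comp_apply, Polynomial.coe_mapRingHom, Polynomial.map_X]
    rw [m28k_ev_X, m28k_ev_X]

/-- naturality of the evaluation in two variables under `coeffMap`. -/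
theorem m28k_coeffMap_eval₂ (f : R →+* S) (y x : LaurentSeries R)
    (Φ : Polynomial (Polynomial R)) :
    coeffMap f (Φ.eval₂ (m28_ev y) x)
      = (Φ.map (Polynomial.mapRingHom f)).eval₂ (m28_ev (coeffMap f y)) (coeffMap f x) := by
  rw [Polynomial.hom_eval₂, m28k_coeffMap_comp_ev, Polynomial.eval₂_map]

theorem m28k_coeffMap_ofPowerSeries (f : R →+* S) (u : PowerSeries R) :
    coeffMap f (HahnSeries.ofPowerSeries ℤ R u) = HahnSeries.ofPowerSeries ℤ S (u.map f) :=
  ModularCurve.coeffMap_ofPowerSeries f u

theorem m28k_coeffMap_w (f : R →+* S) (p : ℕ) (g : PowerSeries R) :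
    coeffMap f (m28_w R p g) = m28_w S p (g.map f) := by
  unfold m28_w
  rw [map_mul, coeffMap_single, m28k_coeffMap_ofPowerSeries, map_pow, map_natCast]

theorem m28k_constantCoeff_map (f : R →+* S) (g : PowerSeries R)
    (hg : PowerSeries.constantCoeff g = 1) : PowerSeries.constantCoeff (g.map f) = 1 := by
  rw [← PowerSeries.coeff_zero_eq_constantCoeff_apply, PowerSeries.coeff_map,
    PowerSeries.coeff_zero_eq_constantCoeff_apply, hg, map_one]

end naturality

/-- **[K1]** base change of the prime-level package along a ring homomorphism to a nontrivial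
ring. -/
def m28k_map {R S : Type} [CommRing R] [CommRing S] [Nontrivial S] (f : R →+* S) (p : ℕ)
    [NeZero p] (D : M28PrimeData R p) : M28PrimeData S p where
  Φ := D.Φ.map (Polynomial.mapRingHom f)
  Φ_monic := D.Φ_monic.map _
  Φ_natDegree := by rw [D.Φ_monic.natDegree_map, D.Φ_natDegree]
  Φ_root1 := by
    have h := congrArg (coeffMap f) D.Φ_root1
    rwa [m28k_coeffMap_eval₂, coeffMap_jqModC, coeffMap_qExpand, coeffMap_jqModC, map_zero] at h
  Φ_root2 := by
    have h := congrArg (coeffMap f) D.Φ_root2
    rwa [m28k_coeffMap_eval₂, coeffMap_jqModC, coeffMap_qExpand, coeffMap_jqModC, map_zero] at h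
  g := D.g.map f
  g_const := m28k_constantCoeff_map f D.g D.g_const
  U := D.U.map (Polynomial.mapRingHom f)
  U_monic := D.U_monic.map _
  U_root := by
    have h := congrArg (coeffMap f) D.U_root
    rwa [m28k_coeffMap_eval₂, coeffMap_jqModC, m28k_coeffMap_w, map_zero] at h
  A := D.A.map (Polynomial.mapRingHom f)
  A_eq := by
    have h := congrArg (coeffMap f) D.A_eq
    rwa [map_mul, m28k_coeffMap_eval₂, m28k_coeffMap_eval₂, coeffMap_jqModC, coeffMap_qExpand,
      coeffMap_jqModC, m28k_coeffMap_w, ← Polynomial.derivative_map] at h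

/-- **[K2]** an algebraically closed field of characteristic `ℓ` receiving `Zbar`. -/
theorem m28k_exists_field (ℓ : ℕ) [Fact ℓ.Prime] :
    ∃ (k : Type) (_ : Field k) (_ : IsAlgClosed k) (_ : CharP k ℓ), Nonempty (m28Zbar →+* k) :=
  ⟨m28k_k ℓ, inferInstance, inferInstance, inferInstance, ⟨m28k_red ℓ⟩⟩

/-- a prime-level package over the algebraic integers gives one over the residue field. -/
theorem m28k_primeData_of (ℓ : ℕ) [Fact ℓ.Prime] (p : ℕ) [NeZero p]
    (h : Nonempty (M28PrimeData m28Zbar p)) : Nonempty (M28PrimeData (m28k_k ℓ) p) :=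
  h.map (m28k_map (m28k_red ℓ) p)

end Fermat.Agent.M28

end
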