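/-
S28, package P (analytic half, helper8): the modular unit `φ = p^12 Δ(pτ)/Δ(τ)`.

* `m28pa_psi w c τ = c * Δ (w τ) / Δ τ`; for `Δ ∘ w` holomorphic, `p`-periodic and bounded at
  `i∞` it is holomorphic, `p`-periodic, with a pole of order `≤ p` in `q_p`, and its
  `q_p`-expansion is `c * (expansion of Δ ∘ w) * Δ(s^p)⁻¹`.
* `m28pa_phi p : ana_ring p`, with `Γ₀(p)`-invariance `m28pa_phi_inv`, the expansion
  `m28pa_E_phi`, and integrality of the expansions of all translates `m28pa_E_comp_phi_mem`.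
* `m28p_primeData` : the statement [P] of the Spec.
-/
import Mathlib
import Fermat.Agent.S23.PrimElt
import Fermat.Agent.S24.Ord
import Fermat.Agent.S24.PolyJ
import Fermat.Agent.S24.Bridge
import Fermat.Agent.S24.BridgeQ
import Fermat.Agent.S24.AnaMer
import Fermat.Agent.M28.PaX
import Fermat.Agent.M28.PaMain

set_option autoImplicit false
set_option linter.unusedSectionVars false

noncomputable section

namespace Fermat.Agent.M28

open UpperHalfPlane hiding I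
open Filter Function Topology ModularForm Complex ModularCurve
open scoped Manifold MatrixGroups ModularForm Real CongruenceSubgroup
open CongruenceSubgroup
open Fermat.Agent.S23 Fermat.Agent.S24

local notation "𝕢" => Function.Periodic.qParam
local notation "Δ" => ModularForm.discriminant

variable (p : ℕ) [NeZero p]

/-! ### quotients `c * Δ (w τ) / Δ τ` -/

/-- `c * Δ (w τ) / Δ τ`. -/
def m28pa_psi (w : ℍ → ℍ) (c : ℂ) (τ : ℍ) : ℂ := c * Δ (w τ) / Δ τ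

theorem m28pa_psi_mul_disc (w : ℍ → ℍ) (c : ℂ) (τ : ℍ) :
    m28pa_psi w c τ * Δ τ = c * Δ (w τ) := by
  rw [m28pa_psi, div_mul_cancel₀ _ (ord_disc_ne_zero τ)]

theorem m28pa_psi_mdiff {w : ℍ → ℍ} (hw : MDiff (fun τ => Δ (w τ))) (c : ℂ) :
    MDiff (m28pa_psi w c) := by
  have h : m28pa_psi w c = ((fun _ : ℍ => c) * (fun τ => Δ (w τ))) / (fun τ : ℍ => Δ τ) := by
    funext τ
    rfl
  rw [h]
  exact (mdifferentiable_const.mul hw).div ord_mdiff_disc ord_disc_ne_zero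

theorem m28pa_disc_vadd (τ : ℍ) : Δ ((p : ℝ) +ᵥ τ) = Δ τ :=
  br_vadd_nat (F := fun τ => Δ τ) pj_disc_mem.2.1 p τ

theorem m28pa_psi_poleLE {w : ℍ → ℍ} (hw : IsBoundedAtImInfty (fun τ => Δ (w τ))) (c : ℂ) :
    ana_PoleLE p p (m28pa_psi w c) := by
  unfold ana_PoleLE
  have h : (fun τ : ℍ => ana_q p τ ^ p * m28pa_psi w c τ)
      = ((fun _ : ℍ => c) * (fun τ => Δ (w τ))) * br_V := by
    funext τ
    simp only [Pi.mul_apply]
    rw [amer_q_pow p (NeZero.pos p), m28pa_psi, br_V]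
    ring
  rw [h]
  exact BoundedAtFilter.mul
    (BoundedAtFilter.mul (Filter.const_boundedAtFilter _ c) hw) br_V_mem.2.2

/-- `c * Δ (w τ) / Δ τ` is holomorphic, `p`-periodic and meromorphic at `i∞`. -/
theorem m28pa_psi_isMer {w : ℍ → ℍ} (hw : ana_IsNice p (fun τ => Δ (w τ))) (c : ℂ) :
    ana_IsMer p (m28pa_psi w c) := by
  refine ⟨m28pa_psi_mdiff hw.1 c, fun τ => ?_, p, m28pa_psi_poleLE p hw.2.2 c⟩
  have h1 := hw.2.1 τ
  simp only at h1
  rw [m28pa_psi, m28pa_psi, h1, m28pa_disc_vadd]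

/-- the formal discriminant as a power series. -/
theorem m28pa_ofPowerSeries_delta :
    HahnSeries.ofPowerSeries ℤ ℂ (qExpansion 1 Δ) = m28pf_delta ℂ := by
  rw [br_qExpansion_discriminant, map_mul, HahnSeries.ofPowerSeries_X]
  rfl

/-- the `q_p`-expansion of `Δ` is `Δ(s^p)`. -/
theorem m28pa_laurent_disc : ana_laurent p (fun τ => Δ τ) = qExpand ℂ p (m28pf_delta ℂ) := by
  rw [m28pa_laurent_level p pj_disc_mem, m28pa_ofPowerSeries_delta]

/-- the `q_p`-expansion of `c * Δ (w τ) / Δ τ`. -/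
theorem m28pa_psi_laurent {w : ℍ → ℍ} (hw : ana_IsNice p (fun τ => Δ (w τ))) (c : ℂ) :
    ana_laurent p (m28pa_psi w c)
      = HahnSeries.C c * ana_laurent p (fun τ => Δ (w τ)) *
          qExpand ℂ p (m28pf_deltaInv ℂ) := by
  have hprod : m28pa_psi w c * (fun τ : ℍ => Δ τ) = (fun _ : ℍ => c) * (fun τ => Δ (w τ)) := by
    funext τ
    exact m28pa_psi_mul_disc w c τ
  have h1 := ana_laurent_mul (m28pa_psi_isMer p hw c) (m28pa_nice_level p pj_disc_mem).isMer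
  have h2 := ana_laurent_mul (N := p) (ana_IsNice.isMer (ana_isNice_const p c)) hw.isMer
  rw [hprod, h2, ana_laurent_const, m28pa_laurent_disc] at h1
  have hunit : qExpand ℂ p (m28pf_delta ℂ) * qExpand ℂ p (m28pf_deltaInv ℂ) = 1 := by
    rw [← map_mul, m28pf_delta_mul_inv, map_one]
  calc ana_laurent p (m28pa_psi w c)
      = ana_laurent p (m28pa_psi w c) *
          (qExpand ℂ p (m28pf_delta ℂ) * qExpand ℂ p (m28pf_deltaInv ℂ)) := by
        rw [hunit, mul_one]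
    _ = (ana_laurent p (m28pa_psi w c) * qExpand ℂ p (m28pf_delta ℂ)) *
          qExpand ℂ p (m28pf_deltaInv ℂ) := by ring
    _ = _ := by rw [← h1]

/-! ### the two kinds of translates -/

theorem m28pa_nice_disc_mulN : ana_IsNice p (fun τ => Δ (pe_mulN p (NeZero.pos p) τ)) :=
  m28pa_nice_level p (br_comp_mulN_mem pj_disc_mem p (NeZero.pos p))

theorem m28pa_nice_disc_div (b : ℤ) : ana_IsNice p (fun τ => Δ (m28pa_div p b τ)) :=
  m28pa_nice_div p pj_disc_mem b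

/-- the function `φ = p^12 Δ(pτ)/Δ(τ)`. -/
def m28pa_phiFun : ℍ → ℂ := m28pa_psi (pe_mulN p (NeZero.pos p)) ((p : ℂ) ^ 12)

/-- the function `Δ((τ+b)/p)/Δ(τ)`. -/
def m28pa_phiDiv (b : ℤ) : ℍ → ℂ := m28pa_psi (m28pa_div p b) 1

theorem m28pa_phiFun_apply (τ : ℍ) :
    m28pa_phiFun p τ = (p : ℂ) ^ 12 * Δ (pe_mulN p (NeZero.pos p) τ) / Δ τ := rfl

theorem m28pa_phiDiv_apply (b : ℤ) (τ : ℍ) :
    m28pa_phiDiv p b τ = 1 * Δ (m28pa_div p b τ) / Δ τ := rfl

/-- the translates of `φ`, in terms of the Hermite data. -/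
theorem m28pa_phiFun_smul_aff (g γ : SL(2, ℤ)) (a b d : ℤ) (ha : 0 < a) (hd : 0 < d)
    (h00 : (p : ℤ) * g 0 0 = γ 0 0 * a) (h01 : (p : ℤ) * g 0 1 = γ 0 0 * b + γ 0 1 * d)
    (h10 : g 1 0 = γ 1 0 * a) (h11 : g 1 1 = γ 1 0 * b + γ 1 1 * d) (τ : ℍ) :
    m28pa_phiFun p (g • τ)
      = (p : ℂ) ^ 12 * ((d : ℂ) ^ 12)⁻¹ * Δ (pe_aff a b d ha hd τ) / Δ τ := by
  have h1 := pe_slash_formula p (NeZero.pos p) g γ a b d ha hd h00 h01 h10 h11 τ
  rw [ModularForm.SL_slash_apply, pe_uFun] at h1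
  have h2 := ord_disc_smul g τ
  have hden : denom g τ ≠ 0 := denom_ne_zero g τ
  have hΔ : Δ τ ≠ 0 := ord_disc_ne_zero τ
  have h3 : Δ (pe_mulN p (NeZero.pos p) (g • τ))
      = ((d : ℂ) ^ 12)⁻¹ * Δ (pe_aff a b d ha hd τ) * denom g τ ^ (12 : ℤ) := by
    rw [← h1, mul_assoc, ← zpow_add₀ hden]
    simp
  rw [m28pa_phiFun_apply, h3, h2]
  have hden12 : denom g τ ^ (12 : ℤ) ≠ 0 := zpow_ne_zero _ hden
  field_simp

/-- each translate of `φ` is `φ` or `Δ((τ+b)/p)/Δ(τ)`. -/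
theorem m28pa_phiFun_smul_cases (hp : p.Prime) (g : SL(2, ℤ)) :
    (∀ τ, m28pa_phiFun p (g • τ) = m28pa_phiFun p τ) ∨
    (∃ b : ℤ, ∀ τ, m28pa_phiFun p (g • τ) = m28pa_phiDiv p b τ) := by
  obtain ⟨γ, a, b, d, ha, hd, had, -, h00, h01, h10, h11⟩ := pe_hermite p (NeZero.pos p) g
  have key := m28pa_phiFun_smul_aff p g γ a b d ha hd h00 h01 h10 h11
  have hp0 : (p : ℂ) ≠ 0 := by exact_mod_cast NeZero.ne p
  rcases m28pa_prime_cases p hp ha hd had with ⟨h1, h2⟩ | ⟨h1, h2⟩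
  · right
    subst h1 h2
    refine ⟨b, fun τ => ?_⟩
    rw [key, m28pa_phiDiv_apply]
    have : (p : ℂ) ^ 12 * ((((p : ℕ) : ℤ) : ℂ) ^ 12)⁻¹ = 1 := by
      push_cast
      exact mul_inv_cancel₀ (pow_ne_zero _ hp0)
    rw [this]
    rfl
  · left
    subst h1 h2
    intro τ
    rw [key, m28pa_phiFun_apply, m28pa_aff_one,
      m28pa_vadd_int (F := fun τ => Δ τ) pj_disc_mem.2.1]
    simp

/-- `φ` is invariant under `Γ₀(p)`. -/
theorem m28pa_phiFun_inv (γ : SL(2, ℤ)) (hγ : γ ∈ Gamma0 p) (τ : ℍ) :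
    m28pa_phiFun p (γ • τ) = m28pa_phiFun p τ := by
  have h1 := congrFun (pe_slash_eq_of_mem_Gamma0 p (NeZero.pos p) γ hγ) τ
  rw [ModularForm.SL_slash_apply] at h1
  simp only [pe_uFun] at h1
  have h2 := ord_disc_smul γ τ
  have hden : denom γ τ ≠ 0 := denom_ne_zero γ τ
  have hΔ : Δ τ ≠ 0 := ord_disc_ne_zero τ
  have h3 : Δ (pe_mulN p (NeZero.pos p) (γ • τ))
      = Δ (pe_mulN p (NeZero.pos p) τ) * denom γ τ ^ (12 : ℤ) := by
    rw [← h1, mul_assoc, ← zpow_add₀ hden]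
    simp
  rw [m28pa_phiFun_apply, m28pa_phiFun_apply, h3, h2]
  have hden12 : denom γ τ ^ (12 : ℤ) ≠ 0 := zpow_ne_zero _ hden
  field_simp

/-! ### `φ` as a modular function of level `p` -/

theorem m28pa_phiFun_isMer : ana_IsMer p (m28pa_phiFun p) :=
  m28pa_psi_isMer p (m28pa_nice_disc_mulN p) _

theorem m28pa_phiDiv_isMer (b : ℤ) : ana_IsMer p (m28pa_phiDiv p b) :=
  m28pa_psi_isMer p (m28pa_nice_disc_div p b) _

theorem m28pa_phiFun_comp_isMer (hp : p.Prime) (g : SL(2, ℤ)) :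
    ana_IsMer p (fun τ => m28pa_phiFun p (g • τ)) := by
  rcases m28pa_phiFun_smul_cases p hp g with h | ⟨b, h⟩
  · have : (fun τ => m28pa_phiFun p (g • τ)) = m28pa_phiFun p := funext h
    rw [this]
    exact m28pa_phiFun_isMer p
  · have : (fun τ => m28pa_phiFun p (g • τ)) = m28pa_phiDiv p b := funext h
    rw [this]
    exact m28pa_phiDiv_isMer p b

theorem m28pa_phiFun_mem (hp : p.Prime) : m28pa_phiFun p ∈ ana_ring p := by
  refine ⟨(m28pa_phiFun_isMer p).1, fun g => ?_⟩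
  have h := m28pa_phiFun_comp_isMer p hp g
  exact ⟨h.2.1, h.2.2⟩

/-- `φ = p^12 Δ(pτ)/Δ(τ)` as an element of `ana_ring p`. -/
def m28pa_phi (hp : p.Prime) : ana_ring p := ⟨m28pa_phiFun p, m28pa_phiFun_mem p hp⟩

theorem m28pa_phi_inv (hp : p.Prime) (γ : SL(2, ℤ)) (hγ : γ ∈ Gamma0 p) (τ : ℍ) :
    (m28pa_phi p hp : ℍ → ℂ) (γ • τ) = (m28pa_phi p hp : ℍ → ℂ) τ :=
  m28pa_phiFun_inv p γ hγ τ

/-! ### expansions -/

theorem m28pa_laurent_phiFun :
    ana_laurent p (m28pa_phiFun p)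
      = qExpand ℂ p (HahnSeries.C ((p : ℂ) ^ 12) * m28pf_w ℂ p) := by
  rw [m28pa_phiFun, m28pa_psi_laurent p (m28pa_nice_disc_mulN p),
    m28pa_laurent_mulN p pj_disc_mem, m28pa_ofPowerSeries_delta, m28pf_w_eq, map_mul, map_mul,
    qExpand_C, mul_assoc]

theorem m28pa_laurent_phiDiv (b : ℤ) :
    ana_laurent p (m28pa_phiDiv p b)
      = cf_twist (atw_zeta p ^ b) (m28pf_delta ℂ) * qExpand ℂ p (m28pf_deltaInv ℂ) := by
  rw [m28pa_phiDiv, m28pa_psi_laurent p (m28pa_nice_disc_div p b),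
    m28pa_laurent_div p pj_disc_mem b, m28pa_ofPowerSeries_delta, map_one, one_mul]

theorem m28pa_delta_mem : m28pf_delta ℂ ∈ m28pf_int m28pf_incl :=
  ⟨m28pf_delta _, m28pf_coeffMap_delta _⟩

theorem m28pa_deltaInv_mem : m28pf_deltaInv ℂ ∈ m28pf_int m28pf_incl :=
  ⟨m28pf_deltaInv _, m28pf_coeffMap_deltaInv _⟩

theorem m28pa_w_mem : m28pf_w ℂ p ∈ m28pf_int m28pf_incl :=
  ⟨m28pf_w _ p, m28pf_coeffMap_w _ p⟩

theorem m28pa_E_phi (hp : p.Prime) :
    ana_qexp p (m28pa_phi p hp)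
      = qExpand ℂ p (HahnSeries.C ((p : ℂ) ^ 12) * m28pf_w ℂ p) :=
  m28pa_laurent_phiFun p

theorem m28pa_E_comp_phi_mem (hp : p.Prime) (g : SL(2, ℤ)) :
    ana_qexp p (ana_comp p g (m28pa_phi p hp)) ∈ m28pf_int m28pf_incl := by
  rw [ana_qexp_apply]
  have hfun : ((ana_comp p g (m28pa_phi p hp) : ana_ring p) : ℍ → ℂ)
      = fun τ => m28pa_phiFun p (g • τ) := rfl
  rw [hfun]
  rcases m28pa_phiFun_smul_cases p hp g with h | ⟨b, h⟩
  · have : (fun τ => m28pa_phiFun p (g • τ)) = m28pa_phiFun p := funext h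
    rw [this, m28pa_laurent_phiFun]
    refine m28pf_qExpand_mem _ p (Subring.mul_mem _ ?_ (m28pa_w_mem p))
    have : ((p : ℂ) ^ 12) = m28pf_incl ((p : m28k_Zbar) ^ 12) :=
      (m28pf_incl_natCast_pow p 12).symm
    rw [this]
    exact m28pf_C_mem _ _
  · have : (fun τ => m28pa_phiFun p (g • τ)) = m28pa_phiDiv p b := funext h
    rw [this, m28pa_laurent_phiDiv]
    exact Subring.mul_mem _
      (m28pa_twist_mem p _ (m28pa_zeta_zpow_pow p b) m28pa_delta_mem)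
      (m28pf_qExpand_mem _ p m28pa_deltaInv_mem)

/-- **[P]** the prime-level package over the ring of algebraic integers. -/
theorem m28p_primeData (p : ℕ) [NeZero p] (hp : p.Prime) : Nonempty (M28PrimeData m28Zbar p) :=
  m28pa_primeData_of_phi p hp (m28pa_phi p hp) (m28pa_phi_inv p hp) (m28pa_E_phi p hp)
    (m28pa_E_comp_phi_mem p hp)

end Fermat.Agent.M28

end
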