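import Fermat.Agent.M28.BmInt
import Fermat.Agent.M28.F1
import Fermat.Agent.M28.KMap
import Fermat.Agent.M28.PaPhi
import Fermat.Agent.M28.DFinal
import Fermat.Agent.M28.DDescent
import Fermat.Agent.M28.DTowerD1
import Fermat.Agent.M28.DTowerStep2
import Fermat.Agent.M28.DTowerInd
import Fermat.Agent.M28.BgMain

/-!
# S28 / PKG-BM: the chart homomorphisms (prefix `m28b_`)

`m28b_theta`: for `ℓ ∤ N` and each of the three chart algebras `B_S` there is a ring hom
`θ : B_S →+* 𝔽_ℓ((q))` with kernel `(ℓ)`.  Assembly of F1, INT, BM-RHO, K, P, D, D-desc and BG.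
-/

set_option autoImplicit false

noncomputable section

namespace Fermat.Agent.M28

open ModularCurve ModularCurve.IgusaScheme Polynomial IntermediateField

/-- the abstract tower theorem, from the two prime steps. -/
theorem m28b_tower_main : m28dt_Statement := by
  intro k Ω _ _ _ _ _ N _ hNk D
  exact m28dt_main_of_steps D hNk (m28d1_step1 D hNk) (m28dt_step2 D hNk)

theorem m28b_theta (N : ℕ) [NeZero N] (ℓ : ℕ) [Fact ℓ.Prime] (hℓN : ¬ ℓ ∣ N)
    (S : Set ↥(modularFunctionFieldFull N))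
    (hS : S = {jFull N} ∨ S = {(jFull N)⁻¹} ∨ S = {jFull N, (jFull N)⁻¹}) :
    ∃ θ : ↥(chartAlg N ℓ S) →+* LaurentSeries (ZMod ℓ),
      RingHom.ker θ = Ideal.span {((ℓ : ℕ) : ↥(chartAlg N ℓ S))} := by
  have hP0 : ∀ (p : ℕ) [NeZero p], p.Prime → p ∣ N → Nonempty (M28PrimeData m28Zbar p) :=
    fun p _ hp _ => m28p_primeData p hp
  have hPk : ∀ (p : ℕ) [NeZero p], p.Prime → p ∣ N → Nonempty (M28PrimeData (m28k_k ℓ) p) :=
    fun p _ hp hpN => m28k_primeData_of ℓ p (hP0 p hp hpN)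
  obtain ⟨v, hv, hvli⟩ := m28d_descent (m28k_k ℓ) ℓ N
    (m28di_tower_of m28b_tower_main (m28k_k ℓ) ℓ N hℓN hPk)
  obtain ⟨b, hb⟩ := m28bm_exists_family N ℓ v hv
  have hfin := m28f_finrank_le N
  have hfd := hfin.1
  have hli : LinearIndependent ↥(IntermediateField.adjoin (ZMod ℓ) {jqModC (ZMod ℓ)})
      (fun i => m28bm_rho N ℓ (b i)) := by
    have : (fun i => m28bm_rho N ℓ (b i)) = v := funext hb
    rw [this]
    exact hvli
  exact m28bg_theta N ℓ (m28bm_htr N) (m28bm_htrl ℓ) (dedekindPsi N) hfin.2 (m28bm_R N ℓ)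
    (m28bm_jFull_mem N ℓ) (m28i_hint N ℓ hP0) (m28bm_rho N ℓ) (m28bm_rho_jFull N ℓ) b hli S hS

end Fermat.Agent.M28

end
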