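import Mathlib
import Fermat.Prelude.Def_ModularCurve_IgusaScheme

/-!
# S28 (Igusa) — PKG-A: scheme glue (prefix `m28a_`)

`m28a_isIntegral` : if the three rings `chartAlg ⊗[ℤ_(ℓ)] K` (fin, inf, mid) are domains, then the
fibre `pullback (igusaTo N ℓ) (Spec K ⟶ Spec ℤ_(ℓ))` is an integral scheme (the S28 conclusion).
`m28a_isIntegral_pullback` : the same with only `Nontrivial` for the middle chart.
-/

set_option autoImplicit false
set_option linter.deprecated false
set_option linter.unusedSectionVars false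
set_option linter.unusedVariables false
set_option linter.style.haveILetI false

open AlgebraicGeometry CategoryTheory CategoryTheory.Limits ModularCurve ModularCurve.IgusaScheme
open TensorProduct

noncomputable section

namespace Fermat.Agent.M28

/-- A space covered by an irreducible open set `U` and a preirreducible set `V` meeting `U`
is irreducible. -/
theorem m28a_irreducibleSpace_of_cover {X : Type*} [TopologicalSpace X] {U V : Set X}
    (hUo : IsOpen U) (hU : IsIrreducible U) (hV : IsPreirreducible V)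
    (hUV : (V ∩ U).Nonempty) (hcov : U ∪ V = Set.univ) : IrreducibleSpace X := by
  have h1 : V ⊆ closure (V ∩ U) := subset_closure_inter_of_isPreirreducible_of_isOpen hV hUo hUV
  have h2 : closure U = Set.univ := by
    apply Set.eq_univ_of_univ_subset
    rw [← hcov]
    apply Set.union_subset subset_closure
    exact h1.trans (closure_mono Set.inter_subset_right)
  have h3 : IsIrreducible (Set.univ : Set X) := by
    rw [← h2]; exact hU.closure
  exact (irreducibleSpace_def X).mpr h3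

variable (N : ℕ) [NeZero N] (ℓ : ℕ) [Fact ℓ.Prime] in
/-- The two charts of the Igusa scheme. -/
def m28a_obj : Bool → Scheme.{0}
  | true => XFin N ℓ
  | false => XInf N ℓ

variable (N : ℕ) [NeZero N] (ℓ : ℕ) [Fact ℓ.Prime] in
/-- The two chart inclusions. -/
def m28a_map : (b : Bool) → (m28a_obj N ℓ b ⟶ ModularCurve.IgusaScheme N ℓ)
  | true => ιFin N ℓ
  | false => ιInf N ℓ

variable (N : ℕ) [NeZero N] (ℓ : ℕ) [Fact ℓ.Prime] in
instance m28a_map_isOpenImmersion (b : Bool) : IsOpenImmersion (m28a_map N ℓ b) := by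
  cases b
  · exact isOpenImmersion_ιInf N ℓ
  · exact isOpenImmersion_ιFin N ℓ

variable (N : ℕ) [NeZero N] (ℓ : ℕ) [Fact ℓ.Prime] in
/-- The two-chart open cover of the Igusa scheme. -/
def m28a_cover : (ModularCurve.IgusaScheme N ℓ).OpenCover :=
  Scheme.Cover.mkOfCovers Bool (m28a_obj N ℓ) (m28a_map N ℓ)
    (fun x => by
      rcases mem_range_ιFin_or_mem_range_ιInf N ℓ x with ⟨y, hy⟩ | ⟨y, hy⟩
      · exact ⟨true, y, hy⟩
      · exact ⟨false, y, hy⟩)
    (fun b => m28a_map_isOpenImmersion N ℓ b)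

/-- Gluing lemma for schemes: a scheme `P` with two open immersions `cT : PT ⟶ P`, `cF : PF ⟶ P`
from integral schemes which are jointly surjective and whose images meet (witnessed by a nonempty
scheme `PM` mapping compatibly to both) is integral. -/
theorem m28a_isIntegral_of_two_charts {P PT PF PM : Scheme.{0}} (cT : PT ⟶ P) (cF : PF ⟶ P)
    [IsOpenImmersion cT] [IsOpenImmersion cF] [IsIntegral PT] [IsIntegral PF]
    (aT : PM ⟶ PT) (aF : PM ⟶ PF) (hcomp : aT ≫ cT = aF ≫ cF) [Nonempty PM]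
    (hcov : ∀ x : P, x ∈ Set.range cT ∨ x ∈ Set.range cF) : IsIntegral P := by
  haveI : IsReduced P := by
    let 𝒰 : P.OpenCover := Scheme.Cover.mkOfCovers Bool (fun b => if b then PT else PF)
      (fun b => match b with
        | true => cT
        | false => cF)
      (fun x => by
        rcases hcov x with ⟨y, hy⟩ | ⟨y, hy⟩
        · exact ⟨true, y, hy⟩
        · exact ⟨false, y, hy⟩)
      (fun b => by
        cases b
        · exact (inferInstance : IsOpenImmersion cF)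
        · exact (inferInstance : IsOpenImmersion cT))
    haveI : ∀ i, IsReduced (𝒰.X i) := by
      intro i
      have hi : ∀ b : Bool, IsReduced (𝒰.X b) := by
        intro b
        cases b
        · exact isReduced_of_isIntegral PF
        · exact isReduced_of_isIntegral PT
      exact hi i
    exact IsReduced.of_openCover _ 𝒰
  haveI : IrreducibleSpace ↥P := by
    obtain ⟨z⟩ := (inferInstance : Nonempty PM)
    apply m28a_irreducibleSpace_of_cover (U := Set.range cT) (V := Set.range cF)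
    · exact cT.isOpenEmbedding.isOpen_range
    · rw [← Set.image_univ]
      exact (IrreducibleSpace.isIrreducible_univ _).image _ cT.continuous.continuousOn
    · rw [← Set.image_univ]
      exact ((IrreducibleSpace.isIrreducible_univ _).image _
        cF.continuous.continuousOn).isPreirreducible
    · refine ⟨(aT ≫ cT) z, ?_, ?_⟩
      · rw [hcomp]
        exact ⟨aF z, rfl⟩
      · exact ⟨aT z, rfl⟩
    · apply Set.eq_univ_of_forall
      intro x
      exact hcov x
  exact isIntegral_of_irreducibleSpace_of_isReduced _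


/-- For a morphism `f : Spec B ⟶ Spec R` equal to the structure map, the fibre product with
`Spec K` is `Spec (B ⊗[R] K)`. -/
def m28a_pullbackIso {R B K : Type} [CommRing R] [CommRing B] [CommRing K] [Algebra R B]
    [Algebra R K] (f : Spec (CommRingCat.of B) ⟶ Spec (CommRingCat.of R))
    (hf : f = Spec.map (CommRingCat.ofHom (algebraMap R B))) :
    pullback f (Spec.map (CommRingCat.ofHom (algebraMap R K))) ≅
      Spec (CommRingCat.of (B ⊗[R] K)) :=
  pullback.congrHom hf rfl ≪≫ pullbackSpecIso R B K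

variable (N : ℕ) [NeZero N] (ℓ : ℕ) [Fact ℓ.Prime]

theorem m28a_mid_toBase :
    fFin N ℓ ≫ ιFin N ℓ ≫ igusaTo N ℓ =
      Spec.map (CommRingCat.ofHom (algebraMap ↥(GaloisRep.ratLocalizedAt ℓ) ↥(chartAlgMid N ℓ))) := by
  have h : (inclFin N ℓ).toRingHom.comp (algebraMap ↥(GaloisRep.ratLocalizedAt ℓ) (chartAlgFin N ℓ)) =
      algebraMap ↥(GaloisRep.ratLocalizedAt ℓ) ↥(chartAlgMid N ℓ) :=
    RingHom.ext fun a => (inclFin N ℓ).commutes a
  rw [ιFin_igusaTo, ← Spec.map_comp, ← CommRingCat.ofHom_comp, h]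

theorem m28a_mid_eq :
    fFin N ℓ ≫ ιFin N ℓ ≫ igusaTo N ℓ = fInf N ℓ ≫ ιInf N ℓ ≫ igusaTo N ℓ := by
  rw [← Category.assoc, glue_condition, Category.assoc]

variable (K : Type) [Field K] [Algebra ↥(GaloisRep.ratLocalizedAt ℓ) K]

theorem m28a_isIntegral_pullback
    (hFin : IsDomain (↥(chartAlgFin N ℓ) ⊗[↥(GaloisRep.ratLocalizedAt ℓ)] K))
    (hInf : IsDomain (↥(chartAlgInf N ℓ) ⊗[↥(GaloisRep.ratLocalizedAt ℓ)] K))
    (hMid : Nontrivial (↥(chartAlgMid N ℓ) ⊗[↥(GaloisRep.ratLocalizedAt ℓ)] K)) :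
    IsIntegral ↑(pullback (igusaTo N ℓ)
      (Spec.map (CommRingCat.ofHom (algebraMap ↥(GaloisRep.ratLocalizedAt ℓ) K)))) := by
  set g := Spec.map (CommRingCat.ofHom (algebraMap ↥(GaloisRep.ratLocalizedAt ℓ) K)) with hg
  -- the three charts of the fibre
  let eT : pullback (ιFin N ℓ ≫ igusaTo N ℓ) g ≅
      Spec (CommRingCat.of (↥(chartAlgFin N ℓ) ⊗[↥(GaloisRep.ratLocalizedAt ℓ)] K)) :=
    m28a_pullbackIso (ιFin N ℓ ≫ igusaTo N ℓ) (ιFin_igusaTo N ℓ)
  let eF : pullback (ιInf N ℓ ≫ igusaTo N ℓ) g ≅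
      Spec (CommRingCat.of (↥(chartAlgInf N ℓ) ⊗[↥(GaloisRep.ratLocalizedAt ℓ)] K)) :=
    m28a_pullbackIso (ιInf N ℓ ≫ igusaTo N ℓ) (ιInf_igusaTo N ℓ)
  let eM : pullback (fFin N ℓ ≫ ιFin N ℓ ≫ igusaTo N ℓ) g ≅
      Spec (CommRingCat.of (↥(chartAlgMid N ℓ) ⊗[↥(GaloisRep.ratLocalizedAt ℓ)] K)) :=
    m28a_pullbackIso (fFin N ℓ ≫ ιFin N ℓ ≫ igusaTo N ℓ) (m28a_mid_toBase N ℓ)
  haveI hT : IsIntegral (pullback (ιFin N ℓ ≫ igusaTo N ℓ) g : Scheme) :=
    IsIntegral.of_isIso eT.inv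
  haveI hF : IsIntegral (pullback (ιInf N ℓ ≫ igusaTo N ℓ) g : Scheme) :=
    IsIntegral.of_isIso eF.inv
  haveI hM : Nonempty ↥(pullback (fFin N ℓ ≫ ιFin N ℓ ≫ igusaTo N ℓ) g : Scheme) := by
    obtain ⟨z0⟩ : Nonempty (Spec (CommRingCat.of
        (↥(chartAlgMid N ℓ) ⊗[↥(GaloisRep.ratLocalizedAt ℓ)] K))) := inferInstance
    exact ⟨eM.inv z0⟩
  -- the chart maps
  let cT : pullback (ιFin N ℓ ≫ igusaTo N ℓ) g ⟶ pullback (igusaTo N ℓ) g :=
    pullback.map _ _ _ _ (ιFin N ℓ) (𝟙 _) (𝟙 _) (by simp) (by simp)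
  let cF : pullback (ιInf N ℓ ≫ igusaTo N ℓ) g ⟶ pullback (igusaTo N ℓ) g :=
    pullback.map _ _ _ _ (ιInf N ℓ) (𝟙 _) (𝟙 _) (by simp) (by simp)
  let aT : pullback (fFin N ℓ ≫ ιFin N ℓ ≫ igusaTo N ℓ) g ⟶
      pullback (ιFin N ℓ ≫ igusaTo N ℓ) g :=
    pullback.map _ _ _ _ (fFin N ℓ) (𝟙 _) (𝟙 _) (by simp) (by simp)
  let aF : pullback (fFin N ℓ ≫ ιFin N ℓ ≫ igusaTo N ℓ) g ⟶
      pullback (ιInf N ℓ ≫ igusaTo N ℓ) g :=
    pullback.map _ _ _ _ (fInf N ℓ) (𝟙 _) (𝟙 _)
      (by rw [Category.comp_id]; exact m28a_mid_eq N ℓ) (by simp)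
  have hcomp : aT ≫ cT = aF ≫ cF := by
    apply pullback.hom_ext
    · simp only [aT, aF, cT, cF, Category.assoc, pullback.lift_fst, pullback.map,
        pullback.lift_fst_assoc]
      rw [glue_condition]
    · simp only [aT, aF, cT, cF, Category.assoc, pullback.lift_snd, pullback.map,
        pullback.lift_snd_assoc]
  have hcov : ∀ x : ↥(pullback (igusaTo N ℓ) g : Scheme),
      x ∈ Set.range cT ∨ x ∈ Set.range cF := by
    intro x
    obtain ⟨i, y, hy⟩ :=
      (Scheme.Pullback.openCoverOfLeft (m28a_cover N ℓ) (igusaTo N ℓ) g).exists_eq x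
    have hi : ∀ (b : Bool) (y : ↥((Scheme.Pullback.openCoverOfLeft (m28a_cover N ℓ)
        (igusaTo N ℓ) g).X b)),
        (Scheme.Pullback.openCoverOfLeft (m28a_cover N ℓ) (igusaTo N ℓ) g).f b y = x →
        x ∈ Set.range cT ∨ x ∈ Set.range cF := by
      intro b y hy
      cases b
      · exact Or.inr ⟨y, hy⟩
      · exact Or.inl ⟨y, hy⟩
    exact hi i y hy
  exact m28a_isIntegral_of_two_charts cT cF aT aF hcomp hcov

/-- **[PKG-A]** (interface name of `M28/Spec.lean`): the S28 statement from three `IsDomain`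
hypotheses. -/
theorem m28a_isIntegral (N : ℕ) [NeZero N] (ℓ : ℕ) [Fact ℓ.Prime]
    (K : Type) [Field K] [Algebra ↥(GaloisRep.ratLocalizedAt ℓ) K]
    (hfin : IsDomain (↥(chartAlgFin N ℓ) ⊗[↥(GaloisRep.ratLocalizedAt ℓ)] K))
    (hinf : IsDomain (↥(chartAlgInf N ℓ) ⊗[↥(GaloisRep.ratLocalizedAt ℓ)] K))
    (hmid : IsDomain (↥(chartAlgMid N ℓ) ⊗[↥(GaloisRep.ratLocalizedAt ℓ)] K)) :
    IsIntegral ↑(pullback (igusaTo N ℓ)
      (Spec.map (CommRingCat.ofHom (algebraMap ↥(GaloisRep.ratLocalizedAt ℓ) K)))) :=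
  m28a_isIntegral_pullback N ℓ K hfin hinf inferInstance

end Fermat.Agent.M28
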