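import Mathlib
import Fermat.Prelude.Def_ModularCurve_IgusaScheme
import Fermat.Prelude.Def_ModularCurve_X0ModL
import Fermat.Agent.M28.BmRes

/-!
# S28 (Igusa) — PKG-BM, part RHO: coefficient reduction on `ℤ_(ℓ)[j_d : d ∣ N]` (prefix `m28bm_`)

* `m28bm_R N ℓ : Subalgebra ℤ_(ℓ) F` — the subalgebra generated by the `j_d = j(q^d)`, `d ∣ N`;
* `m28bm_rho N ℓ : ↥(m28bm_R N ℓ) →+* LaurentSeries (ZMod ℓ)` — coefficientwise reduction;
* `m28bm_rho_jFull`, `m28bm_rho_jd`, `m28bm_rho_algebraMap`, `m28bm_rho_coeff`;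
* `m28bm_exists_rho_eq` / `m28bm_exists_family` — lifting of elements of
  `Algebra.adjoin (ZMod ℓ) (divisorExpansionsC (ZMod ℓ) N)`;
* `m28bm_htrl`, `m28bm_htr` — transcendence of `j̄` over `𝔽_ℓ` and of `jFull N` over `ℚ`.
-/

set_option autoImplicit false
set_option linter.deprecated false
set_option linter.unusedSectionVars false
set_option linter.unusedVariables false
set_option linter.style.haveILetI false

noncomputable section

namespace Fermat.Agent.M28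

open ModularCurve ModularCurve.IgusaScheme

variable (N : ℕ) [NeZero N] (ℓ : ℕ) [Fact ℓ.Prime]

/-- The coefficient embedding `ℤ_(ℓ)((q)) → ℚ((q))`. -/
def m28bm_iota : LaurentSeries ↥(GaloisRep.ratLocalizedAt ℓ) →+* LaurentSeries ℚ :=
  coeffMap (GaloisRep.ratLocalizedAt ℓ).subtype

theorem m28bm_iota_coeff (s : LaurentSeries ↥(GaloisRep.ratLocalizedAt ℓ)) (k : ℤ) :
    (m28bm_iota ℓ s).coeff k = ((s.coeff k : ↥(GaloisRep.ratLocalizedAt ℓ)) : ℚ) := rfl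

theorem m28bm_iota_injective : Function.Injective (m28bm_iota ℓ) := by
  intro x y h
  ext k
  have h1 := congrArg (fun z => z.coeff k) h
  simp only [m28bm_iota_coeff] at h1
  exact_mod_cast h1

/-- The generators `j_d`, `d ∣ N`, as elements of the function field. -/
def m28bm_gens : Set ↥(modularFunctionFieldFull N) :=
  {x | (x : LaurentSeries ℚ) ∈ divisorExpansions N}

/-- `R = ℤ_(ℓ)[j_d : d ∣ N]`. -/
def m28bm_R : Subalgebra ↥(GaloisRep.ratLocalizedAt ℓ) ↥(modularFunctionFieldFull N) :=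
  Algebra.adjoin ↥(GaloisRep.ratLocalizedAt ℓ) (m28bm_gens N)

/-- `j_d` as an element of the function field. -/
def m28bm_jd (d : ℕ) [NeZero d] (hd : d ∣ N) : ↥(modularFunctionFieldFull N) :=
  ⟨qExpand ℚ d jq, jqd_mem_full N hd⟩

theorem m28bm_jd_mem_gens (d : ℕ) [NeZero d] (hd : d ∣ N) : m28bm_jd N d hd ∈ m28bm_gens N :=
  mem_divisorExpansions N hd

theorem m28bm_jd_mem (d : ℕ) [NeZero d] (hd : d ∣ N) : m28bm_jd N d hd ∈ m28bm_R N ℓ :=
  Algebra.subset_adjoin (m28bm_jd_mem_gens N d hd)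

theorem m28bm_jd_one : m28bm_jd N 1 (one_dvd N) = jFull N := by
  apply Subtype.ext
  show qExpand ℚ 1 jq = jq
  exact qExpand_one_apply jq

theorem m28bm_jFull_mem : jFull N ∈ m28bm_R N ℓ := by
  rw [← m28bm_jd_one]
  exact m28bm_jd_mem N ℓ 1 (one_dvd N)

theorem m28bm_val_comp_algebraMap :
    ((modularFunctionFieldFull N).val :
        ↥(modularFunctionFieldFull N) →+* LaurentSeries ℚ).comp
      (algebraMap ℚ ↥(modularFunctionFieldFull N)) = algebraMap ℚ (LaurentSeries ℚ) :=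
  Subsingleton.elim _ _

theorem m28bm_coe_algebraMap_rat (x : ℚ) :
    ((algebraMap ℚ ↥(modularFunctionFieldFull N) x : ↥(modularFunctionFieldFull N)) :
      LaurentSeries ℚ) = HahnSeries.single 0 x := by
  rw [← algebraMap_laurentSeries_eq_single]
  exact congrArg (fun f => f x) (m28bm_val_comp_algebraMap N)

theorem m28bm_coe_algebraMap (a : ↥(GaloisRep.ratLocalizedAt ℓ)) :
    ((algebraMap ↥(GaloisRep.ratLocalizedAt ℓ) ↥(modularFunctionFieldFull N) a :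
      ↥(modularFunctionFieldFull N)) : LaurentSeries ℚ) = HahnSeries.single 0 (a : ℚ) := by
  have h1 : algebraMap ↥(GaloisRep.ratLocalizedAt ℓ) ↥(modularFunctionFieldFull N) a =
    algebraMap ℚ ↥(modularFunctionFieldFull N)
      (algebraMap ↥(GaloisRep.ratLocalizedAt ℓ) ℚ a) := rfl
  rw [h1]
  have h2 : algebraMap ↥(GaloisRep.ratLocalizedAt ℓ) ℚ a = (a : ℚ) := rfl
  rw [h2]
  exact m28bm_coe_algebraMap_rat N (a : ℚ)

theorem m28bm_iota_jd (d : ℕ) [NeZero d] :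
    m28bm_iota ℓ (qExpand ↥(GaloisRep.ratLocalizedAt ℓ) d (jqModC ↥(GaloisRep.ratLocalizedAt ℓ))) =
      qExpand ℚ d jq := by
  rw [m28bm_iota, coeffMap_qExpand, coeffMap_jqModC]
  rfl

theorem m28bm_coe_mem_range (r : ↥(modularFunctionFieldFull N)) (hr : r ∈ m28bm_R N ℓ) :
    (r : LaurentSeries ℚ) ∈ (m28bm_iota ℓ).range := by
  induction hr using Algebra.adjoin_induction with
  | mem x hx =>
    obtain ⟨d, hd0, hd, hx⟩ := hx
    refine ⟨qExpand ↥(GaloisRep.ratLocalizedAt ℓ) d (jqModC ↥(GaloisRep.ratLocalizedAt ℓ)), ?_⟩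
    rw [hx]
    exact m28bm_iota_jd ℓ d
  | algebraMap a =>
    refine ⟨HahnSeries.single 0 a, ?_⟩
    rw [m28bm_coe_algebraMap, m28bm_iota, coeffMap_single]
    rfl
  | add x y _ _ hx hy => exact add_mem hx hy
  | mul x y _ _ hx hy => exact mul_mem hx hy

/-- The inclusion of `R` into the range of the coefficient embedding. -/
def m28bm_incl : ↥(m28bm_R N ℓ) →+* ↥(m28bm_iota ℓ).range where
  toFun r := ⟨((r : ↥(modularFunctionFieldFull N)) : LaurentSeries ℚ),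
    m28bm_coe_mem_range N ℓ r r.2⟩
  map_one' := rfl
  map_mul' x y := rfl
  map_zero' := rfl
  map_add' x y := rfl

/-- `ℤ_(ℓ)((q))` is isomorphic to its image in `ℚ((q))`. -/
def m28bm_equiv : LaurentSeries ↥(GaloisRep.ratLocalizedAt ℓ) ≃+* ↥(m28bm_iota ℓ).range :=
  RingEquiv.ofBijective (m28bm_iota ℓ).rangeRestrict
    ⟨fun x y h => m28bm_iota_injective ℓ (congrArg Subtype.val h),
      (m28bm_iota ℓ).rangeRestrict_surjective⟩

/-- Coefficientwise reduction `R → 𝔽_ℓ((q))`. -/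
def m28bm_rho : ↥(m28bm_R N ℓ) →+* LaurentSeries (ZMod ℓ) :=
  (coeffMap (m28bm_res ℓ)).comp
    (((m28bm_equiv ℓ).symm : ↥(m28bm_iota ℓ).range →+* _).comp (m28bm_incl N ℓ))

theorem m28bm_rho_spec (r : ↥(m28bm_R N ℓ)) (s : LaurentSeries ↥(GaloisRep.ratLocalizedAt ℓ))
    (hs : m28bm_iota ℓ s = ((r : ↥(modularFunctionFieldFull N)) : LaurentSeries ℚ)) :
    m28bm_rho N ℓ r = coeffMap (m28bm_res ℓ) s := by
  have h1 : (m28bm_equiv ℓ).symm (m28bm_incl N ℓ r) = s := by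
    rw [RingEquiv.symm_apply_eq]
    apply Subtype.ext
    exact hs.symm
  show coeffMap (m28bm_res ℓ) ((m28bm_equiv ℓ).symm (m28bm_incl N ℓ r)) = _
  rw [h1]

/-- The coefficients of elements of `R` lie in `ℤ_(ℓ)`. -/
theorem m28bm_coeff_mem (r : ↥(m28bm_R N ℓ)) (k : ℤ) :
    ((r : ↥(modularFunctionFieldFull N)) : LaurentSeries ℚ).coeff k ∈ GaloisRep.ratLocalizedAt ℓ := by
  obtain ⟨s, hs⟩ := m28bm_coe_mem_range N ℓ r r.2
  rw [← hs, m28bm_iota_coeff]
  exact (s.coeff k).2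

theorem m28bm_rho_coeff (r : ↥(m28bm_R N ℓ)) (k : ℤ) :
    (m28bm_rho N ℓ r).coeff k =
      m28bm_res ℓ ⟨((r : ↥(modularFunctionFieldFull N)) : LaurentSeries ℚ).coeff k,
        m28bm_coeff_mem N ℓ r k⟩ := by
  obtain ⟨s, hs⟩ := m28bm_coe_mem_range N ℓ r r.2
  rw [m28bm_rho_spec N ℓ r s hs, coeffMap_coeff]
  congr 1
  apply Subtype.ext
  show ((s.coeff k : ↥(GaloisRep.ratLocalizedAt ℓ)) : ℚ) = _
  rw [← m28bm_iota_coeff, hs]

theorem m28bm_rho_jd (d : ℕ) [NeZero d] (hd : d ∣ N) :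
    m28bm_rho N ℓ ⟨m28bm_jd N d hd, m28bm_jd_mem N ℓ d hd⟩ =
      qExpand (ZMod ℓ) d (jqModC (ZMod ℓ)) := by
  rw [m28bm_rho_spec N ℓ _ _ (m28bm_iota_jd ℓ d), coeffMap_qExpand, coeffMap_jqModC]

theorem m28bm_rho_jFull :
    m28bm_rho N ℓ ⟨jFull N, m28bm_jFull_mem N ℓ⟩ = jqModC (ZMod ℓ) := by
  have h := m28bm_rho_jd N ℓ 1 (one_dvd N)
  rw [qExpand_one_apply] at h
  rw [← h]
  congr 1
  apply Subtype.ext
  exact (m28bm_jd_one N).symm

theorem m28bm_rho_algebraMap (a : ↥(GaloisRep.ratLocalizedAt ℓ)) :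
    m28bm_rho N ℓ (algebraMap ↥(GaloisRep.ratLocalizedAt ℓ) ↥(m28bm_R N ℓ) a) =
      algebraMap (ZMod ℓ) (LaurentSeries (ZMod ℓ)) (m28bm_res ℓ a) := by
  rw [m28bm_rho_spec N ℓ _ (HahnSeries.single 0 a), coeffMap_single,
    algebraMap_laurentSeries_eq_single]
  rw [m28bm_iota, coeffMap_single]
  exact (m28bm_coe_algebraMap N ℓ a).symm

/-- **Lifting**: every element of `𝔽_ℓ[j̄_d : d ∣ N]` is the reduction of an element of `R`. -/
theorem m28bm_exists_rho_eq (v : LaurentSeries (ZMod ℓ))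
    (hv : v ∈ Algebra.adjoin (ZMod ℓ) (divisorExpansionsC (ZMod ℓ) N)) :
    ∃ r : ↥(m28bm_R N ℓ), m28bm_rho N ℓ r = v := by
  induction hv using Algebra.adjoin_induction with
  | mem x hx =>
    obtain ⟨d, hd0, hd, rfl⟩ := hx
    exact ⟨⟨m28bm_jd N d hd, m28bm_jd_mem N ℓ d hd⟩, m28bm_rho_jd N ℓ d hd⟩
  | algebraMap c =>
    obtain ⟨a, rfl⟩ := m28bm_res_surjective ℓ c
    exact ⟨_, m28bm_rho_algebraMap N ℓ a⟩
  | add x y _ _ hx hy =>
    obtain ⟨rx, rfl⟩ := hx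
    obtain ⟨ry, rfl⟩ := hy
    exact ⟨rx + ry, (m28bm_rho N ℓ).map_add rx ry⟩
  | mul x y _ _ hx hy =>
    obtain ⟨rx, rfl⟩ := hx
    obtain ⟨ry, rfl⟩ := hy
    exact ⟨rx * ry, (m28bm_rho N ℓ).map_mul rx ry⟩

/-- **Lifting of families.** -/
theorem m28bm_exists_family {n : ℕ} (v : Fin n → LaurentSeries (ZMod ℓ))
    (hv : ∀ i, v i ∈ Algebra.adjoin (ZMod ℓ) (divisorExpansionsC (ZMod ℓ) N)) :
    ∃ b : Fin n → ↥(m28bm_R N ℓ), ∀ i, m28bm_rho N ℓ (b i) = v i := by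
  choose b hb using fun i => m28bm_exists_rho_eq N ℓ (v i) (hv i)
  exact ⟨b, hb⟩

/-- `j̄` is transcendental over `𝔽_ℓ`. -/
theorem m28bm_htrl : Transcendental (ZMod ℓ) (jqModC (ZMod ℓ)) :=
  P2MW.S_ModularCurve_coeff_jqModC_neg_one.ModularCurve.CharLRows.transcendental_jqModC (ZMod ℓ)

/-- `j` is transcendental over `ℚ` (as an element of the function field). -/
theorem m28bm_htr : Transcendental ℚ (jFull N) := by
  have h :=
    P2MW.S_ModularCurve_coeff_jqModC_neg_one.ModularCurve.CharLRows.transcendental_jqModC ℚ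
  intro halg
  apply h
  obtain ⟨p, hp0, hp⟩ := halg
  refine ⟨p, hp0, ?_⟩
  have h1 := congrArg ((modularFunctionFieldFull N).val :
    ↥(modularFunctionFieldFull N) →+* LaurentSeries ℚ) hp
  rw [map_zero, Polynomial.aeval_def, Polynomial.hom_eval₂, m28bm_val_comp_algebraMap] at h1
  rw [Polynomial.aeval_def]
  exact h1

end Fermat.Agent.M28
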