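import Fermat.Agent.M28.Defs
import Fermat.Agent.M28.KMap
import Fermat.Agent.M28.BmRho
import Fermat.Prelude.Thm_ModularCurve_coeffMap_qExpand

/-!
# S28 / PKG-BM, part INT (prefix `m28i_`)

From the prime-level packages over the algebraic integers: every `j_d` (`d ∣ N`) is integral
over `ℤ_(ℓ)[j]`, hence so is every element of `R = ℤ_(ℓ)[j_d : d ∣ N]`.
-/

set_option autoImplicit false

noncomputable section

namespace Fermat.Agent.M28

open ModularCurve ModularCurve.IgusaScheme Polynomial

/-- evaluation `ℤ[Y] →+* A`, `Y ↦ y`. -/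
def m28i_ev {A : Type*} [CommRing A] (y : A) : Polynomial ℤ →+* A :=
  Polynomial.eval₂RingHom (Int.castRingHom A) y

theorem m28i_ev_X {A : Type*} [CommRing A] (y : A) : m28i_ev y X = y := by
  simp [m28i_ev]

theorem m28i_comp_ev {A B : Type*} [CommRing A] [CommRing B] (φ : A →+* B) (y : A) :
    φ.comp (m28i_ev y) = m28i_ev (φ y) := by
  apply Polynomial.ringHom_ext
  · intro n
    simp [m28i_ev]
  · simp [m28i_ev]

/-- naturality of the evaluation of bivariate integer polynomials. -/
theorem m28i_map_eval₂ {A B : Type*} [CommRing A] [CommRing B] (φ : A →+* B) (y x : A)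
    (T : Polynomial (Polynomial ℤ)) :
    φ (T.eval₂ (m28i_ev y) x) = T.eval₂ (m28i_ev (φ y)) (φ x) := by
  rw [Polynomial.hom_eval₂, m28i_comp_ev]

theorem m28i_ev_mem {A : Type*} [CommRing A] (S : Subring A) {y : A} (hy : y ∈ S)
    (P : Polynomial ℤ) : m28i_ev y P ∈ S := by
  induction P using Polynomial.induction_on with
  | C n =>
    have : m28i_ev y (C n) = (n : A) := by simp [m28i_ev]
    rw [this]
    exact intCast_mem S n
  | add p q hp hq =>
    rw [map_add]
    exact add_mem hp hq
  | monomial n a h =>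
    rw [pow_succ, ← mul_assoc, map_mul, m28i_ev_X]
    exact mul_mem h hy

/-- a monic bivariate polynomial with coefficients in a ring `S ⊆ A` of elements integral over
`R₀`, vanishing at `x`, makes `x` integral over `R₀`. -/
theorem m28i_isIntegral_of_eval₂ {R₀ A C : Type*} [CommRing R₀] [CommRing A] [CommRing C]
    [Algebra R₀ A] (f : C →+* A) (hf : ∀ c, IsIntegral R₀ (f c))
    (Φ : Polynomial C) (hΦ : Φ.Monic) (x : A) (hx : Φ.eval₂ f x = 0) : IsIntegral R₀ x := by
  let IC := integralClosure R₀ A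
  let g : C →+* ↥IC := f.codRestrict IC.toSubring (fun c => hf c)
  have h1 : IsIntegral ↥IC x := by
    refine ⟨Φ.map g, hΦ.map g, ?_⟩
    rw [Polynomial.eval₂_map]
    have : (algebraMap ↥IC A).comp g = f := by
      ext c
      rfl
    rw [this]
    exact hx
  exact isIntegral_trans x h1

/-- from integrality over `ℤ[y]` to a monic bivariate integer polynomial. -/
theorem m28i_exists_of_isIntegral {A : Type*} [CommRing A] (y x : A)
    (h : IsIntegral ↥(m28i_ev y).range x) :
    ∃ T : Polynomial (Polynomial ℤ), T.Monic ∧ T.eval₂ (m28i_ev y) x = 0 := by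
  obtain ⟨T₁, hmonic, hroot⟩ := h
  let e : Polynomial ℤ →+* ↥(m28i_ev y).range := (m28i_ev y).rangeRestrict
  have hsurj : Function.Surjective e := (m28i_ev y).rangeRestrict_surjective
  have hlift : T₁ ∈ Polynomial.lifts e := by
    rw [Polynomial.lifts_iff_coeff_lifts]
    intro n
    exact Set.mem_range.mpr (hsurj _)
  obtain ⟨T, hT, -, hTm⟩ := Polynomial.lifts_and_natDegree_eq_and_monic hlift hmonic
  refine ⟨T, hTm, ?_⟩
  have : (algebraMap ↥(m28i_ev y).range A).comp e = m28i_ev y := by
    ext P <;> rfl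
  rw [← this, ← Polynomial.eval₂_map, hT]
  exact hroot

/-! ### the prime level, over `ℤ` -/

theorem m28i_ev_Zbar_isIntegral (P : Polynomial m28Zbar) :
    IsIntegral ↥(m28i_ev (jqModC m28Zbar)).range (m28_ev (jqModC m28Zbar) P) := by
  set J := jqModC m28Zbar with hJ
  have hJint : IsIntegral ↥(m28i_ev J).range J := by
    have hmem : J ∈ (m28i_ev J).range := ⟨X, m28i_ev_X J⟩
    have : J = algebraMap ↥(m28i_ev J).range (LaurentSeries m28Zbar) ⟨J, hmem⟩ := rfl
    rw [this]
    exact isIntegral_algebraMap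
  have hC : ∀ z : m28Zbar, IsIntegral ↥(m28i_ev J).range
      (HahnSeries.C z : LaurentSeries m28Zbar) := by
    intro z
    obtain ⟨q, hq, hqz⟩ := integralClosure.isIntegral z
    refine ⟨q.map (Int.castRingHom _), hq.map _, ?_⟩
    rw [Polynomial.eval₂_map]
    have e1 : (algebraMap ↥(m28i_ev J).range (LaurentSeries m28Zbar)).comp
        (Int.castRingHom ↥(m28i_ev J).range)
        = (HahnSeries.C : m28Zbar →+* LaurentSeries m28Zbar).comp (algebraMap ℤ m28Zbar) :=
      RingHom.ext_int _ _
    rw [e1, ← Polynomial.hom_eval₂, hqz, map_zero]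
  rw [m28k_ev_eq]
  induction P using Polynomial.induction_on with
  | C z =>
    simp only [coe_eval₂RingHom, eval₂_C]
    exact hC z
  | add p q hp hq =>
    rw [map_add]
    exact hp.add hq
  | monomial n a h =>
    rw [pow_succ, ← mul_assoc, map_mul]
    refine h.mul ?_
    simp only [coe_eval₂RingHom, eval₂_X]
    exact hJint

/-- `j(q^p)` is integral over `ℤ[j(q)]`, inside `Zbar((q))`. -/
theorem m28i_int_Zbar (p : ℕ) [NeZero p] (D : M28PrimeData m28Zbar p) :
    IsIntegral ↥(m28i_ev (jqModC m28Zbar)).range (qExpand m28Zbar p (jqModC m28Zbar)) :=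
  m28i_isIntegral_of_eval₂ (m28_ev (jqModC m28Zbar)) m28i_ev_Zbar_isIntegral D.Φ D.Φ_monic _
    D.Φ_root1

theorem m28i_coeffMap_injective {R S : Type*} [CommRing R] [CommRing S] (f : R →+* S)
    (hf : Function.Injective f) : Function.Injective (coeffMap f) := by
  intro x y h
  ext k
  apply hf
  have := congrArg (fun z => z.coeff k) h
  simpa using this

/-- **the modular equation over `ℤ`** (monic in `X`): `T (j(q^p), j(q)) = 0` in `ℚ((q))`. -/
theorem m28i_exists_T (p : ℕ) [NeZero p] (D : M28PrimeData m28Zbar p) :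
    ∃ T : Polynomial (Polynomial ℤ), T.Monic ∧ T.eval₂ (m28i_ev jq) (qExpand ℚ p jq) = 0 := by
  obtain ⟨T, hT, h0⟩ := m28i_exists_of_isIntegral _ _ (m28i_int_Zbar p D)
  refine ⟨T, hT, ?_⟩
  let f : m28Zbar →+* ℂ := (algebraMap m28Zbar ℂ)
  have h1 := congrArg (coeffMap f) h0
  rw [m28i_map_eval₂, map_zero, coeffMap_qExpand, coeffMap_jqModC] at h1
  have hinj : Function.Injective (coeffMap (algebraMap ℚ ℂ)) :=
    m28i_coeffMap_injective _ (algebraMap ℚ ℂ).injective
  apply hinj
  rw [m28i_map_eval₂, map_zero, coeffMap_qExpand]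
  have hj : coeffMap (algebraMap ℚ ℂ) jq = jqModC ℂ := by
    rw [← jqModC_rat, coeffMap_jqModC]
  rw [hj]
  exact h1

/-! ### all levels, inside the function field -/

section Level

variable (N : ℕ) [NeZero N] (ℓ : ℕ) [Fact ℓ.Prime]

/-- the modular equation between `j_{d p}` and `j_d`, inside `F`. -/
theorem m28i_eq_F (p d : ℕ) [NeZero p] [NeZero d] [NeZero (d * p)] (hd : d ∣ N)
    (hdp : d * p ∣ N) (T : Polynomial (Polynomial ℤ))
    (hT : T.eval₂ (m28i_ev jq) (qExpand ℚ p jq) = 0) :
    T.eval₂ (m28i_ev (m28bm_jd N d hd)) (m28bm_jd N (d * p) hdp) = 0 := by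
  let φ : ↥(modularFunctionFieldFull N) →+* LaurentSeries ℚ :=
    algebraMap ↥(modularFunctionFieldFull N) (LaurentSeries ℚ)
  have hinj : Function.Injective φ := φ.injective
  apply hinj
  rw [m28i_map_eval₂, map_zero]
  have h1 := congrArg (qExpand ℚ d) hT
  rw [m28i_map_eval₂, map_zero, qExpand_qExpand] at h1
  exact h1

theorem m28i_jd_isIntegral
    (hP : ∀ (p : ℕ) [NeZero p], p.Prime → p ∣ N → Nonempty (M28PrimeData m28Zbar p)) :
    ∀ (d : ℕ) (hd : d ∣ N) (hne : NeZero d),
      IsIntegral ↥(Algebra.adjoin ↥(GaloisRep.ratLocalizedAt ℓ)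
        ({jFull N} : Set ↥(modularFunctionFieldFull N))) (m28bm_jd N d hd) := by
  intro d
  induction d using induction_on_primes with
  | zero =>
    intro hd hne
    exact absurd rfl (NeZero.ne 0)
  | one =>
    intro hd hne
    have h1 : m28bm_jd N 1 hd = jFull N := m28bm_jd_one N
    rw [h1]
    have hmem : jFull N ∈ Algebra.adjoin ↥(GaloisRep.ratLocalizedAt ℓ)
        ({jFull N} : Set ↥(modularFunctionFieldFull N)) := Algebra.subset_adjoin rfl
    have : jFull N = algebraMap ↥(Algebra.adjoin ↥(GaloisRep.ratLocalizedAt ℓ)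
        ({jFull N} : Set ↥(modularFunctionFieldFull N))) ↥(modularFunctionFieldFull N)
        ⟨jFull N, hmem⟩ := rfl
    rw [this]
    exact isIntegral_algebraMap
  | prime_mul p a hp ih =>
    intro hd hne
    have ha : a ∣ N := dvd_trans (dvd_mul_left a p) hd
    have hpN : p ∣ N := dvd_trans (dvd_mul_right p a) hd
    have hane : NeZero a := ⟨fun h => hne.out (by rw [h, mul_zero])⟩
    have : NeZero p := ⟨hp.ne_zero⟩
    have : NeZero (a * p) := ⟨by rw [mul_comm]; exact hne.out⟩
    have hdp : a * p ∣ N := by rw [mul_comm]; exact hd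
    obtain ⟨D⟩ := hP p hp hpN
    obtain ⟨T, hTm, hT⟩ := m28i_exists_T p D
    have hroot := m28i_eq_F N p a ha hdp T hT
    have hja := ih ha hane
    have hcoef : ∀ c : Polynomial ℤ, IsIntegral ↥(Algebra.adjoin ↥(GaloisRep.ratLocalizedAt ℓ)
        ({jFull N} : Set ↥(modularFunctionFieldFull N))) (m28i_ev (m28bm_jd N a ha) c) := by
      intro c
      exact m28i_ev_mem (integralClosure ↥(Algebra.adjoin ↥(GaloisRep.ratLocalizedAt ℓ)
        ({jFull N} : Set ↥(modularFunctionFieldFull N))) ↥(modularFunctionFieldFull N)).toSubring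
        hja c
    have hint := m28i_isIntegral_of_eval₂ (m28i_ev (m28bm_jd N a ha)) hcoef T hTm _ hroot
    have heq : m28bm_jd N (p * a) hd = m28bm_jd N (a * p) hdp := by
      apply Subtype.ext
      show qExpand ℚ (p * a) jq = qExpand ℚ (a * p) jq
      exact qExpand_congr (mul_comm p a) jq
    rw [heq]
    exact hint

/-- **[INT]** every element of `R = ℤ_(ℓ)[j_d : d ∣ N]` is integral over `ℤ_(ℓ)[j]`. -/
theorem m28i_hint
    (hP : ∀ (p : ℕ) [NeZero p], p.Prime → p ∣ N → Nonempty (M28PrimeData m28Zbar p)) :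
    ∀ r ∈ m28bm_R N ℓ, IsIntegral ↥(Algebra.adjoin ↥(GaloisRep.ratLocalizedAt ℓ)
        ({jFull N} : Set ↥(modularFunctionFieldFull N))) r := by
  intro r hr
  unfold m28bm_R at hr
  induction hr using Algebra.adjoin_induction with
  | mem x hx =>
    obtain ⟨d, hne, hd, hxd⟩ := hx
    have : x = m28bm_jd N d hd := Subtype.ext hxd
    rw [this]
    exact m28i_jd_isIntegral N ℓ hP d hd hne
  | algebraMap a =>
    have : algebraMap ↥(GaloisRep.ratLocalizedAt ℓ) ↥(modularFunctionFieldFull N) a
        = algebraMap ↥(Algebra.adjoin ↥(GaloisRep.ratLocalizedAt ℓ)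
        ({jFull N} : Set ↥(modularFunctionFieldFull N))) ↥(modularFunctionFieldFull N)
        (algebraMap _ _ a) := rfl
    rw [this]
    exact isIntegral_algebraMap
  | add x y _ _ hx hy => exact hx.add hy
  | mul x y _ _ hx hy => exact hx.mul hy

end Level

end Fermat.Agent.M28

end
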