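import Fermat.Agent.M28.DRoots

/-!
# S28, package D: statement (a) of the induction ("cusp")

* `m28d_evOm`, `m28d_emb_eval₂` : pushing a bivariate relation through a `K0`-embedding
  `ι : M_{N'} →ₐ[K0] Ω`;
* `m28d_root_cases_Om` : ROOTS inside `Ω`;
* `m28d_Jd_root1`, `m28d_Jd_root2` : the modular relations between `J_d` and `J_{d p}`;
* `m28d_cusp_step` : (a) for `N' * p` from (a) for `N'`;
* `m28d_cusp_range` : (a) implies that `ι (M_{N'})` consists of series in `t ^ (N / N')`;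
* `m28d_twist_mem_M` : the twist by an `N`-th root of unity fixes `M_{N'}` pointwise;
* `m28d_S_one` : the base case `S(1)`.
-/

set_option autoImplicit false

namespace Fermat.Agent.M28

open HahnSeries ModularCurve Polynomial
open Fermat.Agent.S24

noncomputable section

variable {k : Type} [Field k]

/-! ### Evaluation in `Ω` -/

/-- evaluation `k[Y] →+* Ω`, `Y ↦ y`. -/
def m28d_evOm (y : m28d_Om k) : Polynomial k →+* m28d_Om k :=
  (Polynomial.aeval (R := k) y).toRingHom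

theorem m28d_algebraMap_Om (c : k) : algebraMap k (m28d_Om k) c =
    algebraMap (LaurentSeries k) (m28d_Om k) (algebraMap k (LaurentSeries k) c) := rfl

theorem m28d_map_ev (b : LaurentSeries k) :
    (algebraMap (LaurentSeries k) (m28d_Om k)).comp (m28_ev b) =
      m28d_evOm (algebraMap (LaurentSeries k) (m28d_Om k) b) := by
  refine Polynomial.ringHom_ext (fun c => ?_) ?_
  · simp only [RingHom.comp_apply, m28_ev, m28d_evOm, AlgHom.toRingHom_eq_coe, RingHom.coe_coe,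
      Polynomial.aeval_C, m28d_algebraMap_Om]
  · simp only [RingHom.comp_apply, m28_ev, m28d_evOm, AlgHom.toRingHom_eq_coe, RingHom.coe_coe,
      Polynomial.aeval_X]

/-- `Φ(z, b)` for `b ∈ L`, `z ∈ Ω`, as evaluation of the specialised polynomial. -/
theorem m28d_eval₂_Om (Φ : Polynomial (Polynomial k)) (b : LaurentSeries k) (z : m28d_Om k) :
    Φ.eval₂ (m28d_evOm (algebraMap (LaurentSeries k) (m28d_Om k) b)) z =
      ((Φ.map (m28_ev b)).map (algebraMap (LaurentSeries k) (m28d_Om k))).eval z := by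
  rw [Polynomial.map_map, Polynomial.eval_map, m28d_map_ev]

/-- `Φ(a, b)` for `a b ∈ L`, mapped to `Ω`. -/
theorem m28d_algebraMap_eval₂ (Φ : Polynomial (Polynomial k)) (a b : LaurentSeries k) :
    algebraMap (LaurentSeries k) (m28d_Om k) (Φ.eval₂ (m28_ev b) a) =
      Φ.eval₂ (m28d_evOm (algebraMap (LaurentSeries k) (m28d_Om k) b))
        (algebraMap (LaurentSeries k) (m28d_Om k) a) := by
  rw [Polynomial.hom_eval₂, m28d_map_ev]

section emb

variable {N N' : ℕ}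

theorem m28d_emb_algebraMap (ι : ↥(m28d_M k N N') →ₐ[↥(m28d_K0 k N)] m28d_Om k) (c : k) :
    ι (algebraMap k ↥(m28d_M k N N') c) = algebraMap k (m28d_Om k) c := by
  rw [IsScalarTower.algebraMap_apply k ↥(m28d_K0 k N) ↥(m28d_M k N N'), AlgHom.commutes,
    ← IsScalarTower.algebraMap_apply]

/-- A `K0`-embedding is the identity on `K0`. -/
theorem m28d_emb_K0 (ι : ↥(m28d_M k N N') →ₐ[↥(m28d_K0 k N)] m28d_Om k)
    (x : ↥(m28d_M k N N')) (hx : (x : LaurentSeries k) ∈ m28d_K0 k N) :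
    ι x = algebraMap (LaurentSeries k) (m28d_Om k) (x : LaurentSeries k) := by
  have h : x = algebraMap ↥(m28d_K0 k N) ↥(m28d_M k N N') ⟨(x : LaurentSeries k), hx⟩ :=
    Subtype.ext rfl
  rw [h, AlgHom.commutes]
  rfl

/-- Pushing a bivariate relation through a `K0`-embedding. -/
theorem m28d_emb_eval₂ (ι : ↥(m28d_M k N N') →ₐ[↥(m28d_K0 k N)] m28d_Om k)
    (Φ : Polynomial (Polynomial k)) (x y : ↥(m28d_M k N N'))
    (h : Φ.eval₂ (m28_ev (y : LaurentSeries k)) (x : LaurentSeries k) = 0) :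
    Φ.eval₂ (m28d_evOm (ι y)) (ι x) = 0 := by
  set evM : Polynomial k →+* ↥(m28d_M k N N') :=
    (Polynomial.aeval (R := k) y).toRingHom with hevM
  have h1 : (algebraMap ↥(m28d_M k N N') (LaurentSeries k)).comp evM =
      m28_ev (y : LaurentSeries k) := by
    refine Polynomial.ringHom_ext (fun c => ?_) ?_
    · simp only [RingHom.comp_apply, m28_ev, hevM, AlgHom.toRingHom_eq_coe, RingHom.coe_coe,
        Polynomial.aeval_C]
      rfl
    · simp only [RingHom.comp_apply, m28_ev, hevM, AlgHom.toRingHom_eq_coe, RingHom.coe_coe,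
        Polynomial.aeval_X]
      rfl
  have h2 : (ι : ↥(m28d_M k N N') →+* m28d_Om k).comp evM = m28d_evOm (ι y) := by
    refine Polynomial.ringHom_ext (fun c => ?_) ?_
    · simp only [RingHom.comp_apply, m28d_evOm, hevM, AlgHom.toRingHom_eq_coe, RingHom.coe_coe,
        Polynomial.aeval_C, m28d_emb_algebraMap]
    · simp only [RingHom.comp_apply, m28d_evOm, hevM, AlgHom.toRingHom_eq_coe, RingHom.coe_coe,
        Polynomial.aeval_X]
  have h3 : Φ.eval₂ evM x = 0 := by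
    apply (algebraMap ↥(m28d_M k N N') (LaurentSeries k)).injective
    rw [map_zero, Polynomial.hom_eval₂, h1]
    exact h
  have h4 := congrArg (ι : ↥(m28d_M k N N') →+* m28d_Om k) h3
  rw [Polynomial.hom_eval₂, h2, map_zero] at h4
  exact h4

end emb

/-! ### ROOTS in `Ω` -/

theorem m28d_root_cases_Om {p : ℕ} [NeZero p] (D : M28PrimeData k p) (hp : p.Prime) {ζ : kˣ}
    (hζ : IsPrimitiveRoot ζ p) {ξ ξ' : kˣ} (hξ : ξ' ^ p = ξ) {m : ℕ} (hm : m ≠ 0)
    {z : m28d_Om k}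
    (hz : D.Φ.eval₂ (m28d_evOm (algebraMap (LaurentSeries k) (m28d_Om k) (m28d_C ξ (p * m)))) z
      = 0) :
    z = algebraMap (LaurentSeries k) (m28d_Om k) (m28d_C (ξ ^ p) (p * (p * m))) ∨
      ∃ b < p, z = algebraMap (LaurentSeries k) (m28d_Om k) (m28d_C (ζ ^ b * ξ') m) := by
  rw [m28d_eval₂_Om, m28d_roots D hp hζ hξ hm, Polynomial.map_mul, Polynomial.map_sub,
    Polynomial.map_X, Polynomial.map_C, Polynomial.map_prod, Polynomial.eval_mul,
    Polynomial.eval_sub, Polynomial.eval_X, Polynomial.eval_C, Polynomial.eval_prod,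
    mul_eq_zero, Finset.prod_eq_zero_iff] at hz
  rcases hz with h | ⟨b, hb, h⟩
  · exact Or.inl (sub_eq_zero.mp h)
  · refine Or.inr ⟨b, Finset.mem_range.mp hb, ?_⟩
    rw [Polynomial.map_sub, Polynomial.map_X, Polynomial.map_C, Polynomial.eval_sub,
      Polynomial.eval_X, Polynomial.eval_C] at h
    exact sub_eq_zero.mp h

/-! ### The modular relations between the `J_d` -/

theorem m28d_Jd_mul (N d p : ℕ) : m28d_Jd k N (d * p) = m28d_C (1 : kˣ) (p * (N * d)) := by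
  rw [m28d_Jd_eq_C]
  congr 1
  ring

/-- `Φ(J_{d p}, J_d) = 0`. -/
theorem m28d_Jd_root1 {p : ℕ} [NeZero p] (D : M28PrimeData k p) {N d : ℕ} (hN : N ≠ 0)
    (hd : d ≠ 0) :
    D.Φ.eval₂ (m28_ev (m28d_Jd k N d)) (m28d_Jd k N (d * p)) = 0 := by
  have h := m28d_root_first D (1 : kˣ) (Nat.mul_ne_zero hN hd)
  rwa [one_pow, ← m28d_Jd_mul, ← m28d_Jd_eq_C] at h

/-- `Φ(J_d, J_{d p}) = 0`. -/
theorem m28d_Jd_root2 {p : ℕ} [NeZero p] (D : M28PrimeData k p) {N d : ℕ} (hN : N ≠ 0)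
    (hd : d ≠ 0) :
    D.Φ.eval₂ (m28_ev (m28d_Jd k N (d * p))) (m28d_Jd k N d) = 0 := by
  have h := m28d_root_second D (1 : kˣ) (Nat.mul_ne_zero hN hd)
  rwa [one_pow, ← m28d_Jd_mul, ← m28d_Jd_eq_C] at h

/-! ### Membership in the tower fields -/

theorem m28d_Jd_mem_M (N : ℕ) {N' d : ℕ} (hd : d ∣ N') : m28d_Jd k N d ∈ m28d_M k N N' :=
  IntermediateField.subset_adjoin _ _ ⟨d, hd, rfl⟩

theorem m28d_J1_mem_K0 (N : ℕ) : m28d_Jd k N 1 ∈ m28d_K0 k N :=
  IntermediateField.subset_adjoin _ _ rfl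

theorem m28d_M_mono (N : ℕ) {N' N'' : ℕ} (h : N' ∣ N'') : m28d_M k N N' ≤ m28d_M k N N'' := by
  unfold m28d_M
  refine IntermediateField.adjoin.mono _ _ _ ?_
  rintro x ⟨d, hd, rfl⟩
  exact ⟨d, hd.trans h, rfl⟩


/-- Induction principle for `K0 = k(J_1)`: a subfield of `L` containing the constants and `J_1`
contains `K0`. -/
theorem m28d_K0_le {N : ℕ} (S : Subfield (LaurentSeries k))
    (hk : ∀ c : k, algebraMap k (LaurentSeries k) c ∈ S) (hJ1 : m28d_Jd k N 1 ∈ S)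
    {x : LaurentSeries k} (hx : x ∈ m28d_K0 k N) : x ∈ S := by
  unfold m28d_K0 at hx
  induction hx using IntermediateField.adjoin_induction with
  | mem x hx => rw [Set.mem_singleton_iff] at hx; rw [hx]; exact hJ1
  | algebraMap c => exact hk c
  | add x y _ _ hx hy => exact S.add_mem hx hy
  | inv x _ hx => exact S.inv_mem hx
  | mul x y _ _ hx hy => exact S.mul_mem hx hy

/-- Induction principle for `M_{N'}`: a subfield of `L` containing the constants, `J_1` and the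
`J_d`, `d ∣ N'`, contains `M_{N'}`. -/
theorem m28d_M_le {N N' : ℕ} (S : Subfield (LaurentSeries k))
    (hk : ∀ c : k, algebraMap k (LaurentSeries k) c ∈ S) (hJ1 : m28d_Jd k N 1 ∈ S)
    (hJ : ∀ d, d ∣ N' → m28d_Jd k N d ∈ S)
    {x : LaurentSeries k} (hx : x ∈ m28d_M k N N') : x ∈ S := by
  unfold m28d_M at hx
  induction hx using IntermediateField.adjoin_induction with
  | mem x hx => obtain ⟨d, hd, rfl⟩ := hx; exact hJ d hd
  | algebraMap c => exact m28d_K0_le S hk hJ1 c.2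
  | add x y _ _ hx hy => exact S.add_mem hx hy
  | inv x _ hx => exact S.inv_mem hx
  | mul x y _ _ hx hy => exact S.mul_mem hx hy

/-- The subfield of `L` fixed by a ring automorphism. -/
def m28d_fixed (σ : LaurentSeries k ≃+* LaurentSeries k) : Subfield (LaurentSeries k) where
  carrier := {x | σ x = x}
  mul_mem' := fun {a b} ha hb => by
    simp only [Set.mem_ofPred_eq] at ha hb ⊢
    rw [map_mul, ha, hb]
  one_mem' := map_one σ
  add_mem' := fun {a b} ha hb => by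
    simp only [Set.mem_ofPred_eq] at ha hb ⊢
    rw [map_add, ha, hb]
  zero_mem' := map_zero σ
  neg_mem' := fun {a} ha => by
    simp only [Set.mem_ofPred_eq] at ha ⊢
    rw [map_neg, ha]
  inv_mem' := fun a ha => by
    simp only [Set.mem_ofPred_eq] at ha ⊢
    rw [map_inv₀, ha]

theorem m28d_mem_fixed (σ : LaurentSeries k ≃+* LaurentSeries k) (x : LaurentSeries k) :
    x ∈ m28d_fixed σ ↔ σ x = x := Iff.rfl

/-- The twist by an `N`-th root of unity fixes `M_{N'}` pointwise (`N' ≠ 0`). -/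
theorem m28d_twist_mem_M {ε : kˣ} {N N' : ℕ} (hN : N ≠ 0) (hN' : N' ≠ 0) (hε : ε ^ N = 1)
    {x : LaurentSeries k} (hx : x ∈ m28d_M k N N') : cf_twist ε x = x := by
  refine (m28d_mem_fixed (cf_twist ε) x).mp (m28d_M_le (m28d_fixed (cf_twist ε)) ?_ ?_ ?_ hx)
  · intro c
    exact cf_twist_algebraMap ε c
  · exact m28d_twist_Jd hN hε one_ne_zero
  · intro d hd
    exact m28d_twist_Jd hN hε (fun h => hN' (by rw [h] at hd; exact Nat.eq_zero_of_zero_dvd hd))

/-- `K0` consists of series in `t ^ N`. -/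
theorem m28d_K0_range {N : ℕ} (hN : N ≠ 0) {e : ℕ} (he : e ∣ N) {x : LaurentSeries k}
    (hx : x ∈ m28d_K0 k N) : x ∈ (m28d_qx k e).fieldRange := by
  obtain ⟨c, rfl⟩ := he
  have he0 : e ≠ 0 := fun h => hN (by rw [h, zero_mul])
  have hc0 : c ≠ 0 := fun h => hN (by rw [h, mul_zero])
  refine m28d_K0_le (m28d_qx k e).fieldRange ?_ ?_ hx
  · intro a
    exact ⟨algebraMap k _ a, m28d_qx_algebraMap e a⟩
  · refine ⟨m28d_qx k c (jqModC k), ?_⟩
    rw [m28d_qx_qx he0 hc0, m28d_Jd, mul_one]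

/-! ### Statement (a) -/

section cusp

variable {N N' : ℕ}

/-- (a) implies that `ι (M_{N'})` consists of series in `t ^ (N / N')`. -/
theorem m28d_cusp_range (hN : N ≠ 0) (hN' : N' ∣ N)
    (ι : ↥(m28d_M k N N') →ₐ[↥(m28d_K0 k N)] m28d_Om k)
    (hcusp : ∀ d : ℕ, d ∣ N' → ∀ x : ↥(m28d_M k N N'),
      (x : LaurentSeries k) = m28d_Jd k N d → m28d_IsCusp N d (ι x))
    (x : ↥(m28d_M k N N')) :
    ∃ g : LaurentSeries k,
      ι x = algebraMap (LaurentSeries k) (m28d_Om k) (m28d_qx k (N / N') g) := by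
  have hN'0 : N' ≠ 0 := fun h => hN (by rw [h] at hN'; exact Nat.eq_zero_of_zero_dvd hN')
  have hq0 : N / N' ≠ 0 := (Nat.div_pos (Nat.le_of_dvd (Nat.pos_of_ne_zero hN) hN')
    (Nat.pos_of_ne_zero hN'0)).ne'
  have hqdvd : N / N' ∣ N := Nat.div_dvd_of_dvd hN'
  set R : LaurentSeries k →+* m28d_Om k :=
    (algebraMap (LaurentSeries k) (m28d_Om k)).comp (m28d_qx k (N / N')) with hR
  suffices h : ι x ∈ R.fieldRange by
    obtain ⟨g, hg⟩ := h
    exact ⟨g, hg.symm⟩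
  obtain ⟨x, hx⟩ := x
  unfold m28d_M at hx
  induction hx using IntermediateField.adjoin_induction with
  | mem x hx =>
    obtain ⟨d, hd, rfl⟩ := hx
    obtain ⟨ξ, a, δ, e, hadδ, hδe, h⟩ := hcusp d hd ⟨_, IntermediateField.subset_adjoin _ _
      ⟨d, hd, rfl⟩⟩ rfl
    have hd0 : d ≠ 0 := fun h0 => hN'0 (by rw [h0] at hd; exact Nat.eq_zero_of_zero_dvd hd)
    have ha0 : a ≠ 0 := fun h0 => hd0 (by rw [← hadδ, h0, zero_mul])
    have hδ0 : δ ≠ 0 := fun h0 => hd0 (by rw [← hadδ, h0, mul_zero])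
    have he0 : e ≠ 0 := fun h0 => hN (by rw [← hδe, h0, mul_zero])
    -- `N / N'` divides `e`
    obtain ⟨c, hc⟩ : δ ∣ N' := (Dvd.intro_left a hadδ).trans hd
    have hc0 : c ≠ 0 := fun h0 => hN'0 (by rw [hc, h0, mul_zero])
    have he : e = N / N' * c := by
      obtain ⟨Q, hQ⟩ : ∃ Q, Q = N / N' := ⟨_, rfl⟩
      have h1 : Q * N' = N := by rw [hQ]; exact Nat.div_mul_cancel hN'
      rw [← hQ]
      have h2 : δ * e = δ * (Q * c) := by
        rw [hδe, ← h1, hc]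
        ring
      exact Nat.eq_of_mul_eq_mul_left (Nat.pos_of_ne_zero hδ0) h2
    refine ⟨m28d_C ξ (c * a), ?_⟩
    rw [h, hR, RingHom.comp_apply, m28d_qx_C ξ (Nat.mul_ne_zero hc0 ha0) hq0, he, mul_assoc]
  | algebraMap c =>
    obtain ⟨g, hg⟩ := m28d_K0_range hN hqdvd c.2
    have h := m28d_emb_K0 ι ⟨algebraMap ↥(m28d_K0 k N) (LaurentSeries k) c,
      IntermediateField.algebraMap_mem _ c⟩ c.2
    refine ⟨g, ?_⟩
    rw [hR, RingHom.comp_apply, hg]
    exact h.symm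
  | add x y hx hy hx' hy' =>
    have : (⟨x + y, add_mem hx hy⟩ : ↥(m28d_M k N N')) = ⟨x, hx⟩ + ⟨y, hy⟩ := rfl
    rw [this, map_add]
    exact R.fieldRange.add_mem hx' hy'
  | inv x hx hx' =>
    have : (⟨x⁻¹, inv_mem hx⟩ : ↥(m28d_M k N N')) = (⟨x, hx⟩ : ↥(m28d_M k N N'))⁻¹ := rfl
    rw [this, map_inv₀]
    exact R.fieldRange.inv_mem hx'
  | mul x y hx hy hx' hy' =>
    have : (⟨x * y, mul_mem hx hy⟩ : ↥(m28d_M k N N')) = ⟨x, hx⟩ * ⟨y, hy⟩ := rfl
    rw [this, map_mul]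
    exact R.fieldRange.mul_mem hx' hy'


/-- Existence of `p`-th roots of units in an algebraically closed field. -/
theorem m28d_exists_root [IsAlgClosed k] {p : ℕ} (hp : 0 < p) (ξ : kˣ) :
    ∃ ξ' : kˣ, ξ' ^ p = ξ := by
  obtain ⟨z, hz⟩ := IsAlgClosed.exists_pow_nat_eq (ξ : k) hp
  have hz0 : z ≠ 0 := by
    rintro rfl
    rw [zero_pow hp.ne'] at hz
    exact ξ.ne_zero hz.symm
  exact ⟨Units.mk0 z hz0, Units.ext (by simpa using hz)⟩

/-- Existence of primitive roots of unity (as units) in an algebraically closed field. -/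
theorem m28d_exists_prim [IsAlgClosed k] {n : ℕ} (hn : (n : k) ≠ 0) :
    ∃ ζ : kˣ, IsPrimitiveRoot ζ n := by
  have : NeZero (n : k) := ⟨hn⟩
  have hn0 : n ≠ 0 := by rintro rfl; exact hn Nat.cast_zero
  obtain ⟨ζ, hζ⟩ := HasEnoughRootsOfUnity.exists_primitiveRoot k n
  exact ⟨(hζ.isUnit hn0).unit, IsPrimitiveRoot.coe_units_iff.mp (by simpa using hζ)⟩

/-- **(a), induction step.** -/
theorem m28d_cusp_step [IsAlgClosed k] {p : ℕ} [NeZero p] (hp : p.Prime) (hpk : (p : k) ≠ 0)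
    (D : M28PrimeData k p) (hN : N ≠ 0) (hdvd : N' * p ∣ N)
    (hcusp : ∀ (ι : ↥(m28d_M k N N') →ₐ[↥(m28d_K0 k N)] m28d_Om k) (d : ℕ), d ∣ N' →
      ∀ x : ↥(m28d_M k N N'), (x : LaurentSeries k) = m28d_Jd k N d → m28d_IsCusp N d (ι x))
    (ι : ↥(m28d_M k N (N' * p)) →ₐ[↥(m28d_K0 k N)] m28d_Om k) (d : ℕ) (hd : d ∣ N' * p)
    (x : ↥(m28d_M k N (N' * p))) (hx : (x : LaurentSeries k) = m28d_Jd k N d) :
    m28d_IsCusp N d (ι x) := by
  have hle : m28d_M k N N' ≤ m28d_M k N (N' * p) := m28d_M_mono N (dvd_mul_right N' p)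
  have hN'p0 : N' * p ≠ 0 := fun h => hN (by rw [h] at hdvd; exact Nat.eq_zero_of_zero_dvd hdvd)
  have hN'0 : N' ≠ 0 := fun h => hN'p0 (by rw [h, zero_mul])
  -- (a) for the divisors of `N'`, by restriction
  have key : ∀ d' : ℕ, d' ∣ N' → ∀ y : ↥(m28d_M k N (N' * p)),
      (y : LaurentSeries k) = m28d_Jd k N d' → m28d_IsCusp N d' (ι y) := by
    intro d' hd' y hy
    have h := hcusp (ι.comp (IntermediateField.inclusion hle)) d' hd'
      ⟨m28d_Jd k N d', m28d_Jd_mem_M N hd'⟩ rfl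
    have hy' : IntermediateField.inclusion hle
        (⟨m28d_Jd k N d', m28d_Jd_mem_M N hd'⟩ : ↥(m28d_M k N N')) = y :=
      Subtype.ext hy.symm
    rwa [AlgHom.comp_apply, hy'] at h
  by_cases hdN' : d ∣ N'
  · exact key d hdN' x hx
  · -- `d = d' * p` with `d' ∣ N'`
    have hpd : p ∣ d := by
      by_contra hnot
      have hcop : Nat.Coprime d p := ((Nat.Prime.coprime_iff_not_dvd hp).mpr hnot).symm
      exact hdN' (hcop.dvd_of_dvd_mul_right hd)
    obtain ⟨d', rfl⟩ := hpd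
    have hd' : d' ∣ N' := by
      rw [mul_comm p d'] at hd
      exact (Nat.mul_dvd_mul_iff_right hp.pos).mp hd
    have hd'0 : d' ≠ 0 := fun h => hN'0 (by rw [h] at hd'; exact Nat.eq_zero_of_zero_dvd hd')
    set y : ↥(m28d_M k N (N' * p)) := ⟨m28d_Jd k N d', hle (m28d_Jd_mem_M N hd')⟩ with hy
    obtain ⟨ξ, a, δ, e, hadδ, hδe, hιy⟩ := key d' hd' y rfl
    have ha0 : a ≠ 0 := fun h0 => hd'0 (by rw [← hadδ, h0, zero_mul])
    have hδ0 : δ ≠ 0 := fun h0 => hd'0 (by rw [← hadδ, h0, mul_zero])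
    have he0 : e ≠ 0 := fun h0 => hN (by rw [← hδe, h0, mul_zero])
    -- `p ∣ e`
    have hpe : p ∣ e := by
      obtain ⟨c, hc⟩ : δ ∣ N' := (Dvd.intro_left a hadδ).trans hd'
      have h1 : δ * (c * p) ∣ δ * e := by
        rw [hδe, ← mul_assoc, ← hc]; exact hdvd
      have h2 : c * p ∣ e := (Nat.mul_dvd_mul_iff_left (Nat.pos_of_ne_zero hδ0)).mp h1
      exact (Dvd.intro_left c rfl).trans h2
    obtain ⟨e', rfl⟩ := hpe
    have he'0 : e' ≠ 0 := fun h0 => he0 (by rw [h0, mul_zero])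
    have hm0 : e' * a ≠ 0 := Nat.mul_ne_zero he'0 ha0
    -- the modular relation, pushed through `ι`
    have hrel : D.Φ.eval₂ (m28_ev (y : LaurentSeries k)) (x : LaurentSeries k) = 0 := by
      rw [hx, mul_comm p d']
      exact m28d_Jd_root1 D hN hd'0
    have hrelΩ := m28d_emb_eval₂ ι D.Φ x y hrel
    rw [hιy, mul_assoc] at hrelΩ
    obtain ⟨ξ', hξ'⟩ := m28d_exists_root hp.pos ξ
    obtain ⟨ζ, hζ⟩ := m28d_exists_prim (n := p) hpk
    rcases m28d_root_cases_Om D hp hζ hξ' hm0 hrelΩ with h1 | ⟨b, -, h1⟩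
    · refine ⟨ξ ^ p, a * p, δ, p * e', ?_, hδe, ?_⟩
      · rw [← hadδ]; ring
      · rw [h1]
        congr 2
        ring
    · refine ⟨ζ ^ b * ξ', a, δ * p, e', ?_, ?_, h1⟩
      · rw [← hadδ]; ring
      · rw [← hδe]; ring

/-! ### The base case -/

theorem m28d_M_one (N : ℕ) : m28d_M k N 1 = ⊥ := by
  unfold m28d_M
  rw [IntermediateField.adjoin_eq_bot_iff]
  rintro x ⟨d, hd, rfl⟩
  rw [Nat.dvd_one] at hd
  subst hd
  exact ⟨⟨m28d_Jd k N 1, m28d_J1_mem_K0 N⟩, rfl⟩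

/-- The base case `S(1)`. -/
theorem m28d_S_one (N : ℕ) : m28d_S k N 1 where
  cusp := by
    intro ι d hd x hx
    rw [Nat.dvd_one] at hd
    subst hd
    refine ⟨1, 1, 1, N, rfl, one_mul N, ?_⟩
    have hxK : (x : LaurentSeries k) ∈ m28d_K0 k N := by rw [hx]; exact m28d_J1_mem_K0 N
    rw [m28d_emb_K0 ι x hxK, hx, m28d_Jd_eq_C]
  top := by
    refine ⟨(IsScalarTower.toAlgHom ↥(m28d_K0 k N) (LaurentSeries k) (m28d_Om k)).comp
      (m28d_M k N 1).val, 1, N, one_mul N, ?_⟩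
    intro x hx
    rw [AlgHom.comp_apply, IntermediateField.val_mk, hx, m28d_Jd_eq_C, mul_one]
    rfl
  deg := by
    rw [dedekindPsi_one, m28d_M_one, IntermediateField.finrank_bot]

end cusp

end

end Fermat.Agent.M28
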