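import Mathlib
import Fermat.Prelude.Def_ModularCurve_JqCoeff
import Fermat.Agent.S24.CuspFormal
import Fermat.Agent.M28.Defs

/-!
# S28, package D (tower in characteristic `ℓ`): definitions (prefix `m28d_`)

Everything lives in `L = LaurentSeries k` (variable `t`), `k` a field, `q = t ^ N`.

* `m28d_qx k m`    : total version of the prelude's `qExpand k m` (`t ↦ t ^ m`; identity for `m = 0`);
* `m28d_sub ξ m`   : the substitution `Q ↦ ξ * t ^ m` (`ξ : kˣ`), a ring hom `L →+* L`;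
* `m28d_C ξ m`     : the cusp series `C(ξ, m) = J(ξ * t ^ m)`, `J = jqModC k`;
* `m28d_Jd k N d`  : `J_d = J(t ^ (N * d)) = J(q ^ d)`;
* `m28d_K0 k N`    : `K0 = k(J_1)`, an `IntermediateField k L`;
* `m28d_M k N N'`  : `M_{N'} = K0(J_d : d ∣ N')`, an `IntermediateField K0 L`;
* `m28d_Om k`      : `Ω = AlgebraicClosure L`;
* `m28d_IsCusp N d x` : `x ∈ Ω` is (the image of) a cusp series `C(ξ, (N / δ) * a)` with `a * δ = d`;
* `m28d_S k N N'`  : the induction statement `S(N')` = (a) `cusp`, (b) `top`, (c) `deg`.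
-/

set_option autoImplicit false

namespace Fermat.Agent.M28

open HahnSeries ModularCurve Polynomial
open Fermat.Agent.S24

noncomputable section

/-- Total version of `qExpand`: `t ↦ t ^ m`, the identity when `m = 0`. -/
def m28d_qx (k : Type) [Field k] (m : ℕ) : LaurentSeries k →+* LaurentSeries k :=
  if h : m = 0 then RingHom.id _ else @qExpand k _ m ⟨h⟩

theorem m28d_qx_eq {k : Type} [Field k] (m : ℕ) [NeZero m] : m28d_qx k m = qExpand k m := by
  unfold m28d_qx
  rw [dif_neg (NeZero.ne m)]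

theorem m28d_qx_zero {k : Type} [Field k] : m28d_qx k 0 = RingHom.id _ := by
  unfold m28d_qx
  rw [dif_pos rfl]

/-- The substitution `Q ↦ ξ * t ^ m`. -/
def m28d_sub {k : Type} [Field k] (ξ : kˣ) (m : ℕ) : LaurentSeries k →+* LaurentSeries k :=
  (m28d_qx k m).comp (cf_twist ξ : LaurentSeries k ≃+* LaurentSeries k).toRingHom

theorem m28d_sub_apply {k : Type} [Field k] (ξ : kˣ) (m : ℕ) (f : LaurentSeries k) :
    m28d_sub ξ m f = m28d_qx k m (cf_twist ξ f) := rfl

/-- The cusp series `C(ξ, m) = J(ξ * t ^ m)`. -/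
def m28d_C {k : Type} [Field k] (ξ : kˣ) (m : ℕ) : LaurentSeries k := m28d_sub ξ m (jqModC k)

/-- `J_d = J(t ^ (N * d)) = J(q ^ d)` for `q = t ^ N`. -/
def m28d_Jd (k : Type) [Field k] (N d : ℕ) : LaurentSeries k := m28d_qx k (N * d) (jqModC k)

/-- `K0 = k(J_1)`, `J_1 = J(t ^ N) = J(q)`. -/
def m28d_K0 (k : Type) [Field k] (N : ℕ) : IntermediateField k (LaurentSeries k) :=
  IntermediateField.adjoin k {m28d_Jd k N 1}

/-- The tower field `M_{N'} = K0(J_d : d ∣ N')` inside `L = k((t))`. -/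
def m28d_M (k : Type) [Field k] (N N' : ℕ) :
    IntermediateField (m28d_K0 k N) (LaurentSeries k) :=
  IntermediateField.adjoin (m28d_K0 k N) {x | ∃ d : ℕ, d ∣ N' ∧ x = m28d_Jd k N d}

/-- `Ω`, an algebraic closure of `L = k((t))`. -/
abbrev m28d_Om (k : Type) [Field k] : Type := AlgebraicClosure (LaurentSeries k)

/-- `x ∈ Ω` is a cusp series of type `d` at level `N`: `x = C(ξ, e * a)` with `a * δ = d`,
`δ * e = N` (so `e * a = (N / δ) * a`). -/
def m28d_IsCusp {k : Type} [Field k] (N d : ℕ) (x : m28d_Om k) : Prop :=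
  ∃ (ξ : kˣ) (a δ e : ℕ), a * δ = d ∧ δ * e = N ∧
    x = algebraMap (LaurentSeries k) (m28d_Om k) (m28d_C ξ (e * a))

/-- The induction statement `S(N')` of step D. -/
structure m28d_S (k : Type) [Field k] (N N' : ℕ) : Prop where
  /-- (a) every `K0`-embedding of `M_{N'}` sends each `J_d`, `d ∣ N'`, to a cusp series of
  type `d`. -/
  cusp : ∀ (ι : ↥(m28d_M k N N') →ₐ[↥(m28d_K0 k N)] m28d_Om k) (d : ℕ), d ∣ N' →
    ∀ x : ↥(m28d_M k N N'), (x : LaurentSeries k) = m28d_Jd k N d → m28d_IsCusp N d (ι x)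
  /-- (b) some `K0`-embedding sends `J_{N'}` to `C(ξ, N / N')`. -/
  top : ∃ (ι : ↥(m28d_M k N N') →ₐ[↥(m28d_K0 k N)] m28d_Om k) (ξ : kˣ) (e : ℕ), N' * e = N ∧
    ∀ x : ↥(m28d_M k N N'), (x : LaurentSeries k) = m28d_Jd k N N' →
      ι x = algebraMap (LaurentSeries k) (m28d_Om k) (m28d_C ξ e)
  /-- (c) the degree bound. -/
  deg : dedekindPsi N' ≤ Module.finrank ↥(m28d_K0 k N) ↥(m28d_M k N N')

end

end Fermat.Agent.M28
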