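import Fermat.Agent.M28.DRoots
import Fermat.Agent.M28.DTowerDefs

/-!
# S28 (Igusa), PKG-D — instantiation of the abstract tower interface (prefix `m28di_`)

`Ω = AlgebraicClosure (LaurentSeries k)`, `C ξ m = J (ξ t ^ m)` (image in `Ω`),
`τ ε` = an extension of `t ↦ ε t` to `Ω`, `Pos` = images of series of positive order (and `0`).

* `m28di_prime` : `M28PrimeData k p` (with `(p : k) ≠ 0`) gives `M28TowerPrime k Ω C Pos p`;
* `m28di_data`  : the `M28TowerData k Ω N`;
* `m28di_tower_of` : the abstract tower theorem `m28dt_Statement` implies the tower theorem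
  in the shape of `Spec.m28d_tower`.
-/

set_option autoImplicit false
set_option linter.deprecated false
set_option linter.unusedSectionVars false
set_option linter.unusedVariables false
set_option linter.style.haveILetI false

namespace Fermat.Agent.M28

open HahnSeries ModularCurve Polynomial
open Fermat.Agent.S24

noncomputable section

variable {k : Type} [Field k]

/-! ### The embedding `L → Ω` -/

/-- The cusp series in `Ω`. -/
def m28di_C (ξ : kˣ) (m : ℕ) : m28d_Om k :=
  algebraMap (LaurentSeries k) (m28d_Om k) (m28d_C ξ m)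

theorem m28di_emb_injective :
    Function.Injective (algebraMap (LaurentSeries k) (m28d_Om k)) :=
  (algebraMap (LaurentSeries k) (m28d_Om k)).injective

theorem m28di_algebraMap (c : k) :
    algebraMap k (m28d_Om k) c =
      algebraMap (LaurentSeries k) (m28d_Om k) (algebraMap k (LaurentSeries k) c) := rfl

theorem m28di_C_inj (ξ ξ' : kˣ) (m m' : ℕ) (hm : 0 < m) (hm' : 0 < m')
    (h : m28di_C ξ m = m28di_C ξ' m') : m = m' ∧ ξ = ξ' :=
  m28d_C_inj hm.ne' hm'.ne' (m28di_emb_injective h)

/-- `m28dt_ev` at an element of `L` is `m28_ev` followed by the embedding. -/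
theorem m28di_ev (c : LaurentSeries k) :
    m28dt_ev (k := k) (algebraMap (LaurentSeries k) (m28d_Om k) c) =
      (algebraMap (LaurentSeries k) (m28d_Om k)).comp (m28_ev c) := by
  refine Polynomial.ringHom_ext (fun a => ?_) ?_
  · simp only [m28dt_ev, m28_ev, AlgHom.toRingHom_eq_coe, RingHom.coe_coe, Polynomial.aeval_C,
      RingHom.comp_apply]
    rfl
  · simp only [m28dt_ev, m28_ev, AlgHom.toRingHom_eq_coe, RingHom.coe_coe, Polynomial.aeval_X,
      RingHom.comp_apply]

theorem m28di_map_ev (Φ : Polynomial (Polynomial k)) (c : LaurentSeries k) :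
    Φ.map (m28dt_ev (k := k) (algebraMap (LaurentSeries k) (m28d_Om k) c)) =
      (Φ.map (m28_ev c)).map (algebraMap (LaurentSeries k) (m28d_Om k)) := by
  rw [m28di_ev, Polynomial.map_map]

theorem m28di_eval_ev (Φ : Polynomial (Polynomial k)) (a c : LaurentSeries k) :
    (Φ.map (m28dt_ev (k := k) (algebraMap (LaurentSeries k) (m28d_Om k) c))).eval
        (algebraMap (LaurentSeries k) (m28d_Om k) a) =
      algebraMap (LaurentSeries k) (m28d_Om k) (Φ.eval₂ (m28_ev c) a) := by
  rw [m28di_map_ev, Polynomial.eval_map, Polynomial.eval₂_at_apply, Polynomial.eval_map]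

/-! ### The substitution `t ↦ ε t` on `Ω` -/

/-- An extension of `cf_twist ε` to `Ω`. -/
def m28di_tau (ε : kˣ) : m28d_Om k →+* m28d_Om k :=
  (IsAlgClosure.equivOfEquiv (m28d_Om k) (m28d_Om k)
    (cf_twist ε : LaurentSeries k ≃+* LaurentSeries k)).toRingHom

theorem m28di_tau_emb (ε : kˣ) (f : LaurentSeries k) :
    m28di_tau ε (algebraMap (LaurentSeries k) (m28d_Om k) f) =
      algebraMap (LaurentSeries k) (m28d_Om k) (cf_twist ε f) :=
  IsAlgClosure.equivOfEquiv_algebraMap (m28d_Om k) (m28d_Om k)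
    (cf_twist ε : LaurentSeries k ≃+* LaurentSeries k) f

theorem m28di_tau_algebraMap (ε : kˣ) (c : k) :
    m28di_tau ε (algebraMap k (m28d_Om k) c) = algebraMap k (m28d_Om k) c := by
  rw [m28di_algebraMap, m28di_tau_emb, cf_twist_algebraMap]

theorem m28di_tau_C (ε ξ : kˣ) (m : ℕ) (hm : 0 < m) :
    m28di_tau ε (m28di_C ξ m) = m28di_C (ξ * ε ^ m) m := by
  rw [m28di_C, m28di_tau_emb, m28d_twist_C ε ξ hm.ne']
  rfl

/-! ### Series of positive order -/

/-- The images of the Laurent series of positive order, and `0`. -/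
def m28di_Pos : Set (m28d_Om k) :=
  {x | ∃ f : LaurentSeries k, x = algebraMap (LaurentSeries k) (m28d_Om k) f ∧
    (f = 0 ∨ 0 < f.order)}

theorem m28di_Pos_zero : (0 : m28d_Om k) ∈ m28di_Pos (k := k) :=
  ⟨0, (map_zero _).symm, Or.inl rfl⟩

theorem m28di_Pos_mul (x y : m28d_Om k) (hx : x ∈ m28di_Pos (k := k))
    (hy : y ∈ m28di_Pos (k := k)) : x * y ∈ m28di_Pos (k := k) := by
  obtain ⟨f, rfl, hf⟩ := hx
  obtain ⟨g, rfl, hg⟩ := hy
  refine ⟨f * g, (map_mul _ _ _).symm, ?_⟩
  by_cases hf0 : f = 0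
  · left; rw [hf0, zero_mul]
  by_cases hg0 : g = 0
  · left; rw [hg0, mul_zero]
  right
  have hf' : 0 < f.order := hf.resolve_left hf0
  have hg' : 0 < g.order := hg.resolve_left hg0
  rw [HahnSeries.order_mul hf0 hg0]
  omega

theorem m28di_Pos_neg (x : m28d_Om k) (hx : x ∈ m28di_Pos (k := k)) :
    -x ∈ m28di_Pos (k := k) := by
  obtain ⟨f, rfl, hf⟩ := hx
  refine ⟨-f, (map_neg _ _).symm, ?_⟩
  rcases hf with hf | hf
  · left; rw [hf, neg_zero]
  · right; rw [HahnSeries.order_neg]; exact hf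

/-- The coefficient of `q ^ (- deg f)` in `f (J)` is the leading coefficient of `f`. -/
theorem m28di_coeff_aeval (f : Polynomial k) :
    (Polynomial.aeval (jqModC k) f).coeff (-(f.natDegree : ℤ)) = f.leadingCoeff := by
  set n := f.natDegree with hn
  rw [Polynomial.aeval_def, Polynomial.eval₂_eq_sum_range, HahnSeries.coeff_sum,
    Finset.sum_eq_single n]
  · rw [algebraMap_laurentSeries_eq_single, HahnSeries.coeff_single_zero_mul,
      coeff_jqModC_pow_self, mul_one]
    rfl
  · intro i hi hin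
    have hilt : i < n := lt_of_le_of_ne (Nat.lt_succ_iff.mp (Finset.mem_range.mp hi)) hin
    rw [algebraMap_laurentSeries_eq_single, HahnSeries.coeff_single_zero_mul,
      coeff_jqModC_pow_of_lt, mul_zero]
    omega
  · intro hn'
    exact absurd (Finset.self_mem_range_succ n) hn'

theorem m28di_aeval_qx (N : ℕ) (f : Polynomial k) :
    Polynomial.aeval (m28d_qx k N (jqModC k)) f = m28d_qx k N (Polynomial.aeval (jqModC k) f) := by
  rw [Polynomial.aeval_def, Polynomial.aeval_def, Polynomial.hom_eval₂]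
  congr 1
  exact RingHom.ext fun c => (m28d_qx_algebraMap N c).symm

theorem m28di_aeval_emb (c : LaurentSeries k) (f : Polynomial k) :
    Polynomial.aeval (algebraMap (LaurentSeries k) (m28d_Om k) c) f =
      algebraMap (LaurentSeries k) (m28d_Om k) (Polynomial.aeval c f) := by
  rw [Polynomial.aeval_def, Polynomial.aeval_def, Polynomial.hom_eval₂]
  rfl

theorem m28di_Pos_poly (N : ℕ) (hN : N ≠ 0) (f : Polynomial k) (hf : f ≠ 0) :
    Polynomial.aeval (m28di_C (1 : kˣ) N) f ∉ m28di_Pos (k := k) := by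
  rintro ⟨g, hg, hg'⟩
  rw [m28di_C, m28di_aeval_emb] at hg
  have hg1 := m28di_emb_injective hg
  rw [m28d_C, m28d_sub_one_eq_qx, m28di_aeval_qx] at hg1
  have hc : g.coeff ((N : ℤ) * (-(f.natDegree : ℤ))) = f.leadingCoeff := by
    rw [← hg1, m28d_qx_coeff_mul hN, m28di_coeff_aeval]
  have hlc : f.leadingCoeff ≠ 0 := Polynomial.leadingCoeff_ne_zero.mpr hf
  rcases hg' with h0 | hpos
  · rw [h0, HahnSeries.coeff_zero] at hc
    exact hlc hc.symm
  · have : g.coeff ((N : ℤ) * (-(f.natDegree : ℤ))) = 0 := by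
      apply HahnSeries.coeff_eq_zero_of_lt_order
      have h1 : (N : ℤ) * (-(f.natDegree : ℤ)) ≤ 0 := by
        have : (0 : ℤ) ≤ (N : ℤ) * (f.natDegree : ℤ) := by positivity
        linarith
      omega
    rw [this] at hc
    exact hlc hc.symm

/-! ### The modular unit -/

theorem m28di_w_ne_zero {p : ℕ} (hpk : (p : k) ≠ 0) (g : PowerSeries k)
    (hg : PowerSeries.constantCoeff g = 1) : m28_w k p g ≠ 0 := by
  rw [m28_w]
  apply mul_ne_zero
  · intro h
    have := congrArg (fun x : LaurentSeries k => x.coeff ((p : ℤ) - 1)) h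
    simp only [HahnSeries.coeff_single_same, HahnSeries.coeff_zero] at this
    exact pow_ne_zero 12 hpk this
  · intro h
    have h1 := congrArg (fun x : LaurentSeries k => x.coeff ((0 : ℕ) : ℤ)) h
    simp only [HahnSeries.ofPowerSeries_apply_coeff, HahnSeries.coeff_zero,
      PowerSeries.coeff_zero_eq_constantCoeff, hg] at h1
    exact one_ne_zero h1

theorem m28di_w_order_pos {p : ℕ} (hp : p.Prime) (hpk : (p : k) ≠ 0) (g : PowerSeries k)
    (hg : PowerSeries.constantCoeff g = 1) : 0 < (m28_w k p g).order := by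
  have hne := m28di_w_ne_zero hpk g hg
  have h2 : 2 ≤ p := hp.two_le
  by_contra hle
  rw [not_lt] at hle
  have hc : (m28_w k p g).coeff (m28_w k p g).order ≠ 0 :=
    fun h => hne (HahnSeries.coeff_order_eq_zero.mp h)
  apply hc
  rw [m28_w, HahnSeries.coeff_single_mul]
  apply mul_eq_zero_of_right
  apply ofPowerSeries_coeff_of_neg
  have : (1 : ℤ) ≤ (p : ℤ) - 1 := by
    have : (2 : ℤ) ≤ (p : ℤ) := by exact_mod_cast h2
    omega
  rw [m28_w] at hle
  omega

/-! ### The prime-level package -/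

/-- The prime-level package of the tower interface from `M28PrimeData`. -/
def m28di_prime {p : ℕ} [NeZero p] (hp : p.Prime) (hpk : (p : k) ≠ 0) (D : M28PrimeData k p) :
    M28TowerPrime k (m28d_Om k) m28di_C m28di_Pos p where
  Φ := D.Φ
  Φ_monic := D.Φ_monic
  Φ_natDegree := D.Φ_natDegree
  roots := by
    intro ξ ξ' ζ m hm hpm hζ hξ
    obtain ⟨m', rfl⟩ := hpm
    have hm' : m' ≠ 0 := by
      rintro rfl
      simp at hm
    rw [Nat.mul_div_cancel_left m' hp.pos]
    have h := congrArg (Polynomial.map (algebraMap (LaurentSeries k) (m28d_Om k)))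
      (m28d_roots D hp hζ hξ hm')
    rw [← m28di_map_ev] at h
    rw [m28di_C, h, Polynomial.map_mul, Polynomial.map_sub, Polynomial.map_X, Polynomial.map_C,
      Polynomial.map_prod]
    congr 1
    apply Finset.prod_congr rfl
    intro b hb
    rw [Polynomial.map_sub, Polynomial.map_X, Polynomial.map_C]
    rfl
  W ξ m := algebraMap (LaurentSeries k) (m28d_Om k) (m28d_sub ξ m (m28_w k p D.g))
  W_ne := by
    intro ξ m hm h
    rw [map_eq_zero, m28d_sub_eq_zero_iff] at h
    exact m28di_w_ne_zero hpk D.g D.g_const h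
  W_pos := by
    intro ξ m hm
    refine ⟨_, rfl, Or.inr ?_⟩
    rw [m28d_order_sub ξ hm.ne']
    have := m28di_w_order_pos hp hpk D.g D.g_const
    positivity
  U := D.U
  U_monic := D.U_monic
  U_root := by
    intro ξ m hm
    rw [m28di_C, m28di_eval_ev]
    have h := congrArg (m28d_sub ξ m) D.U_root
    rw [m28d_sub_eval₂, map_zero] at h
    rw [m28d_C, h, map_zero]
  A := D.A
  A_eq := by
    intro ξ m hm
    rw [m28di_C, m28di_C, m28di_eval_ev, m28di_eval_ev, ← map_mul]
    congr 1
    have h := congrArg (m28d_sub ξ m) D.A_eq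
    rw [map_mul, m28d_sub_eval₂, m28d_sub_eval₂, m28d_sub_qExpand_J ξ hm.ne' p] at h
    exact h

/-- The tower data. -/
def m28di_data (N : ℕ) [NeZero N] (hN : ∀ p : ℕ, p.Prime → p ∣ N → (p : k) ≠ 0)
    (hP : ∀ (p : ℕ) [NeZero p], p.Prime → p ∣ N → Nonempty (M28PrimeData k p)) :
    M28TowerData k (m28d_Om k) N where
  C := m28di_C
  C_inj := m28di_C_inj
  τ := m28di_tau
  τ_algebraMap := m28di_tau_algebraMap
  τ_C := m28di_tau_C
  Pos := m28di_Pos
  Pos_zero := m28di_Pos_zero
  Pos_mul := m28di_Pos_mul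
  Pos_neg := m28di_Pos_neg
  Pos_poly := m28di_Pos_poly N (NeZero.ne N)
  prime p hp hpN :=
    haveI : NeZero p := ⟨hp.ne_zero⟩
    m28di_prime hp (hN p hp hpN) (hP p hp hpN).some

end

end Fermat.Agent.M28
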