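import Fermat.Agent.M28.DSub

/-!
# S28, package D: ROOTS

For the modular equation `Φ` of `M28PrimeData k p`, `ζ` a primitive `p`-th root of unity,
`ξ' ^ p = ξ` and `m ≠ 0`:

`Φ(X, C(ξ, p m)) = (X - C(ξ ^ p, p (p m))) * ∏_{b < p} (X - C(ζ ^ b ξ', m))`

("first kind" root, of order `- p² m`, and `p` "second kind" roots, of order `- m`), and the
`p + 1` roots are pairwise distinct.
-/

set_option autoImplicit false

namespace Fermat.Agent.M28

open HahnSeries ModularCurve Polynomial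
open Fermat.Agent.S24

noncomputable section

variable {k : Type} [Field k]

/-- `Φ(X, b)`: the polynomial over `L` obtained by specialising the inner variable to `b`;
evaluation at `a` is `Φ.eval₂ (m28_ev b) a`. -/
theorem m28d_eval_map (Φ : Polynomial (Polynomial k)) (a b : LaurentSeries k) :
    (Φ.map (m28_ev b)).eval a = Φ.eval₂ (m28_ev b) a :=
  Polynomial.eval_map _ _

section roots

variable {p : ℕ} [NeZero p] (D : M28PrimeData k p)

/-- The first-kind root: `Φ(C(ξ ^ p, p m), C(ξ, m)) = 0`. -/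
theorem m28d_root_first (ξ : kˣ) {m : ℕ} (hm : m ≠ 0) :
    D.Φ.eval₂ (m28_ev (m28d_C ξ m)) (m28d_C (ξ ^ p) (p * m)) = 0 := by
  have h := congrArg (m28d_sub ξ m) D.Φ_root1
  rw [m28d_sub_eval₂, map_zero, m28d_sub_qExpand_J ξ hm p] at h
  exact h

/-- The second-kind roots: `Φ(C(η, m), C(η ^ p, p m)) = 0`. -/
theorem m28d_root_second (η : kˣ) {m : ℕ} (hm : m ≠ 0) :
    D.Φ.eval₂ (m28_ev (m28d_C (η ^ p) (p * m))) (m28d_C η m) = 0 := by
  have h := congrArg (m28d_sub η m) D.Φ_root2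
  rw [m28d_sub_eval₂, map_zero, m28d_sub_qExpand_J η hm p] at h
  exact h

theorem m28d_root_second' {ζ : kˣ} (hζ : ζ ^ p = 1) {ξ ξ' : kˣ} (hξ : ξ' ^ p = ξ) (b : ℕ)
    {m : ℕ} (hm : m ≠ 0) :
    D.Φ.eval₂ (m28_ev (m28d_C ξ (p * m))) (m28d_C (ζ ^ b * ξ') m) = 0 := by
  have h := m28d_root_second D (ζ ^ b * ξ') hm
  have h1 : (ζ ^ b * ξ') ^ p = ξ := by
    rw [mul_pow, ← pow_mul, mul_comm b p, pow_mul, hζ, one_pow, one_mul, hξ]
  rwa [h1] at h

theorem m28d_spec_monic (b : LaurentSeries k) : (D.Φ.map (m28_ev b)).Monic :=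
  D.Φ_monic.map _

theorem m28d_spec_natDegree (b : LaurentSeries k) : (D.Φ.map (m28_ev b)).natDegree = p + 1 := by
  rw [D.Φ_monic.natDegree_map, D.Φ_natDegree]

/-- The multiset of the `p + 1` roots. -/
def m28d_rootSet (p : ℕ) (ζ ξ ξ' : kˣ) (m : ℕ) : Multiset (LaurentSeries k) :=
  m28d_C (ξ ^ p) (p * (p * m)) ::ₘ (Multiset.range p).map (fun b => m28d_C (ζ ^ b * ξ') m)

omit [NeZero p] in
theorem m28d_rootSet_card (ζ ξ ξ' : kˣ) (m : ℕ) :
    Multiset.card (m28d_rootSet p ζ ξ ξ' m) = p + 1 := by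
  simp [m28d_rootSet]

omit [NeZero p] in
theorem m28d_rootSet_nodup (hp : p.Prime) {ζ : kˣ} (hζ : IsPrimitiveRoot ζ p) (ξ ξ' : kˣ)
    {m : ℕ} (hm : m ≠ 0) : (m28d_rootSet p ζ ξ ξ' m).Nodup := by
  have hp0 : p ≠ 0 := hp.ne_zero
  rw [m28d_rootSet, Multiset.nodup_cons]
  constructor
  · intro hmem
    rw [Multiset.mem_map] at hmem
    obtain ⟨b, -, hb⟩ := hmem
    have h := (m28d_C_inj hm (Nat.mul_ne_zero hp0 (Nat.mul_ne_zero hp0 hm)) hb).1
    have h2 : 2 ≤ p := hp.two_le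
    have h3 : m * 1 < m * (p * p) := by
      apply Nat.mul_lt_mul_of_pos_left _ (Nat.pos_of_ne_zero hm)
      nlinarith
    have h4 : p * (p * m) = m * (p * p) := by ring
    omega
  · refine Multiset.Nodup.map_on ?_ (Multiset.nodup_range p)
    intro b hb b' hb' h
    rw [Multiset.mem_range] at hb hb'
    have h1 := (m28d_C_inj hm hm h).2
    have h2 : ζ ^ b = ζ ^ b' := mul_right_cancel h1
    exact hζ.pow_inj hb hb' h2

theorem m28d_rootSet_le (hp : p.Prime) {ζ : kˣ} (hζ : IsPrimitiveRoot ζ p) {ξ ξ' : kˣ}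
    (hξ : ξ' ^ p = ξ) {m : ℕ} (hm : m ≠ 0) :
    m28d_rootSet p ζ ξ ξ' m ≤ (D.Φ.map (m28_ev (m28d_C ξ (p * m)))).roots := by
  have hp0 : p ≠ 0 := hp.ne_zero
  have hne : D.Φ.map (m28_ev (m28d_C ξ (p * m))) ≠ 0 := (m28d_spec_monic D _).ne_zero
  rw [Multiset.le_iff_subset (m28d_rootSet_nodup hp hζ ξ ξ' hm)]
  intro x hx
  rw [Polynomial.mem_roots hne, Polynomial.IsRoot, m28d_eval_map]
  rw [m28d_rootSet, Multiset.mem_cons] at hx
  rcases hx with rfl | hx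
  · exact m28d_root_first D ξ (Nat.mul_ne_zero hp0 hm)
  · rw [Multiset.mem_map] at hx
    obtain ⟨b, -, rfl⟩ := hx
    exact m28d_root_second' D hζ.pow_eq_one hξ b hm

theorem m28d_roots_eq (hp : p.Prime) {ζ : kˣ} (hζ : IsPrimitiveRoot ζ p) {ξ ξ' : kˣ}
    (hξ : ξ' ^ p = ξ) {m : ℕ} (hm : m ≠ 0) :
    (D.Φ.map (m28_ev (m28d_C ξ (p * m)))).roots = m28d_rootSet p ζ ξ ξ' m := by
  symm
  refine Multiset.eq_of_le_of_card_le (m28d_rootSet_le D hp hζ hξ hm) ?_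
  rw [m28d_rootSet_card]
  calc Multiset.card (D.Φ.map (m28_ev (m28d_C ξ (p * m)))).roots
      ≤ (D.Φ.map (m28_ev (m28d_C ξ (p * m)))).natDegree := Polynomial.card_roots' _
    _ = p + 1 := m28d_spec_natDegree D _

/-- **ROOTS.** -/
theorem m28d_roots (hp : p.Prime) {ζ : kˣ} (hζ : IsPrimitiveRoot ζ p) {ξ ξ' : kˣ}
    (hξ : ξ' ^ p = ξ) {m : ℕ} (hm : m ≠ 0) :
    D.Φ.map (m28_ev (m28d_C ξ (p * m))) =
      (X - Polynomial.C (m28d_C (ξ ^ p) (p * (p * m)))) *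
        ∏ b ∈ Finset.range p, (X - Polynomial.C (m28d_C (ζ ^ b * ξ') m)) := by
  have hroots := m28d_roots_eq D hp hζ hξ hm
  have hcard : Multiset.card (D.Φ.map (m28_ev (m28d_C ξ (p * m)))).roots =
      (D.Φ.map (m28_ev (m28d_C ξ (p * m)))).natDegree := by
    rw [hroots, m28d_rootSet_card, m28d_spec_natDegree]
  have h := Polynomial.prod_multiset_X_sub_C_of_monic_of_roots_card_eq
    (m28d_spec_monic D (m28d_C ξ (p * m))) hcard
  rw [← h, hroots, m28d_rootSet, Multiset.map_cons, Multiset.prod_cons, Multiset.map_map,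
    Finset.prod_eq_multiset_prod, Finset.range_val]
  rfl

/-- Every root of `Φ(X, C(ξ, p m))` in any field extension... here in `L` itself: it is the
first-kind root or one of the second-kind roots. -/
theorem m28d_root_cases (hp : p.Prime) {ζ : kˣ} (hζ : IsPrimitiveRoot ζ p) {ξ ξ' : kˣ}
    (hξ : ξ' ^ p = ξ) {m : ℕ} (hm : m ≠ 0) {x : LaurentSeries k}
    (hx : D.Φ.eval₂ (m28_ev (m28d_C ξ (p * m))) x = 0) :
    x = m28d_C (ξ ^ p) (p * (p * m)) ∨ ∃ b < p, x = m28d_C (ζ ^ b * ξ') m := by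
  have hne : D.Φ.map (m28_ev (m28d_C ξ (p * m))) ≠ 0 := (m28d_spec_monic D _).ne_zero
  have hmem : x ∈ (D.Φ.map (m28_ev (m28d_C ξ (p * m)))).roots := by
    rw [Polynomial.mem_roots hne, Polynomial.IsRoot, m28d_eval_map]; exact hx
  rw [m28d_roots_eq D hp hζ hξ hm, m28d_rootSet, Multiset.mem_cons] at hmem
  rcases hmem with h | h
  · exact Or.inl h
  · rw [Multiset.mem_map] at h
    obtain ⟨b, hb, rfl⟩ := h
    exact Or.inr ⟨b, Multiset.mem_range.mp hb, rfl⟩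

end roots

end

end Fermat.Agent.M28
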