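import Fermat.Agent.M28.DDefs

/-!
# S28, package D: the substitution homomorphisms `Q ↦ ξ * t ^ m` and the cusp series

Basic calculus of `m28d_qx`, `m28d_sub`, `m28d_C`, `m28d_Jd`.
-/

set_option autoImplicit false

namespace Fermat.Agent.M28

open HahnSeries ModularCurve Polynomial
open Fermat.Agent.S24

noncomputable section

variable {k : Type} [Field k]

/-! ### `m28d_qx` -/

theorem m28d_qx_injective (m : ℕ) : Function.Injective (m28d_qx k m) := by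
  rcases Nat.eq_zero_or_pos m with rfl | hm
  · rw [m28d_qx_zero]; exact fun _ _ h => h
  · have : NeZero m := ⟨hm.ne'⟩
    rw [m28d_qx_eq]; exact qExpand_injective m

theorem m28d_qx_eq_zero_iff (m : ℕ) (f : LaurentSeries k) : m28d_qx k m f = 0 ↔ f = 0 :=
  map_eq_zero_iff _ (m28d_qx_injective m)

theorem m28d_qx_one (f : LaurentSeries k) : m28d_qx k 1 f = f := by
  rw [m28d_qx_eq, qExpand_one_apply]

theorem m28d_qx_coeff_mul {m : ℕ} (hm : m ≠ 0) (f : LaurentSeries k) (n : ℤ) :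
    (m28d_qx k m f).coeff ((m : ℤ) * n) = f.coeff n := by
  have : NeZero m := ⟨hm⟩
  rw [m28d_qx_eq, qExpand_coeff_mul]

theorem m28d_qx_coeff_of_not_dvd {m : ℕ} (hm : m ≠ 0) (f : LaurentSeries k) {n : ℤ}
    (hn : ¬ (m : ℤ) ∣ n) : (m28d_qx k m f).coeff n = 0 := by
  have : NeZero m := ⟨hm⟩
  rw [m28d_qx_eq, qExpand_coeff_of_not_dvd m f hn]

theorem m28d_qx_qx {a b : ℕ} (ha : a ≠ 0) (hb : b ≠ 0) (f : LaurentSeries k) :
    m28d_qx k a (m28d_qx k b f) = m28d_qx k (a * b) f := by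
  have : NeZero a := ⟨ha⟩
  have : NeZero b := ⟨hb⟩
  have : NeZero (a * b) := ⟨Nat.mul_ne_zero ha hb⟩
  rw [m28d_qx_eq, m28d_qx_eq, m28d_qx_eq, qExpand_qExpand]

theorem m28d_order_qx {m : ℕ} (hm : m ≠ 0) (f : LaurentSeries k) :
    (m28d_qx k m f).order = (m : ℤ) * f.order := by
  have : NeZero m := ⟨hm⟩
  rw [m28d_qx_eq, cf_order_qExpand]

theorem m28d_qx_single {m : ℕ} (hm : m ≠ 0) (n : ℤ) (c : k) :
    m28d_qx k m (HahnSeries.single n c) = HahnSeries.single ((m : ℤ) * n) c := by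
  have : NeZero m := ⟨hm⟩
  rw [m28d_qx_eq, qExpand_single]

theorem m28d_qx_algebraMap (m : ℕ) (c : k) :
    m28d_qx k m (algebraMap k (LaurentSeries k) c) = algebraMap k (LaurentSeries k) c := by
  rcases Nat.eq_zero_or_pos m with rfl | hm
  · rw [m28d_qx_zero]; rfl
  · rw [algebraMap_laurentSeries_eq_single, m28d_qx_single hm.ne', mul_zero]

/-- `t ↦ ε t` after `t ↦ t ^ m` is `t ↦ t ^ m` after `t ↦ ε ^ m t`. -/
theorem m28d_twist_qx (ε : kˣ) (m : ℕ) (hm : m ≠ 0) (f : LaurentSeries k) :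
    cf_twist ε (m28d_qx k m f) = m28d_qx k m (cf_twist (ε ^ m) f) := by
  ext n
  rw [cf_twist_coeff]
  by_cases hd : (m : ℤ) ∣ n
  · obtain ⟨j, rfl⟩ := hd
    rw [m28d_qx_coeff_mul hm, m28d_qx_coeff_mul hm, cf_twist_coeff, zpow_mul, zpow_natCast]
  · rw [m28d_qx_coeff_of_not_dvd hm _ hd, m28d_qx_coeff_of_not_dvd hm _ hd, mul_zero]

/-- A series in `t ^ m` is fixed by the twist by an `m`-th root of unity. -/
theorem m28d_twist_qx_of_pow_eq_one {ε : kˣ} {m : ℕ} (hm : m ≠ 0) (hε : ε ^ m = 1)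
    (f : LaurentSeries k) : cf_twist ε (m28d_qx k m f) = m28d_qx k m f := by
  rw [m28d_twist_qx ε m hm, hε, cf_twist_one]

/-- Conversely, a series fixed by the twist by a primitive `m`-th root of unity is a series in
`t ^ m`. -/
theorem m28d_exists_qx_of_twist_eq {ε : kˣ} {m : ℕ} (hm : m ≠ 0) (hε : IsPrimitiveRoot ε m)
    {f : LaurentSeries k} (hf : cf_twist ε f = f) : ∃ g : LaurentSeries k, f = m28d_qx k m g := by
  have hmZ : (0 : ℤ) < m := by exact_mod_cast Nat.pos_of_ne_zero hm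
  have hsupp : ∀ n : ℤ, f.coeff n ≠ 0 → (m : ℤ) ∣ n := by
    intro n hn
    have h1 := cf_zpow_eq_one_of_twist_eq hf hn
    exact (hε.zpow_eq_one_iff_dvd n).mp h1
  refine ⟨⟨fun n => f.coeff ((m : ℤ) * n), ?_⟩, ?_⟩
  · -- support is PWO: it is bounded below
    refine Set.IsWF.isPWO ?_
    by_cases hf0 : f = 0
    · subst hf0
      have : (Function.support fun n : ℤ => (0 : LaurentSeries k).coeff ((m : ℤ) * n)) = ∅ := by
        ext n; simp
      rw [this]; exact Set.isWF_empty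
    · refine BddBelow.isWF ?_
      refine ⟨f.order / m - 1, ?_⟩
      rintro n hn
      simp only [Function.mem_support] at hn
      have h1 : f.order ≤ (m : ℤ) * n := HahnSeries.order_le_of_coeff_ne_zero hn
      have h2 : f.order / m ≤ n := by
        have := Int.ediv_le_ediv hmZ h1
        rwa [Int.mul_ediv_cancel_left _ hmZ.ne'] at this
      omega
  · ext n
    by_cases hd : (m : ℤ) ∣ n
    · obtain ⟨j, rfl⟩ := hd
      rw [m28d_qx_coeff_mul hm]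
    · rw [m28d_qx_coeff_of_not_dvd hm _ hd]
      by_contra h
      exact hd (hsupp n h)

/-! ### `m28d_sub` -/

theorem m28d_sub_injective (ξ : kˣ) (m : ℕ) : Function.Injective (m28d_sub (k := k) ξ m) :=
  (m28d_qx_injective m).comp (cf_twist ξ).injective

theorem m28d_sub_eq_zero_iff (ξ : kˣ) (m : ℕ) (f : LaurentSeries k) :
    m28d_sub ξ m f = 0 ↔ f = 0 :=
  map_eq_zero_iff _ (m28d_sub_injective ξ m)

theorem m28d_sub_algebraMap (ξ : kˣ) (m : ℕ) (c : k) :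
    m28d_sub ξ m (algebraMap k (LaurentSeries k) c) = algebraMap k (LaurentSeries k) c := by
  rw [m28d_sub_apply, cf_twist_algebraMap, m28d_qx_algebraMap]

theorem m28d_order_sub (ξ : kˣ) {m : ℕ} (hm : m ≠ 0) (f : LaurentSeries k) :
    (m28d_sub ξ m f).order = (m : ℤ) * f.order := by
  rw [m28d_sub_apply, m28d_order_qx hm, cf_order_twist]

theorem m28d_sub_coeff_mul (ξ : kˣ) {m : ℕ} (hm : m ≠ 0) (f : LaurentSeries k) (n : ℤ) :
    (m28d_sub ξ m f).coeff ((m : ℤ) * n) = ((ξ ^ n : kˣ) : k) * f.coeff n := by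
  rw [m28d_sub_apply, m28d_qx_coeff_mul hm, cf_twist_coeff]

theorem m28d_sub_coeff_of_not_dvd (ξ : kˣ) {m : ℕ} (hm : m ≠ 0) (f : LaurentSeries k) {n : ℤ}
    (hn : ¬ (m : ℤ) ∣ n) : (m28d_sub ξ m f).coeff n = 0 := by
  rw [m28d_sub_apply, m28d_qx_coeff_of_not_dvd hm _ hn]

/-- `f(Q ^ p)` at `Q = ξ t ^ m` is `f` at `ξ ^ p t ^ (p m)`. -/
theorem m28d_sub_qx (ξ : kˣ) {m p : ℕ} (hm : m ≠ 0) (hp : p ≠ 0) (f : LaurentSeries k) :
    m28d_sub ξ m (m28d_qx k p f) = m28d_sub (ξ ^ p) (p * m) f := by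
  rw [m28d_sub_apply, m28d_sub_apply, m28d_twist_qx ξ p hp, m28d_qx_qx hm hp, mul_comm]

theorem m28d_sub_qExpand (ξ : kˣ) {m : ℕ} (hm : m ≠ 0) (p : ℕ) [NeZero p] (f : LaurentSeries k) :
    m28d_sub ξ m (qExpand k p f) = m28d_sub (ξ ^ p) (p * m) f := by
  rw [← m28d_qx_eq, m28d_sub_qx ξ hm (NeZero.ne p)]

/-- `f(ξ t ^ m)` with `t ↦ t ^ n`. -/
theorem m28d_qx_sub (ξ : kˣ) {m n : ℕ} (hm : m ≠ 0) (hn : n ≠ 0) (f : LaurentSeries k) :
    m28d_qx k n (m28d_sub ξ m f) = m28d_sub ξ (n * m) f := by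
  rw [m28d_sub_apply, m28d_sub_apply, m28d_qx_qx hn hm]

/-- `f(ξ t ^ m)` with `t ↦ ε t`. -/
theorem m28d_twist_sub (ε ξ : kˣ) {m : ℕ} (hm : m ≠ 0) (f : LaurentSeries k) :
    cf_twist ε (m28d_sub ξ m f) = m28d_sub (ξ * ε ^ m) m f := by
  rw [m28d_sub_apply, m28d_sub_apply, m28d_twist_qx ε m hm, ← cf_twist_mul, mul_comm]

theorem m28d_sub_one_eq_qx (m : ℕ) (f : LaurentSeries k) :
    m28d_sub (1 : kˣ) m f = m28d_qx k m f := by
  rw [m28d_sub_apply, cf_twist_one]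

/-- Compatibility of the substitution with evaluation of bivariate polynomials. -/
theorem m28d_hom_eval₂ (σ : LaurentSeries k →+* LaurentSeries k)
    (hσ : ∀ c : k, σ (algebraMap k (LaurentSeries k) c) = algebraMap k (LaurentSeries k) c)
    (Φ : Polynomial (Polynomial k)) (a b : LaurentSeries k) :
    σ (Φ.eval₂ (m28_ev b) a) = Φ.eval₂ (m28_ev (σ b)) (σ a) := by
  rw [Polynomial.hom_eval₂]
  congr 1
  refine Polynomial.ringHom_ext (fun c => ?_) ?_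
  · simp only [RingHom.comp_apply, m28_ev, AlgHom.toRingHom_eq_coe, RingHom.coe_coe,
      Polynomial.aeval_C, hσ]
  · simp only [RingHom.comp_apply, m28_ev, AlgHom.toRingHom_eq_coe, RingHom.coe_coe,
      Polynomial.aeval_X]

theorem m28d_sub_eval₂ (ξ : kˣ) (m : ℕ) (Φ : Polynomial (Polynomial k))
    (a b : LaurentSeries k) :
    m28d_sub ξ m (Φ.eval₂ (m28_ev b) a) =
      Φ.eval₂ (m28_ev (m28d_sub ξ m b)) (m28d_sub ξ m a) :=
  m28d_hom_eval₂ _ (m28d_sub_algebraMap ξ m) Φ a b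

theorem m28d_twist_eval₂ (ε : kˣ) (Φ : Polynomial (Polynomial k)) (a b : LaurentSeries k) :
    cf_twist ε (Φ.eval₂ (m28_ev b) a) = Φ.eval₂ (m28_ev (cf_twist ε b)) (cf_twist ε a) :=
  m28d_hom_eval₂ (cf_twist ε : LaurentSeries k ≃+* LaurentSeries k).toRingHom
    (cf_twist_algebraMap ε) Φ a b

/-! ### The cusp series `C(ξ, m)` -/

theorem m28d_order_jqModC : (jqModC k).order = -1 := by
  apply le_antisymm
  · refine HahnSeries.order_le_of_coeff_ne_zero ?_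
    rw [coeff_jqModC_neg_one]
    exact one_ne_zero
  · by_contra h
    have h1 : (jqModC k).order < -1 := lt_of_not_ge h
    exact jqModC_ne_zero_of_nontrivial k
      (HahnSeries.coeff_order_eq_zero.mp (coeff_jqModC_of_lt k h1))

theorem m28d_order_C (ξ : kˣ) {m : ℕ} (hm : m ≠ 0) : (m28d_C ξ m).order = -(m : ℤ) := by
  rw [m28d_C, m28d_order_sub ξ hm, m28d_order_jqModC]; ring

theorem m28d_C_ne_zero (ξ : kˣ) (m : ℕ) : m28d_C ξ m ≠ 0 := fun h =>
  jqModC_ne_zero_of_nontrivial k ((m28d_sub_eq_zero_iff ξ m _).mp h)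

theorem m28d_C_coeff_lead (ξ : kˣ) {m : ℕ} (hm : m ≠ 0) :
    (m28d_C ξ m).coeff (-(m : ℤ)) = ((ξ⁻¹ : kˣ) : k) := by
  have h : -(m : ℤ) = (m : ℤ) * (-1) := by ring
  rw [m28d_C, h, m28d_sub_coeff_mul ξ hm, coeff_jqModC_neg_one, mul_one, zpow_neg_one]

/-- The cusp series determine `m` and `ξ`. -/
theorem m28d_C_inj {ξ ξ' : kˣ} {m m' : ℕ} (hm : m ≠ 0) (hm' : m' ≠ 0)
    (h : m28d_C ξ m = m28d_C ξ' m') : m = m' ∧ ξ = ξ' := by
  have h1 : m = m' := by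
    have := congrArg HahnSeries.order h
    rw [m28d_order_C ξ hm, m28d_order_C ξ' hm'] at this
    omega
  subst h1
  refine ⟨rfl, ?_⟩
  have := congrArg (fun f : LaurentSeries k => f.coeff (-(m : ℤ))) h
  simp only [m28d_C_coeff_lead _ hm] at this
  exact inv_injective (Units.ext this)

theorem m28d_twist_C (ε ξ : kˣ) {m : ℕ} (hm : m ≠ 0) :
    cf_twist ε (m28d_C ξ m) = m28d_C (ξ * ε ^ m) m :=
  m28d_twist_sub ε ξ hm _

theorem m28d_qx_C (ξ : kˣ) {m n : ℕ} (hm : m ≠ 0) (hn : n ≠ 0) :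
    m28d_qx k n (m28d_C ξ m) = m28d_C ξ (n * m) :=
  m28d_qx_sub ξ hm hn _

/-- `J(Q ^ p)` at `Q = ξ t ^ m`. -/
theorem m28d_sub_qExpand_J (ξ : kˣ) {m : ℕ} (hm : m ≠ 0) (p : ℕ) [NeZero p] :
    m28d_sub ξ m (qExpand k p (jqModC k)) = m28d_C (ξ ^ p) (p * m) :=
  m28d_sub_qExpand ξ hm p _

/-! ### The series `J_d` -/

theorem m28d_Jd_eq_C (N d : ℕ) : m28d_Jd k N d = m28d_C (1 : kˣ) (N * d) := by
  rw [m28d_Jd, m28d_C, m28d_sub_one_eq_qx]

theorem m28d_Jd_eq_qx {N d : ℕ} (hN : N ≠ 0) (hd : d ≠ 0) :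
    m28d_Jd k N d = m28d_qx k N (m28d_qx k d (jqModC k)) := by
  rw [m28d_Jd, m28d_qx_qx hN hd]

theorem m28d_twist_Jd {ε : kˣ} {N : ℕ} (hN : N ≠ 0) (hε : ε ^ N = 1) {d : ℕ} (hd : d ≠ 0) :
    cf_twist ε (m28d_Jd k N d) = m28d_Jd k N d := by
  rw [m28d_Jd_eq_qx hN hd, m28d_twist_qx_of_pow_eq_one hN hε]

end

end Fermat.Agent.M28
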