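import Mathlib
import Fermat.Agent.M28.DTowerStep2
import Fermat.Agent.M28.DTowerInt
import Fermat.Agent.M28.DTowerExcl

/-!
# S28 (Igusa), PKG-D — the exclusion `J_{N' p} ∉ E_{N'}` for `p ∤ N'` (prefix `m28dt_`)
-/

set_option autoImplicit false

noncomputable section

namespace Fermat.Agent.M28

open Polynomial

section notmem

variable {k Ω : Type} [Field k] [IsAlgClosed k] [Field Ω] [Algebra k Ω] [IsAlgClosed Ω] {N : ℕ}
  (D : M28TowerData k Ω N)

/-- `J_1` is transcendental over `k`. -/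
theorem m28dt_transcendental : Transcendental k (D.C 1 N) := by
  intro halg
  obtain ⟨f, hf0, hf⟩ := halg
  apply D.Pos_poly f hf0
  rw [hf]
  exact D.Pos_zero

/-- **EXCLUDE**: for `p ∤ N'` the function `J_{N' p}` does not lie in `E_{N'}`. -/
theorem m28dt_not_mem (hNk : (N : k) ≠ 0) {N' p : ℕ} (hp : p.Prime) (hN'p : N' * p ∣ N)
    (hpN' : ¬ p ∣ N') (g : ↥(m28dt_E D N')) (hg : (g : Ω) = m28dt_J D (N' * p)) : False := by
  have hN0 : N ≠ 0 := fun h => hNk (by rw [h, Nat.cast_zero])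
  have hN0' : 0 < N := Nat.pos_of_ne_zero hN0
  have hpN : p ∣ N := (Dvd.intro_left N' rfl).trans hN'p
  have hpk : (p : k) ≠ 0 := m28dt_natCast_ne_zero_of_dvd hNk hpN
  have hN'N : N' ∣ N := (Dvd.intro p rfl).trans hN'p
  obtain ⟨e, he⟩ := hN'N
  have he' : N' * e = N := he.symm
  have hN'0 : 0 < N' := Nat.pos_of_ne_zero fun h => hN0 (by rw [he, h, zero_mul])
  have he0 : 0 < e := Nat.pos_of_ne_zero fun h => hN0 (by rw [he, h, mul_zero])
  have hpe : p ∣ e := by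
    rw [he] at hN'p
    exact (Nat.mul_dvd_mul_iff_left hN'0).mp hN'p
  obtain ⟨y, hyJ⟩ : ∃ y : ↥(m28dt_E D N'), (y : Ω) = m28dt_J D N' :=
    ⟨⟨m28dt_J D N', m28dt_J_mem_E D (dvd_refl N')⟩, rfl⟩
  have hm0 : 0 < N * N' := Nat.mul_pos hN0' hN'0
  have hpm : p ∣ N * N' := Dvd.dvd.mul_right hpN N'
  have hyC : (y : Ω) = D.C 1 (N * N') := hyJ
  have hgC : (g : Ω) = D.C (1 ^ p) (p * (N * N')) := by
    rw [hg, one_pow]
    unfold m28dt_J
    congr 1
    ring
  -- the relation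
  have hrel : m28dt_bev (D.prime p hp hpN).Φ (g : Ω) (y : Ω) = 0 := by
    rw [hg, hyJ]
    have := m28dt_J_root_first D hNk hp hpN hN'0
    rwa [mul_comm p N'] at this
  have hsimple : m28dt_bev (derivative (D.prime p hp hpN).Φ) (g : Ω) (y : Ω) ≠ 0 := by
    rw [hyC] at hrel ⊢
    exact m28dt_root_simple (D.prime p hp hpN) hp hpk D.C_inj 1 hm0 hpm hrel
  have hA := (D.prime p hp hpN).A_eq 1 (N * N') hm0
  rw [m28dt_eval_map_ev, m28dt_eval_map_ev, ← hgC, ← hyC] at hA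
  -- the element `w`
  obtain ⟨w, hw⟩ : ∃ w : ↥(m28dt_E D N'), w = m28dt_bev (D.prime p hp hpN).A g y /
      m28dt_bev (derivative (D.prime p hp hpN).Φ) g y := ⟨_, rfl⟩
  have hwΩ : (w : Ω) = (D.prime p hp hpN).W 1 (N * N') := by
    rw [hw, IntermediateField.coe_div, m28dt_coe_bev, m28dt_coe_bev, ← hA, mul_div_assoc,
      div_self hsimple, mul_one]
  have hw0 : w ≠ 0 := by
    intro h0
    have h1 : (w : Ω) = 0 := by rw [h0]; rfl
    rw [hwΩ] at h1
    exact (D.prime p hp hpN).W_ne 1 _ hm0 h1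
  have hwint : IsIntegral ↥(Algebra.adjoin k {D.C 1 N}) (w : Ω) := by
    rw [hwΩ]
    have hU := (D.prime p hp hpN).U_root 1 (N * N') hm0
    rw [m28dt_eval_map_ev] at hU
    have hyint : IsIntegral ↥(Algebra.adjoin k {D.C 1 N}) (D.C 1 (N * N')) :=
      m28dt_J_isIntegral D hNk ⟨e, he⟩
    exact m28dt_isIntegral_of_bev _ (D.prime p hp hpN).U_monic hyint hU
  obtain ⟨ε, hε⟩ := m28dt_exists_primitiveRoot (k := k) (n := e)
    (m28dt_natCast_ne_zero_of_dvd hNk ⟨N', by rw [he, mul_comm]⟩)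
  have hpos : ∀ ι : ↥(m28dt_E D N') →ₐ[↥(m28dt_K0 D)] Ω, ι w ∈ D.Pos := by
    intro ι
    obtain ⟨ξ₁, a, δ, t, haδ, hdt, ha0, ht0, -, hιy⟩ :=
      m28dt_cusp_order D hNk he' ι (dvd_refl N') y hyJ
    have haN' : a ∣ N' := ⟨δ, haδ.symm⟩
    have htN' : t ∣ N' := ⟨N', by rw [mul_comm]; exact hdt.symm⟩
    have hc : ¬ p ∣ t * a * a := by
      intro h
      rcases (Nat.Prime.dvd_mul hp).mp h with h | h
      · rcases (Nat.Prime.dvd_mul hp).mp h with h | h
        · exact hpN' (h.trans htN')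
        · exact hpN' (h.trans haN')
      · exact hpN' (h.trans haN')
    have hm₁ : 0 < e * (t * a * a) :=
      Nat.mul_pos he0 (Nat.mul_pos (Nat.mul_pos ht0 ha0) ha0)
    have hpm₁ : p ∣ e * (t * a * a) := Dvd.dvd.mul_right hpe _
    have hrelι := m28dt_embed_root D N' ι _ g y hrel
    rw [hιy] at hrelι
    have hfirst : ι g = D.C (ξ₁ ^ p) (p * (e * (t * a * a))) := by
      rcases m28dt_root_cases (D.prime p hp hpN) hp hpk ξ₁ hm₁ hpm₁ hrelι with h1 | ⟨η, -, h2⟩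
      · exact h1
      · exfalso
        have hfix := m28dt_tau_fix D hNk he' ε hε.pow_eq_one ι g
        have hmp0 : 0 < e * (t * a * a) / p :=
          Nat.div_pos (Nat.le_of_dvd hm₁ hpm₁) hp.pos
        rw [h2, D.τ_C ε η _ hmp0] at hfix
        have h3 := (D.C_inj _ _ _ _ hmp0 hmp0 hfix).2
        have h4 : ε ^ (e * (t * a * a) / p) = 1 := by
          apply mul_left_cancel (a := η)
          rw [mul_one]
          exact h3
        exact (m28dt_primitive_pow he0 hε hp hpe hc).ne_one hp.one_lt h4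
    have hsimpleι : m28dt_bev (derivative (D.prime p hp hpN).Φ) (ι g) (ι y) ≠ 0 := by
      rw [hιy]
      exact m28dt_root_simple (D.prime p hp hpN) hp hpk D.C_inj ξ₁ hm₁ hpm₁ hrelι
    have hAι := (D.prime p hp hpN).A_eq ξ₁ _ hm₁
    rw [m28dt_eval_map_ev, m28dt_eval_map_ev, ← hfirst, ← hιy] at hAι
    have hιw : ι w = (D.prime p hp hpN).W ξ₁ (e * (t * a * a)) := by
      rw [hw, map_div₀, m28dt_embed_bev, m28dt_embed_bev, ← hAι, mul_div_assoc,
        div_self hsimpleι, mul_one]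
    rw [hιw]
    exact (D.prime p hp hpN).W_pos ξ₁ _ hm₁
  haveI : Algebra.IsAlgebraic ↥(IntermediateField.adjoin k {D.C 1 N}) ↥(m28dt_E D N') :=
    m28dt_E_isAlgebraic D hNk ⟨e, he⟩
  exact m28dt_exclude (D.C 1 N) (m28dt_transcendental D) (m28dt_E D N') D.Pos D.Pos_mul
    D.Pos_neg D.Pos_poly w hw0 hwint hpos

end notmem

end Fermat.Agent.M28

end
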