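import Mathlib
import Fermat.Agent.M28.DTowerStep2

/-!
# S28 (Igusa), PKG-D — the degree step at a prime `p ∤ N'`, modulo the exclusion (prefix `m28dt_`)
-/

set_option autoImplicit false

noncomputable section

namespace Fermat.Agent.M28

open Polynomial

section step

variable {k Ω : Type} [Field k] [IsAlgClosed k] [Field Ω] [Algebra k Ω] [IsAlgClosed Ω] {N : ℕ}
  (D : M28TowerData k Ω N)

/-- a separable polynomial of degree `≥ 2` over an algebraically closed field has a root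
different from any given element. -/
theorem m28dt_exists_root_ne {Q : Polynomial Ω} (hsep : Q.Separable) (hdeg : 2 ≤ Q.natDegree)
    (G : Ω) : ∃ r, Q.IsRoot r ∧ r ≠ G := by
  classical
  have hQ0 : Q ≠ 0 := by
    rintro rfl
    simp at hdeg
  have hcard : Q.roots.toFinset.card = Q.natDegree := by
    rw [Multiset.toFinset_card_of_nodup (Polynomial.nodup_roots hsep)]
    exact ((IsAlgClosed.splits Q).natDegree_eq_card_roots).symm
  obtain ⟨r, hr, hne⟩ := Finset.exists_mem_ne (s := Q.roots.toFinset) (by omega) G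
  exact ⟨r, (Polynomial.mem_roots hQ0).mp (Multiset.mem_toFinset.mp hr), hne⟩

/-- **D1**, modulo the exclusion `G ∉ E`. -/
theorem m28dt_step1_of (hNk : (N : k) ≠ 0) (N' p e : ℕ) (hp : p.Prime) (hN'p : N' * p ∣ N)
    (hpN' : ¬ p ∣ N')
    (hnot : ∀ g : ↥(m28dt_E D N'), (g : Ω) = m28dt_J D (N' * p) → False)
    (ι0 : ↥(m28dt_E D N') →ₐ[↥(m28dt_K0 D)] Ω) (ξ : kˣ) (he : N' * e = N)
    (hι0 : ∀ x : ↥(m28dt_E D N'), (x : Ω) = m28dt_J D N' → ι0 x = D.C ξ e) :
    p + 1 ≤ (minpoly ↥(m28dt_E D N') (m28dt_J D (N' * p))).natDegree ∧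
      ∃ η : kˣ, ((minpoly ↥(m28dt_E D N') (m28dt_J D (N' * p))).map
        (ι0 : ↥(m28dt_E D N') →+* Ω)).IsRoot (D.C η (e / p)) := by
  have hN0 : N ≠ 0 := fun h => hNk (by rw [h, Nat.cast_zero])
  have hN0' : 0 < N := Nat.pos_of_ne_zero hN0
  have hpN : p ∣ N := (Dvd.intro_left N' rfl).trans hN'p
  have hpk : (p : k) ≠ 0 := m28dt_natCast_ne_zero_of_dvd hNk hpN
  have hN'0 : 0 < N' := Nat.pos_of_ne_zero fun h => hN0 (by rw [← he, h, zero_mul])
  have he0 : 0 < e := Nat.pos_of_ne_zero fun h => hN0 (by rw [← he, h, mul_zero])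
  have hpe : p ∣ e := by
    rw [← he] at hN'p
    exact (Nat.mul_dvd_mul_iff_left hN'0).mp hN'p
  have hep0 : 0 < e / p := Nat.div_pos (Nat.le_of_dvd he0 hpe) hp.pos
  obtain ⟨y, hyJ⟩ : ∃ y : ↥(m28dt_E D N'), (y : Ω) = m28dt_J D N' :=
    ⟨⟨m28dt_J D N', m28dt_J_mem_E D (dvd_refl N')⟩, rfl⟩
  have hy : ι0 y = D.C ξ e := hι0 y hyJ
  obtain ⟨hFEmonic, hFEdeg, hint, hPdvd⟩ := m28dt_step_setup D hNk hp hpN hN'0 y hyJ
  have hPmonic := minpoly.monic hint
  -- the degree, via the inclusion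
  have hdeg : p + 1 ≤ (minpoly ↥(m28dt_E D N') (m28dt_J D (N' * p))).natDegree := by
    have hm0 : 0 < N * N' := Nat.mul_pos hN0' hN'0
    have hpm : p ∣ N * N' := Dvd.dvd.mul_right hpN N'
    have hmp0 : 0 < N * N' / p := Nat.div_pos (Nat.le_of_dvd hm0 hpm) hp.pos
    have hyv : (m28dt_E D N').val y = D.C 1 (N * N') := hyJ
    have hQdeg := hPmonic.natDegree_map ((m28dt_E D N').val : ↥(m28dt_E D N') →+* Ω)
    have hQmonic := hPmonic.map ((m28dt_E D N').val : ↥(m28dt_E D N') →+* Ω)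
    have hQdvd : (minpoly ↥(m28dt_E D N') (m28dt_J D (N' * p))).map
        ((m28dt_E D N').val : ↥(m28dt_E D N') →+* Ω) ∣
        (D.prime p hp hpN).Φ.map (m28dt_ev (D.C 1 (N * N'))) := by
      have h1 := Polynomial.map_dvd ((m28dt_E D N').val : ↥(m28dt_E D N') →+* Ω) hPdvd
      rwa [m28dt_FE_map, hyv] at h1
    have hsep := (m28dt_separable (D.prime p hp hpN) hp hpk D.C_inj 1 hm0 hpm).of_dvd hQdvd
    -- `G` is a root
    have hG : ((minpoly ↥(m28dt_E D N') (m28dt_J D (N' * p))).map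
        ((m28dt_E D N').val : ↥(m28dt_E D N') →+* Ω)).IsRoot (D.C 1 (N * (N' * p))) := by
      have h1 := minpoly.aeval ↥(m28dt_E D N') (m28dt_J D (N' * p))
      rw [Polynomial.aeval_def, ← Polynomial.eval_map] at h1
      exact h1
    by_cases h2 : 2 ≤ (minpoly ↥(m28dt_E D N') (m28dt_J D (N' * p))).natDegree
    · obtain ⟨r, hr, hrG⟩ := m28dt_exists_root_ne hsep (by rw [hQdeg]; exact h2)
        (D.C 1 (N * (N' * p)))
      have hr' := m28dt_root_of_minpoly D hNk hp hpN hN'0 y hyJ (m28dt_E D N').val hr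
      rw [hyv] at hr'
      rcases m28dt_root_cases (D.prime p hp hpN) hp hpk 1 hm0 hpm hr' with h3 | ⟨η, -, h4⟩
      · exfalso
        apply hrG
        rw [h3, one_pow, show p * (N * N') = N * (N' * p) by ring]
      · rw [h4] at hr
        obtain ⟨ε, hε⟩ := m28dt_exists_primitiveRoot (k := k) (n := e)
          (m28dt_natCast_ne_zero_of_dvd hNk ⟨N', by rw [← he, mul_comm]⟩)
        have hQτ := m28dt_map_tau D hNk he ε hε.pow_eq_one (m28dt_E D N').val
          (minpoly ↥(m28dt_E D N') (m28dt_J D (N' * p)))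
        have hprim : IsPrimitiveRoot (ε ^ (N * N' / p)) p := by
          have h := m28dt_primitive_pow he0 hε hp hpe (c := N' * N') (by
            intro h1
            rcases (Nat.Prime.dvd_mul hp).mp h1 with h1 | h1 <;> exact hpN' h1)
          rwa [show e * (N' * N') = N * N' by rw [← he]; ring] at h
        have h5 := m28dt_orbit_succ_le D hQmonic.ne_zero ε hQτ η hmp0 hprim hr 1
          (Nat.mul_pos hN0' (Nat.mul_pos hN'0 hp.pos)) (by
            intro h6
            have h7 : N * N' / p ≤ N * N' := Nat.div_le_self _ _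
            have h8 : N * N' < N * (N' * p) := by
              have := hp.two_le
              nlinarith
            omega) hG
        rwa [hQdeg] at h5
    · exfalso
      have h1 : (minpoly ↥(m28dt_E D N') (m28dt_J D (N' * p))).natDegree = 1 := by
        have := minpoly.natDegree_pos hint
        omega
      obtain ⟨g, hg⟩ := minpoly.natDegree_eq_one_iff.mp h1
      exact hnot g hg
  refine ⟨hdeg, ?_⟩
  have hPFE := Polynomial.eq_of_monic_of_dvd_of_natDegree_le hPmonic hFEmonic hPdvd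
    (by rw [hFEdeg]; exact hdeg)
  obtain ⟨η, hη⟩ := m28dt_exists_root ξ hp.pos
  refine ⟨η, ?_⟩
  rw [← hPFE, m28dt_FE_map, hy, Polynomial.IsRoot.def, m28dt_eval_map_ev, ← hη]
  exact m28dt_root_second (D.prime p hp hpN) hp hpk η he0 hpe

end step

end Fermat.Agent.M28

end
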