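import Mathlib
import Fermat.Agent.M28.DTowerStep1
import Fermat.Agent.M28.DTowerNotMem

/-!
# S28 (Igusa), PKG-D — the degree step at a prime `p ∤ N'` (prefix `m28dt_`)
-/

set_option autoImplicit false

noncomputable section

namespace Fermat.Agent.M28

open Polynomial

/-- **D1**: the step at a prime `p ∤ N'`. -/
theorem m28dt_step1 {k Ω : Type} [Field k] [IsAlgClosed k] [Field Ω] [Algebra k Ω]
    [IsAlgClosed Ω] {N : ℕ} (D : M28TowerData k Ω N) (hNk : (N : k) ≠ 0) (N' p e : ℕ)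
    (hp : p.Prime) (hN'p : N' * p ∣ N) (hpN' : ¬ p ∣ N')
    (ι0 : ↥(m28dt_E D N') →ₐ[↥(m28dt_K0 D)] Ω) (ξ : kˣ) (he : N' * e = N)
    (hι0 : ∀ x : ↥(m28dt_E D N'), (x : Ω) = m28dt_J D N' → ι0 x = D.C ξ e) :
    p + 1 ≤ (minpoly ↥(m28dt_E D N') (m28dt_J D (N' * p))).natDegree ∧
      ∃ η : kˣ, ((minpoly ↥(m28dt_E D N') (m28dt_J D (N' * p))).map
        (ι0 : ↥(m28dt_E D N') →+* Ω)).IsRoot (D.C η (e / p)) :=
  m28dt_step1_of D hNk N' p e hp hN'p hpN' (m28dt_not_mem D hNk hp hN'p hpN') ι0 ξ he hι0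

end Fermat.Agent.M28

end
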