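import Mathlib
import Fermat.Agent.M28.DTowerSteps
import Fermat.Agent.M28.DTowerInd

/-!
# S28 (Igusa), PKG-D — the abstract tower theorem (prefix `m28dt_`)
-/

set_option autoImplicit false

noncomputable section

namespace Fermat.Agent.M28

/-- **The abstract tower theorem.** -/
theorem m28dt_main : m28dt_Statement := by
  intro k Ω _ _ _ _ _ N _ hNk D
  exact m28dt_main_of_steps D hNk
    (fun N' p e hp hN'p hpN' ι0 ξ he hι0 => m28dt_step1 D hNk N' p e hp hN'p hpN' ι0 ξ he hι0)
    (fun N' p e hp hN'p hpN' ι0 ξ he hι0 => m28dt_step2 D hNk N' p e hp hN'p hpN' ι0 ξ he hι0)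

end Fermat.Agent.M28

end
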