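import Fermat.Agent.M28.DCusp

/-!
# S28, package D: the modular unit `w` under substitution, and the order of polynomials in a
cusp series

* `m28d_order_w`        : `w = p ^ 12 * q ^ (p - 1) * g`, `g(0) = 1`, has order `p - 1` if `p ≠ 0` in `k`;
* `m28d_sub_w_order`    : `w(ξ t ^ m)` has order `m * (p - 1)`;
* `m28d_sub_P2`, `m28d_sub_P3` : the substituted relations (P2), (P3);
* `m28d_coeff_aeval_C`, `m28d_aeval_C_ne_zero`, `m28d_order_aeval_C_le` : a nonzero polynomial in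
  a cusp series `C(ξ, m)` is nonzero of order `≤ 0`;
* `m28d_tau ε`          : an automorphism of `Ω` extending `t ↦ ε t`.
-/

set_option autoImplicit false

namespace Fermat.Agent.M28

open HahnSeries ModularCurve Polynomial
open Fermat.Agent.S24

noncomputable section

variable {k : Type} [Field k]

/-! ### The order of `w` -/

theorem m28d_order_ofPowerSeries {g : PowerSeries k} (hg : PowerSeries.constantCoeff g ≠ 0) :
    (HahnSeries.ofPowerSeries ℤ k g).order = 0 := by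
  have hcoeff : (HahnSeries.ofPowerSeries ℤ k g).coeff 0 ≠ 0 := by
    have h := HahnSeries.ofPowerSeries_apply_coeff (Γ := ℤ) g 0
    simp only [Nat.cast_zero] at h
    rw [h, PowerSeries.coeff_zero_eq_constantCoeff]
    exact hg
  apply le_antisymm
  · exact HahnSeries.order_le_of_coeff_ne_zero hcoeff
  · by_contra h
    have h1 : (HahnSeries.ofPowerSeries ℤ k g).order < 0 := lt_of_not_ge h
    have hne : HahnSeries.ofPowerSeries ℤ k g ≠ 0 := fun h0 => hcoeff (by rw [h0]; rfl)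
    exact hne (HahnSeries.coeff_order_eq_zero.mp (ofPowerSeries_coeff_of_neg g h1))

theorem m28d_w_ne_zero {p : ℕ} (hpk : (p : k) ≠ 0) {g : PowerSeries k}
    (hg : PowerSeries.constantCoeff g = 1) : m28_w k p g ≠ 0 := by
  unfold m28_w
  refine mul_ne_zero ?_ ?_
  · simpa using pow_ne_zero 12 hpk
  · intro h0
    have := m28d_order_ofPowerSeries (k := k) (g := g) (by rw [hg]; exact one_ne_zero)
    have hcoeff : (HahnSeries.ofPowerSeries ℤ k g).coeff 0 ≠ 0 := by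
      have h := HahnSeries.ofPowerSeries_apply_coeff (Γ := ℤ) g 0
      simp only [Nat.cast_zero] at h
      rw [h, PowerSeries.coeff_zero_eq_constantCoeff, hg]
      exact one_ne_zero
    exact hcoeff (by rw [h0]; rfl)

theorem m28d_order_w {p : ℕ} (hpk : (p : k) ≠ 0) {g : PowerSeries k}
    (hg : PowerSeries.constantCoeff g = 1) : (m28_w k p g).order = (p : ℤ) - 1 := by
  have h1 : HahnSeries.single ((p : ℤ) - 1) ((p : k) ^ 12) ≠ 0 := by
    simpa using pow_ne_zero 12 hpk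
  have h2 : HahnSeries.ofPowerSeries ℤ k g ≠ 0 := by
    intro h0
    have hcoeff : (HahnSeries.ofPowerSeries ℤ k g).coeff 0 ≠ 0 := by
      have h := HahnSeries.ofPowerSeries_apply_coeff (Γ := ℤ) g 0
      simp only [Nat.cast_zero] at h
      rw [h, PowerSeries.coeff_zero_eq_constantCoeff, hg]
      exact one_ne_zero
    exact hcoeff (by rw [h0]; rfl)
  unfold m28_w
  rw [HahnSeries.order_mul h1 h2, HahnSeries.order_single (pow_ne_zero 12 hpk),
    m28d_order_ofPowerSeries (by rw [hg]; exact one_ne_zero), add_zero]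

section prime

variable {p : ℕ} [NeZero p] (D : M28PrimeData k p)

theorem m28d_sub_w_ne (hpk : (p : k) ≠ 0) (ξ : kˣ) (m : ℕ) :
    m28d_sub ξ m (m28_w k p D.g) ≠ 0 := fun h =>
  m28d_w_ne_zero hpk D.g_const ((m28d_sub_eq_zero_iff ξ m _).mp h)

theorem m28d_sub_w_order (hpk : (p : k) ≠ 0) (ξ : kˣ) {m : ℕ} (hm : m ≠ 0) :
    (m28d_sub ξ m (m28_w k p D.g)).order = (m : ℤ) * ((p : ℤ) - 1) := by
  rw [m28d_order_sub ξ hm, m28d_order_w hpk D.g_const]

theorem m28d_sub_w_order_pos (hp : p.Prime) (hpk : (p : k) ≠ 0) (ξ : kˣ) {m : ℕ} (hm : m ≠ 0) :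
    0 < (m28d_sub ξ m (m28_w k p D.g)).order := by
  rw [m28d_sub_w_order D hpk ξ hm]
  have h1 : (0 : ℤ) < m := by exact_mod_cast Nat.pos_of_ne_zero hm
  have h2 : (1 : ℤ) < p := by exact_mod_cast hp.one_lt
  exact mul_pos h1 (by omega)

/-- the substituted (P2): `U(w(ξ t ^ m), C(ξ, m)) = 0`. -/
theorem m28d_sub_P2 (ξ : kˣ) (m : ℕ) :
    D.U.eval₂ (m28_ev (m28d_C ξ m)) (m28d_sub ξ m (m28_w k p D.g)) = 0 := by
  have h := congrArg (m28d_sub ξ m) D.U_root
  rwa [m28d_sub_eval₂, map_zero] at h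

/-- the substituted (P3):
`w(ξ t ^ m) * Φ_X(C(ξ ^ p, p m), C(ξ, m)) = A(C(ξ ^ p, p m), C(ξ, m))`. -/
theorem m28d_sub_P3 (ξ : kˣ) {m : ℕ} (hm : m ≠ 0) :
    m28d_sub ξ m (m28_w k p D.g) *
        (derivative D.Φ).eval₂ (m28_ev (m28d_C ξ m)) (m28d_C (ξ ^ p) (p * m)) =
      D.A.eval₂ (m28_ev (m28d_C ξ m)) (m28d_C (ξ ^ p) (p * m)) := by
  have h := congrArg (m28d_sub ξ m) D.A_eq
  rwa [map_mul, m28d_sub_eval₂, m28d_sub_eval₂, m28d_sub_qExpand_J ξ hm p] at h

end prime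

/-! ### Polynomials in a cusp series -/

theorem m28d_C_pow (ξ : kˣ) (m i : ℕ) : m28d_C ξ m ^ i = m28d_sub ξ m (jqModC k ^ i) := by
  rw [m28d_C, map_pow]

theorem m28d_coeff_C_pow_self (ξ : kˣ) {m : ℕ} (hm : m ≠ 0) (n : ℕ) :
    (m28d_C ξ m ^ n).coeff ((m : ℤ) * (-(n : ℤ))) = ((ξ ^ (-(n : ℤ)) : kˣ) : k) := by
  rw [m28d_C_pow, m28d_sub_coeff_mul ξ hm, coeff_jqModC_pow_self, mul_one]

theorem m28d_coeff_C_pow_of_lt (ξ : kˣ) {m : ℕ} (hm : m ≠ 0) {i n : ℕ} (h : i < n) :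
    (m28d_C ξ m ^ i).coeff ((m : ℤ) * (-(n : ℤ))) = 0 := by
  rw [m28d_C_pow, m28d_sub_coeff_mul ξ hm,
    coeff_jqModC_pow_of_lt k (by omega : -(n : ℤ) < -(i : ℤ)), mul_zero]

/-- The coefficient of `t ^ (- m * deg f)` in `f(C(ξ, m))`. -/
theorem m28d_coeff_aeval_C (ξ : kˣ) {m : ℕ} (hm : m ≠ 0) (f : Polynomial k) :
    (Polynomial.aeval (m28d_C ξ m) f).coeff ((m : ℤ) * (-(f.natDegree : ℤ))) =
      f.leadingCoeff * ((ξ ^ (-(f.natDegree : ℤ)) : kˣ) : k) := by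
  rw [Polynomial.aeval_def, Polynomial.eval₂_eq_sum_range, HahnSeries.coeff_sum,
    Finset.sum_eq_single_of_mem f.natDegree (Finset.self_mem_range_succ _)]
  · rw [algebraMap_laurentSeries_eq_single, HahnSeries.coeff_single_zero_mul,
      m28d_coeff_C_pow_self ξ hm]
    rfl
  · intro i hi hne
    have hlt : i < f.natDegree := lt_of_le_of_ne (Nat.lt_succ_iff.mp (Finset.mem_range.mp hi)) hne
    rw [algebraMap_laurentSeries_eq_single, HahnSeries.coeff_single_zero_mul,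
      m28d_coeff_C_pow_of_lt ξ hm hlt, mul_zero]

theorem m28d_aeval_C_ne_zero (ξ : kˣ) {m : ℕ} (hm : m ≠ 0) {f : Polynomial k} (hf : f ≠ 0) :
    Polynomial.aeval (m28d_C ξ m) f ≠ 0 := by
  intro h
  have h1 := m28d_coeff_aeval_C ξ hm f
  rw [h] at h1
  have h2 : f.leadingCoeff * ((ξ ^ (-(f.natDegree : ℤ)) : kˣ) : k) ≠ 0 :=
    mul_ne_zero (Polynomial.leadingCoeff_ne_zero.mpr hf) (Units.ne_zero _)
  exact h2 h1.symm

/-- A nonzero polynomial in a cusp series has order `≤ 0`. -/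
theorem m28d_order_aeval_C_le (ξ : kˣ) {m : ℕ} (hm : m ≠ 0) {f : Polynomial k} (hf : f ≠ 0) :
    (Polynomial.aeval (m28d_C ξ m) f).order ≤ 0 := by
  have h2 : (Polynomial.aeval (m28d_C ξ m) f).coeff ((m : ℤ) * (-(f.natDegree : ℤ))) ≠ 0 := by
    rw [m28d_coeff_aeval_C ξ hm f]
    exact mul_ne_zero (Polynomial.leadingCoeff_ne_zero.mpr hf) (Units.ne_zero _)
  refine (HahnSeries.order_le_of_coeff_ne_zero h2).trans ?_
  have h1 : (0 : ℤ) ≤ m := Int.natCast_nonneg m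
  have h3 : (0 : ℤ) ≤ f.natDegree := Int.natCast_nonneg _
  nlinarith

/-- A cusp series is transcendental over `k`. -/
theorem m28d_transcendental_C (ξ : kˣ) {m : ℕ} (hm : m ≠ 0) :
    Transcendental k (m28d_C ξ m) := by
  intro h
  obtain ⟨f, hf, hf0⟩ := h
  exact m28d_aeval_C_ne_zero ξ hm hf hf0

/-! ### The twist on `Ω` -/

/-- An automorphism of `Ω` extending the twist `t ↦ ε t` of `L`. -/
def m28d_tau (ε : kˣ) : m28d_Om k ≃+* m28d_Om k :=
  IsAlgClosure.equivOfEquiv (m28d_Om k) (m28d_Om k) (cf_twist ε)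

theorem m28d_tau_algebraMap (ε : kˣ) (x : LaurentSeries k) :
    m28d_tau ε (algebraMap (LaurentSeries k) (m28d_Om k) x) =
      algebraMap (LaurentSeries k) (m28d_Om k) (cf_twist ε x) :=
  IsAlgClosure.equivOfEquiv_algebraMap _ _ _ x

theorem m28d_tau_algebraMap_k (ε : kˣ) (c : k) :
    m28d_tau ε (algebraMap k (m28d_Om k) c) = algebraMap k (m28d_Om k) c := by
  rw [m28d_algebraMap_Om, m28d_tau_algebraMap, cf_twist_algebraMap]

theorem m28d_tau_C (ε ξ : kˣ) {m : ℕ} (hm : m ≠ 0) :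
    m28d_tau ε (algebraMap (LaurentSeries k) (m28d_Om k) (m28d_C ξ m)) =
      algebraMap (LaurentSeries k) (m28d_Om k) (m28d_C (ξ * ε ^ m) m) := by
  rw [m28d_tau_algebraMap, m28d_twist_C ε ξ hm]

end

end Fermat.Agent.M28
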