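/-
S28, package P (helper3 + helper8): **[P]**, the prime-level package over the ring of algebraic
integers, `m28pb_primeData` (the Spec statement [P]; second, independent proof - the graded closure uses `m28p_primeData` of `PaPhi.lean`), from the modular unit
`φ = p^12 Δ(pτ)/Δ(τ)` (`PbPhi.lean`) and the assembly `m28pa_primeData_of_phi` (`PaMain.lean`).
-/
import Mathlib
import Fermat.Agent.M28.PbPhi

set_option autoImplicit false

namespace Fermat.Agent.M28

/-- **[P]** the prime-level package over the ring of algebraic integers. -/
theorem m28pb_primeData (p : ℕ) [NeZero p] (hp : p.Prime) : Nonempty (M28PrimeData m28Zbar p) :=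
  m28pa_primeData_of_phi p hp (m28pb_phi p) (m28pb_phi_inv p) (m28pb_E_phi p)
    (m28pb_E_comp_mem p hp)

end Fermat.Agent.M28
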