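/-
S28, package P (formal half, helper8): the analytic input gives the prime-level package
`M28PrimeData` over the ring of algebraic integers.

`m28pf_primeData_of` : the statement [P] of the Spec, from the analytic input
(a ring `B` of modular functions with an expansion map, the families of conjugates of
`j(pτ)` and of `p^12 Δ(pτ)/Δ(τ)`, permuted by ring endomorphisms whose invariants are
polynomials in `j`).
-/
import Mathlib
import Fermat.Agent.M28.Defs
import Fermat.Agent.M28.KMap
import Fermat.Agent.M28.PfMain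

set_option autoImplicit false

noncomputable section

namespace Fermat.Agent.M28

open ModularCurve Polynomial

theorem m28pf_ev2_eq {R : Type} [CommRing R] (y x : LaurentSeries R)
    (Φ : Polynomial (Polynomial R)) : m28pf_ev2 y x Φ = Φ.eval₂ (m28_ev y) x := by
  rw [m28pf_ev2_apply, m28k_ev_eq]

theorem m28pf_w_eq_m28_w (R : Type) [CommRing R] (p : ℕ) [NeZero p] :
    HahnSeries.C ((p : R) ^ 12) * m28pf_w R p = m28_w R p (m28pf_wNum R p) := by
  unfold m28pf_w m28_w
  rw [← mul_assoc, HahnSeries.C_apply, HahnSeries.single_mul_single, zero_add, mul_one]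

/-- **[P], formal half**: the analytic input gives the prime-level package over the ring of
algebraic integers. -/
theorem m28pf_primeData_of (p : ℕ) [NeZero p]
    {B : Type*} [CommRing B] {ι : Type*} [Fintype ι] [DecidableEq ι]
    (E : B →+* LaurentSeries ℂ) (cst : ℂ →+* B) (jB : B)
    (hcard : Fintype.card ι = p + 1)
    (hcst : ∀ z, E (cst z) = HahnSeries.C z)
    (hjB : E jB = qExpand ℂ p (jqModC ℂ))
    (X Y : ι → B)
    (hX : ∀ c, E (X c) ∈ m28pf_int m28pf_incl)
    (hY : ∀ c, E (Y c) ∈ m28pf_int m28pf_incl)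
    {G : Type*} (act : G → B →+* B) (σ : G → Equiv.Perm ι)
    (hactX : ∀ g c, act g (X c) = X (σ g c)) (hactY : ∀ g c, act g (Y c) = Y (σ g c))
    (hinv : ∀ b : B, (∀ g, act g b = b) → ∃ P : Polynomial ℂ, b = P.eval₂ cst jB)
    (c0 c1 : ι)
    (hX0 : E (X c0) = qExpand ℂ p (qExpand ℂ p (jqModC ℂ)))
    (hY0 : E (Y c0) = qExpand ℂ p (HahnSeries.C ((p : ℂ) ^ 12) * m28pf_w ℂ p))
    (hX1 : E (X c1) = jqModC ℂ) :
    Nonempty (M28PrimeData m28Zbar p) := by
  obtain ⟨Φ, U, A, hΦm, hΦd, hUm, -, -, h1, h2, h3, h4⟩ :=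
    m28pf_main p E cst jB hcard hcst hjB X Y hX hY act σ hactX hactY hinv c0 c1 hX0 hY0 hX1
  refine ⟨{
    Φ := Φ
    Φ_monic := hΦm
    Φ_natDegree := hΦd
    Φ_root1 := ?_
    Φ_root2 := ?_
    g := m28pf_wNum m28Zbar p
    g_const := m28pf_constantCoeff_wNum _ p
    U := U
    U_monic := hUm
    U_root := ?_
    A := A
    A_eq := ?_ }⟩
  · rw [← m28pf_ev2_eq]
    exact h1
  · rw [← m28pf_ev2_eq]
    exact h2
  · rw [← m28pf_ev2_eq, ← m28pf_w_eq_m28_w]
    exact h3
  · rw [← m28pf_ev2_eq, ← m28pf_ev2_eq, ← m28pf_w_eq_m28_w]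
    exact h4.symm

end Fermat.Agent.M28

end
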