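import Fermat.Agent.M28.Defs

/-!
# S28 (Igusa) — INTERFACE SPEC (sorry-stubs; NOT imported by any graded file)

Each stub is the exact statement its package must deliver (under the SAME name, in its own
file `Fermat/Agent/M28/<Pkg>*.lean`; this file is deleted from the import graph at the end).
Owners may strengthen conclusions / weaken hypotheses, but must tell the consumer.
-/

set_option autoImplicit false

noncomputable section

namespace Fermat.Agent.M28.Spec

open ModularCurve ModularCurve.IgusaScheme Polynomial IntermediateField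
open scoped TensorProduct
open AlgebraicGeometry CategoryTheory CategoryTheory.Limits

/-! ## PKG-P (analytic, characteristic 0): helper3 + helper8 -/

/-- **[P]** the prime-level package over the ring of algebraic integers. -/
theorem m28p_primeData (p : ℕ) [NeZero p] (hp : p.Prime) : Nonempty (M28PrimeData m28Zbar p) := sorry

/-! ## PKG-K (reduction mod a prime of `Zbar` over `ℓ`): helper8 -/

/-- **[K1]** base change of the prime-level package along a ring hom. -/
def m28k_map {R S : Type} [CommRing R] [CommRing S] (f : R →+* S) (p : ℕ) [NeZero p]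
    (D : M28PrimeData R p) : M28PrimeData S p := sorry

/-- **[K2]** an algebraically closed field of characteristic `ℓ` receiving `Zbar`. -/
theorem m28k_exists_field (ℓ : ℕ) [Fact ℓ.Prime] :
    ∃ (k : Type) (_ : Field k) (_ : IsAlgClosed k) (_ : CharP k ℓ), Nonempty (m28Zbar →+* k) := sorry

/-! ## PKG-D (tower in characteristic `ℓ`): helper9 + helper1 -/

/-- **[D]** the tower theorem over an algebraically closed field of characteristic `ℓ ∤ N`. -/
theorem m28d_tower (k : Type) [Field k] [IsAlgClosed k] (ℓ : ℕ) [Fact ℓ.Prime] [CharP k ℓ]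
    (N : ℕ) [NeZero N] (hℓN : ¬ ℓ ∣ N)
    (hP : ∀ (p : ℕ) [NeZero p], p.Prime → p ∣ N → Nonempty (M28PrimeData k p)) :
    ∃ v : Fin (dedekindPsi N) → LaurentSeries k,
      (∀ i, v i ∈ Algebra.adjoin k (divisorExpansionsC k N)) ∧
      LinearIndependent ↥(IntermediateField.adjoin k {jqModC k}) v := sorry

/-- **[D-desc]** descent of the degree bound to the prime field. -/
theorem m28d_descent (k : Type) [Field k] (ℓ : ℕ) [Fact ℓ.Prime] [CharP k ℓ]
    (N : ℕ) [NeZero N]
    (h : ∃ v : Fin (dedekindPsi N) → LaurentSeries k,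
      (∀ i, v i ∈ Algebra.adjoin k (divisorExpansionsC k N)) ∧
      LinearIndependent ↥(IntermediateField.adjoin k {jqModC k}) v) :
    ∃ v : Fin (dedekindPsi N) → LaurentSeries (ZMod ℓ),
      (∀ i, v i ∈ Algebra.adjoin (ZMod ℓ) (divisorExpansionsC (ZMod ℓ) N)) ∧
      LinearIndependent ↥(IntermediateField.adjoin (ZMod ℓ) {jqModC (ZMod ℓ)}) v := sorry

/-! ## PKG-F1 (degree bound over `ℚ`): lead -/

theorem m28f_finrank_le (N : ℕ) [NeZero N] :
    FiniteDimensional ↥(IntermediateField.adjoin ℚ {jFull N}) ↥(modularFunctionFieldFull N) ∧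
    Module.finrank ↥(IntermediateField.adjoin ℚ {jFull N}) ↥(modularFunctionFieldFull N)
      ≤ dedekindPsi N := sorry

/-! ## PKG-BG (abstract commutative algebra): helper4 -/

/-- **[BG]** from a reduction map `ρ` on a subalgebra `R` integral over `Zl[j]` and a family
`b` of `n ≥ [F : ℚ(j)]` elements of `R` whose reductions are independent over `𝔽_ℓ(j̄)`:
each chart algebra has a ring hom to `𝔽_ℓ((q))` with kernel `(ℓ)`. -/
theorem m28bg_theta (N : ℕ) [NeZero N] (ℓ : ℕ) [Fact ℓ.Prime]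
    (htr : Transcendental ℚ (jFull N))
    (htrl : Transcendental (ZMod ℓ) (jqModC (ZMod ℓ)))
    [FiniteDimensional ↥(IntermediateField.adjoin ℚ {jFull N}) ↥(modularFunctionFieldFull N)]
    (n : ℕ)
    (hn : Module.finrank ↥(IntermediateField.adjoin ℚ {jFull N}) ↥(modularFunctionFieldFull N) ≤ n)
    (R : Subalgebra ↥(GaloisRep.ratLocalizedAt ℓ) ↥(modularFunctionFieldFull N))
    (hj : jFull N ∈ R)
    (hint : ∀ r ∈ R, IsIntegral ↥(Algebra.adjoin ↥(GaloisRep.ratLocalizedAt ℓ) ({jFull N} : Set ↥(modularFunctionFieldFull N))) r)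
    (ρ : ↥R →+* LaurentSeries (ZMod ℓ))
    (hρj : ρ ⟨jFull N, hj⟩ = jqModC (ZMod ℓ))
    (b : Fin n → ↥R)
    (hb : LinearIndependent ↥(IntermediateField.adjoin (ZMod ℓ) {jqModC (ZMod ℓ)})
      (fun i => ρ (b i)))
    (S : Set ↥(modularFunctionFieldFull N))
    (hS : S = {jFull N} ∨ S = {(jFull N)⁻¹} ∨ S = {jFull N, (jFull N)⁻¹}) :
    ∃ θ : ↥(chartAlg N ℓ S) →+* LaurentSeries (ZMod ℓ),
      RingHom.ker θ = Ideal.span {((ℓ : ℕ) : ↥(chartAlg N ℓ S))} := sorry

/-! ## PKG-BM (modular instantiation of BG): lead -/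

theorem m28b_theta (N : ℕ) [NeZero N] (ℓ : ℕ) [Fact ℓ.Prime] (hℓN : ¬ ℓ ∣ N)
    (S : Set ↥(modularFunctionFieldFull N))
    (hS : S = {jFull N} ∨ S = {(jFull N)⁻¹} ∨ S = {jFull N, (jFull N)⁻¹}) :
    ∃ θ : ↥(chartAlg N ℓ S) →+* LaurentSeries (ZMod ℓ),
      RingHom.ker θ = Ideal.span {((ℓ : ℕ) : ↥(chartAlg N ℓ S))} := sorry

/-! ## PKG-T (tensor lemma): helper6 -/

theorem m28t_isDomain (ℓ : ℕ) [Fact ℓ.Prime] {B : Type} [CommRing B] [Algebra ↥(GaloisRep.ratLocalizedAt ℓ) B]
    (θ : B →+* LaurentSeries (ZMod ℓ)) (hker : RingHom.ker θ = Ideal.span {((ℓ : ℕ) : B)})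
    (K : Type) [Field K] [CharP K ℓ] [Algebra ↥(GaloisRep.ratLocalizedAt ℓ) K] :
    IsDomain (B ⊗[↥(GaloisRep.ratLocalizedAt ℓ)] K) := sorry

/-! ## PKG-A (scheme glue): helper5 -/

theorem m28a_isIntegral (N : ℕ) [NeZero N] (ℓ : ℕ) [Fact ℓ.Prime]
    (K : Type) [Field K] [Algebra ↥(GaloisRep.ratLocalizedAt ℓ) K]
    (hfin : IsDomain (↥(chartAlgFin N ℓ) ⊗[↥(GaloisRep.ratLocalizedAt ℓ)] K))
    (hinf : IsDomain (↥(chartAlgInf N ℓ) ⊗[↥(GaloisRep.ratLocalizedAt ℓ)] K))
    (hmid : IsDomain (↥(chartAlgMid N ℓ) ⊗[↥(GaloisRep.ratLocalizedAt ℓ)] K)) :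
    IsIntegral ↑(pullback (igusaTo N ℓ)
      (Spec.map (CommRingCat.ofHom (algebraMap ↥(GaloisRep.ratLocalizedAt ℓ) K)))) := sorry

end Fermat.Agent.M28.Spec

end
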