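import Mathlib
import Fermat.Prelude.Def_GaloisRep_Flat

/-!
# M28 (S28), package [T]: the tensor lemma

If `θ : B →+* 𝔽_ℓ((q))` has kernel `(ℓ)` then `B ⊗[ℤ_(ℓ)] K` is a domain for every field `K` of
characteristic `ℓ` (it embeds into `K((q))`).
-/

set_option autoImplicit false
set_option linter.style.haveILetI false
set_option linter.unusedSectionVars false

namespace Fermat.Agent.M28

open scoped TensorProduct

universe u

section Map

variable {R S : Type*} [CommRing R] [CommRing S]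

/-- coefficientwise map of Laurent series along a ring homomorphism -/
noncomputable def m28t_map (f : R →+* S) : LaurentSeries R →+* LaurentSeries S :=
  IsLocalization.map (M := Submonoid.powers (PowerSeries.X : PowerSeries R))
    (T := Submonoid.powers (PowerSeries.X : PowerSeries S)) (LaurentSeries S)
    (PowerSeries.map f) (by
      rintro _ ⟨n, rfl⟩
      exact ⟨n, by simp⟩)

theorem m28t_map_ofPowerSeries (f : R →+* S) (g : PowerSeries R) :
    m28t_map f (HahnSeries.ofPowerSeries ℤ R g) = HahnSeries.ofPowerSeries ℤ S (g.map f) :=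
  IsLocalization.map_eq (M := Submonoid.powers (PowerSeries.X : PowerSeries R))
    (T := Submonoid.powers (PowerSeries.X : PowerSeries S)) (Q := LaurentSeries S) _ g

theorem m28t_coeff_ofPowerSeries_map (f : R →+* S) (g : PowerSeries R) (m : ℤ) :
    (HahnSeries.ofPowerSeries ℤ S (g.map f)).coeff m
      = f ((HahnSeries.ofPowerSeries ℤ R g).coeff m) := by
  have h1 := PowerSeries.coeff_coe (f := g.map f) m
  have h2 := PowerSeries.coeff_coe (f := g) m
  change (HahnSeries.ofPowerSeries ℤ S (g.map f)).coeff m = _ at h1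
  change (HahnSeries.ofPowerSeries ℤ R g).coeff m = _ at h2
  rw [h1, h2]
  split_ifs
  · simp
  · simp

theorem m28t_map_coeff (f : R →+* S) (x : LaurentSeries R) (n : ℤ) :
    (m28t_map f x).coeff n = f (x.coeff n) := by
  obtain ⟨⟨g, s⟩, hgs⟩ := IsLocalization.surj (Submonoid.powers (PowerSeries.X : PowerSeries R)) x
  obtain ⟨k, hk⟩ := s.2
  have hs : algebraMap (PowerSeries R) (LaurentSeries R) (s : PowerSeries R)
      = HahnSeries.single (k : ℤ) (1 : R) := by
    rw [← hk]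
    change HahnSeries.ofPowerSeries ℤ R (PowerSeries.X ^ k) = _
    rw [HahnSeries.ofPowerSeries_X_pow]
  have h1 : x * HahnSeries.single (k : ℤ) (1 : R) = HahnSeries.ofPowerSeries ℤ R g := by
    rw [← hs]; exact hgs
  have h2 : m28t_map f x * HahnSeries.single (k : ℤ) (1 : S)
      = HahnSeries.ofPowerSeries ℤ S (g.map f) := by
    rw [← m28t_map_ofPowerSeries, ← h1, map_mul]
    congr 1
    have : HahnSeries.single (k : ℤ) (1 : R) = HahnSeries.ofPowerSeries ℤ R (PowerSeries.X ^ k) := by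
      rw [HahnSeries.ofPowerSeries_X_pow]
    rw [this, m28t_map_ofPowerSeries, map_pow, PowerSeries.map_X, HahnSeries.ofPowerSeries_X_pow]
  have h3 : (m28t_map f x).coeff n = (HahnSeries.ofPowerSeries ℤ S (g.map f)).coeff (n + k) := by
    rw [← h2, HahnSeries.coeff_mul_single_add, mul_one]
  have h4 : x.coeff n = (HahnSeries.ofPowerSeries ℤ R g).coeff (n + k) := by
    rw [← h1, HahnSeries.coeff_mul_single_add, mul_one]
  rw [h3, h4, m28t_coeff_ofPowerSeries_map]

end Map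

/-- ring homomorphisms out of `ℤ_(ℓ)` are unique -/
theorem m28t_ringHom_ext {ℓ : ℕ} {R : Type*} [Ring R]
    (f g : ↥(GaloisRep.ratLocalizedAt ℓ) →+* R) : f = g := by
  ext x
  -- x = num / den with den a unit
  have hden : ((x : ℚ).den : ℚ) ≠ 0 := by exact_mod_cast (x : ℚ).den_nz
  have hd : (((x : ℚ).den : ℕ) : ℚ) ∈ GaloisRep.ratLocalizedAt ℓ := by
    change ((((x : ℚ).den : ℕ) : ℚ)).den.Coprime ℓ
    simp
  have hdi : ((((x : ℚ).den : ℕ) : ℚ))⁻¹ ∈ GaloisRep.ratLocalizedAt ℓ := by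
    change ((((x : ℚ).den : ℕ) : ℚ)⁻¹).den.Coprime ℓ
    have h1 : ((((x : ℚ).den : ℕ) : ℚ)⁻¹).den = (x : ℚ).den := by
      have := Rat.inv_natCast_den (x : ℚ).den
      rw [this, if_neg (x : ℚ).den_nz]
    rw [h1]
    exact x.2
  set d : ↥(GaloisRep.ratLocalizedAt ℓ) := ⟨_, hd⟩ with hdef
  set e : ↥(GaloisRep.ratLocalizedAt ℓ) := ⟨_, hdi⟩ with hedef
  have hde : d * e = 1 := by
    apply Subtype.ext
    change (((x : ℚ).den : ℕ) : ℚ) * ((((x : ℚ).den : ℕ) : ℚ))⁻¹ = 1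
    exact mul_inv_cancel₀ hden
  have hdx : d * x = (((x : ℚ).num : ℤ) : ↥(GaloisRep.ratLocalizedAt ℓ)) := by
    apply Subtype.ext
    change (((x : ℚ).den : ℕ) : ℚ) * (x : ℚ) = _
    push_cast
    rw [mul_comm]
    exact Rat.mul_den_eq_num (x : ℚ)
  have hdnat : d = (((x : ℚ).den : ℕ) : ↥(GaloisRep.ratLocalizedAt ℓ)) := by
    apply Subtype.ext
    push_cast
    rfl
  have hfd : f d = g d := by rw [hdnat, map_natCast, map_natCast]
  have hfx : f d * f x = g d * g x := by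
    rw [← map_mul, ← map_mul, hdx, map_intCast, map_intCast]
  have hfe : f e * f d = 1 := by rw [← map_mul, mul_comm, hde, map_one]
  calc f x = f e * f d * f x := by rw [hfe, one_mul]
    _ = f e * (g d * g x) := by rw [mul_assoc, hfx]
    _ = f e * f d * g x := by rw [← hfd, mul_assoc]
    _ = g x := by rw [hfe, one_mul]


section Tensor

variable {ℓ : ℕ} [Fact ℓ.Prime] {B : Type*} [CommRing B] [Algebra ↥(GaloisRep.ratLocalizedAt ℓ) B]
  {K : Type*} [Field K] [CharP K ℓ] [Algebra ↥(GaloisRep.ratLocalizedAt ℓ) K]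

/-- the coefficient map `𝔽_ℓ((q)) → K((q))` -/
noncomputable def m28t_base (ℓ : ℕ) [Fact ℓ.Prime] (K : Type*) [Field K] [CharP K ℓ] :
    LaurentSeries (ZMod ℓ) →+* LaurentSeries K :=
  m28t_map (ZMod.castHom (dvd_refl ℓ) K)

theorem m28t_base_coeff (x : LaurentSeries (ZMod ℓ)) (n : ℤ) :
    (m28t_base ℓ K x).coeff n = ZMod.castHom (dvd_refl ℓ) K (x.coeff n) :=
  m28t_map_coeff _ x n

/-- compatibility of the two structure maps into `K((q))` -/
theorem m28t_compat (θ : B →+* LaurentSeries (ZMod ℓ)) (r : ↥(GaloisRep.ratLocalizedAt ℓ)) :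
    m28t_base ℓ K (θ (algebraMap ↥(GaloisRep.ratLocalizedAt ℓ) B r))
      = (HahnSeries.C (algebraMap ↥(GaloisRep.ratLocalizedAt ℓ) K r) : LaurentSeries K) := by
  have := m28t_ringHom_ext
    (((m28t_base ℓ K).comp θ).comp (algebraMap ↥(GaloisRep.ratLocalizedAt ℓ) B))
    ((HahnSeries.C : K →+* LaurentSeries K).comp (algebraMap ↥(GaloisRep.ratLocalizedAt ℓ) K))
  exact congrArg (fun h => h r) this

/-- the biadditive map `(b, k) ↦ θ(b) · k` -/
noncomputable def m28t_bi (θ : B →+* LaurentSeries (ZMod ℓ)) : B →+ K →+ LaurentSeries K where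
  toFun b := (AddMonoidHom.mulLeft (m28t_base ℓ K (θ b))).comp
    (HahnSeries.C : K →+* LaurentSeries K).toAddMonoidHom
  map_zero' := by
    ext k
    simp
  map_add' b b' := by
    ext k
    simp [add_mul]

theorem m28t_bi_apply (θ : B →+* LaurentSeries (ZMod ℓ)) (b : B) (k : K) :
    m28t_bi θ b k = m28t_base ℓ K (θ b) * HahnSeries.C k := rfl

/-- the comparison map `B ⊗ K → K((q))`, as an additive map -/
noncomputable def m28t_PhiAdd (θ : B →+* LaurentSeries (ZMod ℓ)) :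
    B ⊗[↥(GaloisRep.ratLocalizedAt ℓ)] K →+ LaurentSeries K :=
  TensorProduct.liftAddHom (m28t_bi θ)
    (fun r b k => by
      rw [m28t_bi_apply, m28t_bi_apply, Algebra.smul_def, Algebra.smul_def, map_mul, map_mul,
        map_mul, m28t_compat]
      ring)

theorem m28t_PhiAdd_tmul (θ : B →+* LaurentSeries (ZMod ℓ)) (b : B) (k : K) :
    m28t_PhiAdd θ (b ⊗ₜ[↥(GaloisRep.ratLocalizedAt ℓ)] k)
      = m28t_base ℓ K (θ b) * HahnSeries.C k := by
  unfold m28t_PhiAdd
  rw [TensorProduct.liftAddHom_tmul]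
  rfl

theorem m28t_PhiAdd_mul (θ : B →+* LaurentSeries (ZMod ℓ))
    (x y : B ⊗[↥(GaloisRep.ratLocalizedAt ℓ)] K) :
    m28t_PhiAdd θ (x * y) = m28t_PhiAdd θ x * m28t_PhiAdd θ y := by
  induction x using TensorProduct.induction_on with
  | zero => simp
  | tmul b k =>
    induction y using TensorProduct.induction_on with
    | zero => simp
    | tmul b' k' =>
      rw [Algebra.TensorProduct.tmul_mul_tmul, m28t_PhiAdd_tmul, m28t_PhiAdd_tmul,
        m28t_PhiAdd_tmul, map_mul, map_mul, map_mul]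
      ring
    | add y₁ y₂ h₁ h₂ => rw [mul_add, map_add, h₁, h₂, map_add, mul_add]
  | add x₁ x₂ h₁ h₂ => rw [add_mul, map_add, h₁, h₂, map_add, add_mul]

/-- the comparison map `B ⊗ K → K((q))` -/
noncomputable def m28t_Phi (θ : B →+* LaurentSeries (ZMod ℓ)) :
    B ⊗[↥(GaloisRep.ratLocalizedAt ℓ)] K →+* LaurentSeries K :=
  { m28t_PhiAdd θ with
    map_one' := by
      change m28t_PhiAdd θ (1 : B ⊗[↥(GaloisRep.ratLocalizedAt ℓ)] K) = 1
      rw [Algebra.TensorProduct.one_def, m28t_PhiAdd_tmul, map_one, map_one, map_one, mul_one]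
    map_mul' := fun x y => m28t_PhiAdd_mul θ x y }

theorem m28t_Phi_tmul (θ : B →+* LaurentSeries (ZMod ℓ)) (b : B) (k : K) :
    m28t_Phi θ (b ⊗ₜ[↥(GaloisRep.ratLocalizedAt ℓ)] k)
      = m28t_base ℓ K (θ b) * HahnSeries.C k :=
  m28t_PhiAdd_tmul θ b k

theorem m28t_Phi_tmul_coeff (θ : B →+* LaurentSeries (ZMod ℓ)) (b : B) (k : K) (n : ℤ) :
    (m28t_Phi θ (b ⊗ₜ[↥(GaloisRep.ratLocalizedAt ℓ)] k)).coeff n
      = (ZMod.castHom (dvd_refl ℓ) K ((θ b).coeff n)) * k := by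
  rw [m28t_Phi_tmul, mul_comm, HahnSeries.C_mul_eq_smul, HahnSeries.coeff_smul, m28t_base_coeff,
    smul_eq_mul, mul_comm]


/-- moving a scalar of the prime field across the tensor product -/
theorem m28t_tmul_smul (b : B) (a : ZMod ℓ) (e : K) :
    b ⊗ₜ[↥(GaloisRep.ratLocalizedAt ℓ)] ((ZMod.castHom (dvd_refl ℓ) K a) * e)
      = (((a.val : ℕ) : B) * b) ⊗ₜ[↥(GaloisRep.ratLocalizedAt ℓ)] e := by
  have h1 : (ZMod.castHom (dvd_refl ℓ) K a) * e = (a.val : ℕ) • e := by
    rw [nsmul_eq_mul, ZMod.natCast_val]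
    rfl
  have h2 : ((a.val : ℕ) : B) * b = (a.val : ℕ) • b := by rw [nsmul_eq_mul]
  rw [h1, h2, TensorProduct.smul_tmul]

/-- a multiple of `ℓ` dies in the tensor product with `K` -/
theorem m28t_tmul_eq_zero (y : B) (e : K) :
    (((ℓ : ℕ) : B) * y) ⊗ₜ[↥(GaloisRep.ratLocalizedAt ℓ)] e = 0 := by
  have h2 : ((ℓ : ℕ) : B) * y = (ℓ : ℕ) • y := by rw [nsmul_eq_mul]
  rw [h2, TensorProduct.smul_tmul, nsmul_eq_mul, CharP.cast_eq_zero K ℓ, zero_mul,
    TensorProduct.tmul_zero]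


/-- every tensor is a finite sum `∑ cᵢ ⊗ eᵢ` over a spanning family `e` of `K / 𝔽_ℓ` -/
theorem m28t_exists_repr {ι : Type*} (bas : ι → K)
    (hspan : ∀ k : K, ∃ a : ι →₀ ZMod ℓ,
      k = a.sum (fun i a => (ZMod.castHom (dvd_refl ℓ) K a) * bas i))
    (x : B ⊗[↥(GaloisRep.ratLocalizedAt ℓ)] K) :
    ∃ c : ι →₀ B, x = c.sum (fun i b => b ⊗ₜ[↥(GaloisRep.ratLocalizedAt ℓ)] bas i) := by
  classical
  induction x using TensorProduct.induction_on with
  | zero => exact ⟨0, by simp⟩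
  | tmul b k =>
    obtain ⟨a, ha⟩ := hspan k
    refine ⟨a.mapRange (fun a : ZMod ℓ => ((a.val : ℕ) : B) * b) (by simp), ?_⟩
    rw [Finsupp.sum_mapRange_index (by intro i; exact TensorProduct.zero_tmul _ _), ha,
      Finsupp.sum, TensorProduct.tmul_sum, Finsupp.sum]
    refine Finset.sum_congr rfl (fun i _ => ?_)
    exact m28t_tmul_smul b (a i) (bas i)
  | add x₁ x₂ h₁ h₂ =>
    obtain ⟨c₁, hc₁⟩ := h₁
    obtain ⟨c₂, hc₂⟩ := h₂
    refine ⟨c₁ + c₂, ?_⟩
    rw [Finsupp.sum_add_index' (by intro i; exact TensorProduct.zero_tmul _ _)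
      (by intro i b₁ b₂; exact TensorProduct.add_tmul _ _ _), ← hc₁, ← hc₂]

theorem m28t_Phi_injective {ι : Type*} (bas : ι → K)
    (hspan : ∀ k : K, ∃ a : ι →₀ ZMod ℓ,
      k = a.sum (fun i a => (ZMod.castHom (dvd_refl ℓ) K a) * bas i))
    (hind : ∀ (s : Finset ι) (g : ι → ZMod ℓ),
      ∑ i ∈ s, (ZMod.castHom (dvd_refl ℓ) K (g i)) * bas i = 0 → ∀ i ∈ s, g i = 0)
    (θ : B →+* LaurentSeries (ZMod ℓ))
    (hθ : ∀ x, θ x = 0 → ∃ y, x = ((ℓ : ℕ) : B) * y) :
    Function.Injective (m28t_Phi (K := K) θ) := by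
  classical
  rw [injective_iff_map_eq_zero]
  intro x hx
  obtain ⟨c, rfl⟩ := m28t_exists_repr bas hspan x
  rw [Finsupp.sum] at hx ⊢
  rw [map_sum] at hx
  have hcoef : ∀ n : ℤ, ∑ i ∈ c.support,
      (ZMod.castHom (dvd_refl ℓ) K ((θ (c i)).coeff n)) * bas i = 0 := by
    intro n
    have := congrArg (fun s : LaurentSeries K => s.coeff n) hx
    simp only [HahnSeries.coeff_zero] at this
    rw [← this]
    rw [← HahnSeries.coeff.addMonoidHom_apply, map_sum]
    refine Finset.sum_congr rfl (fun i _ => ?_)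
    rw [HahnSeries.coeff.addMonoidHom_apply, m28t_Phi_tmul_coeff]
  refine Finset.sum_eq_zero (fun i hi => ?_)
  have hzero : θ (c i) = 0 := by
    ext n
    rw [HahnSeries.coeff_zero]
    exact hind c.support (fun i => (θ (c i)).coeff n) (hcoef n) i hi
  obtain ⟨y, hy⟩ := hθ _ hzero
  rw [hy]
  exact m28t_tmul_eq_zero y (bas i)


/-- a basis of `K` over the prime field, in elementary terms -/
theorem m28t_exists_basis (ℓ : ℕ) [Fact ℓ.Prime] (K : Type u) [Field K] [CharP K ℓ] :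
    ∃ (ι : Type u) (bas : ι → K),
      (∀ k : K, ∃ a : ι →₀ ZMod ℓ,
        k = a.sum (fun i a => (ZMod.castHom (dvd_refl ℓ) K a) * bas i)) ∧
      (∀ (s : Finset ι) (g : ι → ZMod ℓ),
        ∑ i ∈ s, (ZMod.castHom (dvd_refl ℓ) K (g i)) * bas i = 0 → ∀ i ∈ s, g i = 0) := by
  letI : Algebra (ZMod ℓ) K := (ZMod.castHom (dvd_refl ℓ) K).toAlgebra
  have hsmul : ∀ (a : ZMod ℓ) (k : K), a • k = (ZMod.castHom (dvd_refl ℓ) K a) * k :=
    fun a k => Algebra.smul_def a k
  let bs := Module.Basis.ofVectorSpace (ZMod ℓ) K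
  refine ⟨_, ⇑bs, ?_, ?_⟩
  · intro k
    refine ⟨bs.repr k, ?_⟩
    have h := bs.linearCombination_repr k
    rw [Finsupp.linearCombination_apply] at h
    simp only [hsmul] at h
    exact h.symm
  · intro s g hg
    have hli := bs.linearIndependent
    rw [linearIndependent_iff'] at hli
    refine hli s g ?_
    simp only [hsmul]
    exact hg

/-- **[T]** the tensor lemma: if `B → 𝔽_ℓ((q))` has kernel `(ℓ)`, then `B ⊗ K` is a domain for
every field `K` of characteristic `ℓ`. -/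
theorem m28t_isDomain_of_forall (ℓ : ℕ) [Fact ℓ.Prime] {B : Type*} [CommRing B]
    [Algebra ↥(GaloisRep.ratLocalizedAt ℓ) B]
    (θ : B →+* LaurentSeries (ZMod ℓ)) (hθ : ∀ x, θ x = 0 → ∃ y, x = ((ℓ : ℕ) : B) * y)
    (K : Type*) [Field K] [CharP K ℓ] [Algebra ↥(GaloisRep.ratLocalizedAt ℓ) K] :
    IsDomain (B ⊗[↥(GaloisRep.ratLocalizedAt ℓ)] K) := by
  obtain ⟨ι, bas, hspan, hind⟩ := m28t_exists_basis ℓ K
  exact Function.Injective.isDomain (m28t_Phi (K := K) θ)
    (m28t_Phi_injective bas hspan hind θ hθ)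

/-- **[T]**, in the shape of the interface. -/
theorem m28t_isDomain (ℓ : ℕ) [Fact ℓ.Prime] {B : Type} [CommRing B]
    [Algebra ↥(GaloisRep.ratLocalizedAt ℓ) B]
    (θ : B →+* LaurentSeries (ZMod ℓ)) (hker : RingHom.ker θ = Ideal.span {((ℓ : ℕ) : B)})
    (K : Type) [Field K] [CharP K ℓ] [Algebra ↥(GaloisRep.ratLocalizedAt ℓ) K] :
    IsDomain (B ⊗[↥(GaloisRep.ratLocalizedAt ℓ)] K) := by
  refine m28t_isDomain_of_forall ℓ θ (fun x hx => ?_) K
  have hx' : x ∈ RingHom.ker θ := hx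
  rw [hker, Ideal.mem_span_singleton'] at hx'
  obtain ⟨y, hy⟩ := hx'
  exact ⟨y, by rw [← hy, mul_comm]⟩

end Tensor

end Fermat.Agent.M28
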